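import Fermat.Agent.Good.LevelWP

/-!
Area EIS, parcel F: the addition theorem for the Weierstrass `℘` function and the group
homomorphism `ℂ → E(ℂ)` attached to a lattice with the invariants of `E`.
-/

set_option autoImplicit false

noncomputable section

open Filter Complex PeriodPair
open scoped Topology Real

namespace FLTAgent.EIS

open Good (weierstrassP_eq_iff deriv_derivWeierstrassP countable_lattice
  isPreconnected_compl_countable compl_mem_punctured)

section Addition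

variable (L : PeriodPair)

/-- the slope of the chord through `P(z+w)` and `-P(z)` in `(℘, ℘')` coordinates -/
def chord (z w : ℂ) : ℂ := (℘'[L] (z + w) + ℘'[L] z) / (℘[L] (z + w) - ℘[L] z)

/-- the first coordinate of the third intersection -/
def chordX (z w : ℂ) : ℂ := chord L z w ^ 2 / 4 - ℘[L] (z + w) - ℘[L] z

theorem hasDerivAt_wP {z : ℂ} (hz : z ∉ L.lattice) : HasDerivAt ℘[L] (℘'[L] z) z := by
  rw [← L.deriv_weierstrassP]
  exact (L.analyticOnNhd_weierstrassP z hz).differentiableAt.hasDerivAt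

theorem hasDerivAt_wP' {z : ℂ} (hz : z ∉ L.lattice) :
    HasDerivAt ℘'[L] (6 * ℘[L] z ^ 2 - L.g₂ / 2) z := by
  rw [← deriv_derivWeierstrassP L hz]
  exact (L.analyticOnNhd_derivWeierstrassP z hz).differentiableAt.hasDerivAt

theorem wP_ne_of {z w : ℂ} (hz : z ∉ L.lattice) (hw : w ∉ L.lattice)
    (hzw : z + w ∉ L.lattice) (h : 2 * z + w ∉ L.lattice) : ℘[L] (z + w) ≠ ℘[L] z := fun e => by
  rcases (weierstrassP_eq_iff L hzw hz).mp e with h1 | h1
  · exact hw (by simpa using h1)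
  · exact h (by convert h1 using 1; ring)

theorem hasDerivAt_chordX_left {z w : ℂ} (hz : z ∉ L.lattice) (hzw : z + w ∉ L.lattice)
    (hne : ℘[L] (z + w) ≠ ℘[L] z) : HasDerivAt (fun t => chordX L t w) 0 z := by
  have hd := sub_ne_zero.mpr hne
  have ha : HasDerivAt (fun t => ℘[L] (t + w)) (℘'[L] (z + w)) z :=
    (hasDerivAt_wP L hzw).comp_add_const z w
  have hA : HasDerivAt (fun t => ℘'[L] (t + w)) (6 * ℘[L] (z + w) ^ 2 - L.g₂ / 2) z :=
    (hasDerivAt_wP' L hzw).comp_add_const z w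
  have hb := hasDerivAt_wP L hz
  have hB := hasDerivAt_wP' L hz
  have hm := (hA.add hB).div (ha.sub hb) hd
  have := (((hm.fun_pow 2).div_const 4).sub ha).sub hb
  refine (this.congr_deriv ?_)
  have e1 := L.derivWeierstrassP_sq _ hzw
  have e2 := L.derivWeierstrassP_sq _ hz
  simp only [Pi.add_apply, Pi.sub_apply, Pi.div_apply] at *
  generalize ℘[L] (z + w) = a, ℘[L] z = b, ℘'[L] (z + w) = A, ℘'[L] z = B at *
  have key : (6 * a ^ 2 - L.g₂ / 2 + (6 * b ^ 2 - L.g₂ / 2)) * (a - b) - (A + B) * (A - B) =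
      2 * (a - b) ^ 3 := by linear_combination -e1 + e2
  rw [key]
  simp only [show (2 : ℕ) - 1 = 1 from rfl, pow_one, Nat.cast_ofNat]
  generalize hdd : a - b = d at hd ⊢
  field_simp
  subst hdd
  ring

theorem hasDerivAt_chordX_right {z w : ℂ} (hz : z ∉ L.lattice) (hzw : z + w ∉ L.lattice)
    (hne : ℘[L] (z + w) ≠ ℘[L] z) :
    HasDerivAt (fun t => chordX L z t)
      (-(chord L z w * (chordX L z w - ℘[L] (z + w)) + ℘'[L] (z + w))) w := by
  have hd := sub_ne_zero.mpr hne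
  have ha : HasDerivAt (fun t => ℘[L] (z + t)) (℘'[L] (z + w)) w :=
    (hasDerivAt_wP L hzw).comp_const_add z w
  have hA : HasDerivAt (fun t => ℘'[L] (z + t)) (6 * ℘[L] (z + w) ^ 2 - L.g₂ / 2) w :=
    (hasDerivAt_wP' L hzw).comp_const_add z w
  have hm := (hA.add_const (℘'[L] z)).div (ha.sub_const (℘[L] z)) hd
  have := (((hm.fun_pow 2).div_const 4).sub ha).sub_const (℘[L] z)
  refine (this.congr_deriv ?_)
  have e1 := L.derivWeierstrassP_sq _ hzw
  have e2 := L.derivWeierstrassP_sq _ hz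
  simp only [chordX, chord, Pi.div_apply] at *
  generalize ℘[L] (z + w) = a, ℘[L] z = b, ℘'[L] (z + w) = A, ℘'[L] z = B at *
  have key : (6 * a ^ 2 - L.g₂ / 2) * (a - b) - (A + B) * A =
      (a - b) ^ 2 * (4 * a + 2 * b) - (A + B) ^ 2 / 2 := by linear_combination (-1 / 2 : ℂ) * e1 + (1 / 2 : ℂ) * e2
  rw [key]
  simp only [show (2 : ℕ) - 1 = 1 from rfl, pow_one, Nat.cast_ofNat]
  generalize hdd : a - b = d at hd ⊢
  field_simp
  subst hdd
  ring

theorem tendsto_wP_inv : Tendsto (fun z => (℘[L] z)⁻¹) (𝓝[≠] 0) (𝓝 0) := by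
  refine tendsto_inv₀_cobounded.comp (tendsto_cobounded_of_meromorphicOrderAt_neg ?_)
  rw [L.order_weierstrassP 0 (Submodule.zero_mem _)]
  exact WithTop.coe_lt_coe.mpr (show (-2 : ℤ) < 0 by norm_num)

theorem tendsto_wP'_div_sq : Tendsto (fun z => ℘'[L] z / ℘[L] z ^ 2) (𝓝[≠] 0) (𝓝 0) := by
  have h : Tendsto (fun z => 4 * (℘[L] z)⁻¹ - L.g₂ * (℘[L] z)⁻¹ ^ 3 - L.g₃ * (℘[L] z)⁻¹ ^ 4)
      (𝓝[≠] 0) (𝓝 0) := by
    simpa using (((tendsto_wP_inv L).const_mul (4 : ℂ)).sub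
      (((tendsto_wP_inv L).pow 3).const_mul L.g₂)).sub (((tendsto_wP_inv L).pow 4).const_mul L.g₃)
  have hinv := tendsto_wP_inv L
  have h2 : Tendsto (fun z => (℘'[L] z / ℘[L] z ^ 2) ^ 2) (𝓝[≠] 0) (𝓝 0) := by
    refine h.congr' ?_
    filter_upwards [compl_mem_punctured L] with z hz
    rw [div_pow, L.derivWeierstrassP_sq z hz]
    rcases eq_or_ne (℘[L] z) 0 with h0 | h0
    · simp [h0]
    · field_simp
  rw [tendsto_zero_iff_norm_tendsto_zero] at h2 ⊢
  have := (Real.continuous_sqrt.tendsto 0).comp h2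
  rw [Real.sqrt_zero] at this
  refine this.congr fun z => ?_
  simp only [Function.comp_apply, norm_pow]
  exact Real.sqrt_sq (norm_nonneg _)

theorem eventually_generic {w : ℂ} (hw : w ∉ L.lattice) :
    ∀ᶠ z in 𝓝[≠] (0 : ℂ), z ∉ L.lattice ∧ z + w ∉ L.lattice ∧ 2 * z + w ∉ L.lattice := by
  have ho : IsOpen (L.lattice : Set ℂ)ᶜ := L.isClosed_lattice.isOpen_compl
  filter_upwards [compl_mem_punctured L,
    mem_nhdsWithin_of_mem_nhds ((ho.preimage (f := fun z : ℂ => z + w) (by fun_prop)).mem_nhds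
      (show (0 : ℂ) + w ∉ L.lattice by simpa using hw)),
    mem_nhdsWithin_of_mem_nhds ((ho.preimage (f := fun z : ℂ => 2 * z + w) (by fun_prop)).mem_nhds
      (show (2 : ℂ) * 0 + w ∉ L.lattice by simpa using hw))] with z h1 h2 h3
  exact ⟨h1, h2, h3⟩

theorem tendsto_chordX {w : ℂ} (hw : w ∉ L.lattice) :
    Tendsto (fun z => chordX L z w) (𝓝[≠] 0) (𝓝 (℘[L] w)) := by
  have hshift : Tendsto (fun z : ℂ => z + w) (𝓝[≠] 0) (𝓝 w) := by
    refine tendsto_nhdsWithin_of_tendsto_nhds ?_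
    have hc : Continuous fun z : ℂ => z + w := by fun_prop
    simpa using hc.tendsto 0
  have ha : Tendsto (fun z => ℘[L] (z + w)) (𝓝[≠] 0) (𝓝 (℘[L] w)) :=
    (L.analyticOnNhd_weierstrassP w hw).continuousAt.tendsto.comp hshift
  have hA : Tendsto (fun z => ℘'[L] (z + w)) (𝓝[≠] 0) (𝓝 (℘'[L] w)) :=
    (L.analyticOnNhd_derivWeierstrassP w hw).continuousAt.tendsto.comp hshift
  have hu := tendsto_wP_inv L
  have hv := tendsto_wP'_div_sq L
  have hnum : Tendsto (fun z => 8 * ℘[L] (z + w) + 2 * ℘'[L] (z + w) * (℘'[L] z / ℘[L] z ^ 2) -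
      (L.g₂ + 4 * ℘[L] (z + w) ^ 2) * (℘[L] z)⁻¹ +
      (℘'[L] (z + w) ^ 2 - L.g₃) * (℘[L] z)⁻¹ ^ 2) (𝓝[≠] 0) (𝓝 (8 * ℘[L] w)) := by
    have := (((ha.const_mul (8 : ℂ)).add ((hA.const_mul (2 : ℂ)).mul hv)).sub
      (((tendsto_const_nhds (x := L.g₂)).add ((ha.pow 2).const_mul 4)).mul hu)).add
        (((hA.pow 2).sub_const L.g₃).mul (hu.pow 2))
    simpa using this
  have hden : Tendsto (fun z => 4 * (℘[L] (z + w) * (℘[L] z)⁻¹ - 1) ^ 2) (𝓝[≠] 0) (𝓝 4) := by
    simpa using (((ha.mul hu).sub_const 1).pow 2).const_mul (4 : ℂ)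
  have hfin := (hnum.div hden (by norm_num)).sub ha
  rw [show 8 * ℘[L] w / 4 - ℘[L] w = ℘[L] w by ring] at hfin
  refine hfin.congr' ?_
  filter_upwards [eventually_generic L hw,
    (tendsto_cobounded_of_meromorphicOrderAt_neg (f := ℘[L]) (x := 0) (by
      rw [L.order_weierstrassP 0 (Submodule.zero_mem _)]
      exact WithTop.coe_lt_coe.mpr (show (-2 : ℤ) < 0 by norm_num))).eventually
      (Bornology.eventually_ne_cobounded (0 : ℂ))] with z hz h0
  have hd := sub_ne_zero.mpr (wP_ne_of L hz.1 hw hz.2.1 hz.2.2)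
  have e2 := L.derivWeierstrassP_sq _ hz.1
  simp only [chordX, chord, Pi.div_apply]
  generalize ℘[L] (z + w) = a, ℘[L] z = b, ℘'[L] (z + w) = A, ℘'[L] z = B at *
  have hd' : a * b⁻¹ - 1 ≠ 0 := by
    rw [show a * b⁻¹ - 1 = (a - b) * b⁻¹ by field_simp]
    exact mul_ne_zero hd (inv_ne_zero h0)
  field_simp
  linear_combination (norm := ring_nf) (-1 : ℂ) * e2

/-- the addition theorem, abscissa -/
theorem chordX_eq {z w : ℂ} (hz : z ∉ L.lattice) (hw : w ∉ L.lattice) (hzw : z + w ∉ L.lattice)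
    (h : 2 * z + w ∉ L.lattice) : chordX L z w = ℘[L] w := by
  set S : Set ℂ := (L.lattice : Set ℂ) ∪ (fun t => t + w) ⁻¹' (L.lattice : Set ℂ) ∪
    (fun t => 2 * t + w) ⁻¹' (L.lattice : Set ℂ)
  have hS : S.Countable := ((countable_lattice L).union
    ((countable_lattice L).preimage (add_left_injective w))).union
    ((countable_lattice L).preimage fun a b e => by simpa using e)
  have hSo : IsOpen Sᶜ := by
    have ho := L.isClosed_lattice
    exact ((ho.union (ho.preimage (by fun_prop))).union (ho.preimage (by fun_prop))).isOpen_compl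
  have hmem : ∀ t ∈ Sᶜ, t ∉ L.lattice ∧ t + w ∉ L.lattice ∧ 2 * t + w ∉ L.lattice := by
    intro t ht
    simp only [S, Set.mem_compl_iff, Set.mem_union, Set.mem_preimage, SetLike.mem_coe, not_or] at ht
    exact ⟨ht.1.1, ht.1.2, ht.2⟩
  have hd : ∀ t ∈ Sᶜ, HasDerivAt (fun s => chordX L s w) 0 t := fun t ht =>
    hasDerivAt_chordX_left L (hmem t ht).1 (hmem t ht).2.1
      (wP_ne_of L (hmem t ht).1 hw (hmem t ht).2.1 (hmem t ht).2.2)
  have hzS : z ∈ Sᶜ := by simp [S, hz, hzw, h]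
  have hconst : ∀ t ∈ Sᶜ, chordX L t w = chordX L z w := fun t ht =>
    hSo.is_const_of_deriv_eq_zero (isPreconnected_compl_countable hS)
      (fun s hs => (hd s hs).differentiableAt.differentiableWithinAt)
      (fun s hs => (hd s hs).deriv) ht hzS
  refine tendsto_nhds_unique (tendsto_const_nhds.congr' ?_) (tendsto_chordX L hw)
  filter_upwards [eventually_generic L hw] with t ht
  exact (hconst t (by simp [S, ht.1, ht.2.1, ht.2.2])).symm

/-- the addition theorem, ordinate -/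
theorem chordY_eq {z w : ℂ} (hz : z ∉ L.lattice) (hw : w ∉ L.lattice) (hzw : z + w ∉ L.lattice)
    (h : 2 * z + w ∉ L.lattice) :
    -(chord L z w * (℘[L] w - ℘[L] (z + w)) + ℘'[L] (z + w)) = ℘'[L] w := by
  have e : ℘[L] =ᶠ[𝓝 w] fun t => chordX L z t := by
    have ho : IsOpen (L.lattice : Set ℂ)ᶜ := L.isClosed_lattice.isOpen_compl
    filter_upwards [ho.mem_nhds hw,
      (ho.preimage (f := fun t : ℂ => z + t) (by fun_prop)).mem_nhds hzw,
      (ho.preimage (f := fun t : ℂ => 2 * z + t) (by fun_prop)).mem_nhds h] with t h1 h2 h3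
    exact (chordX_eq L hz h1 h2 h3).symm
  have h1 := (hasDerivAt_wP L hw).unique
    ((hasDerivAt_chordX_right L hz hzw (wP_ne_of L hz hw hzw h)).congr_of_eventuallyEq e)
  rw [chordX_eq L hz hw hzw h] at h1
  exact h1.symm

end Addition

section Hom

open WeierstrassCurve

variable (L : PeriodPair) (V : WeierstrassCurve ℂ)

/-- the abscissa of the point with parameter `z` -/
def xU (z : ℂ) : ℂ := ℘[L] z - V.b₂ / 12

/-- the ordinate of the point with parameter `z` -/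
def yU (z : ℂ) : ℂ := (℘'[L] z - V.a₁ * xU L V z - V.a₃) / 2

variable {L V} (hΔ : V.Δ ≠ 0) (h2 : L.g₂ = V.c₄ / 12) (h3 : L.g₃ = V.c₆ / 216)

include hΔ h2 h3

theorem nonsingular_xyU {z : ℂ} (hz : z ∉ L.lattice) :
    V.toAffine.Nonsingular (xU L V z) (yU L V z) := by
  rw [← Affine.equation_iff_nonsingular_of_Δ_ne_zero hΔ, Affine.equation_iff]
  have e := L.derivWeierstrassP_sq z hz
  rw [h2, h3, c₄, c₆] at e
  simp only [xU, yU, b₂, b₄, b₆] at *
  linear_combination e / 4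

/-- the point with parameter `z` -/
def ptU (z : ℂ) : V.toAffine.Point :=
  haveI := Classical.dec (z ∈ L.lattice)
  if hz : z ∈ L.lattice then 0 else .some _ _ (nonsingular_xyU hΔ h2 h3 hz)

theorem ptU_of_mem {z : ℂ} (hz : z ∈ L.lattice) : ptU hΔ h2 h3 z = 0 := dif_pos hz

theorem ptU_of_not_mem {z : ℂ} (hz : z ∉ L.lattice) :
    ptU hΔ h2 h3 z = .some _ _ (nonsingular_xyU hΔ h2 h3 hz) := dif_neg hz

theorem ptU_add_mem {l : ℂ} (hl : l ∈ L.lattice) (z : ℂ) :
    ptU hΔ h2 h3 (z + l) = ptU hΔ h2 h3 z := by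
  by_cases hz : z ∈ L.lattice
  · rw [ptU_of_mem hΔ h2 h3 hz, ptU_of_mem hΔ h2 h3 (add_mem hz hl)]
  · have hzl : z + l ∉ L.lattice := fun h => hz (by simpa using sub_mem h hl)
    rw [ptU_of_not_mem hΔ h2 h3 hz, ptU_of_not_mem hΔ h2 h3 hzl]
    simp only [xU, yU, L.weierstrassP_add_coe z ⟨l, hl⟩, L.derivWeierstrassP_add_coe z ⟨l, hl⟩]

theorem ptU_neg (z : ℂ) : ptU hΔ h2 h3 (-z) = -ptU hΔ h2 h3 z := by
  by_cases hz : z ∈ L.lattice
  · rw [ptU_of_mem hΔ h2 h3 hz, ptU_of_mem hΔ h2 h3 (neg_mem hz), neg_zero]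
  · have hz' : -z ∉ L.lattice := fun h => hz (by simpa using neg_mem h)
    rw [ptU_of_not_mem hΔ h2 h3 hz, ptU_of_not_mem hΔ h2 h3 hz', Affine.Point.neg_some]
    simp only [Affine.Point.some.injEq, xU, yU, L.weierstrassP_neg, L.derivWeierstrassP_neg,
      Affine.negY, true_and]
    ring

theorem ptU_add_generic {z w : ℂ} (h : 2 * z + w ∉ L.lattice) :
    ptU hΔ h2 h3 (z + w) = ptU hΔ h2 h3 z + ptU hΔ h2 h3 w := by
  by_cases hz : z ∈ L.lattice
  · rw [add_comm z w, ptU_add_mem hΔ h2 h3 hz, ptU_of_mem hΔ h2 h3 hz, zero_add]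
  by_cases hw : w ∈ L.lattice
  · rw [ptU_add_mem hΔ h2 h3 hw, ptU_of_mem hΔ h2 h3 hw, add_zero]
  by_cases hzw : z + w ∈ L.lattice
  · rw [ptU_of_mem hΔ h2 h3 hzw]
    have : ptU hΔ h2 h3 w = ptU hΔ h2 h3 (-z) := by
      rw [show w = -z + (z + w) by ring, ptU_add_mem hΔ h2 h3 hzw]
    rw [this, ptU_neg, add_neg_cancel]
  have hne := wP_ne_of L hz hw hzw h
  have hd := sub_ne_zero.mpr hne
  suffices e : ptU hΔ h2 h3 w = ptU hΔ h2 h3 (z + w) + -ptU hΔ h2 h3 z by
    rw [e]; abel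
  rw [← ptU_neg hΔ h2 h3, ptU_of_not_mem hΔ h2 h3 hw, ptU_of_not_mem hΔ h2 h3 hzw,
    ptU_of_not_mem hΔ h2 h3 (fun h' : -z ∈ L.lattice => hz (by simpa using neg_mem h'))]
  have hx : xU L V (z + w) ≠ xU L V (-z) := by
    simp only [xU, L.weierstrassP_neg, ne_eq, sub_left_inj]
    exact hne
  rw [Affine.Point.add_of_X_ne hx, Affine.Point.some.injEq]
  have eX := chordX_eq L hz hw hzw h
  have eY := chordY_eq L hz hw hzw h
  set m := chord L z w with hm
  have hs : V.toAffine.slope (xU L V (z + w)) (xU L V (-z)) (yU L V (z + w)) (yU L V (-z)) =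
      m / 2 - V.a₁ / 2 := by
    rw [Affine.slope_of_X_ne hx, hm, chord]
    simp only [xU, yU, L.weierstrassP_neg, L.derivWeierstrassP_neg]
    rw [show ℘[L] (z + w) - V.b₂ / 12 - (℘[L] z - V.b₂ / 12) = ℘[L] (z + w) - ℘[L] z by ring]
    field_simp
    ring
  rw [hs]
  simp only [chordX, ← hm] at eX
  have hX : xU L V w = V.toAffine.addX (xU L V (z + w)) (xU L V (-z)) (m / 2 - V.a₁ / 2) := by
    simp only [Affine.addX, xU, L.weierstrassP_neg, b₂]
    linear_combination -eX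
  refine ⟨hX, ?_⟩
  rw [Affine.addY, Affine.negAddY, ← hX]
  simp only [Affine.negY, xU, yU, b₂]
  linear_combination (-1 / 2 : ℂ) * eY

/-- the uniformisation is a homomorphism -/
def phiU : ℂ →+ V.toAffine.Point :=
  AddMonoidHom.mk' (ptU hΔ h2 h3) fun z w => by
    set S : Set ℂ := (fun u => 2 * (z + w) + u) ⁻¹' (L.lattice : Set ℂ) ∪
      (fun u => 2 * z + (w + u)) ⁻¹' (L.lattice : Set ℂ) ∪
      (fun u => 2 * w + u) ⁻¹' (L.lattice : Set ℂ)
    have hc : ∀ c : ℂ, ((fun u => c + u) ⁻¹' (L.lattice : Set ℂ)).Countable := fun c =>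
      (countable_lattice L).preimage (add_right_injective c)
    have hS : S.Countable := by
      refine ((hc _).union ?_).union (hc _)
      simpa only [← add_assoc] using hc (2 * z + w)
    obtain ⟨u, hu⟩ := (hS.isConnected_compl_of_one_lt_rank
      (by rw [Complex.rank_real_complex]; norm_num)).nonempty
    simp only [S, Set.mem_compl_iff, Set.mem_union, Set.mem_preimage, SetLike.mem_coe, not_or] at hu
    have h1 := ptU_add_generic hΔ h2 h3 hu.1.1
    have h4 := ptU_add_generic hΔ h2 h3 hu.1.2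
    rw [ptU_add_generic hΔ h2 h3 hu.2, ← add_assoc z w u, h1, ← add_assoc] at h4
    exact add_right_cancel h4

theorem phiU_eq_zero_iff {z : ℂ} : phiU hΔ h2 h3 z = 0 ↔ z ∈ L.lattice := by
  show ptU hΔ h2 h3 z = 0 ↔ _
  refine ⟨fun h => ?_, ptU_of_mem hΔ h2 h3⟩
  by_contra hz
  rw [ptU_of_not_mem hΔ h2 h3 hz] at h
  exact Affine.Point.some_ne_zero _ h

theorem phiU_of_not_mem {z : ℂ} (hz : z ∉ L.lattice) :
    phiU hΔ h2 h3 z = .some _ _ (nonsingular_xyU hΔ h2 h3 hz) := ptU_of_not_mem hΔ h2 h3 hz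

end Hom

end FLTAgent.EIS
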