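import Mathlib

/-!
Area EIS, parcel D: two dimensional linear algebra without bases.  A group `G` acts on `M`, `χ` is a
character with integer values on `M`, and every `g + χ(g) g⁻¹` commutes with the action (a formal
trace).  All inequalities between the parts of `M` follow from this and from the absence of orbits
inside the connected part.
-/

set_option autoImplicit false

noncomputable section

namespace FLTAgent.EIS.Alg2

variable {G : Type} [Group G] {M : Type} [AddCommGroup M] [DistribMulAction G M]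

/-- the action of one element -/
def ρ (g : G) : AddMonoid.End M := DistribSMul.toAddMonoidHom M g

@[simp] theorem ρ_apply (g : G) (x : M) : ρ g x = g • x := rfl

theorem ρ_mul (g h : G) : (ρ (g * h) : AddMonoid.End M) = ρ g * ρ h :=
  AddMonoidHom.ext fun x => mul_smul g h x

theorem ρ_one : (ρ (1 : G) : AddMonoid.End M) = 1 := AddMonoidHom.ext fun x => one_smul G x

variable (G M) in
/-- an integral character with respect to which the action has formal traces -/
structure Cay where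
  chi : G → ℤ
  chi_mul : ∀ (g h : G) (x : M), chi (g * h) • x = chi g • chi h • x
  central : ∀ (g h : G) (x : M),
    h • (g • x + chi g • g⁻¹ • x) = g • h • x + chi g • g⁻¹ • h • x

variable (C : Cay G M)

/-- the conjugate of a group element -/
def Cay.conj (g : G) : AddMonoid.End M := C.chi g • ρ g⁻¹

theorem Cay.conj_apply (g : G) (x : M) : C.conj g x = C.chi g • g⁻¹ • x := rfl

theorem Cay.conj_mul (g h : G) : C.conj (g * h) = C.conj h * C.conj g := by
  refine AddMonoidHom.ext fun x => ?_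
  show C.chi (g * h) • (g * h)⁻¹ • x = C.chi h • h⁻¹ • C.chi g • g⁻¹ • x
  rw [mul_inv_rev, mul_smul, C.chi_mul, smul_comm h⁻¹ (C.chi g), smul_comm (C.chi g) (C.chi h)]

/-- pairs (element of the group ring, its conjugate) -/
def Cay.pairs : AddSubgroup (AddMonoid.End M × AddMonoid.End M) :=
  AddSubgroup.closure (Set.range fun g => (ρ g, C.conj g))

theorem Cay.mem_pairs (g : G) : (ρ g, C.conj g) ∈ C.pairs := AddSubgroup.subset_closure ⟨g, rfl⟩

theorem Cay.pairs_mul {a b : AddMonoid.End M × AddMonoid.End M} (ha : a ∈ C.pairs) (hb : b ∈ C.pairs) :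
    (a.1 * b.1, b.2 * a.2) ∈ C.pairs := by
  induction hb using AddSubgroup.closure_induction with
  | mem b hb =>
    obtain ⟨h, rfl⟩ := hb
    induction ha using AddSubgroup.closure_induction with
    | mem a ha =>
      obtain ⟨g, rfl⟩ := ha
      exact AddSubgroup.subset_closure ⟨g * h, Prod.ext (ρ_mul g h) (C.conj_mul g h)⟩
    | zero => simp [Prod.mk_zero_zero]
    | add a a' _ _ ha ha' =>
      convert add_mem ha ha' using 1
      simp [add_mul, mul_add]
    | neg a _ ha =>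
      convert neg_mem ha using 1
      simp
  | zero => simp [Prod.mk_zero_zero]
  | add b b' _ _ hb hb' =>
    convert add_mem hb hb' using 1
    simp [add_mul, mul_add]
  | neg b _ hb =>
    convert neg_mem hb using 1
    simp

theorem Cay.mem_pairs_one : ((1 : AddMonoid.End M), C.conj 1) ∈ C.pairs := by
  have := C.mem_pairs 1
  rwa [ρ_one] at this

/-- formal traces commute with the action -/
theorem Cay.trace_comm {a : AddMonoid.End M × AddMonoid.End M} (ha : a ∈ C.pairs) (h : G) (x : M) :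
    h • (a.1 + a.2) x = (a.1 + a.2) (h • x) := by
  show h • (a.1 x + a.2 x) = a.1 (h • x) + a.2 (h • x)
  induction ha using AddSubgroup.closure_induction generalizing x with
  | mem a ha => obtain ⟨g, rfl⟩ := ha; exact C.central g h x
  | zero => simp
  | add a a' _ _ ha ha' =>
    show h • ((a.1 x + a'.1 x) + (a.2 x + a'.2 x)) =
      (a.1 (h • x) + a'.1 (h • x)) + (a.2 (h • x) + a'.2 (h • x))
    rw [add_add_add_comm, smul_add, ha x, ha' x, add_add_add_comm]
  | neg a _ ha =>
    show h • (-(a.1 x) + -(a.2 x)) = -(a.1 (h • x)) + -(a.2 (h • x))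
    rw [← neg_add, ← neg_add, smul_neg, ha x]

/-- hypotheses on the connected part -/
structure Conn (M0 : AddSubgroup M) : Prop where
  trace_mem : ∀ g : G, ∀ y ∈ M0, g • y + C.chi g • g⁻¹ • y ∈ M0
  core : ∀ y ∈ M0, (∀ g : G, g • y ∈ M0) → y = 0

variable {C} {M0 : AddSubgroup M}

theorem zsmul_smul_mem {g : G} (hg : ∀ y ∈ M0, g • y ∈ M0) (n : ℤ) {y : M} (hy : y ∈ M0) :
    g • n • y ∈ M0 := hg _ (zsmul_mem hy n)

/-- the basic congruence: moving an element across `g` replaces it by its conjugate -/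
theorem Conn.polar (H : Conn C M0) (g τ : G) (hτ : ∀ y ∈ M0, τ⁻¹ • y ∈ M0) {y : M} (hy : y ∈ M0) :
    g • τ • y - C.chi τ • τ⁻¹ • g • y ∈ M0 := by
  have h1 := H.trace_mem (g * τ) y hy
  have h2 : C.chi τ • τ⁻¹ • (g • y + C.chi g • g⁻¹ • y) ∈ M0 :=
    zsmul_mem (hτ _ (H.trace_mem g y hy)) _
  have key : g • τ • y - C.chi τ • τ⁻¹ • g • y =
      ((g * τ) • y + C.chi (g * τ) • (g * τ)⁻¹ • y) -
        C.chi τ • τ⁻¹ • (g • y + C.chi g • g⁻¹ • y) := by
    rw [mul_inv_rev, mul_smul, mul_smul, C.chi_mul, smul_add, smul_add, smul_comm τ⁻¹ (C.chi g),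
      smul_comm (C.chi τ) (C.chi g)]
    abel
  rw [key]
  exact sub_mem h1 h2

section Inertia

variable (H : Conn C M0) {τ : G} (hτ : ∀ x : M, τ • x - x ∈ M0)
include H hτ

theorem inertia_mem {x : M} (hx : x ∈ M0) : τ • x ∈ M0 := by
  simpa using add_mem (hτ x) hx

theorem inertia_inv (x : M) : τ⁻¹ • x - x ∈ M0 := by
  have := hτ (τ⁻¹ • x)
  rw [smul_inv_smul] at this
  simpa using neg_mem this

theorem inertia_inv_mem {x : M} (hx : x ∈ M0) : τ⁻¹ • x ∈ M0 := by
  simpa using add_mem (inertia_inv H hτ x) hx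

/-- `(τ - 1)(τ - χ) = 0` -/
theorem inertia_quadratic (x : M) :
    τ • x + C.chi τ • τ⁻¹ • x = x + C.chi τ • x := by
  have hmem : ∀ z : M, (τ • z + C.chi τ • τ⁻¹ • z) - (z + C.chi τ • z) ∈ M0 := fun z => by
    have := add_mem (hτ z) (zsmul_mem (inertia_inv H hτ z) (C.chi τ))
    rw [smul_sub] at this
    convert this using 1
    abel
  refine sub_eq_zero.mp (H.core _ (hmem x) fun g => ?_)
  rw [smul_sub, C.central, smul_add, smul_comm g (C.chi τ)]
  exact hmem (g • x)

/-- inertia acts on the connected part by the character -/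
theorem inertia_eq {y : M} (hy : y ∈ M0) : τ • y = C.chi τ • y := by
  refine sub_eq_zero.mp (H.core _ (sub_mem (inertia_mem H hτ hy) (zsmul_mem hy _)) fun g => ?_)
  have h := H.polar g τ (fun z hz => inertia_inv_mem H hτ hz) hy
  have h' := zsmul_mem (inertia_inv H hτ (g • y)) (C.chi τ)
  rw [smul_sub] at h'
  rw [smul_sub, smul_comm g (C.chi τ)]
  convert add_mem h h' using 1
  abel

end Inertia

section Frobenius

variable (H : Conn C M0) {φ : G} (hφ : ∀ y ∈ M0, φ • y ∈ M0) (hφ' : ∀ y ∈ M0, φ⁻¹ • y ∈ M0)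
  (hχ : ∀ x : M, C.chi φ • x = x)
include H hφ hφ' hχ

theorem frob_polar (g : G) {y : M} (hy : y ∈ M0) : g • φ • y - φ⁻¹ • g • y ∈ M0 := by
  simpa only [hχ] using H.polar g φ hφ' hy

omit H hφ' hχ in
theorem pow_smul_mem' (j : ℕ) {y : M} (hy : y ∈ M0) : φ ^ j • y ∈ M0 := by
  induction j with
  | zero => simpa using hy
  | succ j ih => rw [pow_succ', mul_smul]; exact hφ _ ih

theorem frob_polar_pow (g : G) (j : ℕ) {y : M} (hy : y ∈ M0) :
    g • φ ^ j • y - (φ⁻¹) ^ j • g • y ∈ M0 := by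
  induction j generalizing y with
  | zero => simp
  | succ j ih =>
    have h1 := ih (hφ y hy)
    have h2 : ∀ (i : ℕ) (z : M), z ∈ M0 → (φ⁻¹) ^ i • z ∈ M0 := fun i z hz => by
      induction i with
      | zero => simpa using hz
      | succ i ih' => rw [pow_succ', mul_smul]; exact hφ' _ ih'
    have h3 := h2 j _ (frob_polar H hφ hφ' hχ g hy)
    rw [smul_sub] at h3
    rw [pow_succ φ j, pow_succ φ⁻¹ j, mul_smul, mul_smul]
    convert add_mem h1 h3 using 1
    abel

/-- fixed vectors of Frobenius in the connected part are bounded by those of the étale part -/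
theorem frob_fixed {j : ℕ} {n : ℤ} (hn : ∀ x : M, φ ^ j • x - x ∈ M0 → n • x ∈ M0)
    {y : M} (hy : y ∈ M0) (hy' : φ ^ j • y = y) : n • y = 0 := by
  refine H.core _ (zsmul_mem hy n) fun g => ?_
  rw [smul_comm g n]
  refine hn _ ?_
  have h := pow_smul_mem' hφ j (frob_polar_pow H hφ hφ' hχ g j hy)
  rw [hy', smul_sub, inv_pow, smul_inv_smul] at h
  exact h

/-- the dual quadratic relation on the connected part -/
theorem frob_dual {r : ℤ} (T : M →+ M) (hT : ∀ (g : G) (x : M), T (g • x) = g • T x)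
    (hTmem : ∀ y ∈ M0, T y ∈ M0) (hE : ∀ x : M, φ • φ • x - T (φ • x) + r • x ∈ M0)
    {y : M} (hy : y ∈ M0) : r • φ • φ • y - T (φ • y) + y = 0 := by
  refine H.core _ (add_mem (sub_mem (zsmul_mem (hφ _ (hφ _ hy)) r) (hTmem _ (hφ _ hy))) hy)
    fun g => ?_
  have h2 := frob_polar_pow H hφ hφ' hχ g 2 hy
  have h1 := frob_polar H hφ hφ' hχ g hy
  rw [sq, sq, mul_smul, mul_smul] at h2
  have e := hφ' _ (hφ' _ (hE (g • y)))
  have hinv : φ⁻¹ • φ⁻¹ • φ • φ • g • y = g • y := by simp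
  rw [smul_add, smul_sub, smul_add, smul_sub, hinv, ← hT, inv_smul_smul, ← hT φ⁻¹,
    smul_comm φ⁻¹ r, smul_comm φ⁻¹ r] at e
  rw [smul_add, smul_sub, smul_comm g r, ← hT]
  have e1 := zsmul_mem h2 r
  rw [smul_sub] at e1
  convert add_mem (sub_mem e1 (hTmem _ h1)) e using 1
  rw [map_sub]
  abel

end Frobenius

/-- a bound from a homomorphism with small kernel -/
theorem card_le_of_hom {Y Z : Type} [AddCommGroup Y] [AddCommGroup Z] [Finite Y] [Finite Z]
    (f : Y →+ Z) (P : Set Y) (hf : ∀ y, f y = 0 → y ∈ P) :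
    Nat.card Y ≤ Nat.card Z * Nat.card P := by
  rw [← AddSubgroup.index_mul_card f.ker, AddSubgroup.index_ker]
  refine Nat.mul_le_mul (Nat.card_mono (Set.toFinite _) (Set.subset_univ _) |>.trans_eq ?_) ?_
  · simp
  · exact Nat.card_mono P.toFinite fun y hy => hf y hy

/-- the trace form `u ↦ P u + (P u)*` turning `P u P` into a scalar times `P` -/
theorem sandwich {a u : AddMonoid.End M × AddMonoid.End M} (ha : a.2 * a.1 = 0) :
    a.1 * u.1 * a.1 = (a.1 * u.1 + u.2 * a.2) * a.1 := by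
  rw [add_mul, mul_assoc u.2, ha, mul_zero, add_zero]

section BoundR

variable (H : Conn C M0) {τ : G} (hτ : ∀ x : M, τ • x - x ∈ M0)
  {h x : AddMonoid.End M × AddMonoid.End M}

/-- the conjugate pair of `τ - 1` -/
def Cay.pPair (C : Cay G M) (τ : G) : AddMonoid.End M × AddMonoid.End M :=
  (ρ τ - ρ (1 : G), C.conj τ - C.conj 1)

/-- the conjugate pair of `τ - χ(τ)` -/
def Cay.qPair (C : Cay G M) (τ : G) : AddMonoid.End M × AddMonoid.End M :=
  C.chi τ • (-(ρ (1 : G), C.conj 1)) + (ρ τ, C.conj τ)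

/-- the scalar of the bound at `r`: the trace of `P h Q x` -/
def Cay.sR (C : Cay G M) (τ : G) (h x : AddMonoid.End M × AddMonoid.End M) : AddMonoid.End M :=
  (C.pPair τ).1 * (h.1 * (C.qPair τ).1 * x.1) + (x.2 * (C.qPair τ).2 * h.2) * (C.pPair τ).2

include H hτ in
theorem card_conn_le (hone : ∀ z : M, C.chi 1 • z = z) [Finite M] :
    Nat.card M0 ≤ Nat.card (M ⧸ M0) *
      Nat.card {y : M | C.sR τ h x ((C.chi τ - 1) • y) = 0} := by
  classical
  let P := C.pPair τ
  have hP : ∀ z, P.1 z = τ • z - z := fun z => by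
    show τ • z - (1 : G) • z = _
    rw [one_smul]
  have hP2 : P.2 * P.1 = 0 := AddMonoidHom.ext fun z => by
    show P.2 (P.1 z) = 0
    have hy : τ • z - z ∈ M0 := hτ z
    have e := inertia_quadratic H hτ (τ • z - z)
    rw [inertia_eq H hτ hy] at e
    have e' : C.chi τ • τ⁻¹ • (τ • z - z) = τ • z - z := by linear_combination (norm := abel) e
    rw [hP]
    show C.chi τ • τ⁻¹ • (τ • z - z) - C.chi 1 • (1 : G)⁻¹ • (τ • z - z) = 0
    rw [e', inv_one, one_smul, hone, sub_self]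
  let Φ : M0 →+ M ⧸ M0 := (QuotientAddGroup.mk' M0).comp ((x.1.comp P.1).comp M0.subtype)
  refine (card_le_of_hom Φ {y : M0 | C.sR τ h x ((C.chi τ - 1) • (y : M)) = 0}
    fun y hy => ?_).trans (Nat.mul_le_mul_left _ ?_)
  · have hy' : x.1 (P.1 y) ∈ M0 := (QuotientAddGroup.eq_zero_iff _).mp hy
    have e : P.1 (y : M) = (C.chi τ - 1) • (y : M) := by
      rw [hP, inertia_eq H hτ y.2, sub_smul, one_smul]
    have key := congrArg (fun E : AddMonoid.End M => E y)
      (sandwich (a := P) (u := (h.1 * (C.qPair τ).1 * x.1, x.2 * (C.qPair τ).2 * h.2)) hP2)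
    change P.1 (h.1 ((C.qPair τ).1 (x.1 (P.1 y)))) = C.sR τ h x (P.1 y) at key
    have hQ : (C.qPair τ).1 (x.1 (P.1 y)) = 0 := by
      show C.chi τ • -((1 : G) • x.1 (P.1 y)) + τ • x.1 (P.1 y) = 0
      rw [one_smul, inertia_eq H hτ hy', smul_neg, neg_add_cancel]
    rw [hQ, map_zero, map_zero, e] at key
    exact key.symm
  · refine Nat.card_le_card_of_injective (fun z => ⟨(z.1 : M), z.2⟩) fun z z' hz => ?_
    exact Subtype.ext (Subtype.ext (congrArg Subtype.val hz :))

end BoundR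

section BoundP

variable (φ : G) (p : ℤ) {u x : AddMonoid.End M × AddMonoid.End M}

/-- `φ² - 1` with its conjugate -/
def Cay.piPair (C : Cay G M) (φ : G) : AddMonoid.End M × AddMonoid.End M :=
  (ρ φ * ρ φ - ρ (1 : G), C.conj φ * C.conj φ - C.conj 1)

/-- `φ² - p²` with its conjugate -/
def Cay.piPair' (C : Cay G M) (φ : G) (p : ℤ) : AddMonoid.End M × AddMonoid.End M :=
  (ρ φ * ρ φ, C.conj φ * C.conj φ) + (p ^ 2) • (-(ρ (1 : G), C.conj 1))

/-- the scalar of the bound at `p` -/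
def Cay.sP (C : Cay G M) (φ : G) (p : ℤ) (u x : AddMonoid.End M × AddMonoid.End M) : AddMonoid.End M :=
  (C.piPair φ).1 * (u.1 * (C.piPair' φ p).1 * x.1) +
    (x.2 * (C.piPair' φ p).2 * u.2) * (C.piPair φ).2

/-- `ker (φ² - p²)` -/
def Cay.toric (C : Cay G M) (φ : G) (p : ℤ) : AddSubgroup M := AddMonoidHom.ker (C.piPair' φ p).1

theorem mem_toric {y : M} : y ∈ C.toric φ p ↔ φ • φ • y = p ^ 2 • y := by
  show φ • φ • y + p ^ 2 • -((1 : G) • y) = 0 ↔ _
  rw [one_smul, smul_neg, ← sub_eq_add_neg, sub_eq_zero]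

theorem card_toric_le [Finite M] (hone : ∀ z : M, C.chi 1 • z = z) (hχ : ∀ z : M, C.chi φ • z = p • z)
    (hkill : ∀ z : M, φ • φ • (φ • φ • z - z) = p ^ 2 • (φ • φ • z - z)) :
    Nat.card (C.toric φ p) ≤ Nat.card (M ⧸ C.toric φ p) *
      Nat.card {y : M | C.sP φ p u x ((p ^ 2 - 1) • y) = 0} := by
  classical
  let P := C.piPair φ
  have hP : ∀ z, P.1 z = φ • φ • z - z := fun z => by
    show φ • φ • z - (1 : G) • z = _
    rw [one_smul]
  have hP2 : P.2 * P.1 = 0 := AddMonoidHom.ext fun z => by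
    show P.2 (P.1 z) = 0
    have e : φ⁻¹ • φ⁻¹ • (p ^ 2) • (φ • φ • z - z) = φ • φ • z - z := by
      rw [← hkill]; simp
    rw [smul_comm φ⁻¹ (p ^ 2), smul_comm φ⁻¹ (p ^ 2)] at e
    rw [hP]
    show C.chi φ • φ⁻¹ • C.chi φ • φ⁻¹ • (φ • φ • z - z) -
      C.chi 1 • (1 : G)⁻¹ • (φ • φ • z - z) = 0
    rw [inv_one, one_smul, hone, hχ, hχ, smul_comm φ⁻¹ p, smul_smul p p, ← sq, e, sub_self]
  let T' := C.toric φ p
  let Φ : T' →+ M ⧸ T' := (QuotientAddGroup.mk' T').comp ((x.1.comp P.1).comp T'.subtype)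
  refine (card_le_of_hom Φ {y : T' | C.sP φ p u x ((p ^ 2 - 1) • (y : M)) = 0}
    fun y hy => ?_).trans (Nat.mul_le_mul_left _ ?_)
  · have hy' : (C.piPair' φ p).1 (x.1 (P.1 y)) = 0 := (QuotientAddGroup.eq_zero_iff _).mp hy
    have e : P.1 (y : M) = (p ^ 2 - 1) • (y : M) := by
      rw [hP, (mem_toric φ p).mp y.2, sub_smul, one_smul]
    have key := congrArg (fun E : AddMonoid.End M => E y)
      (sandwich (a := P) (u := (u.1 * (C.piPair' φ p).1 * x.1, x.2 * (C.piPair' φ p).2 * u.2)) hP2)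
    change P.1 (u.1 ((C.piPair' φ p).1 (x.1 (P.1 y)))) = C.sP φ p u x (P.1 y) at key
    rw [hy', map_zero, map_zero, e] at key
    exact key.symm
  · refine Nat.card_le_card_of_injective (fun z => ⟨(z.1 : M), z.2⟩) fun z z' hz => ?_
    exact Subtype.ext (Subtype.ext (congrArg Subtype.val hz :))

end BoundP

end FLTAgent.EIS.Alg2

end
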