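import Fermat.Agent.EIS.Defs
import Fermat.Agent.SS2.Branches
import Fermat.Agent.Common.EverywhereUnramified
import Fermat.Agent.Common.InertiaConj

/-!
The dévissage bound: cocycles of a module with constituents trivial or cyclotomic, unramified outside
`p` and `r`, unit at `r` and coboundaries at `p`.
-/

set_option autoImplicit false
set_option linter.all false
set_option maxHeartbeats 1000000

noncomputable section

open ModularCurve

namespace FLTAgent.EIS

/-! ### the rationals -/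

theorem exists_place {ℓ : ℕ} (hℓ : ℓ.Prime) :
    ∃ V : ValuationSubring Qb, V.LiesOverPrime ℓ := by
  set Z := integralClosure ℤ Qb
  have hne : Ideal.span ({(ℓ : Z)} : Set Z) ≠ ⊤ := by
    rw [Ne, Ideal.span_singleton_eq_top]
    rintro ⟨u, hu⟩
    have h1 : IsIntegral ℤ ((ℓ : Qb)⁻¹) := by
      have h2 : ((↑u⁻¹ : Z) : Qb) = (ℓ : Qb)⁻¹ := by
        refine eq_inv_of_mul_eq_one_left ?_
        have := congrArg (fun z : Z => (z : Qb)) u.inv_mul
        rw [hu] at this
        simpa using this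
      exact h2 ▸ (↑u⁻¹ : Z).2
    have h3 : IsIntegral ℤ ((ℓ : ℚ)⁻¹) := by
      rw [← isIntegral_algebraMap_iff (FaithfulSMul.algebraMap_injective ℚ Qb)]
      rwa [map_inv₀, map_natCast]
    obtain ⟨n, hn⟩ := IsIntegrallyClosed.algebraMap_eq_of_integral h3
    simp only [eq_intCast] at hn
    have h4 : (ℓ : ℤ) * n = 1 := by
      have : (ℓ : ℚ) * n = 1 := by
        rw [hn, mul_inv_cancel₀ (Nat.cast_ne_zero.mpr hℓ.ne_zero)]
      exact_mod_cast this
    exact hℓ.ne_one (by exact_mod_cast Int.eq_one_of_mul_eq_one_right (Int.natCast_nonneg ℓ) h4)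
  obtain ⟨P, hP, hle⟩ := Ideal.exists_le_maximal _ hne
  obtain ⟨V, hV⟩ := Ideal.image_subset_nonunits_valuationSubring (K := Qb) (A := Z.toSubring) P
    hP.ne_top
  refine ⟨V, ?_⟩
  have := hV.2 ⟨(ℓ : Z), hle (Ideal.subset_span rfl), rfl⟩
  simpa [ValuationSubring.LiesOverPrime] using this

/-- a smooth crossed homomorphism into the multiplicative group of `ℚ̄` is a coboundary -/
theorem exists_hilbert90 (u : GalQ → Qb) (hu : ∀ σ τ, u (σ * τ) = u σ * σ (u τ))
    (hu0 : ∀ σ, u σ ≠ 0) (L : IntermediateField ℚ Qb) [FiniteDimensional ℚ L]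
    (hL : ∀ σ : GalQ, (∀ x ∈ L, σ x = x) → u σ = 1) :
    ∃ b : Qb, b ≠ 0 ∧ ∀ σ : GalQ, u σ = σ b / b := by
  classical
  haveI : Algebra.IsAlgebraic ℚ Qb := AlgebraicClosure.isAlgebraic ℚ
  haveI := Common.isGalois_qbar
  have hlift : ∀ g : L →ₐ[ℚ] Qb, ∃ σ : GalQ, ∀ x : L, σ (x : Qb) = g x := by
    intro g
    refine ⟨AlgEquiv.ofBijective (g.liftNormal Qb) (Algebra.IsAlgebraic.algHom_bijective _),
      fun x => ?_⟩
    exact AlgHom.liftNormal_commutes g Qb x
  choose s hs using hlift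
  have hwell : ∀ σ τ : GalQ, (∀ x ∈ L, σ x = τ x) → u τ = u σ := by
    intro σ τ h
    have h1 : u (σ⁻¹ * τ) = 1 := hL _ fun x hx => by
      rw [AlgEquiv.mul_apply, ← h x hx]
      exact σ.symm_apply_apply x
    have h2 := hu σ (σ⁻¹ * τ)
    rwa [mul_inv_cancel_left, h1, map_one, mul_one] at h2
  let χ : (L →ₐ[ℚ] Qb) → (L →* Qb) := fun g => g.toRingHom.toMonoidHom
  have hχ : Function.Injective χ := fun g g' h => AlgHom.ext fun x => DFunLike.congr_fun h x
  obtain ⟨a, ha⟩ : ∃ a : L, ∑ g : L →ₐ[ℚ] Qb, u (s g) * g a ≠ 0 := by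
    by_contra hcon
    push Not at hcon
    have hsum : ∑ g : L →ₐ[ℚ] Qb, u (s g) • ⇑(χ g) = 0 := by
      funext a
      rw [Finset.sum_apply]
      exact hcon a
    exact hu0 _ (Fintype.linearIndependent_iff.mp
      ((linearIndependent_monoidHom L Qb).comp χ hχ) _ hsum L.val)
  set β := ∑ g : L →ₐ[ℚ] Qb, u (s g) * g a
  refine ⟨β⁻¹, inv_ne_zero ha, fun σ => ?_⟩
  have key : u σ * σ β = β := by
    rw [map_sum, Finset.mul_sum]
    refine Fintype.sum_equiv
      ⟨fun g => (σ : Qb →ₐ[ℚ] Qb).comp g, fun g => (σ.symm : Qb →ₐ[ℚ] Qb).comp g,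
        fun g => AlgHom.ext fun x => σ.symm_apply_apply _,
        fun g => AlgHom.ext fun x => σ.apply_symm_apply _⟩ _ _ fun g => ?_
    have e : u (s ((σ : Qb →ₐ[ℚ] Qb).comp g)) = u (σ * s g) :=
      hwell _ _ fun x hx => by
        rw [AlgEquiv.mul_apply]
        exact (congrArg σ (hs g ⟨x, hx⟩)).trans (hs ((σ : Qb →ₐ[ℚ] Qb).comp g) ⟨x, hx⟩).symm
    show u σ * σ (u (s g) * g a) = u (s _) * σ (g a)
    rw [map_mul, ← mul_assoc, ← hu σ (s g), ← e]
    rfl
  have hσ : σ β ≠ 0 := (_root_.map_ne_zero σ).mpr ha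
  rw [map_inv₀, div_inv_eq_mul, ← div_eq_inv_mul, eq_div_iff hσ]
  exact key

/-- elements fixed by inertia have values in the group generated by the prime -/
theorem val_of_fixed {V : ValuationSubring Qb} {ℓ : ℕ} (hℓ : ℓ.Prime) (hV : V.LiesOverPrime ℓ)
    {y : Qb} (hy : y ≠ 0) (h : ∀ τ ∈ V.inertiaSubgroupIn ℚ, τ y = y) :
    ∃ i : ℤ, V.valuation y = V.valuation (ℓ : Qb) ^ i :=
  SS2.exists_zpow_valuation_T hℓ hV (SS2.mem_inertiaFixed.mpr h) hy

theorem valuation_natCast_eq {V : ValuationSubring Qb} {ℓ : ℕ} (hℓ : ℓ.Prime)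
    (hV : V.LiesOverPrime ℓ) {N : ℕ} (hN : N ≠ 0) :
    V.valuation (N : Qb) = V.valuation (ℓ : Qb) ^ (N.factorization ℓ) := by
  conv_lhs => rw [← Nat.ordProj_mul_ordCompl_eq_self N ℓ]
  rw [Nat.cast_mul, map_mul, Nat.cast_pow, map_pow]
  have h1 : V.valuation ((N / ℓ ^ N.factorization ℓ : ℕ) : Qb) = 1 := by
    refine le_antisymm ((V.valuation_le_one_iff _).mpr (natCast_mem V _)) (not_lt.mp fun hlt => ?_)
    exact Nat.not_dvd_ordCompl hℓ hN (SS2.dvd_of_valuation_natCast_lt hℓ hV hlt)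
  rw [h1, mul_one]

theorem exists_pow_eq_of_dvd_factorization {N r : ℕ} (hN : N ≠ 0)
    (h : ∀ ℓ : ℕ, ℓ.Prime → r ∣ N.factorization ℓ) : ∃ k : ℕ, k ^ r = N := by
  refine ⟨N.factorization.prod fun ℓ e => ℓ ^ (e / r), ?_⟩
  conv_rhs => rw [← Nat.prod_factorization_pow_eq_self hN]
  rw [Finsupp.prod, Finsupp.prod, ← Finset.prod_pow]
  refine Finset.prod_congr rfl fun ℓ hℓ => ?_
  rw [← pow_mul, Nat.div_mul_cancel (h ℓ ?_)]
  exact Nat.prime_of_mem_primeFactors (Nat.support_factorization N ▸ hℓ)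

/-- an `r`-th root of a rational whose values are all `r`-th powers, up to rationals -/
theorem exists_root_two_mul {r : ℕ} (hr : r.Prime) {b : Qb} (hb : b ≠ 0)
    (hroot : ∀ σ : GalQ, (σ b / b) ^ r = 1)
    (hval : ∀ ℓ : ℕ, ℓ.Prime → ∃ V : ValuationSubring Qb, V.LiesOverPrime ℓ ∧
      ∃ i : ℤ, V.valuation b = V.valuation (ℓ : Qb) ^ i) :
    ∃ x : Qb, x ^ (2 * r) = 1 ∧ ∀ σ : GalQ, σ b / b = σ x / x := by
  haveI := Common.isGalois_qbar
  obtain ⟨a, ha⟩ := (InfiniteGalois.mem_range_algebraMap_iff_fixed (k := ℚ) (b ^ r)).mpr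
    fun σ => by
      have h := hroot σ
      rw [div_pow, div_eq_one_iff_eq (pow_ne_zero _ hb)] at h
      rw [map_pow]
      exact h
  set d : Qb := (a.den : Qb) with hd
  have hd0 : d ≠ 0 := Nat.cast_ne_zero.mpr a.den_ne_zero
  set Z : ℤ := a.num * (a.den : ℤ) ^ (r - 1) with hZ
  have hbd : (b * d) ^ r = (Z : Qb) := by
    have h1 : (a.num : Qb) = algebraMap ℚ Qb a * d := by
      rw [← map_intCast (algebraMap ℚ Qb), hd, ← map_natCast (algebraMap ℚ Qb), ← map_mul,
        Rat.mul_den_eq_num]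
    rw [mul_pow, ← ha, hZ, Int.cast_mul, Int.cast_pow, Int.cast_natCast, h1, mul_assoc, ← hd,
      ← pow_succ', Nat.sub_add_cancel hr.one_le]
  have hZ0 : Z ≠ 0 := fun h => by
    rw [h, Int.cast_zero] at hbd
    exact pow_ne_zero _ (mul_ne_zero hb hd0) hbd
  have hN0 : Z.natAbs ≠ 0 := Int.natAbs_ne_zero.mpr hZ0
  have hsign : (Z : Qb) = (Z.natAbs : Qb) ∨ (Z : Qb) = -(Z.natAbs : Qb) := by
    rcases Int.natAbs_eq Z with h | h
    · left; conv_lhs => rw [h]
      rw [Int.cast_natCast]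
    · right; conv_lhs => rw [h]
      rw [Int.cast_neg, Int.cast_natCast]
  obtain ⟨k, hk⟩ := exists_pow_eq_of_dvd_factorization (r := r) hN0 fun ℓ hℓ => by
    obtain ⟨V, hV, i, hi⟩ := hval ℓ hℓ
    have hl1 : V.valuation (ℓ : Qb) < 1 := Reduction.valuation_ell_lt_one V hV
    have hl0 : 0 < V.valuation (ℓ : Qb) :=
      zero_lt_iff.mpr ((Valuation.ne_zero_iff _).mpr (Nat.cast_ne_zero.mpr hℓ.ne_zero))
    have e : V.valuation (Z.natAbs : Qb) = V.valuation (b * d) ^ r := by
      rw [← map_pow, hbd]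
      rcases hsign with h | h <;> rw [h]
      rw [Valuation.map_neg]
    rw [valuation_natCast_eq hℓ hV hN0, map_mul, hd, valuation_natCast_eq hℓ hV a.den_ne_zero, hi,
      ← zpow_natCast, ← zpow_natCast (V.valuation (ℓ : Qb)) (a.den.factorization ℓ),
      ← zpow_add₀ hl0.ne', ← zpow_natCast _ r, ← zpow_mul] at e
    have h2 := (zpow_right_inj₀ hl0 hl1.ne).mp e
    exact Int.natCast_dvd_natCast.mp ⟨i + (a.den.factorization ℓ : ℤ), by rw [h2]; ring⟩
  have hk0 : (k : Qb) ≠ 0 := by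
    rintro h
    rw [Nat.cast_eq_zero] at h
    rw [h, zero_pow hr.ne_zero] at hk
    exact hN0 hk.symm
  refine ⟨b * d / k, ?_, fun σ => ?_⟩
  · rw [mul_comm 2 r, pow_mul, div_pow, hbd, ← Nat.cast_pow, hk]
    have hN : (Z.natAbs : Qb) ≠ 0 := Nat.cast_ne_zero.mpr hN0
    rcases hsign with h | h <;> rw [h]
    · rw [div_self hN, one_pow]
    · rw [neg_div, div_self hN, neg_one_sq]
  · have hσb : σ b ≠ 0 := (_root_.map_ne_zero σ).mpr hb
    rw [map_div₀, map_mul, hd, map_natCast, map_natCast]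
    field_simp

/-- if inertia at a place over `r` fixes the `r`-th roots of unity then `r = 2` -/
theorem eq_two_of_inertia_fixes {A : ValuationSubring Qb} {r : ℕ} (hr : r.Prime)
    (hA : A.LiesOverPrime r) {ζ : Qb} (hζ : IsPrimitiveRoot ζ r)
    (h : ∀ τ ∈ A.inertiaSubgroupIn ℚ, τ ζ = ζ) : r = 2 := by
  haveI := Fact.mk hr
  haveI : NeZero r := ⟨hr.ne_zero⟩
  have C : Reduction.Ctx A 1 r := ⟨hr, hr.not_dvd_one, hA⟩
  let z : SS2.PR r := ⟨ζ, (mem_primitiveRoots hr.pos).mpr hζ⟩
  have hz0 : (1 : Qb) - ζ ≠ 0 := sub_ne_zero.mpr (hζ.ne_one hr.one_lt).symm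
  obtain ⟨i, hi⟩ := val_of_fixed hr hA hz0 fun τ hτ => by rw [map_sub, map_one, h τ hτ]
  have hpow : A.valuation (1 - ζ) ^ (r - 1) = A.valuation (r : Qb) :=
    SS2.valuation_one_sub_pow C z
  have hl1 : A.valuation (r : Qb) < 1 := Reduction.valuation_ell_lt_one A hA
  have hl0 : 0 < A.valuation (r : Qb) :=
    zero_lt_iff.mpr ((Valuation.ne_zero_iff _).mpr (Nat.cast_ne_zero.mpr hr.ne_zero))
  have h1 : A.valuation (r : Qb) ^ (i * ((r - 1 : ℕ) : ℤ)) = A.valuation (r : Qb) ^ (1 : ℤ) := by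
    rw [zpow_mul, zpow_natCast, ← hi, hpow, zpow_one]
  have h2 := (zpow_right_inj₀ hl0 hl1.ne).mp h1
  have h3 : ((r - 1 : ℕ) : ℤ) = 1 :=
    Int.eq_one_of_mul_eq_one_left (Int.natCast_nonneg _) h2
  have h4 : r - 1 = 1 := by exact_mod_cast h3
  omega

theorem exists_cycExponent {n : ℕ} [NeZero n] (τ : GalQ) :
    ∃ a : ℕ, ∀ ζ : Qb, ζ ^ n = 1 → τ ζ = ζ ^ a := by
  haveI : NeZero (n : Qb) := ⟨Nat.cast_ne_zero.mpr (NeZero.ne n)⟩
  obtain ⟨z, hz⟩ := HasEnoughRootsOfUnity.exists_primitiveRoot Qb n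
  obtain ⟨a, -, ha⟩ := hz.eq_pow_of_pow_eq_one (ξ := τ z) (by
    rw [← map_pow, hz.pow_eq_one, map_one])
  refine ⟨a, fun ζ hζ => ?_⟩
  obtain ⟨i, -, rfl⟩ := hz.eq_pow_of_pow_eq_one hζ
  rw [map_pow, ← ha, ← pow_mul, ← pow_mul, mul_comm]

/-! ### modules -/

variable {M : Type} [AddCommGroup M] [DistribMulAction GalQ M]

theorem exists_extendUnits (N : AddSubgroup M) (f : N →+ Additive Qbˣ) :
    ∃ g : M →+ Additive Qbˣ, ∀ x : N, g (x : M) = f x := by
  have hroot : ∀ {n : ℕ}, n ≠ 0 → Function.Surjective fun a : Qbˣ => a ^ n := by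
    intro n hn u
    obtain ⟨y, hy⟩ := IsAlgClosed.exists_pow_nat_eq (u : Qb) (Nat.pos_of_ne_zero hn)
    have hy0 : y ≠ 0 := fun h => by
      rw [h, zero_pow hn] at hy
      exact u.ne_zero hy.symm
    exact ⟨Units.mk0 y hy0, Units.ext (by simpa using hy)⟩
  letI : RootableBy Qbˣ ℕ := rootableByOfPowLeftSurj Qbˣ ℕ hroot
  letI : RootableBy Qbˣ ℤ := Group.rootableByIntOfRootableByNat Qbˣ
  letI : DivisibleBy (Additive Qbˣ) ℤ :=
    { div := fun a n => Additive.ofMul (RootableBy.root (Additive.toMul a) n)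
      div_zero := fun a => congrArg Additive.ofMul (RootableBy.root_zero _)
      div_cancel := fun {n} a hn => congrArg Additive.ofMul
        (RootableBy.root_cancel (Additive.toMul a) hn) }
  obtain ⟨g, hg⟩ := Module.Baer.extension_property_addMonoidHom
    (Module.Baer.of_divisible (A := Additive Qbˣ)) N.subtype Subtype.val_injective f
  exact ⟨g, fun x => DFunLike.congr_fun hg x⟩

/-- the action on a stable subgroup -/
@[reducible] def subAct (N : AddSubgroup M) (hN : ∀ (σ : GalQ), ∀ m ∈ N, σ • m ∈ N) :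
    DistribMulAction GalQ N where
  smul σ x := ⟨σ • (x : M), hN σ x x.2⟩
  one_smul x := Subtype.ext (one_smul GalQ (x : M))
  mul_smul σ τ x := Subtype.ext (mul_smul σ τ (x : M))
  smul_zero σ := Subtype.ext (smul_zero σ)
  smul_add σ x y := Subtype.ext (smul_add σ (x : M) (y : M))

/-- the action on the quotient -/
@[reducible] def quotAct (N : AddSubgroup M) (hN : ∀ (σ : GalQ), ∀ m ∈ N, σ • m ∈ N) :
    DistribMulAction GalQ (M ⧸ N) where
  smul σ := QuotientAddGroup.map N N (DistribSMul.toAddMonoidHom M σ) fun m hm => hN σ m hm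
  one_smul x := by
    induction x using QuotientAddGroup.induction_on with
    | _ m => exact congrArg QuotientAddGroup.mk (one_smul GalQ m)
  mul_smul σ τ x := by
    induction x using QuotientAddGroup.induction_on with
    | _ m => exact congrArg QuotientAddGroup.mk (mul_smul σ τ m)
  smul_zero σ := map_zero _
  smul_add σ x y := map_add _ x y

/-- pairs of a cocycle and a trivialisation on inertia at `B` -/
def bdryPairs (B : ValuationSubring Qb) (F : AddSubgroup (GalQ → M)) :
    AddSubgroup ((GalQ → M) × M) where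
  carrier := {x | x.1 ∈ F ∧ ∀ τ ∈ B.inertiaSubgroupIn ℚ, x.1 τ = τ • x.2 - x.2}
  zero_mem' := ⟨F.zero_mem, fun τ _ => by simp⟩
  add_mem' := fun {x y} hx hy => ⟨F.add_mem hx.1 hy.1, fun τ hτ => by
    simp only [Prod.fst_add, Prod.snd_add, Pi.add_apply, hx.2 τ hτ, hy.2 τ hτ, smul_add]
    abel⟩
  neg_mem' := fun {x} hx => ⟨F.neg_mem hx.1, fun τ hτ => by
    simp only [Prod.fst_neg, Prod.snd_neg, Pi.neg_apply, hx.2 τ hτ, smul_neg]
    abel⟩

theorem finite_bdryPairs [Finite M] (B : ValuationSubring Qb) (F : AddSubgroup (GalQ → M)) [Finite F] :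
    Finite (bdryPairs B F) :=
  Finite.of_injective (fun x : bdryPairs B F => ((⟨x.1.1, x.2.1⟩ : F), x.1.2)) fun x y h => by
    have h1 := congrArg (fun z : F × M => (z.1 : GalQ → M)) h
    have h2 := congrArg Prod.snd h
    exact Subtype.ext (Prod.ext h1 h2)

theorem card_bdryPairs (B : ValuationSubring Qb) (F : AddSubgroup (GalQ → M))
    (hF : ∀ c ∈ F, BdryAt B c) :
    Nat.card (bdryPairs B F) = Nat.card F * Nat.card (inertiaInv M B) := by
  let ψ : bdryPairs B F →+ F :=
    { toFun := fun x => ⟨x.1.1, x.2.1⟩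
      map_zero' := rfl
      map_add' := fun _ _ => rfl }
  have hψ : Function.Surjective ψ := fun c => by
    obtain ⟨m, hm⟩ := hF c c.2
    exact ⟨⟨((c : GalQ → M), m), c.2, hm⟩, rfl⟩
  rw [AddSubgroup.card_eq_card_quotient_mul_card_addSubgroup ψ.ker,
    Nat.card_congr (QuotientAddGroup.quotientKerEquivOfSurjective ψ hψ).toEquiv]
  congr 1
  refine Nat.card_congr
    { toFun := fun x => ⟨x.1.1.2, fun τ hτ => ?_⟩
      invFun := fun m => ⟨⟨((0 : GalQ → M), (m : M)), F.zero_mem, fun τ hτ => by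
        rw [m.2 τ hτ, sub_self]; rfl⟩, Subtype.ext rfl⟩
      left_inv := fun x => Subtype.ext (Subtype.ext (Prod.ext ?_ rfl))
      right_inv := fun m => rfl }
  · have h0 : x.1.1.1 = 0 := congrArg Subtype.val x.2
    have := x.1.2.2 τ hτ
    rw [h0, Pi.zero_apply] at this
    exact sub_eq_zero.mp this.symm
  · exact (congrArg Subtype.val x.2).symm

variable {p r : ℕ} {A B : ValuationSubring Qb}

theorem cocycle_apply_one {c : GalQ → M} (hc : IsCocycle c) : c 1 = 0 := by
  have := hc 1 1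
  rw [mul_one, one_smul, left_eq_add] at this
  exact this

set_option maxHeartbeats 2000000 in
/-- the two simple cases -/
theorem descentBound_simple (hp : p.Prime) (hB : B.LiesOverPrime p) {M0 : AddSubgroup M}
    (H : Hyp M p r A M0) (hcard : Nat.card M = r) : DescentBound M p r A B M0 := by
  classical
  intro F hFfin hF
  haveI := H.finite
  have hr := H.hr
  haveI := Fact.mk hr
  haveI : NeZero r := ⟨hr.ne_zero⟩
  haveI : NeZero (r : Qb) := ⟨Nat.cast_ne_zero.mpr hr.ne_zero⟩
  haveI : Nontrivial M := Finite.one_lt_card_iff_nontrivial.mp (hcard ▸ hr.one_lt)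
  obtain ⟨m, hm0, hrm, htype⟩ := H.constituents ⊥ (fun σ x hx => by
    rw [AddSubgroup.mem_bot] at hx ⊢; rw [hx, smul_zero]) bot_ne_top
  rw [AddSubgroup.mem_bot] at hm0 hrm
  obtain ⟨ζ, hζ⟩ := HasEnoughRootsOfUnity.exists_primitiveRoot Qb r
  set ζA : Additive Qbˣ := Additive.ofMul (Units.mk0 ζ (hζ.ne_zero hr.ne_zero)) with hζA
  have hrζ : (r : ℤ) • ζA = 0 := by
    rw [natCast_zsmul, hζA, ← ofMul_pow]
    exact congrArg Additive.ofMul (Units.ext (by simpa using hζ.pow_eq_one))
  -- the identification with the roots of unity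
  let g : ZMod r →+ M := ZMod.lift r ⟨zmultiplesHom M m, by
    rw [zmultiplesHom_apply, natCast_zsmul, hrm]⟩
  have hg1 : g 1 = m := by
    simpa using ZMod.lift_coe r ⟨zmultiplesHom M m, _⟩ (1 : ℤ)
  have hginj : Function.Injective g := by
    refine (injective_iff_map_eq_zero g).mpr fun x hx => ?_
    by_contra hx0
    apply hm0
    rw [← hg1, show (1 : ZMod r) = (x⁻¹).val • x by
      rw [nsmul_eq_mul, ZMod.natCast_val, ZMod.cast_id, inv_mul_cancel₀ hx0], map_nsmul, hx,
      smul_zero]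
  have hgbij : Function.Bijective g :=
    (Nat.bijective_iff_injective_and_card g).mpr ⟨hginj, by rw [Nat.card_zmod, hcard]⟩
  let ψ : ZMod r →+ Additive Qbˣ := ZMod.lift r ⟨zmultiplesHom _ ζA, by
    rw [zmultiplesHom_apply, hrζ]⟩
  have hψ1 : ψ 1 = ζA := by
    simpa using ZMod.lift_coe r ⟨zmultiplesHom (Additive Qbˣ) ζA, _⟩ (1 : ℤ)
  let f0 : M →+ Additive Qbˣ := ψ.comp (AddEquiv.ofBijective g hgbij).symm.toAddMonoidHom
  have hf0m : f0 m = ζA := by
    have : (AddEquiv.ofBijective g hgbij).symm m = 1 := by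
      rw [AddEquiv.symm_apply_eq]; exact hg1.symm
    show ψ _ = _
    rw [show (AddEquiv.ofBijective g hgbij).symm.toAddMonoidHom m = 1 from this, hψ1]
  let F0 : M → Qb := fun x => ((Additive.toMul (f0 x) : Qbˣ) : Qb)
  have F0_add : ∀ x y, F0 (x + y) = F0 x * F0 y := fun x y => by
    simp only [F0, map_add, toMul_add, Units.val_mul]
  have F0_zero : F0 0 = 1 := by simp [F0]
  have F0_nsmul : ∀ (n : ℕ) x, F0 (n • x) = F0 x ^ n := fun n x => by
    simp only [F0, map_nsmul, toMul_nsmul, Units.val_pow_eq_pow_val]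
  have F0_m : F0 m = ζ := by simp only [F0, hf0m, hζA, toMul_ofMul, Units.val_mk0]
  have hmul : ∀ x : M, ∃ k : ℕ, x = k • m := by
    intro x
    obtain ⟨y, rfl⟩ := hgbij.2 x
    refine ⟨y.val, ?_⟩
    rw [← hg1, ← map_nsmul, nsmul_eq_mul, mul_one, ZMod.natCast_val, ZMod.cast_id]
  have F0_inj : Function.Injective F0 := by
    intro x y hxy
    obtain ⟨i, rfl⟩ := hmul x
    obtain ⟨j, rfl⟩ := hmul y
    rw [F0_nsmul, F0_nsmul, F0_m, IsOfFinOrder.pow_eq_pow_iff_modEq
      (isOfFinOrder_iff_pow_eq_one.mpr ⟨r, hr.pos, hζ.pow_eq_one⟩), ← hζ.eq_orderOf] at hxy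
    rw [← hg1, ← map_nsmul, ← map_nsmul]
    congr 1
    rw [nsmul_eq_mul, nsmul_eq_mul, mul_one, mul_one]
    exact (ZMod.natCast_eq_natCast_iff _ _ r).mpr hxy
  have F0_root : ∀ x, F0 x ^ r = 1 := fun x => by
    obtain ⟨k, rfl⟩ := hmul x
    rw [F0_nsmul, F0_m, ← pow_mul, mul_comm, pow_mul, hζ.pow_eq_one, one_pow]
  have F0_ne : ∀ x, F0 x ≠ 0 := fun x => Units.ne_zero _
  have hr1m : ∀ x : M, r ^ 1 • x = 0 := fun x => by
    obtain ⟨k, rfl⟩ := hmul x
    rw [pow_one, smul_comm, hrm, smul_zero]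
  have hsmul_m : ∀ σ : GalQ, σ • m = m → ∀ x : M, σ • x = x := fun σ h x => by
    obtain ⟨k, rfl⟩ := hmul x
    rw [smul_comm, h]
  have htype' : (∀ (σ : GalQ) (x : M), σ • x = x) ∨
      ∀ (σ : GalQ) (a : ℕ), (∀ z : Qb, z ^ r = 1 → σ z = z ^ a) → ∀ x : M, σ • x = a • x := by
    rcases htype with h | h
    · exact Or.inl fun σ => hsmul_m σ (sub_eq_zero.mp (AddSubgroup.mem_bot.mp (h σ)))
    · refine Or.inr fun σ a ha x => ?_
      obtain ⟨k, rfl⟩ := hmul x
      rw [smul_comm σ k m, sub_eq_zero.mp (AddSubgroup.mem_bot.mp (h σ a ha)), smul_comm]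
  -- sub-groups of a group of prime order
  have hM0 : M0 = ⊥ ∨ M0 = ⊤ := by
    rcases (Nat.dvd_prime hr).mp (hcard ▸ M0.card_addSubgroup_dvd_card) with h | h
    · exact Or.inl (AddSubgroup.card_eq_one.mp h)
    · exact Or.inr (AddSubgroup.card_eq_iff_eq_top M0 |>.mp (h.trans hcard.symm))
  have hfix : ∀ (τ : GalQ) (a : ℕ), (∀ z : Qb, z ^ r = 1 → τ z = z ^ a) → a • m = m →
      τ ζ = ζ := fun τ a ha h => by
    rw [ha ζ hζ.pow_eq_one, ← F0_m, ← F0_nsmul, h]
  have htwo : r = 2 → ∀ (σ : GalQ) (a : ℕ), (∀ z : Qb, z ^ r = 1 → σ z = z ^ a) → a • m = m :=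
    fun h2 σ a ha => by
      refine F0_inj ?_
      rw [F0_nsmul, F0_m, ← ha ζ hζ.pow_eq_one,
        (show IsPrimitiveRoot ζ 2 from h2 ▸ hζ).eq_neg_one_of_two_right, map_neg, map_one]
  have hI : Nat.card (inertiaInv M B) ≤ r := hcard ▸ AddSubgroup.card_le_card_addGroup _
  rcases hM0 with rfl | rfl
  · -- trivial action, unramified everywhere
    have htriv : ∀ (σ : GalQ) (x : M), σ • x = x := by
      rcases htype' with h | h
      · exact h
      · have h2 : r = 2 := eq_two_of_inertia_fixes hr H.hA hζ fun τ hτ => by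
          obtain ⟨a, ha⟩ := exists_cycExponent (n := r) τ
          refine hfix τ a ha ?_
          rw [← h τ a ha m]
          exact sub_eq_zero.mp (AddSubgroup.mem_bot.mp ((H.conn m).1 τ hτ))
        intro σ x
        obtain ⟨a, ha⟩ := exists_cycExponent (n := r) σ
        obtain ⟨k, rfl⟩ := hmul x
        rw [h σ a ha, smul_comm, htwo h2 σ a ha]
    have hF0 : ∀ c ∈ F, c = 0 := by
      intro c hc
      have hS := hF c hc
      obtain ⟨L, hL, hLc⟩ := hS.smooth
      haveI := hL
      let χ : GalQ →* Multiplicative M :=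
        { toFun := fun σ => Multiplicative.ofAdd (c σ)
          map_one' := by rw [cocycle_apply_one hS.cocycle]; rfl
          map_mul' := fun σ τ => by rw [hS.cocycle σ τ, htriv]; rfl }
      have hI' : ∀ q : ℕ, q.Prime → ∀ V : ValuationSubring Qb, V.LiesOverPrime q →
          ∀ σ ∈ V.inertiaSubgroupIn ℚ, χ σ = 1 := by
        intro q hq V hV σ hσ
        rcases eq_or_ne q p with rfl | hqp
        · refine MonoidHom.mem_ker.mp
            (Common.inertia_le_of_inertia_le (H := χ.ker) hq hB hV (fun τ hτ => ?_) hσ)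
          obtain ⟨x, hx⟩ := hS.bdry
          rw [MonoidHom.mem_ker]
          show Multiplicative.ofAdd (c τ) = 1
          rw [hx τ hτ, htriv, sub_self]
          rfl
        rcases eq_or_ne q r with rfl | hqr
        · refine MonoidHom.mem_ker.mp
            (Common.inertia_le_of_inertia_le (H := χ.ker) hq H.hA hV (fun τ hτ => ?_) hσ)
          rw [MonoidHom.mem_ker]
          show Multiplicative.ofAdd (c τ) = 1
          rw [AddSubgroup.mem_bot.mp (hS.unit.1 τ hτ)]
          rfl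
        · show Multiplicative.ofAdd (c σ) = 1
          rw [hS.unram q hq hqp hqr V hV σ hσ]
          rfl
      funext σ
      exact Common.hom_eq_one_of_unramified χ L
        (fun τ hτ => by
          show Multiplicative.ofAdd (c τ) = 1
          rw [hLc τ ((IntermediateField.mem_fixingSubgroup_iff L τ).mp hτ)]; rfl) hI' σ
    have hFc : Nat.card F = 1 := by
      haveI : Subsingleton F := ⟨fun a b => Subtype.ext ((hF0 a a.2).trans (hF0 b b.2).symm)⟩
      exact Nat.card_unique
    rw [hFc, one_mul, hcard]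
    exact Nat.mul_le_mul (hcard ▸ Nat.card_le_card_of_surjective _ QuotientAddGroup.mk_surjective) hI
  · -- cyclotomic
    have hchi : ∀ (σ : GalQ) (a : ℕ), (∀ z : Qb, z ^ r = 1 → σ z = z ^ a) →
        ∀ x : M, σ • x = a • x := by
      rcases htype' with h | h
      · have h2 : r = 2 := eq_two_of_inertia_fixes hr H.hA hζ fun τ hτ => by
          obtain ⟨a, ha⟩ := exists_cycExponent (n := r) τ
          refine hfix τ a ha ?_
          rw [← H.cyclo 1 hr1m τ hτ a (by rwa [pow_one]) m (AddSubgroup.mem_top m), h τ m]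
        intro σ a ha x
        obtain ⟨k, rfl⟩ := hmul x
        rw [h σ, smul_comm, htwo h2 σ a ha]
      · exact h
    have F0_equiv : ∀ (σ : GalQ) (x : M), F0 (σ • x) = σ (F0 x) := fun σ x => by
      obtain ⟨a, ha⟩ := exists_cycExponent (n := r) σ
      rw [hchi σ a ha x, F0_nsmul, ha _ (F0_root x)]
    have key : ∀ c ∈ F, ∃ z : Qb, z ^ (2 * r) = 1 ∧ ∀ σ, F0 (c σ) = σ z / z := by
      intro c hc
      have hS := hF c hc
      obtain ⟨L, hL, hLc⟩ := hS.smooth
      haveI := hL
      obtain ⟨b, hb, hcb⟩ := exists_hilbert90 (fun σ => F0 (c σ))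
        (fun σ τ => by rw [hS.cocycle σ τ, F0_add, F0_equiv]) (fun σ => F0_ne _) L
        (fun σ hσ => by rw [hLc σ hσ, F0_zero])
      obtain ⟨z, hz, hzb⟩ := exists_root_two_mul hr hb (fun σ => by rw [← hcb σ]; exact F0_root _)
        fun q hq => by
          by_cases hqp : q = p
          · subst hqp
            refine ⟨B, hB, ?_⟩
            obtain ⟨x, hx⟩ := hS.bdry
            obtain ⟨i, hi⟩ := val_of_fixed hq hB (div_ne_zero hb (F0_ne x)) fun τ hτ => by
              have h1 : F0 (c τ) * F0 x = τ (F0 x) := by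
                rw [← F0_add, hx τ hτ, sub_add_cancel, F0_equiv]
              rw [hcb τ] at h1
              have hne : τ b ≠ 0 := (_root_.map_ne_zero τ).mpr hb
              have hne' := F0_ne x
              rw [map_div₀, ← h1]
              field_simp
            have hv : B.valuation (F0 x) = 1 :=
              (pow_eq_one_iff_left hr.ne_zero).mp (by rw [← map_pow, F0_root, map_one])
            exact ⟨i, by rwa [map_div₀, hv, div_one] at hi⟩
          by_cases hqr : q = r
          · subst hqr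
            refine ⟨A, H.hA, ?_⟩
            obtain ⟨u, hu, hu', hur⟩ := hS.unit.2 f0
            obtain ⟨i, hi⟩ := val_of_fixed hq H.hA (div_ne_zero hb u.ne_zero) fun τ hτ => by
              have h1 : τ (u : Qb) / u = τ b / b := (hur τ hτ).symm.trans (hcb τ)
              have hne : τ b ≠ 0 := (_root_.map_ne_zero τ).mpr hb
              have hne' : τ (u : Qb) ≠ 0 := (_root_.map_ne_zero τ).mpr u.ne_zero
              rw [div_eq_div_iff u.ne_zero hb] at h1
              rw [map_div₀, div_eq_div_iff hne' u.ne_zero]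
              linear_combination -h1
            have hv : A.valuation (u : Qb) = 1 := by
              refine le_antisymm ((A.valuation_le_one_iff _).mpr hu) ?_
              have := (A.valuation_le_one_iff _).mpr hu'
              rwa [Units.val_inv_eq_inv_val, map_inv₀, inv_le_one₀ (zero_lt_iff.mpr
                ((Valuation.ne_zero_iff _).mpr u.ne_zero))] at this
            exact ⟨i, by rwa [map_div₀, hv, div_one] at hi⟩
          · obtain ⟨V, hV⟩ := exists_place hq
            refine ⟨V, hV, val_of_fixed hq hV hb fun τ hτ => ?_⟩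
            have h1 := hcb τ
            rw [show c τ = 0 from hS.unram q hq hqp hqr V hV τ hτ, F0_zero,
              eq_div_iff hb, one_mul] at h1
            exact h1.symm
      exact ⟨z, hz, fun σ => (hcb σ).trans (hzb σ)⟩
    choose z hz hzc using key
    set S := Polynomial.nthRootsFinset (2 * r) (1 : Qb) with hS
    have hSmem : ∀ x : Qb, x ^ (2 * r) = 1 → x ∈ S := fun x hx =>
      (Polynomial.mem_nthRootsFinset (Nat.mul_pos two_pos hr.pos) 1).mpr hx
    let pm : F × Bool → S := fun cb =>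
      ⟨if cb.2 then z cb.1 cb.1.2 else -z cb.1 cb.1.2, hSmem _ (by
        split_ifs
        · exact hz _ _
        · rw [(even_two_mul r).neg_pow]; exact hz _ _)⟩
    have hpm : Function.Injective pm := by
      rintro ⟨c, e⟩ ⟨c', e'⟩ h
      have h1 : ∀ σ : GalQ, σ (z c c.2) / z c c.2 = σ (z c' c'.2) / z c' c'.2 := fun σ => by
        have h2 := congrArg (fun w : S => σ (w : Qb) / (w : Qb)) h
        cases e <;> cases e' <;> simpa [pm, map_neg, neg_div_neg_eq, neg_div, div_neg] using h2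
      have hcc : c = c' := Subtype.ext (funext fun σ => F0_inj (by
        rw [hzc c c.2, hzc c' c'.2, h1]))
      subst hcc
      refine Prod.ext rfl ?_
      have h2 := congrArg Subtype.val h
      have hz0 : z c c.2 ≠ 0 := fun h0 => by
        have := hz c c.2
        rw [h0, zero_pow (mul_ne_zero two_ne_zero hr.ne_zero)] at this
        exact zero_ne_one this
      cases e <;> cases e' <;> first
        | rfl
        | (exfalso
           simp only [pm, if_true, if_false, Bool.false_eq_true, ↓reduceIte] at h2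
           exact hz0 (by linear_combination (1 / 2 : Qb) * h2))
        | (exfalso
           simp only [pm, if_true, if_false, Bool.false_eq_true, ↓reduceIte] at h2
           exact hz0 (by linear_combination (-1 / 2 : Qb) * h2))
    haveI := hFfin
    have h2F : Nat.card F * 2 ≤ 2 * r := by
      have h1 := Nat.card_le_card_of_injective pm hpm
      rw [Nat.card_prod, Nat.card_eq_fintype_card (α := Bool), Fintype.card_bool,
        Nat.card_eq_finsetCard] at h1
      exact h1.trans ((Polynomial.nthRoots (2 * r) (1 : Qb)).toFinset_card_le.trans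
        (Polynomial.card_nthRoots _ _) |> (le_of_eq (by rw [hS, Polynomial.nthRootsFinset_def])).trans)
    rw [← AddSubgroup.index, AddSubgroup.index_top, mul_one, hcard]
    exact Nat.mul_le_mul (by omega) hI

set_option maxHeartbeats 2000000 in
theorem descentBound_aux (hp : p.Prime) (hB : B.LiesOverPrime p) (n : ℕ) :
    ∀ (M : Type) [AddCommGroup M] [DistribMulAction GalQ M] (M0 : AddSubgroup M),
      Hyp M p r A M0 → Nat.card M = n → DescentBound M p r A B M0 := by
  classical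
  induction n using Nat.strong_induction_on with
  | _ n ih =>
  intro M _ _ M0 H hn
  haveI := H.finite
  have hr := H.hr
  rcases subsingleton_or_nontrivial M with hM | hM
  · intro F _ _
    haveI : Subsingleton (GalQ → M) := inferInstance
    haveI : Subsingleton F := inferInstance
    haveI : Subsingleton (M ⧸ M0) :=
      (QuotientAddGroup.mk_surjective (s := M0)).subsingleton
    rw [Nat.card_of_subsingleton (0 : F), Nat.card_of_subsingleton (0 : M ⧸ M0),
      Nat.card_of_subsingleton (0 : inertiaInv M B), Nat.card_of_subsingleton (0 : M)]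
  obtain ⟨m, hm0, hrm, htype⟩ := H.constituents ⊥ (fun σ x hx => by
    rw [AddSubgroup.mem_bot] at hx ⊢; rw [hx, smul_zero]) bot_ne_top
  rw [AddSubgroup.mem_bot] at hm0 hrm
  set M' := AddSubgroup.zmultiples m with hM'
  have hord : addOrderOf m = r := by
    haveI := Fact.mk hr
    exact addOrderOf_eq_prime hrm hm0
  have hM'card : Nat.card M' = r := by rw [hM', Nat.card_zmultiples, hord]
  by_cases htop : M' = ⊤
  · refine descentBound_simple hp hB H ?_
    rw [← hM'card, htop, AddSubgroup.card_top]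
  have hstab : ∀ σ : GalQ, ∀ x ∈ M', σ • x ∈ M' := by
    intro σ x hx
    obtain ⟨k, rfl⟩ := AddSubgroup.mem_zmultiples_iff.mp hx
    rw [smul_comm]
    refine M'.zsmul_mem ?_ k
    rcases htype with h | h
    · rw [sub_eq_zero.mp (AddSubgroup.mem_bot.mp (h σ))]
      exact AddSubgroup.mem_zmultiples m
    · haveI : NeZero r := ⟨hr.ne_zero⟩
      obtain ⟨a, ha⟩ := exists_cycExponent (n := r) σ
      rw [sub_eq_zero.mp (AddSubgroup.mem_bot.mp (h σ a ha))]
      exact M'.nsmul_mem (AddSubgroup.mem_zmultiples m) a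
  letI := subAct M' hstab
  letI := quotAct M' hstab
  set π := QuotientAddGroup.mk' M' with hπ
  have hπs : ∀ (σ : GalQ) (x : M), π (σ • x) = σ • π x := fun σ x => rfl
  have hsub : ∀ (σ : GalQ) (x : M'), ((σ • x : M') : M) = σ • (x : M) := fun σ x => rfl
  obtain ⟨K, hK⟩ := H.killed
  have hlift : ∀ (k : ℕ) (τ : GalQ) (a : ℕ), (∀ ζ : Qb, ζ ^ (r ^ k) = 1 → τ ζ = ζ ^ a) →
      ∃ a' : ℕ, (∀ ζ : Qb, ζ ^ (r ^ max k K) = 1 → τ ζ = ζ ^ a') ∧
        ∀ (x : M), r ^ k • x ∈ M' → (r ^ k • x = 0 → a' • x = a • x) ∧ a' • x - a • x ∈ M' := by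
    intro k τ a ha
    haveI : NeZero (r ^ max k K) := ⟨pow_ne_zero _ hr.ne_zero⟩
    obtain ⟨a', ha'⟩ := exists_cycExponent (n := r ^ max k K) τ
    haveI : NeZero (r ^ k) := ⟨pow_ne_zero _ hr.ne_zero⟩
    haveI : NeZero ((r ^ k : ℕ) : Qb) := ⟨Nat.cast_ne_zero.mpr (pow_ne_zero _ hr.ne_zero)⟩
    obtain ⟨z, hz⟩ := HasEnoughRootsOfUnity.exists_primitiveRoot Qb (r ^ k)
    have h1 : z ^ a' = z ^ a := by
      rw [← ha z hz.pow_eq_one, ha' z ?_]
      rw [← Nat.add_sub_cancel' (le_max_left k K), pow_add, pow_mul, hz.pow_eq_one, one_pow]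
    rw [IsOfFinOrder.pow_eq_pow_iff_modEq
      (isOfFinOrder_iff_pow_eq_one.mpr ⟨r ^ k, pow_pos hr.pos k, hz.pow_eq_one⟩),
      ← hz.eq_orderOf] at h1
    obtain ⟨t, ht⟩ : ((r ^ k : ℕ) : ℤ) ∣ (a' : ℤ) - a :=
      Int.modEq_iff_dvd.mp (Int.natCast_modEq_iff.mpr h1.symm)
    refine ⟨a', ha', fun x hx => ?_⟩
    have e : a' • x - a • x = t • (r ^ k • x) := by
      rw [← natCast_zsmul, ← natCast_zsmul x a, ← sub_smul, ← natCast_zsmul x (r ^ k),
        smul_smul, ht, mul_comm]
    exact ⟨fun h0 => sub_eq_zero.mp (by rw [e, h0, smul_zero]), e ▸ M'.zsmul_mem hx t⟩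
  -- the hypotheses for the two pieces
  set M0' : AddSubgroup M' := M0.comap M'.subtype with hM0'
  set M0'' : AddSubgroup (M ⧸ M') := M0.map π with hM0''
  have Hsub : Hyp M' p r A M0' :=
    { hr := hr
      hA := H.hA
      finite := inferInstance
      cont := fun x => by
        obtain ⟨L, hL, hLx⟩ := H.cont x
        exact ⟨L, hL, fun σ hσ => Subtype.ext (hLx σ hσ)⟩
      killed := ⟨K, fun x => Subtype.ext (hK x)⟩
      unram := fun ℓ hℓ h1 h2 x V hV τ hτ => Subtype.ext (H.unram ℓ hℓ h1 h2 x V hV τ hτ)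
      constituents := fun N _ hN => by
        refine ⟨⟨m, AddSubgroup.mem_zmultiples m⟩, fun hmem => hN ?_, ?_, ?_⟩
        · refine (AddSubgroup.eq_top_iff' N).mpr fun x => ?_
          obtain ⟨k, hk⟩ := AddSubgroup.mem_zmultiples_iff.mp x.2
          rw [show x = k • (⟨m, AddSubgroup.mem_zmultiples m⟩ : M') from Subtype.ext hk.symm]
          exact N.zsmul_mem hmem k
        · rw [show r • (⟨m, AddSubgroup.mem_zmultiples m⟩ : M') = 0 from Subtype.ext hrm]
          exact N.zero_mem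
        · rcases htype with h | h
          · refine Or.inl fun σ => ?_
            rw [show σ • (⟨m, AddSubgroup.mem_zmultiples m⟩ : M') -
              ⟨m, AddSubgroup.mem_zmultiples m⟩ = 0 from
              Subtype.ext (AddSubgroup.mem_bot.mp (h σ))]
            exact N.zero_mem
          · refine Or.inr fun σ a ha => ?_
            rw [show σ • (⟨m, AddSubgroup.mem_zmultiples m⟩ : M') -
              a • ⟨m, AddSubgroup.mem_zmultiples m⟩ = 0 from
              Subtype.ext (AddSubgroup.mem_bot.mp (h σ a ha))]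
            exact N.zero_mem
      cyclo := fun k hk τ hτ a ha x hx => by
        obtain ⟨a', ha', hx'⟩ := hlift k τ a ha
        have h0 : r ^ k • (x : M) = 0 := congrArg Subtype.val (hk x)
        refine Subtype.ext ?_
        show τ • (x : M) = a • (x : M)
        rw [H.cyclo (max k K) (fun y => by
          rw [← Nat.add_sub_cancel' (le_max_right k K), pow_add, mul_nsmul, hK,
            smul_zero]) τ hτ a' ha' x hx]
        exact (hx' (x : M) (h0 ▸ M'.zero_mem)).1 h0
      conn := fun x => by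
        refine ⟨fun τ hτ => (H.conn x).1 τ hτ, fun f => ?_⟩
        obtain ⟨g, hg⟩ := exists_extendUnits M' f
        obtain ⟨u, hu, hu', hur⟩ := (H.conn x).2 g
        refine ⟨u, hu, hu', fun τ hτ => ?_⟩
        rw [← hur τ hτ, ← hg]
        rfl }
  have Hquot : Hyp (M ⧸ M') p r A M0'' :=
    { hr := hr
      hA := H.hA
      finite := inferInstance
      cont := fun y => by
        obtain ⟨x, rfl⟩ := QuotientAddGroup.mk'_surjective M' y
        obtain ⟨L, hL, hLx⟩ := H.cont x
        exact ⟨L, hL, fun σ hσ => congrArg π (hLx σ hσ)⟩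
      killed := ⟨K, fun y => by
        obtain ⟨x, rfl⟩ := QuotientAddGroup.mk'_surjective M' y
        rw [← map_nsmul, hK, map_zero]⟩
      unram := fun ℓ hℓ h1 h2 y V hV τ hτ => by
        obtain ⟨x, rfl⟩ := QuotientAddGroup.mk'_surjective M' y
        show τ • π x - π x = 0
        rw [← hπs, ← map_sub, show τ • x - x = 0 from H.unram ℓ hℓ h1 h2 x V hV τ hτ, map_zero]
      constituents := fun N hN hne => by
        obtain ⟨x, hx, hrx, ht⟩ := H.constituents (N.comap π)
          (fun σ y hy => by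
            show π (σ • y) ∈ N
            rw [hπs]; exact hN σ _ hy)
          (fun h => hne ((AddSubgroup.eq_top_iff' N).mpr fun y => by
            obtain ⟨x, rfl⟩ := QuotientAddGroup.mk'_surjective M' y
            show x ∈ N.comap π
            rw [h]; trivial))
        refine ⟨π x, hx, ?_, ?_⟩
        · rw [← map_nsmul]; exact hrx
        · rcases ht with h | h
          · exact Or.inl fun σ => by rw [← hπs, ← map_sub]; exact h σ
          · exact Or.inr fun σ a ha => by rw [← hπs, ← map_nsmul, ← map_sub]; exact h σ a ha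
      cyclo := fun k hk τ hτ a ha y hy => by
        obtain ⟨x, hx, rfl⟩ := hy
        obtain ⟨a', ha', hx'⟩ := hlift k τ a ha
        have h0 : r ^ k • x ∈ M' := by
          have := hk (π x)
          rwa [← map_nsmul, QuotientAddGroup.mk'_apply, QuotientAddGroup.eq_zero_iff] at this
        have h1 := H.cyclo (max k K) (fun y => by
          rw [← Nat.add_sub_cancel' (le_max_right k K), pow_add, mul_nsmul, hK,
            smul_zero]) τ hτ a' ha' x hx
        rw [← hπs, ← map_nsmul, h1, ← sub_eq_zero, ← map_sub, QuotientAddGroup.mk'_apply,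
          QuotientAddGroup.eq_zero_iff]
        exact (hx' x h0).2
      conn := fun y => by
        obtain ⟨x, rfl⟩ := QuotientAddGroup.mk'_surjective M' y
        refine ⟨fun τ hτ => ⟨τ • x - x, (H.conn x).1 τ hτ, by rw [map_sub, hπs]; rfl⟩, fun f => ?_⟩
        obtain ⟨u, hu, hu', hur⟩ := (H.conn x).2 (f.comp π)
        refine ⟨u, hu, hu', fun τ hτ => ?_⟩
        rw [← hur τ hτ]
        rfl }
  have hmul : Nat.card M = Nat.card (M ⧸ M') * Nat.card M' :=
    AddSubgroup.card_eq_card_quotient_mul_card_addSubgroup M'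
  have hlt1 : Nat.card M' < n := by
    rw [← hn]
    exact lt_of_le_of_ne (AddSubgroup.card_le_card_addGroup M')
      fun h => htop ((AddSubgroup.card_eq_iff_eq_top M').mp h)
  have hlt2 : Nat.card (M ⧸ M') < n := by
    rw [← hn, hmul, hM'card]
    exact lt_mul_of_one_lt_right Nat.card_pos hr.one_lt
  have B' := ih _ hlt1 M' M0' Hsub rfl
  have B'' := ih _ hlt2 (M ⧸ M') M0'' Hquot rfl
  intro F hFfin hF
  haveI := hFfin
  -- the two families of cocycles
  let φ : (GalQ → M) →+ (GalQ → M ⧸ M') := π.compLeft GalQ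
  let ι : (GalQ → M') →+ (GalQ → M) := M'.subtype.compLeft GalQ
  have hι : Function.Injective ι := fun a b h => funext fun σ => Subtype.ext (congrFun h σ)
  let F' : AddSubgroup (GalQ → M') :=
    { carrier := {c | ι c ∈ F ∧ BdryAt B c}
      zero_mem' := ⟨by rw [map_zero]; exact F.zero_mem, 0, fun τ _ => by simp⟩
      add_mem' := fun {a b} ha hb => ⟨by rw [map_add]; exact F.add_mem ha.1 hb.1, by
        obtain ⟨x, hx⟩ := ha.2
        obtain ⟨y, hy⟩ := hb.2
        exact ⟨x + y, fun τ hτ => by rw [Pi.add_apply, hx τ hτ, hy τ hτ, smul_add]; abel⟩⟩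
      neg_mem' := fun {a} ha => ⟨by rw [map_neg]; exact F.neg_mem ha.1, by
        obtain ⟨x, hx⟩ := ha.2
        exact ⟨-x, fun τ hτ => by rw [Pi.neg_apply, hx τ hτ, smul_neg]; abel⟩⟩ }
  haveI : Finite F' := Finite.of_injective (fun c : F' => (⟨ι c, c.2.1⟩ : F)) fun a b h =>
    Subtype.ext (hι (congrArg Subtype.val h))
  set F'' := F.map φ with hF''
  haveI : Finite F'' := Finite.of_surjective (fun c : F => (⟨φ c, c, c.2, rfl⟩ : F''))
    fun y => by
      obtain ⟨c, hc, hcy⟩ := y.2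
      exact ⟨⟨c, hc⟩, Subtype.ext hcy⟩
  have hS' : ∀ c ∈ F', InSel M' p r A B M0' c := by
    intro c hc
    have h := hF _ hc.1
    refine ⟨fun σ τ => Subtype.ext (h.cocycle σ τ), ?_,
      fun ℓ hℓ h1 h2 V hV τ hτ => Subtype.ext (h.unram ℓ hℓ h1 h2 V hV τ hτ), ?_, hc.2⟩
    · obtain ⟨L, hL, hLc⟩ := h.smooth
      exact ⟨L, hL, fun σ hσ => Subtype.ext (hLc σ hσ)⟩
    · refine ⟨fun τ hτ => h.unit.1 τ hτ, fun f => ?_⟩
      obtain ⟨g, hg⟩ := exists_extendUnits M' f
      obtain ⟨u, hu, hu', hur⟩ := h.unit.2 g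
      refine ⟨u, hu, hu', fun τ hτ => ?_⟩
      rw [← hur τ hτ, ← hg]
      rfl
  have hS'' : ∀ c ∈ F'', InSel (M ⧸ M') p r A B M0'' c := by
    rintro _ ⟨c, hc, rfl⟩
    have h := hF c hc
    refine ⟨fun σ τ => ?_, ?_, fun ℓ hℓ h1 h2 V hV τ hτ => ?_, ?_, ?_⟩
    · show π (c (σ * τ)) = π (c σ) + σ • π (c τ)
      rw [h.cocycle σ τ, map_add, hπs]
    · obtain ⟨L, hL, hLc⟩ := h.smooth
      exact ⟨L, hL, fun σ hσ => by show π (c σ) = 0; rw [hLc σ hσ, map_zero]⟩
    · show π (c τ) = 0
      rw [h.unram ℓ hℓ h1 h2 V hV τ hτ, map_zero]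
    · refine ⟨fun τ hτ => ⟨c τ, h.unit.1 τ hτ, rfl⟩, fun f => ?_⟩
      exact h.unit.2 (f.comp π)
    · obtain ⟨x, hx⟩ := h.bdry
      exact ⟨π x, fun τ hτ => by
        show π (c τ) = _
        rw [hx τ hτ, map_sub, hπs]⟩
  haveI := finite_bdryPairs B F
  haveI := finite_bdryPairs B F'
  haveI := finite_bdryPairs B F''
  -- the bdryPairs
  let θ : bdryPairs B F →+ bdryPairs B F'' :=
    { toFun := fun x => ⟨(φ x.1.1, π x.1.2), ⟨x.1.1, x.2.1, rfl⟩, fun τ hτ => by
        show π (x.1.1 τ) = τ • π x.1.2 - π x.1.2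
        rw [x.2.2 τ hτ, map_sub, hπs]⟩
      map_zero' := Subtype.ext (Prod.ext (map_zero φ) (map_zero π))
      map_add' := fun x y => Subtype.ext (Prod.ext (map_add φ _ _) (map_add π _ _)) }
  have hker : ∀ x : θ.ker, (∀ σ, x.1.1.1 σ ∈ M') ∧ x.1.1.2 ∈ M' := by
    intro x
    have h := congrArg (fun y : bdryPairs B F'' => y.1) x.2
    refine ⟨fun σ => (QuotientAddGroup.eq_zero_iff _).mp (congrFun (congrArg Prod.fst h) σ),
      (QuotientAddGroup.eq_zero_iff _).mp (congrArg Prod.snd h)⟩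
  have hcardker : Nat.card θ.ker ≤ Nat.card (bdryPairs B F') := by
    let e : θ.ker → bdryPairs B F' := fun x =>
      ⟨((fun σ => ⟨x.1.1.1 σ, (hker x).1 σ⟩), ⟨x.1.1.2, (hker x).2⟩),
        ⟨x.1.2.1, ⟨⟨x.1.1.2, (hker x).2⟩, fun τ hτ => Subtype.ext (x.1.2.2 τ hτ)⟩⟩,
        fun τ hτ => Subtype.ext (x.1.2.2 τ hτ)⟩
    refine Nat.card_le_card_of_injective e fun x y h => ?_
    have h1 := congrArg (fun z : bdryPairs B F' => (ι z.1.1, (z.1.2 : M))) h
    exact Subtype.ext (Subtype.ext h1)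
  have hpairs : Nat.card (bdryPairs B F) ≤ Nat.card (bdryPairs B F') * Nat.card (bdryPairs B F'') := by
    rw [AddSubgroup.card_eq_card_quotient_mul_card_addSubgroup θ.ker,
      Nat.card_congr (QuotientAddGroup.quotientKerEquivRange θ).toEquiv, mul_comm]
    exact Nat.mul_le_mul hcardker (AddSubgroup.card_le_card_addGroup θ.range)
  rw [card_bdryPairs B F (fun c hc => (hF c hc).bdry), card_bdryPairs B F' (fun c hc => hc.2),
    card_bdryPairs B F'' (fun c hc => (hS'' c hc).bdry)] at hpairs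
  -- the quotients
  have hq0 : Nat.card (M ⧸ M0) =
      Nat.card (M' ⧸ M0') * Nat.card ((M ⧸ M') ⧸ M0'') := by
    have e1 := AddSubgroup.card_eq_card_quotient_mul_card_addSubgroup M0
    have e2 := AddSubgroup.card_eq_card_quotient_mul_card_addSubgroup M0'
    have e3 := AddSubgroup.card_eq_card_quotient_mul_card_addSubgroup M0''
    have e4 : Nat.card M0 = Nat.card M0' * Nat.card M0'' := by
      let ρ : M0 →+ M ⧸ M' := π.comp M0.subtype
      have hr' : ρ.range = M0'' := by
        rw [AddMonoidHom.range_comp, AddSubgroup.range_subtype]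
      rw [AddSubgroup.card_eq_card_quotient_mul_card_addSubgroup ρ.ker,
        Nat.card_congr (QuotientAddGroup.quotientKerEquivRange ρ).toEquiv, hr', mul_comm]
      congr 1
      exact Nat.card_congr
        { toFun := fun x => ⟨⟨x.1.1, (QuotientAddGroup.eq_zero_iff _).mp x.2⟩, x.1.2⟩
          invFun := fun x => ⟨⟨x.1.1, x.2⟩, (QuotientAddGroup.eq_zero_iff _).mpr x.1.2⟩
          left_inv := fun x => rfl
          right_inv := fun x => rfl }
    have hpos : 0 < Nat.card M0 := Nat.card_pos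
    refine Nat.eq_of_mul_eq_mul_right hpos ?_
    rw [← e1, hmul, e2, e3, e4]
    ring
  have b' := B' F' inferInstance hS'
  have b'' := B'' F'' inferInstance hS''
  calc Nat.card F * Nat.card (M ⧸ M0) * Nat.card (inertiaInv M B)
      = (Nat.card F * Nat.card (inertiaInv M B)) * Nat.card (M ⧸ M0) := by ring
    _ ≤ (Nat.card F' * Nat.card (inertiaInv M' B) *
          (Nat.card F'' * Nat.card (inertiaInv (M ⧸ M') B))) * Nat.card (M ⧸ M0) :=
        Nat.mul_le_mul_right _ hpairs
    _ = (Nat.card F' * Nat.card (M' ⧸ M0') * Nat.card (inertiaInv M' B)) *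
          (Nat.card F'' * Nat.card ((M ⧸ M') ⧸ M0'') * Nat.card (inertiaInv (M ⧸ M') B)) := by
        rw [hq0]; ring
    _ ≤ (Nat.card M' * Nat.card M') * (Nat.card (M ⧸ M') * Nat.card (M ⧸ M')) :=
        Nat.mul_le_mul b' b''
    _ = Nat.card M * Nat.card M := by rw [hmul]; ring

/-- **The dévissage bound.** -/
theorem descentBound {M0 : AddSubgroup M} (hp : p.Prime) (hpr : p ≠ r) (hB : B.LiesOverPrime p)
    (H : Hyp M p r A M0) : DescentBound M p r A B M0 :=
  descentBound_aux hp hB (Nat.card M) M M0 H rfl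

end FLTAgent.EIS

end
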