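import Fermat.Agent.EIS.Defs
import Fermat.Agent.SS2.Eisenstein
import Fermat.Agent.Common.InertiaConj
import Fermat.Agent.Chebotarev.FrobConj
import Fermat.Agent.Attach.Cyclotomic

/-!
Area EIS, parcel C: inertia at a place over `r` realises every unit value of the cyclotomic
character modulo `r ^ k`, and every such place has a Frobenius element fixing those roots of unity.
-/

set_option autoImplicit false
set_option linter.style.haveILetI false

noncomputable section

open scoped Pointwise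

namespace FLTAgent.EIS

variable {A : ValuationSubring Qb} {r : ℕ}

theorem valuation_root_of_unity {n : ℕ} (hn : 0 < n) {z : Qb} (hz : z ^ n = 1) :
    A.valuation z = 1 :=
  pow_eq_one_iff.mp (by rw [← map_pow, hz, map_one] : A.valuation z ^ n = 1) |>.resolve_right hn.ne'

theorem valuation_pow_sub_one_le {n : ℕ} (hn : 0 < n) {z : Qb} (hz : z ^ n = 1) (i : ℕ) :
    A.valuation (z ^ i - 1) ≤ A.valuation (z - 1) := by
  rw [← geom_sum_mul z i, map_mul]
  refine mul_le_of_le_one_left' ((A.valuation_le_one_iff _).mpr ?_)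
  exact sum_mem fun j _ => pow_mem (Attach.root_mem hn hz) j

theorem valuation_zeta_sub_one {k : ℕ} (hr : r.Prime) {ζ : Qb}
    (hζ : IsPrimitiveRoot ζ (r ^ (k + 1))) :
    A.valuation (ζ - 1) ^ Nat.totient (r ^ (k + 1)) = A.valuation (r : Qb) := by
  haveI : Fact r.Prime := ⟨hr⟩
  have hn : 0 < r ^ (k + 1) := pow_pos hr.pos _
  have h := Polynomial.eval_one_cyclotomic_prime_pow (R := Qb) (p := r) k
  rw [Polynomial.cyclotomic_eq_prod_X_sub_primitiveRoots hζ, Polynomial.eval_prod] at h
  rw [← h, map_prod, ← hζ.card_primitiveRoots, ← Finset.prod_const]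
  refine Finset.prod_congr rfl fun μ hμ => ?_
  rw [Polynomial.eval_sub, Polynomial.eval_X, Polynomial.eval_C, Valuation.map_sub_swap _ 1 μ]
  have hμp := (mem_primitiveRoots hn).mp hμ
  obtain ⟨i, -, hi⟩ := hμp.eq_pow_of_pow_eq_one hζ.pow_eq_one
  obtain ⟨j, -, hj⟩ := hζ.eq_pow_of_pow_eq_one hμp.pow_eq_one
  refine le_antisymm ?_ ?_
  · conv_lhs => rw [← hi]
    exact valuation_pow_sub_one_le hn hμp.pow_eq_one i
  · conv_lhs => rw [← hj]
    exact valuation_pow_sub_one_le hn hζ.pow_eq_one j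

/-- every unit value of the cyclotomic character is taken on the inertia group -/
theorem exists_inertia_zeta (hr : r.Prime) (hA : A.LiesOverPrime r) (k n : ℕ) (hn : n.Coprime r) :
    ∃ τ ∈ A.inertiaSubgroupIn ℚ, ∀ ζ : Qb, ζ ^ (r ^ k) = 1 → τ ζ = ζ ^ n := by
  classical
  cases k with
  | zero =>
    refine ⟨1, one_mem _, fun ζ hζ => ?_⟩
    rw [pow_zero, pow_one] at hζ
    rw [hζ, one_pow, map_one]
  | succ k =>
    haveI : Fact r.Prime := ⟨hr⟩
    haveI : NeZero (r ^ (k + 1)) := ⟨(pow_pos hr.pos _).ne'⟩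
    obtain ⟨ζ, hζ⟩ := HasEnoughRootsOfUnity.exists_primitiveRoot Qb (r ^ (k + 1))
    set P := (primitiveRoots (r ^ (k + 1)) Qb).image (fun μ => μ - 1) with hP
    set S := P.filter (fun x => ∃ σ ∈ A.inertiaSubgroupIn ℚ, σ (ζ - 1) = x) with hS
    have hPstab : ∀ σ : GalQ, ∀ x ∈ P, σ x ∈ P := by
      intro σ x hx
      obtain ⟨μ, hμ, rfl⟩ := Finset.mem_image.mp hx
      refine Finset.mem_image.mpr ⟨σ μ, ?_, by rw [map_sub, map_one]⟩
      rw [mem_primitiveRoots (pow_pos hr.pos _)] at hμ ⊢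
      exact hμ.map_of_injective σ.injective
    have hmem : ζ - 1 ∈ P :=
      Finset.mem_image.mpr ⟨ζ, (mem_primitiveRoots (pow_pos hr.pos _)).mpr hζ, rfl⟩
    have hcard := SS2.card_le hr hA (Nat.totient_pos.mpr (pow_pos hr.pos _))
      (valuation_zeta_sub_one (A := A) hr hζ) S
      (fun σ hσ x hx => by
        obtain ⟨hxP, ρ, hρ, hρx⟩ := Finset.mem_filter.mp hx
        exact Finset.mem_filter.mpr ⟨hPstab σ x hxP, σ * ρ, mul_mem hσ hρ, by
          rw [AlgEquiv.mul_apply, hρx]⟩)
      (Finset.mem_filter.mpr ⟨hmem, 1, one_mem _, rfl⟩)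
    have hle : P.card ≤ Nat.totient (r ^ (k + 1)) := by
      rw [← hζ.card_primitiveRoots]
      exact Finset.card_image_le
    have hSP : S = P := Finset.eq_of_subset_of_card_le (Finset.filter_subset _ _) (hle.trans hcard)
    have hn' : ζ ^ n - 1 ∈ P := Finset.mem_image.mpr ⟨ζ ^ n,
      (mem_primitiveRoots (pow_pos hr.pos _)).mpr (hζ.pow_of_coprime n (hn.pow_right _)), rfl⟩
    rw [← hSP] at hn'
    obtain ⟨-, τ, hτ, hτζ⟩ := Finset.mem_filter.mp hn'
    rw [map_sub, map_one, sub_left_inj] at hτζ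
    refine ⟨τ, hτ, fun μ hμ => ?_⟩
    obtain ⟨i, -, rfl⟩ := hζ.eq_pow_of_pow_eq_one hμ
    rw [map_pow, hτζ, ← pow_mul, ← pow_mul, mul_comm]

/-- two valuation subrings over a prime with the same centre are equal -/
theorem eq_of_centre_eq {V V' : ValuationSubring Qb} (hr : r.Prime) (hV : V.LiesOverPrime r)
    (h : Common.centre V = Common.centre V') : V ≤ V' := by
  intro x hx
  obtain ⟨s, hs, hsx⟩ := Common.exists_unit_denominator V hx hr hV
  have hs' : (s : Qb) ∉ V'.nonunits := fun h' => hs (by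
    rwa [← Common.mem_centre, h, Common.mem_centre])
  have hs1 : V'.valuation (s : Qb) = 1 := le_antisymm
    ((V'.valuation_le_one_iff _).mpr (SS2.integral_mem V' s.2))
    (not_lt.mp hs')
  have h2 := (V'.valuation_le_one_iff _).mpr (SS2.integral_mem V' hsx)
  rw [map_mul, hs1, one_mul] at h2
  exact (V'.valuation_le_one_iff _).mp h2

/-- places over the same prime are conjugate -/
theorem exists_smul_place {V V' : ValuationSubring Qb} (hr : r.Prime) (hV : V.LiesOverPrime r)
    (hV' : V'.LiesOverPrime r) : ∃ g : GalQ, g • V = V' := by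
  have := Common.isGalois_qbar
  have hp := Common.centre_isPrime V
  have hp' := Common.centre_isPrime V'
  have key : ∀ U : ValuationSubring Qb, U.LiesOverPrime r →
      (Common.centre U).under ℤ = Ideal.span {(r : ℤ)} := by
    intro U hU
    have hPp : ((Common.centre U).under ℤ).IsPrime :=
      have := Common.centre_isPrime U; Ideal.IsPrime.under ℤ _
    have hle : Ideal.span {(r : ℤ)} ≤ (Common.centre U).under ℤ := by
      rw [Ideal.span_singleton_le_iff_mem, Ideal.mem_comap, Common.mem_centre]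
      simpa [ValuationSubring.LiesOverPrime] using hU
    have hmax : (Ideal.span {(r : ℤ)}).IsMaximal :=
      PrincipalIdealRing.isMaximal_of_irreducible (Nat.prime_iff_prime_int.mp hr).irreducible
    exact (hmax.eq_of_le hPp.ne_top hle).symm
  letI : TopologicalSpace Common.ZBar := ⊥
  haveI : DiscreteTopology Common.ZBar := ⟨rfl⟩
  haveI : ContinuousSMul Common.GalQ Common.ZBar := by
    rw [continuousSMul_iff_stabilizer_isOpen]
    intro b
    have h1 := stabilizer_isOpen_of_isIntegral (K := ℚ) (L := Common.QBar) (b : Common.QBar)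
    have : (MulAction.stabilizer Common.GalQ b : Set Common.GalQ)
        = (MulAction.stabilizer Common.GalQ (b : Common.QBar) : Set Common.GalQ) := by
      ext g
      exact Subtype.ext_iff
    rw [this]
    exact h1
  haveI : TotallyDisconnectedSpace Common.GalQ := by
    haveI := krullTopology_isTotallySeparated (K := ℚ) (L := Common.QBar)
    infer_instance
  haveI : SMulCommClass Common.GalQ ℤ Common.ZBar := ⟨fun g n b => smul_comm g n b⟩
  haveI : Algebra.IsInvariant ℤ Common.ZBar Common.GalQ := Alg.int_isInvariant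
  obtain ⟨g, hg⟩ := Algebra.IsInvariant.exists_smul_of_under_eq_of_profinite (A := ℤ)
    (G := Common.GalQ) (Common.centre V) (Common.centre V') ((key V hV).trans (key V' hV').symm)
  refine ⟨g, ?_⟩
  have hc : Common.centre V' = Common.centre (g • V) := by
    ext b
    rw [hg, Ideal.mem_pointwise_smul_iff_inv_smul_mem, Common.mem_centre, Common.mem_centre]
    constructor
    · intro h
      have := Chebotarev.smul_mem_nonunits g h
      rwa [show g ((g⁻¹ • b : Common.ZBar) : Qb) = b from g.apply_symm_apply _] at this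
    · intro h
      have := Chebotarev.smul_mem_nonunits g⁻¹ h
      rwa [inv_smul_smul] at this
  exact le_antisymm (eq_of_centre_eq hr (Chebotarev.liesOverPrime_smul g hV) hc.symm)
    (eq_of_centre_eq hr hV' hc)

/-- every place over `r` has a Frobenius element -/
theorem exists_frobenius_at (hr : r.Prime) (hA : A.LiesOverPrime r) :
    ∃ σ : GalQ, A.IsFrobeniusAt σ r := by
  obtain ⟨V, σ, hV, hσ⟩ := Alg.exists_place_frobenius r hr
  obtain ⟨g, hg⟩ := exists_smul_place hr hV hA
  exact ⟨_, hg ▸ Chebotarev.isFrobeniusAt_conj hσ g⟩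

theorem isFrobeniusAt_inertia_mul {σ τ : GalQ} (hσ : A.IsFrobeniusAt σ r)
    (hτ : τ ∈ A.inertiaSubgroupIn ℚ) : A.IsFrobeniusAt (τ * σ) r := by
  refine Chebotarev.isFrobeniusAt_of_forall
    (mul_mem (Subgroup.map_subtype_le _ hτ) hσ.mem_decompositionSubgroup) fun x hx => ?_
  have h1 : τ (σ x) - σ x ∈ A.nonunits :=
    Common.inertia_apply_sub_mem hτ (Chebotarev.frob_apply_mem hσ hx)
  have h2 := Chebotarev.frob_sub_pow_mem hσ hx
  rw [ValuationSubring.mem_nonunits_iff] at h1 h2 ⊢
  rw [AlgEquiv.mul_apply, show τ (σ x) - x ^ r = (τ (σ x) - σ x) + (σ x - x ^ r) by ring]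
  exact lt_of_le_of_lt (Valuation.map_add _ _ _) (max_lt h1 h2)

/-- a Frobenius element fixing the roots of unity of order `r ^ k` -/
theorem exists_frobenius_fixing (hr : r.Prime) (hA : A.LiesOverPrime r) (k : ℕ) :
    ∃ φ : GalQ, A.IsFrobeniusAt φ r ∧ ∀ ζ : Qb, ζ ^ (r ^ k) = 1 → φ ζ = ζ := by
  obtain ⟨σ, hσ⟩ := exists_frobenius_at hr hA
  cases k with
  | zero => exact ⟨σ, hσ, fun ζ hζ => by rw [pow_zero, pow_one] at hζ; rw [hζ, map_one]⟩
  | succ k =>
    haveI : NeZero (r ^ (k + 1)) := ⟨(pow_pos hr.pos _).ne'⟩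
    have hmul : Attach.cyc (r ^ (k + 1)) σ⁻¹ * Attach.cyc (r ^ (k + 1)) σ = 1 := by
      rw [← Attach.cyc_mul, inv_mul_cancel, Attach.cyc_one]
    have hu : IsUnit (Attach.cyc (r ^ (k + 1)) σ⁻¹) := IsUnit.of_mul_eq_one _ hmul
    have hcop : (Attach.cyc (r ^ (k + 1)) σ⁻¹).val.Coprime r :=
      (Nat.coprime_pow_right_iff k.succ_pos _ _).mp
        ((ZMod.isUnit_iff_coprime _ _).mp (by rwa [ZMod.natCast_zmod_val]))
    obtain ⟨τ, hτ, hτζ⟩ := exists_inertia_zeta hr hA (k + 1) _ hcop
    refine ⟨τ * σ, isFrobeniusAt_inertia_mul hσ hτ, fun ζ hζ => ?_⟩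
    have h1 : (σ ζ) ^ (r ^ (k + 1)) = 1 := by rw [← map_pow, hζ, map_one]
    rw [AlgEquiv.mul_apply, hτζ _ h1, ← Attach.cyc_spec σ⁻¹ h1]
    exact σ.symm_apply_apply ζ

end FLTAgent.EIS
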