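import Mathlib

/-!
Area EIS, parcel E: linear algebra.  Avoiding finitely many kernels, and two dimensional
representations without a stable line.
-/

set_option autoImplicit false
set_option linter.unusedSectionVars false

noncomputable section

open Matrix

namespace FLTAgent.EIS.Irred

/-- finitely many non-zero additive maps to a domain of characteristic zero are non-zero at a
common point -/
theorem exists_forall_apply_ne_zero {A : Type*} [AddCommGroup A] {K : Type*} [CommRing K]
    [IsDomain K] [CharZero K] {ι : Type*} (s : Finset ι) (L : ι → A →+ K)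
    (h : ∀ i ∈ s, ∃ a, L i a ≠ 0) : ∃ a, ∀ i ∈ s, L i a ≠ 0 := by
  classical
  induction s using Finset.induction_on with
  | empty => exact ⟨0, fun i hi => absurd hi (Finset.notMem_empty i)⟩
  | insert i s hi ih =>
    obtain ⟨a, ha⟩ := ih fun j hj => h j (Finset.mem_insert_of_mem hj)
    obtain ⟨b, hb⟩ := h i (Finset.mem_insert_self i s)
    have hfin : ∀ j ∈ insert i s, {n : ℕ | L j (a + n • b) = 0}.Finite := by
      intro j hj
      refine Set.Subsingleton.finite fun n hn k hk => ?_
      simp only [Set.mem_setOf_eq, map_add, map_nsmul, nsmul_eq_mul] at hn hk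
      by_contra hne
      have hz : ((n : K) - k) * L j b = 0 := by linear_combination hn - hk
      rcases mul_eq_zero.mp hz with h0 | h0
      · exact hne (Nat.cast_injective (sub_eq_zero.mp h0))
      · rcases Finset.mem_insert.mp hj with rfl | hj'
        · exact hb h0
        · rw [h0, mul_zero, add_zero] at hn
          exact ha j hj' hn
    obtain ⟨n, hn⟩ := ((insert i s).finite_toSet.biUnion hfin).exists_notMem
    refine ⟨a + n • b, fun j hj h0 => hn ?_⟩
    exact Set.mem_biUnion hj h0

section TwoDim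

variable {K : Type*} [Field K]

local notation "M2" => Matrix (Fin 2) (Fin 2) _

/-- `w` is parallel to `v` -/
def det2 (w v : Fin 2 → K) : K := w 0 * v 1 - w 1 * v 0

theorem det2_eq_zero {φ v w : Fin 2 → K} (hφ : φ ≠ 0) (hv : φ ⬝ᵥ v = 0) (hw : φ ⬝ᵥ w = 0) :
    det2 w v = 0 := by
  simp only [dotProduct, Fin.sum_univ_two] at hv hw
  have h0 : φ 0 * det2 w v = 0 := by
    simp only [det2]; linear_combination v 1 * hw - w 1 * hv
  have h1 : φ 1 * det2 w v = 0 := by
    simp only [det2]; linear_combination w 0 * hv - v 0 * hw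
  by_contra hne
  exact hφ (funext fun i => by
    fin_cases i
    · exact (mul_eq_zero.mp h0).resolve_right hne
    · exact (mul_eq_zero.mp h1).resolve_right hne)

variable {G : Type*} [Monoid G] (ρ : G →* Matrix (Fin 2) (Fin 2) K)

/-- no line is stable -/
def NoLine : Prop := ∀ v : Fin 2 → K, v ≠ 0 → ∃ g : G, det2 (Matrix.mulVec (ρ g) v) v ≠ 0

variable {ρ}

/-- the orbit of a vector is in no line -/
theorem NoLine.exists_dot_ne_zero (h : NoLine ρ) {φ v : Fin 2 → K} (hφ : φ ≠ 0) (hv : v ≠ 0) :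
    ∃ g, φ ⬝ᵥ (ρ g *ᵥ v) ≠ 0 := by
  by_contra hcon
  push Not at hcon
  obtain ⟨g, hg⟩ := h v hv
  have h1 := hcon 1
  rw [map_one, Matrix.one_mulVec] at h1
  exact hg (det2_eq_zero hφ h1 (hcon g))

theorem NoLine.exists_sandwich (h : NoLine ρ) {P Q : M2} (hP : P ≠ 0) (hQ : Q ≠ 0) :
    ∃ g, Q * ρ g * P ≠ 0 := by
  obtain ⟨i, hi⟩ : ∃ i, Q i ≠ 0 := by
    by_contra hcon
    push Not at hcon
    exact hQ (funext hcon)
  obtain ⟨j, hj⟩ : ∃ j, (fun k => P k j) ≠ 0 := by
    by_contra hcon
    push Not at hcon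
    exact hP (Matrix.ext fun k j => congrFun (hcon j) k)
  obtain ⟨g, hg⟩ := h.exists_dot_ne_zero hi hj
  refine ⟨g, fun h0 => hg ?_⟩
  rw [Matrix.mul_assoc] at h0
  calc Q i ⬝ᵥ (ρ g *ᵥ fun k => P k j) = (Q * (ρ g * P)) i j := by
        simp only [Matrix.mul_apply, dotProduct, Matrix.mulVec]
    _ = 0 := by rw [h0]; rfl

theorem NoLine.exists_trace_ne_zero_of_det (h : NoLine ρ) {X : M2} (hX : X ≠ 0)
    (hdet : X.det = 0) : ∃ g, (ρ g * X).trace ≠ 0 := by
  obtain ⟨i, j, hij⟩ : ∃ i j, X i j ≠ 0 := by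
    by_contra hcon
    push Not at hcon
    exact hX (Matrix.ext hcon)
  have key : ∀ a b, X b a * X i j = X b j * X i a := by
    intro a b
    rw [Matrix.det_fin_two] at hdet
    fin_cases a <;> fin_cases b <;> fin_cases i <;> fin_cases j <;>
      first
        | simp; done
        | (simp; linear_combination hdet)
        | (simp; linear_combination -hdet)
        | (simp; ring)
  have hv : (fun k => X k j) ≠ 0 := fun h0 => hij (congrFun h0 i)
  have hφ : X i ≠ 0 := fun h0 => hij (congrFun h0 j)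
  obtain ⟨g, hg⟩ := h.exists_dot_ne_zero hφ hv
  refine ⟨g, fun h0 => hg ?_⟩
  have e : X i ⬝ᵥ (ρ g *ᵥ fun k => X k j) = X i j * (ρ g * X).trace := by
    simp only [Matrix.trace, Matrix.diag_apply, Matrix.mul_apply, dotProduct, Matrix.mulVec,
      Finset.mul_sum]
    refine Finset.sum_congr rfl fun a _ => Finset.sum_congr rfl fun b _ => ?_
    linear_combination -(ρ g a b) * key a b
  rw [e, h0, mul_zero]

theorem NoLine.exists_trace_ne_zero [IsAlgClosed K] (h : NoLine ρ) {X : M2} (hX : X ≠ 0) :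
    ∃ g, (ρ g * X).trace ≠ 0 := by
  by_contra hcon
  push Not at hcon
  have hdet : X.det ≠ 0 := fun h0 => by
    obtain ⟨g, hg⟩ := h.exists_trace_ne_zero_of_det hX h0
    exact hg (hcon g)
  have hscalar : ∀ g, ∃ c : K, ρ g = c • 1 := by
    intro g
    obtain ⟨c, hc⟩ := IsAlgClosed.exists_root (ρ g).charpoly
      (by rw [Polynomial.degree_eq_natDegree (ρ g).charpoly_monic.ne_zero,
        Matrix.charpoly_natDegree_eq_dim]; simp)
    set Z := (ρ g - c • 1) * X with hZ
    have hZdet : Z.det = 0 := by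
      have : (ρ g - c • 1).det = 0 := by
        rw [Polynomial.IsRoot.def, Matrix.eval_charpoly] at hc
        rw [show ρ g - c • 1 = -(Matrix.scalar (Fin 2) c - ρ g) from by
          rw [neg_sub, Matrix.smul_one_eq_diagonal]; rfl, Matrix.det_neg, hc, mul_zero]
      rw [Matrix.det_mul, this, zero_mul]
    rcases eq_or_ne Z 0 with h0 | h0
    · refine ⟨c, sub_eq_zero.mp ?_⟩
      have := congrArg (fun Y => Y * X⁻¹) h0
      simpa [hZ, Matrix.mul_assoc, Matrix.mul_nonsing_inv X (Ne.isUnit hdet)] using this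
    · obtain ⟨k, hk⟩ := h.exists_trace_ne_zero_of_det h0 hZdet
      refine absurd ?_ hk
      rw [hZ, sub_mul, mul_sub, ← Matrix.mul_assoc, ← map_mul, smul_mul_assoc, Matrix.one_mul,
        mul_smul_comm, Matrix.trace_sub, Matrix.trace_smul, hcon, hcon, smul_zero, sub_zero]
  obtain ⟨g, hg⟩ := h ![1, 0] fun h0 => one_ne_zero (α := K) (congrFun h0 0)
  obtain ⟨c, hc⟩ := hscalar g
  exact hg (by simp [det2, hc, Matrix.smul_mulVec])

end TwoDim

end FLTAgent.EIS.Irred

end
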