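import Fermat.Agent.EIS.Defs
import Fermat.Agent.Attach.Dichotomy
import Fermat.Agent.Attach.Unramified
import Fermat.Agent.Attach.Integers
import Fermat.Agent.Attach.Interface

/-!
Area EIS, parcel E: the trace operators `g + χ(g) g⁻¹` on torsion are Hecke operators, compatibly
with the traces of the representations attached to all characters of the Hecke algebra; the
determinant of a Hecke operator is the product of its values at the characters.
-/

set_option autoImplicit false
set_option linter.unusedSectionVars false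
set_option linter.style.haveILetI false

noncomputable section

open ModularCurve IsLocalRing

namespace FLTAgent.EIS

open Attach (HeckeLattice GaloisInputs TFull)

variable {N : ℕ} [NeZero N]

/-- an algebraic closure of the field of `r`-adic numbers -/
abbrev Omega (r : ℕ) [Fact r.Prime] : Type := AlgebraicClosure (FractionRing ℤ_[r])

theorem finite_ringHom (R : Type) [CommRing R] [Module.Finite ℤ R] (K : Type) [Field K]
    [CharZero K] : Finite (R →+* K) := by
  classical
  obtain ⟨n, gen, hgen⟩ := Module.Finite.exists_fin (R := ℤ) (M := R)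
  choose P hP hPx using fun i => Algebra.IsIntegral.isIntegral (R := ℤ) (gen i)
  have hroot : ∀ (f : R →+* K) i, f (gen i) ∈ ((P i).map (Int.castRingHom K)).roots.toFinset := by
    intro f i
    rw [Multiset.mem_toFinset, Polynomial.mem_roots ((hP i).map _).ne_zero, Polynomial.IsRoot.def,
      Polynomial.eval_map]
    have h := congrArg f (hPx i)
    rw [Polynomial.hom_eval₂, map_zero] at h
    rwa [show Int.castRingHom K = f.comp (algebraMap ℤ R) from Subsingleton.elim _ _]
  refine Finite.of_injective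
    (fun f : R →+* K => fun i =>
      (⟨f (gen i), hroot f i⟩ : ((P i).map (Int.castRingHom K)).roots.toFinset))
    fun f f' h => ?_
  have hsp : (f.toAddMonoidHom.toIntLinearMap) = f'.toAddMonoidHom.toIntLinearMap := by
    refine LinearMap.ext_on_range hgen fun i => ?_
    exact congrArg Subtype.val (congrFun h i)
  exact RingHom.ext fun x => LinearMap.congr_fun hsp x

/-- a ring of integers containing the values of all characters -/
theorem exists_coeffRing (r : ℕ) [Fact r.Prime] :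
    ∃ (O : Type) (_ : CommRing O) (_ : IsDomain O) (_ : IsDiscreteValuationRing O)
      (_ : IsAdicComplete (maximalIdeal O) O) (_ : CharZero O),
      (r : O) ∈ maximalIdeal O ∧ ∃ ι : O →+* Omega r, Function.Injective ι ∧
        ∀ f : TFull N →+* Omega r, ∃ f0 : TFull N →+* O, ι.comp f0 = f := by
  classical
  haveI := Attach.finite_TFull N
  haveI := finite_ringHom (TFull N) (Omega r)
  obtain ⟨n, gen, hgen⟩ := Module.Finite.exists_fin (R := ℤ) (M := TFull N)
  let K := FractionRing ℤ_[r]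
  let L : IntermediateField K (Omega r) := IntermediateField.adjoin K
    (Set.range fun x : (TFull N →+* Omega r) × Fin n => x.1 (gen x.2))
  haveI : FiniteDimensional K L :=
    IntermediateField.finiteDimensional_adjoin fun x _ => Algebra.IsIntegral.isIntegral x
  have hmem : ∀ (g : TFull N →+* Omega r) (t : TFull N), g t ∈ L := by
    intro g t
    have ht : t ∈ Submodule.span ℤ (Set.range gen) := by rw [hgen]; trivial
    induction ht using Submodule.span_induction with
    | mem x hx =>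
      obtain ⟨i, rfl⟩ := hx
      exact IntermediateField.subset_adjoin K _ ⟨(g, i), rfl⟩
    | zero => rw [map_zero]; exact L.zero_mem
    | add x y _ _ hx hy => rw [map_add]; exact L.add_mem hx hy
    | smul z x _ hx => rw [map_zsmul]; exact zsmul_mem hx z
  haveI := Attach.closure_finite ℤ_[r] L
  haveI : CharZero (integralClosure ℤ_[r] L) := Attach.closure_charZero ℤ_[r] L
  haveI := Attach.closure_isLocalRing ℤ_[r] L
  haveI := Attach.closure_isLocalHom ℤ_[r] L
  haveI := Attach.closure_isDVR ℤ_[r] L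
  haveI : IsAdicComplete (maximalIdeal (integralClosure ℤ_[r] L)) (integralClosure ℤ_[r] L) :=
    IsLocalRing.isAdicComplete_of_module_finite (𝒪 := ℤ_[r])
  refine ⟨integralClosure ℤ_[r] L, inferInstance, inferInstance, inferInstance, inferInstance,
    inferInstance, ?_, L.val.toRingHom.comp (integralClosure ℤ_[r] L).val.toRingHom, ?_,
    fun g => ?_⟩
  · rw [← map_natCast (algebraMap ℤ_[r] (integralClosure ℤ_[r] L))]
    exact map_nonunit (algebraMap ℤ_[r] (integralClosure ℤ_[r] L)) _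
      (by rw [PadicInt.maximalIdeal_eq_span_p]; exact Ideal.mem_span_singleton_self _)
  · exact fun a b h => Subtype.ext (Subtype.ext h)
  · have hint : ∀ t : TFull N, g.codRestrict L (hmem g) t ∈ integralClosure ℤ_[r] L := fun t =>
      (map_isIntegral_int (g.codRestrict L (hmem g))
        (Algebra.IsIntegral.isIntegral t)).tower_top
    exact ⟨(g.codRestrict L (hmem g)).codRestrict (integralClosure ℤ_[r] L) hint,
      RingHom.ext fun t => rfl⟩

section Rep

variable {O : Type} [CommRing O] [IsDomain O] [IsDiscreteValuationRing O]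
  [IsAdicComplete (maximalIdeal O) O] [CharZero O] {r : ℕ} (hr : r.Prime)
  (hrO : (r : O) ∈ maximalIdeal O)

theorem trace_det_fin_two {R : Type} [CommRing R] [Nontrivial R] {M : Deform.Mt R} {a c : R}
    (h : M.charpoly = .X ^ 2 - .C a * .X + .C c) : M.trace = a ∧ M.det = c := by
  rw [Matrix.charpoly_fin_two] at h
  have h1 := congrArg (fun P : Polynomial R => P.coeff 1) h
  have h0 := congrArg (fun P : Polynomial R => P.coeff 0) h
  simp [Polynomial.coeff_X_pow, Polynomial.coeff_C] at h1 h0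
  exact ⟨h1, h0⟩

theorem trace_pow_fin_two {R : Type} [CommRing R] (M : Deform.Mt R) :
    ∀ k, (M ^ k).trace = Attach.powerTrace M.trace M.det k
  | 0 => by simp [Attach.powerTrace, Matrix.trace_one]
  | 1 => by rw [pow_one]; rfl
  | k + 2 => by
    have : M ^ (k + 2) = M.trace • M ^ (k + 1) - M.det • M ^ k := by
      rw [pow_add M k 2, sq, Attach.sq_fin_two, mul_sub, mul_smul_comm, mul_smul_comm, mul_one,
        ← pow_succ]
    rw [this, Matrix.trace_sub, Matrix.trace_smul, Matrix.trace_smul, trace_pow_fin_two M k,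
      trace_pow_fin_two M (k + 1)]
    rfl

/-- the representation attached to a character -/
structure IsRep (f : TFull N →+* O) (ρ : GalQ →* Deform.Mt O) : Prop where
  cont : Deform.MatCont ρ
  det : ∀ σ, (ρ σ).det = Attach.cycR hr hrO σ
  frob : ∀ (ℓ : ℕ) (hℓ : ℓ.Prime) (hℓN : ¬ ℓ ∣ N), ℓ ≠ r →
    ∀ A : ValuationSubring Qb, A.LiesOverPrime ℓ → ∀ σ : GalQ, A.IsFrobeniusAt σ ℓ →
      (ρ σ).trace = f (CuspForm.heckeAlgebra.T hℓ hℓN (Set.notMem_empty _))
  unram : ∀ q : ℕ, q.Prime → ¬ q ∣ N → q ≠ r → ∀ A : ValuationSubring Qb, A.LiesOverPrime q →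
    ∀ σ ∈ A.inertiaSubgroupIn ℚ, ρ σ = 1

theorem exists_isRep (D : HeckeLattice N) (G : GaloisInputs N) (f : TFull N →+* O) :
    ∃ ρ : GalQ →* Deform.Mt O, IsRep hr hrO f ρ := by
  classical
  obtain ⟨R, hR, hRu⟩ := Attach.exists_galoisRepAdic hr hrO D G f
  obtain ⟨m, hm⟩ := Deform.exists_repMat R
  let ρ : GalQ →* Deform.Mt O :=
    { toFun := m
      map_one' := hm.map_one
      map_mul' := hm.map_mul }
  have hfr : ∀ (ℓ : ℕ) (hℓ : ℓ.Prime) (hℓN : ¬ ℓ ∣ N), ℓ ≠ r →
      ∀ A : ValuationSubring Qb, A.LiesOverPrime ℓ → ∀ σ : GalQ, A.IsFrobeniusAt σ ℓ →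
        (ρ σ).trace = f (CuspForm.heckeAlgebra.T hℓ hℓN (Set.notMem_empty _)) ∧
          (ρ σ).det = (ℓ : O) := by
    intro ℓ hℓ hℓN hℓr A hA σ hσ
    apply trace_det_fin_two
    obtain ⟨b, hb⟩ := hm
    show (m σ).charpoly = _
    rw [← hb σ, LinearMap.charpoly_toMatrix, hR ℓ hℓ hℓN hℓr A hA σ hσ]
  have hcont : Deform.MatCont ρ := Deform.repMat_matCont hm
  refine ⟨ρ, hcont, fun σ => ?_, fun ℓ hℓ hℓN hℓr A hA σ hσ => (hfr ℓ hℓ hℓN hℓr A hA σ hσ).1,
    fun q hq hqN hqr A hA σ hσ => ?_⟩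
  · refine Attach.eq_of_forall_sub_mem_pow fun n => ?_
    obtain ⟨L1, hL1, h1⟩ := hcont n
    obtain ⟨L2, hL2, h2⟩ := Attach.cycR_level hr hrO n
    haveI := hL1; haveI := hL2
    obtain ⟨ℓ, A, τ, k, hℓ, hℓS, hA, hτ, hagree⟩ :=
      Chebotarev.exists_frobenius_pow (L1 ⊔ L2) σ (insert r N.primeFactors)
    rw [Finset.mem_insert, not_or] at hℓS
    have hℓN : ¬ ℓ ∣ N := fun h => hℓS.2 (Nat.mem_primeFactors.2 ⟨hℓ, h, NeZero.ne N⟩)
    set g : GalQ := σ⁻¹ * τ ^ k with hg
    have hfix : ∀ y ∈ L1 ⊔ L2, g y = y := fun y hy => by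
      rw [hg, AlgEquiv.mul_apply, hagree y hy]
      exact σ.symm_apply_apply y
    have hτk : τ ^ k = σ * g := by rw [hg, mul_inv_cancel_left]
    let q : O →+* O ⧸ (maximalIdeal O ^ n) := Ideal.Quotient.mk _
    have hρg : q.mapMatrix (ρ g) = 1 :=
      Attach.map_eq_one_of_cont (h1 g fun y hy => hfix y (le_sup_left (a := L1) hy))
    have hcg : q (Attach.cycR hr hrO g) = 1 := by
      rw [← map_one q]
      exact (Ideal.Quotient.mk_eq_mk_iff_sub_mem _ _).2
        (h2 g fun y hy => hfix y (le_sup_right (a := L1) hy))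
    have hcy : Attach.cycR hr hrO (τ ^ k) = (ℓ : O) ^ k := by
      clear hτk hfix hagree hρg hcg hg
      induction k with
      | zero => rw [pow_zero, pow_zero, Attach.cycR_one]
      | succ k ih =>
        rw [pow_succ, Attach.cycR_mul, ih, Attach.cycR_frobenius hr hrO hℓ hℓS.1 hA hτ, pow_succ]
    have hd : (ρ (τ ^ k)).det = (ℓ : O) ^ k := by
      rw [map_pow, Matrix.det_pow, (hfr ℓ hℓ hℓN hℓS.1 A hA τ hτ).2]
    rw [← Ideal.Quotient.eq_zero_iff_mem, map_sub, sub_eq_zero]
    have e1 : q (ρ (τ ^ k)).det = q (ρ σ).det := by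
      rw [RingHom.map_det, RingHom.map_det, hτk, map_mul, map_mul, hρg, mul_one]
    have e2 : q (Attach.cycR hr hrO (τ ^ k)) = q (Attach.cycR hr hrO σ) := by
      rw [hτk, Attach.cycR_mul, map_mul, hcg, mul_one]
    show q (ρ σ).det = q (Attach.cycR hr hrO σ)
    rw [← e1, ← e2, hd, hcy]
  · obtain ⟨b, hb⟩ := hm
    show m σ = 1
    rw [← hb σ, hRu q hq hqN hqr A hA σ hσ, LinearMap.toMatrix_one]

/-- the trace operator of a Galois element on torsion is a Hecke operator with the right values -/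
theorem exists_traceElem (D : HeckeLattice N) (G : GaloisInputs N)
    [Finite (TFull N →+* O)] {R : (TFull N →+* O) → (GalQ →* Deform.Mt O)}
    (hR : ∀ f, IsRep hr hrO f (R f)) (m : ℕ) [NeZero (r ^ m)] (g : GalQ) :
    ∃ t : TFull N, (∀ v, D.twist (r ^ m) g v = D.tors (r ^ m) (D.actS ∅ t v)) ∧
      ∀ f, f t - (R f g).trace ∈ maximalIdeal O ^ m := by
  classical
  have hn : 0 < r ^ m := pow_pos hr.pos m
  obtain ⟨L1, hL1, h1⟩ := D.exists_tors_level G hn
  obtain ⟨L2, hL2, h2⟩ := Attach.exists_cyc_level (r ^ m)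
  choose L3 hL3 h3 using fun f => (hR f).cont m
  haveI := hL1; haveI := hL2
  haveI : ∀ f, FiniteDimensional ℚ (L3 f) := hL3
  haveI : FiniteDimensional ℚ (⨆ f, L3 f : IntermediateField ℚ Qb) := inferInstance
  obtain ⟨ℓ, A, τ, k, hℓ, hℓS, hA, hτ, hagree⟩ :=
    Chebotarev.exists_frobenius_pow (L1 ⊔ L2 ⊔ ⨆ f, L3 f) g (insert r N.primeFactors)
  rw [Finset.mem_insert, not_or] at hℓS
  have hℓN : ¬ ℓ ∣ N := fun h => hℓS.2 (Nat.mem_primeFactors.2 ⟨hℓ, h, NeZero.ne N⟩)
  have hℓn : ¬ ℓ ∣ r ^ m := fun h =>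
    hℓS.1 ((Nat.prime_dvd_prime_iff_eq hℓ hr).1 (hℓ.dvd_of_dvd_pow h))
  set g' : GalQ := g⁻¹ * τ ^ k with hg'
  have hτk : τ ^ k = g * g' := by rw [hg', mul_inv_cancel_left]
  have hfix : ∀ y ∈ L1 ⊔ L2 ⊔ ⨆ f, L3 f, g' y = y := fun y hy => by
    rw [hg', AlgEquiv.mul_apply, hagree y hy]
    exact g.symm_apply_apply y
  refine ⟨Attach.powerTrace (CuspForm.heckeAlgebra.T hℓ hℓN (Set.notMem_empty _))
    (ℓ : TFull N) k, fun v => ?_, fun f => ?_⟩
  · rw [← D.twist_pow G ∅ hℓ hℓN (Set.notMem_empty _) hℓn hA hτ k v]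
    have hg1 := h1 g' fun y hy =>
      hfix y (le_sup_left (a := L1 ⊔ L2) (le_sup_left (a := L1) hy))
    have hg2 := h2 g' fun y hy =>
      hfix y (le_sup_left (a := L1 ⊔ L2) (le_sup_right (a := L1) hy))
    rw [hτk, HeckeLattice.twist, HeckeLattice.twist, mul_smul, hg1, Attach.cyc_mul, hg2, mul_one,
      mul_inv_rev, mul_smul]
    congr 2
    obtain ⟨w, hw⟩ := D.exists_tors_eq_smul hn g⁻¹ v
    rw [← hw]
    exact eq_inv_smul_iff.2 (hg1 w)
  · have hd : (R f τ).det = (ℓ : O) := by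
      rw [(hR f).det, Attach.cycR_frobenius hr hrO hℓ hℓS.1 hA hτ]
    rw [Attach.map_powerTrace, map_natCast, ← (hR f).frob ℓ hℓ hℓN hℓS.1 A hA τ hτ, ← hd,
      ← trace_pow_fin_two, ← map_pow, hτk, map_mul]
    have hq : (Ideal.Quotient.mk (maximalIdeal O ^ m)).mapMatrix (R f g') = 1 :=
      Attach.map_eq_one_of_cont (h3 f g' fun y hy =>
        hfix y (le_sup_right (a := L1 ⊔ L2) (le_iSup L3 f hy)))
    rw [← Ideal.Quotient.eq_zero_iff_mem, map_sub, sub_eq_zero,
      AddMonoidHom.map_trace (Ideal.Quotient.mk (maximalIdeal O ^ m)),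
      AddMonoidHom.map_trace (Ideal.Quotient.mk (maximalIdeal O ^ m))]
    show ((Ideal.Quotient.mk (maximalIdeal O ^ m)).mapMatrix (R f g * R f g')).trace = _
    rw [map_mul, hq, mul_one]
    rfl

end Rep

section Det

variable (D : HeckeLattice N)

open scoped IsMulCommutative in
/-- every eigenvalue of a Hecke operator is the value of a character -/
theorem exists_hom_of_root {K : Type} [Field K] [IsAlgClosed K] (t : TFull N) {μ : K}
    (h : ((D.mat (D.actS ∅ t) : Matrix D.Idx D.Idx K)).charpoly.IsRoot μ) :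
    ∃ f : TFull N →+* K, f t = μ := by
  classical
  let φ : TFull N →+* Matrix D.Idx D.Idx K :=
    (D.mat : Module.End ℤ D.Lam →+* Matrix D.Idx D.Idx K).comp (D.actS ∅)
  let S := Algebra.adjoin K (Set.range φ)
  haveI : IsMulCommutative S := Algebra.isMulCommutative_adjoin K (by
    rintro _ ⟨a, rfl⟩ _ ⟨b, rfl⟩
    rw [← map_mul, mul_comm, map_mul])
  let ψ : TFull N →+* S := φ.codRestrict S fun x => Algebra.subset_adjoin ⟨x, rfl⟩
  have hnu : ¬ IsUnit (ψ t - algebraMap K S μ) := by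
    intro hu
    have h1 : IsUnit (φ t - Matrix.scalar D.Idx μ) := by
      have := hu.map (S.val : S →ₐ[K] Matrix D.Idx D.Idx K)
      rwa [map_sub, AlgHom.commutes, Matrix.algebraMap_eq_diagonal] at this
    rw [Matrix.isUnit_iff_isUnit_det, isUnit_iff_ne_zero] at h1
    apply h1
    rw [show φ t - Matrix.scalar D.Idx μ = -(Matrix.scalar D.Idx μ - φ t) from (neg_sub _ _).symm,
      Matrix.det_neg, ← Matrix.eval_charpoly]
    rw [Polynomial.IsRoot.def] at h
    show _ * ((D.mat (D.actS ∅ t) : Matrix D.Idx D.Idx K)).charpoly.eval μ = 0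
    rw [h, mul_zero]
  obtain ⟨I, hI, hmem⟩ := exists_max_ideal_of_mem_nonunits (mem_nonunits_iff.mpr hnu)
  haveI := hI
  letI := Ideal.Quotient.field I
  haveI : Module.Finite K (S ⧸ I) := inferInstance
  haveI : Algebra.IsIntegral K (S ⧸ I) := inferInstance
  let e := RingEquiv.ofBijective (algebraMap K (S ⧸ I))
    IsAlgClosed.algebraMap_bijective_of_isIntegral
  refine ⟨e.symm.toRingHom.comp ((Ideal.Quotient.mk I).comp ψ), e.injective ?_⟩
  show e (e.symm (Ideal.Quotient.mk I (ψ t))) = e μ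
  rw [RingEquiv.apply_symm_apply, ← sub_eq_zero]
  show Ideal.Quotient.mk I (ψ t) - algebraMap K (S ⧸ I) μ = 0
  show Ideal.Quotient.mk I (ψ t) - Ideal.Quotient.mk I (algebraMap K S μ) = 0
  rw [← map_sub]
  exact Ideal.Quotient.eq_zero_iff_mem.mpr hmem

theorem prod_notMem_pow {O : Type} [CommRing O] [IsDomain O] [IsDiscreteValuationRing O] {e : ℕ}
    (s : Multiset O) (h : ∀ x ∈ s, x ∉ maximalIdeal O ^ e) :
    s.prod ∉ maximalIdeal O ^ (Multiset.card s * e + 1) := by
  obtain ⟨ϖ, hϖ⟩ := IsDiscreteValuationRing.exists_irreducible O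
  have hmem : ∀ (j k : ℕ) (u : Oˣ), ((u : O) * ϖ ^ j ∈ maximalIdeal O ^ k ↔ k ≤ j) := fun j k u => by
    rw [hϖ.maximalIdeal_eq, Ideal.span_singleton_pow, Ideal.mem_span_singleton, Units.dvd_mul_left,
      pow_dvd_pow_iff hϖ.ne_zero hϖ.not_isUnit]
  suffices H : ∃ (u : Oˣ) (j : ℕ), s.prod = u * ϖ ^ j ∧ j ≤ Multiset.card s * e by
    obtain ⟨u, j, hs, hj⟩ := H
    rw [hs, hmem]
    omega
  induction s using Multiset.induction_on with
  | empty => exact ⟨1, 0, by simp, by simp⟩
  | cons a s ih =>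
    obtain ⟨v, j, hs, hj⟩ := ih fun x hx => h x (Multiset.mem_cons_of_mem hx)
    have ha : a ≠ 0 := fun h0 => h a (Multiset.mem_cons_self a s) (h0 ▸ zero_mem _)
    obtain ⟨i, u, rfl⟩ := IsDiscreteValuationRing.eq_unit_mul_pow_irreducible ha hϖ
    have hi := h _ (Multiset.mem_cons_self _ _)
    rw [hmem, not_le] at hi
    refine ⟨u * v, i + j, ?_, ?_⟩
    · rw [Multiset.prod_cons, hs, Units.val_mul, pow_add]
      ring
    · rw [Multiset.card_cons, Nat.add_mul, one_mul]
      omega

/-- the determinant of a Hecke operator with values of bounded valuation -/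
theorem not_dvd_det {O : Type} [CommRing O] [IsDomain O] [IsDiscreteValuationRing O]
    {K : Type} [Field K] [IsAlgClosed K] {r : ℕ} (hrO : (r : O) ∈ maximalIdeal O) (ι : O →+* K)
    (hι : Function.Injective ι) (hval : ∀ f : TFull N →+* K, ∃ f0 : TFull N →+* O, ι.comp f0 = f)
    (t : TFull N) {e : ℕ} (he : ∀ f : TFull N →+* O, f t ∉ maximalIdeal O ^ e) :
    ¬ (r : ℤ) ^ (Fintype.card D.Idx * e + 1) ∣ LinearMap.det (D.actS ∅ t) := by
  classical
  intro hdvd
  set X : Matrix D.Idx D.Idx K := D.mat (D.actS ∅ t) with hX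
  have hdetZ : X.det = ((LinearMap.det (D.actS ∅ t) : ℤ) : K) := by
    rw [← LinearMap.det_toMatrix (Module.Free.chooseBasis ℤ D.Lam),
      show ∀ z : ℤ, (z : K) = Int.castRingHom K z from fun _ => rfl, RingHom.map_det]
    rfl
  have hroot : ∀ μ ∈ X.charpoly.roots, ∃ x : O, ι x = μ ∧ x ∉ maximalIdeal O ^ e := by
    intro μ hμ
    obtain ⟨f, hf⟩ := exists_hom_of_root D t (Polynomial.isRoot_of_mem_roots hμ)
    obtain ⟨f0, hf0⟩ := hval f
    exact ⟨f0 t, (RingHom.congr_fun hf0 t).trans hf, he f0⟩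
  choose x hx hxe using hroot
  set s : Multiset O := X.charpoly.roots.attach.map fun μ => x μ.1 μ.2 with hs
  have hprod : ι s.prod = X.charpoly.roots.prod := by
    rw [map_multiset_prod, hs, Multiset.map_map]
    congr 1
    conv_rhs => rw [← Multiset.attach_map_val X.charpoly.roots]
    exact Multiset.map_congr rfl fun μ _ => hx μ.1 μ.2
  have hcard : Multiset.card s ≤ Fintype.card D.Idx := by
    rw [hs, Multiset.card_map, Multiset.card_attach, ← Matrix.charpoly_natDegree_eq_dim X]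
    exact Polynomial.card_roots' _
  have hnot := prod_notMem_pow (e := e) s fun a ha => by
    rw [hs, Multiset.mem_map] at ha
    obtain ⟨μ, -, rfl⟩ := ha
    exact hxe μ.1 μ.2
  apply hnot
  have hdet : s.prod = ((LinearMap.det (D.actS ∅ t) : ℤ) : O) := hι (by
    rw [hprod, ← Matrix.det_eq_prod_roots_charpoly_of_splits (IsAlgClosed.splits _), hdetZ,
      map_intCast])
  rw [hdet]
  obtain ⟨c, hc⟩ := hdvd
  rw [hc, Int.cast_mul, Int.cast_pow, Int.cast_natCast]
  refine Ideal.mul_mem_right _ _ (Ideal.pow_le_pow_right ?_ (Ideal.pow_mem_pow hrO _))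
  exact Nat.succ_le_succ (Nat.mul_le_mul_right e hcard)

end Det

end FLTAgent.EIS

end
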