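import Fermat.Agent.EIS.Algebra
import Fermat.Agent.EIS.Cyclo
import Fermat.Agent.EIS.IrredAlg
import Fermat.Agent.EIS.TraceHecke
import Fermat.Agent.S58.Bound
import Fermat.Agent.SS.Fibre
import Fermat.Agent.Flat.API
import Fermat.Agent.Common.EverywhereUnramified
import Fermat.Agent.Common.InertiaConj

/-!
Area EIS, parcel E: group ring elements whose trace scalars have kernel of bounded exponent on
every subquotient of the `r`-power torsion of `J₀(p)` on which the inertia at `r` has formal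
traces `1 + χ`.
-/

set_option autoImplicit false
set_option linter.unusedSectionVars false
set_option linter.style.haveILetI false
set_option maxHeartbeats 1000000

noncomputable section

open ModularCurve IsLocalRing
open scoped Matrix

namespace FLTAgent.EIS.Irred

open Attach (HeckeLattice GaloisInputs TFull cyc cycR)

/-! ### the group ring -/

/-- the group ring -/
abbrev GR : Type := MonoidAlgebra ℤ GalQ

section Lin

variable {A A' : Type*} [AddCommGroup A] [AddCommGroup A']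

/-- the additive extension of a function on the group -/
def lin (φ : GalQ → A) : GR →+ A where
  toFun b := b.coeff.sum fun g n => n • φ g
  map_zero' := by simp
  map_add' a b := by
    rw [MonoidAlgebra.coeff_add]
    exact Finsupp.sum_add_index' (fun _ => zero_zsmul _) fun _ _ _ => add_zsmul _ _ _

theorem lin_single (φ : GalQ → A) (g : GalQ) (n : ℤ) :
    lin φ (MonoidAlgebra.single g n) = n • φ g := by
  show (MonoidAlgebra.single g n).coeff.sum (fun g k => k • φ g) = n • φ g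
  rw [MonoidAlgebra.coeff_single]
  exact Finsupp.sum_single_index (zero_zsmul _)

theorem lin_map (F : A →+ A') (φ : GalQ → A) (b : GR) :
    F (lin φ b) = lin (fun g => F (φ g)) b := by
  induction b using MonoidAlgebra.induction_linear with
  | zero => simp
  | add a b ha hb => rw [map_add, map_add, map_add, ha, hb]
  | single g n => rw [lin_single, lin_single, map_zsmul]

theorem lin_of (φ : GalQ → A) (g : GalQ) :
    lin φ (MonoidAlgebra.of ℤ GalQ g) = φ g := by
  rw [MonoidAlgebra.of_apply, lin_single, one_zsmul]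

theorem lin_one (φ : GalQ → A) : lin φ (1 : GR) = φ 1 := by
  rw [MonoidAlgebra.one_def, lin_single, one_zsmul]

end Lin

section Eval

variable {M : Type} [AddCommGroup M] [DistribMulAction GalQ M] (C : Alg2.Cay GalQ M)

/-- the pair of a group ring element and its conjugate -/
def ev : GR →+ AddMonoid.End M × AddMonoid.End M := lin fun g => (Alg2.ρ g, C.conj g)

/-- the trace operator of a group ring element -/
def tr : GR →+ AddMonoid.End M := lin fun g => Alg2.ρ g + C.conj g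

theorem tr_eq (b : GR) : tr C b = (ev C b).1 + (ev C b).2 :=
  (lin_map ((AddMonoidHom.fst (AddMonoid.End M) (AddMonoid.End M)) +
    AddMonoidHom.snd (AddMonoid.End M) (AddMonoid.End M))
    (fun g => (Alg2.ρ g, C.conj g)) b).symm

theorem ev_mem (b : GR) : ev C b ∈ C.pairs := by
  induction b using MonoidAlgebra.induction_linear with
  | zero => rw [map_zero]; exact zero_mem _
  | add a b ha hb => rw [map_add]; exact add_mem ha hb
  | single g n => rw [ev, lin_single]; exact zsmul_mem (C.mem_pairs g) n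

theorem ev_of (g : GalQ) : ev C (MonoidAlgebra.of ℤ GalQ g) = (Alg2.ρ g, C.conj g) := lin_of _ g

theorem ev_one : ev C 1 = (Alg2.ρ (1 : GalQ), C.conj 1) := lin_one _

theorem ev_mul (a b : GR) :
    ev C (a * b) = ((ev C a).1 * (ev C b).1, (ev C b).2 * (ev C a).2) := by
  induction a using MonoidAlgebra.induction_linear with
  | zero => simp [Prod.mk_zero_zero]
  | add a a' ha ha' => simp [add_mul, mul_add, ha, ha', Prod.mk_add_mk]
  | single g n =>
    induction b using MonoidAlgebra.induction_linear with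
    | zero => simp [Prod.mk_zero_zero]
    | add b b' hb hb' => simp [add_mul, mul_add, hb, hb', Prod.mk_add_mk]
    | single h k =>
      rw [MonoidAlgebra.single_mul_single, ev, lin_single, lin_single, lin_single, Alg2.ρ_mul,
        C.conj_mul]
      simp only [Prod.smul_fst, Prod.smul_snd, Prod.smul_mk, smul_mul_smul_comm, mul_comm k n]

variable (τ : GalQ)

theorem sR_eq (h x : GR) (z : M) :
    C.sR τ (ev C h) (ev C x) z =
      tr C ((MonoidAlgebra.of ℤ GalQ τ - 1) * (h * MonoidAlgebra.of ℤ GalQ τ * x)) z -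
        C.chi τ • tr C ((MonoidAlgebra.of ℤ GalQ τ - 1) * (h * x)) z := by
  have hP : C.pPair τ = ev C (MonoidAlgebra.of ℤ GalQ τ - 1) := by
    rw [map_sub, ev_of, ev_one]; rfl
  have hQ : C.qPair τ = ev C (MonoidAlgebra.of ℤ GalQ τ - C.chi τ • 1) := by
    rw [map_sub, map_zsmul, ev_of, ev_one, Alg2.Cay.qPair, zsmul_neg, neg_add_eq_sub]
  have e : C.sR τ (ev C h) (ev C x) = tr C ((MonoidAlgebra.of ℤ GalQ τ - 1) *
      (h * (MonoidAlgebra.of ℤ GalQ τ - C.chi τ • 1) * x)) := by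
    rw [tr_eq, Alg2.Cay.sR, hP, hQ]
    simp only [ev_mul, mul_assoc]
  rw [e, show h * (MonoidAlgebra.of ℤ GalQ τ - C.chi τ • 1) * x =
      h * MonoidAlgebra.of ℤ GalQ τ * x - C.chi τ • (h * x) by
    rw [mul_sub, sub_mul, mul_smul_comm, mul_one, smul_mul_assoc], mul_sub, mul_smul_comm, map_sub,
    map_zsmul]
  rfl

theorem sP_eq (φ : GalQ) (p : ℤ) (u x : GR) :
    C.sP φ p (ev C u) (ev C x) = tr C ((MonoidAlgebra.of ℤ GalQ (φ * φ) - 1) *
      (u * (MonoidAlgebra.of ℤ GalQ (φ * φ) - p ^ 2 • 1) * x)) := by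
  have hP : C.piPair φ = ev C (MonoidAlgebra.of ℤ GalQ (φ * φ) - 1) := by
    rw [map_sub, ev_of, ev_one, Alg2.ρ_mul, C.conj_mul]; rfl
  have hQ : C.piPair' φ p = ev C (MonoidAlgebra.of ℤ GalQ (φ * φ) - p ^ 2 • 1) := by
    rw [map_sub, map_zsmul, ev_of, ev_one, Alg2.ρ_mul, C.conj_mul, Alg2.Cay.piPair', zsmul_neg,
      sub_eq_add_neg]
  rw [tr_eq, Alg2.Cay.sP, hP, hQ]
  simp only [ev_mul, mul_assoc]

end Eval

/-! ### the hypotheses on the module -/

variable {N : ℕ} [NeZero N] {M : Type} [AddCommGroup M] [DistribMulAction GalQ M]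

variable (N) in
/-- `M` is a subquotient of the `r ^ m`-torsion -/
def IsSubquot (m r : ℕ) (M : Type) [AddCommGroup M] [DistribMulAction GalQ M] : Prop :=
  ∃ (S : AddSubgroup (JZero N)) (π : S →+ M), Function.Surjective π ∧
    (∀ z ∈ S, r ^ m • z = 0) ∧ (∀ g : GalQ, ∀ z ∈ S, g • z ∈ S) ∧
    ∀ (g : GalQ) (z : S) (h : g • (z : JZero N) ∈ S), π ⟨g • (z : JZero N), h⟩ = g • π z

/-- the integral character is the cyclotomic one modulo `r ^ m` -/
def ChiAt (C : Alg2.Cay GalQ M) (r m : ℕ) : Prop :=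
  ∀ (g : GalQ) (a : ℕ), (∀ ζ : Qb, ζ ^ (r ^ m) = 1 → g ζ = ζ ^ a) → ∀ y : M, C.chi g • y = a • y

/-- the formal traces of the inertia at `A` are `1 + χ` -/
def TraceVanishes (A : ValuationSubring Qb) (C : Alg2.Cay GalQ M) : Prop :=
  ∀ τ ∈ A.inertiaSubgroupIn ℚ, ∀ y : M, τ • y + C.chi τ • τ⁻¹ • y = y + C.chi τ • y

theorem IsSubquot.torsion {m r : ℕ} (h : IsSubquot N m r M) (y : M) : r ^ m • y = 0 := by
  obtain ⟨S, π, hπ, hS, -, -⟩ := h
  obtain ⟨z, rfl⟩ := hπ y
  rw [← map_nsmul, show r ^ m • z = 0 from Subtype.ext (hS z z.2), map_zero]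

theorem IsSubquot.card_torsion_le {m r k : ℕ} (h : IsSubquot N m r M) (hr : r.Prime) :
    Nat.card {y : M | r ^ k • y = 0} ≤ Nat.card {z : JZero N | r ^ k • z = 0} := by
  obtain ⟨S, π, hπ, hS, -, -⟩ := h
  haveI : Finite {z : JZero N | r ^ m • z = 0} :=
    (Flat.finite_torsion (r ^ m) (pow_pos hr.pos m)).to_subtype
  haveI : Finite {z : JZero N | r ^ k • z = 0} :=
    (Flat.finite_torsion (r ^ k) (pow_pos hr.pos k)).to_subtype
  haveI : Finite S := Finite.of_injective
    (fun z : S => (⟨z.1, hS z.1 z.2⟩ : {z : JZero N | r ^ m • z = 0}))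
    fun a b hab => Subtype.ext (congrArg (fun w : {z : JZero N | r ^ m • z = 0} => w.1) hab)
  haveI : Finite M := Finite.of_surjective π hπ
  set fM : M →+ M := nsmulAddMonoidHom (r ^ k)
  set fS : S →+ S := nsmulAddMonoidHom (r ^ k)
  have hrange : fM.range = fS.range.map π := by
    ext y
    constructor
    · rintro ⟨x, rfl⟩
      obtain ⟨w, rfl⟩ := hπ x
      exact ⟨fS w, ⟨w, rfl⟩, map_nsmul π _ w⟩
    · rintro ⟨_, ⟨w, rfl⟩, rfl⟩
      exact ⟨π w, (map_nsmul π _ w).symm⟩
  have hidx : fM.range.index ≤ fS.range.index :=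
    Nat.le_of_dvd (Nat.pos_of_ne_zero AddSubgroup.index_ne_zero_of_finite)
      (hrange ▸ AddSubgroup.index_map_dvd _ hπ)
  have eM : Nat.card fM.ker = fM.range.index := by
    have h1 := fM.range.card_mul_index
    rw [← AddSubgroup.index_ker, ← fM.ker.index_mul_card] at h1
    exact (Nat.eq_of_mul_eq_mul_left (Nat.pos_of_ne_zero AddSubgroup.index_ne_zero_of_finite) h1).symm
  have eS : Nat.card fS.ker = fS.range.index := by
    have h1 := fS.range.card_mul_index
    rw [← AddSubgroup.index_ker, ← fS.ker.index_mul_card] at h1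
    exact (Nat.eq_of_mul_eq_mul_left (Nat.pos_of_ne_zero AddSubgroup.index_ne_zero_of_finite) h1).symm
  calc Nat.card {y : M | r ^ k • y = 0} = Nat.card fM.ker := rfl
    _ ≤ Nat.card fS.ker := by rw [eM, eS]; exact hidx
    _ ≤ _ := Nat.card_le_card_of_injective
        (fun w : fS.ker => (⟨((w : S) : JZero N), congrArg Subtype.val w.2⟩ :
          {z : JZero N | r ^ k • z = 0}))
        fun a b hab => Subtype.ext (Subtype.ext
          (congrArg (fun w : {z : JZero N | r ^ k • z = 0} => w.1) hab))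

theorem pow_smul_eq_zero {A : Type} [AddCommGroup A] {r : ℕ} (hr : r.Prime) {m K : ℕ} {y : A}
    (hm : r ^ m • y = 0) {D : ℤ} (hD : D • y = 0) (hK : ¬ (r : ℤ) ^ K ∣ D) : r ^ K • y = 0 := by
  obtain ⟨j, -, hgcd⟩ := (Nat.dvd_prime_pow hr).1
    (Int.gcd_dvd_natAbs_right D ((r ^ m : ℕ) : ℤ))
  have hj : j ≤ K := by
    by_contra hlt
    refine hK ((pow_dvd_pow _ (not_le.mp hlt).le).trans ?_)
    have := Int.gcd_dvd_left D ((r ^ m : ℕ) : ℤ)
    rwa [hgcd, Nat.cast_pow] at this
  have hy : r ^ j • y = 0 := by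
    rw [← natCast_zsmul, ← hgcd, Int.gcd_eq_gcd_ab, add_smul, mul_comm D, mul_smul, hD, smul_zero,
      mul_comm _ (Int.gcdB _ _), mul_smul, natCast_zsmul, hm, smul_zero, add_zero]
  rw [← Nat.sub_add_cancel hj, pow_add, mul_smul, hy, smul_zero]

/-! ### Hecke operators descend to subquotients -/

section Descend

variable (D : HeckeLattice N) (n : ℕ) {S : AddSubgroup (JZero N)} (π : S →+ M)

/-- an endomorphism of the lattice induces one of the subquotient -/
def Induces (u : Module.End ℤ D.Lam) (E : AddMonoid.End M) : Prop :=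
  ∀ (v : D.Lam) (h : D.tors n v ∈ S),
    ∃ h' : D.tors n (u v) ∈ S, π ⟨_, h'⟩ = E (π ⟨_, h⟩)

variable {D n π}

theorem Induces.zero : Induces D n π 0 0 := fun v h =>
  ⟨by simpa using S.zero_mem, by simp only [LinearMap.zero_apply, map_zero]; exact map_zero π⟩

theorem Induces.one : Induces D n π 1 1 := fun v h => ⟨h, rfl⟩

theorem Induces.add {u u' : Module.End ℤ D.Lam} {E E' : AddMonoid.End M} (hu : Induces D n π u E)
    (hu' : Induces D n π u' E') : Induces D n π (u + u') (E + E') := fun v h => by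
  obtain ⟨h1, e1⟩ := hu v h
  obtain ⟨h2, e2⟩ := hu' v h
  have hmem : D.tors n ((u + u') v) ∈ S := by
    rw [LinearMap.add_apply, map_add]; exact S.add_mem h1 h2
  refine ⟨hmem, ?_⟩
  show _ = E (π ⟨_, h⟩) + E' (π ⟨_, h⟩)
  rw [← e1, ← e2, ← map_add]
  exact congrArg π (Subtype.ext (by simp))

theorem Induces.zsmul {u : Module.End ℤ D.Lam} {E : AddMonoid.End M} (hu : Induces D n π u E)
    (z : ℤ) : Induces D n π (z • u) (z • E) := fun v h => by
  obtain ⟨h1, e1⟩ := hu v h
  have hmem : D.tors n ((z • u) v) ∈ S := by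
    rw [LinearMap.smul_apply, map_zsmul]; exact S.zsmul_mem h1 z
  refine ⟨hmem, ?_⟩
  show _ = z • E (π ⟨_, h⟩)
  rw [← e1, ← map_zsmul]
  exact congrArg π (Subtype.ext (by simp))

theorem Induces.sub {u u' : Module.End ℤ D.Lam} {E E' : AddMonoid.End M} (hu : Induces D n π u E)
    (hu' : Induces D n π u' E') : Induces D n π (u - u') (E - E') := by
  have := hu.add (hu'.zsmul (-1))
  rwa [neg_one_zsmul, neg_one_zsmul, ← sub_eq_add_neg, ← sub_eq_add_neg] at this

theorem Induces.mul {u u' : Module.End ℤ D.Lam} {E E' : AddMonoid.End M} (hu : Induces D n π u E)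
    (hu' : Induces D n π u' E') : Induces D n π (u * u') (E * E') := fun v h => by
  obtain ⟨h1, e1⟩ := hu' v h
  obtain ⟨h2, e2⟩ := hu (u' v) h1
  exact ⟨h2, e2.trans (congrArg E e1)⟩

theorem Induces.pow {u : Module.End ℤ D.Lam} {E : AddMonoid.End M} (hu : Induces D n π u E)
    (k : ℕ) : Induces D n π (u ^ k) (E ^ k) := by
  induction k with
  | zero => rw [pow_zero, pow_zero]; exact Induces.one
  | succ k ih => rw [pow_succ, pow_succ]; exact ih.mul hu

theorem Induces.sum {ι : Type*} (s : Finset ι) {u : ι → Module.End ℤ D.Lam}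
    {E : ι → AddMonoid.End M} (h : ∀ i ∈ s, Induces D n π (u i) (E i)) :
    Induces D n π (∑ i ∈ s, u i) (∑ i ∈ s, E i) := by
  classical
  induction s using Finset.induction_on with
  | empty => rw [Finset.sum_empty, Finset.sum_empty]; exact Induces.zero
  | insert i s hi ih =>
    rw [Finset.sum_insert hi, Finset.sum_insert hi]
    exact (h i (Finset.mem_insert_self i s)).add (ih fun j hj => h j (Finset.mem_insert_of_mem hj))

/-- the determinant kills the kernel -/
theorem Induces.det_smul {u : Module.End ℤ D.Lam} {E : AddMonoid.End M} (hn : 0 < n)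
    (hπ : Function.Surjective π) (hS : ∀ z ∈ S, n • z = 0) (hu : Induces D n π u E) {y : M}
    (hy : E y = 0) : LinearMap.det u • y = 0 := by
  set P := u.charpoly with hP
  let e : Polynomial ℤ →+* AddMonoid.End M :=
    Polynomial.eval₂RingHom' (Int.castRingHom _) E fun z => Int.cast_commute z E
  let e' : Polynomial ℤ →+* Module.End ℤ D.Lam :=
    Polynomial.eval₂RingHom' (Int.castRingHom _) u fun z => Int.cast_commute z u
  have he : ∀ Q, Induces D n π (e' Q) (e Q) := by
    intro Q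
    induction Q using Polynomial.induction_on' with
    | add a b ha hb => rw [map_add, map_add]; exact ha.add hb
    | monomial i z =>
      simp only [e, e', Polynomial.eval₂RingHom'_apply, Polynomial.eval₂_monomial]
      rw [eq_intCast, eq_intCast, ← zsmul_eq_mul, ← zsmul_eq_mul]
      exact (hu.pow i).zsmul z
  have h0 : e' P = 0 := by
    have := LinearMap.aeval_self_charpoly u
    rw [Polynomial.aeval_def] at this
    simp only [e', Polynomial.eval₂RingHom'_apply]
    rwa [show Int.castRingHom (Module.End ℤ D.Lam) = algebraMap ℤ _ from Subsingleton.elim _ _]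
  have hzero : e P y = 0 := by
    obtain ⟨⟨x, hx⟩, rfl⟩ := hπ y
    obtain ⟨v, rfl⟩ := (D.nsmul_eq_zero_iff n hn x).1 (hS x hx)
    obtain ⟨h', hh⟩ := he P v hx
    rw [← hh]
    refine (congrArg π (Subtype.ext ?_ : (⟨_, h'⟩ : S) = 0)).trans (map_zero π)
    show D.tors n (e' P v) = 0
    rw [h0, LinearMap.zero_apply, map_zero]
  have hc : P.coeff 0 • y = 0 := by
    rw [← P.divX_mul_X_add, map_add, map_mul] at hzero
    have hX : e Polynomial.X = E := by simp [e]
    have hC : e (Polynomial.C (P.coeff 0)) y = P.coeff 0 • y := by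
      simp [e, AddMonoid.End.intCast_apply]
    rw [hX] at hzero
    change e P.divX (E y) + e (Polynomial.C (P.coeff 0)) y = 0 at hzero
    rw [hy, map_zero, zero_add, hC] at hzero
    exact hzero
  rw [LinearMap.det_eq_sign_charpoly_coeff, mul_smul, ← hP, hc, smul_zero]

end Descend

/-! ### facts about the representations -/

theorem inertia_two {q : ℕ} [NeZero q] (hN : N = 1 * q) (hq : q.Prime) {V : ValuationSubring Qb}
    (hV : V.LiesOverPrime q) {σ : GalQ} (hσ : σ ∈ V.inertiaSubgroupIn ℚ) {n : ℕ} (hn : ¬ q ∣ n)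
    (x : JZero N) (hx : n • x = 0) : σ • x + σ⁻¹ • x = 2 • x := by
  subst hN
  exact SS.inertia_quadratic hq hV (SS.fibreInputs ⟨hq, hq.not_dvd_one, hV⟩) hσ hn x hx

variable {O : Type} [CommRing O] [IsDomain O] [IsDiscreteValuationRing O]
  [IsAdicComplete (maximalIdeal O) O] [CharZero O] {r : ℕ} {hr : r.Prime}
  {hrO : (r : O) ∈ maximalIdeal O}

/-- the value of a character is congruent to zero on operators congruent to zero -/
theorem apply_pow_mem (D : HeckeLattice N) (f : TFull N →+* O) (x : TFull N) {I : Ideal O}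
    (h : ∀ i j, (D.mat (D.actS ∅ x) : Matrix D.Idx D.Idx O) i j ∈ I) :
    f x ^ Fintype.card D.Idx ∈ I := by
  classical
  set X : Matrix D.Idx D.Idx O := D.mat (D.actS ∅ x)
  set P := (D.actS ∅ x).charpoly with hP
  have hx : Polynomial.aeval x P = 0 := by
    apply D.actS_injective ∅
    rw [map_zero, Polynomial.aeval_def, Polynomial.hom_eval₂,
      show (D.actS ∅).comp (algebraMap ℤ (TFull N)) = algebraMap ℤ _ from Subsingleton.elim _ _,
      ← Polynomial.aeval_def]
    exact LinearMap.aeval_self_charpoly _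
  have hf : X.charpoly.eval (f x) = 0 := by
    have h1 := congrArg f hx
    rw [map_zero, Polynomial.aeval_def, Polynomial.hom_eval₂,
      show f.comp (algebraMap ℤ (TFull N)) = Int.castRingHom O from Subsingleton.elim _ _,
      ← Polynomial.eval_map] at h1
    rwa [hP, ← LinearMap.charpoly_toMatrix _ (Module.Free.chooseBasis ℤ D.Lam),
      ← Matrix.charpoly_map] at h1
  let q := Ideal.Quotient.mk I
  have hX : X.map q = 0 := Matrix.ext fun i j => Ideal.Quotient.eq_zero_iff_mem.2 (h i j)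
  have h2 := congrArg q hf
  rw [map_zero, ← Polynomial.eval₂_at_apply, ← Polynomial.eval_map, ← Matrix.charpoly_map, hX,
    Matrix.charpoly_zero, Polynomial.eval_pow, Polynomial.eval_X, ← map_pow] at h2
  exact Ideal.Quotient.eq_zero_iff_mem.1 h2

theorem trace_inertia_level (D : HeckeLattice N) (G : GaloisInputs N) {q : ℕ} [NeZero q]
    (hN : N = 1 * q) (hq : q.Prime) (hqr : q ≠ r) [Finite (TFull N →+* O)]
    {R : (TFull N →+* O) → (GalQ →* Deform.Mt O)} (hR : ∀ f, IsRep hr hrO f (R f))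
    {V : ValuationSubring Qb} (hV : V.LiesOverPrime q) {σ : GalQ}
    (hσ : σ ∈ V.inertiaSubgroupIn ℚ) (f : TFull N →+* O) : (R f σ).trace = 2 := by
  rw [← sub_eq_zero]
  refine eq_zero_of_pow_eq_zero (n := Fintype.card D.Idx) ?_
  refine Attach.eq_zero_of_forall_mem_pow fun m => ?_
  haveI : NeZero (r ^ (m + 1)) := ⟨pow_ne_zero _ hr.ne_zero⟩
  haveI : Fact (1 < r ^ (m + 1)) := ⟨Nat.one_lt_pow m.succ_ne_zero hr.one_lt⟩
  obtain ⟨t, ht, htr⟩ := exists_traceElem hr hrO D G hR (m + 1) σ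
  have hn : 0 < r ^ (m + 1) := pow_pos hr.pos _
  have hqn : ¬ q ∣ r ^ (m + 1) := fun h =>
    hqr ((Nat.prime_dvd_prime_iff_eq hq hr).1 (hq.dvd_of_dvd_pow h))
  have hmat : ∀ i j, (D.mat (D.actS ∅ (t - 2)) : Matrix D.Idx D.Idx O) i j ∈
      maximalIdeal O ^ (m + 1) := by
    intro i j
    have h := D.mat_sub_mem (R := O) hrO hn (u := D.actS ∅ t) (w := D.actS ∅ 2) (fun v => by
      have h2 : D.actS ∅ 2 v = v + v := by
        rw [show (2 : TFull N) = 1 + 1 from one_add_one_eq_two.symm, map_add, map_one,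
          LinearMap.add_apply, Module.End.one_apply]
      rw [← ht, HeckeLattice.twist, Attach.cyc_inertia hq hqn hV hσ, ZMod.val_one, one_nsmul,
        inertia_two hN hq hV hσ hqn _ (D.nsmul_tors hn v), h2, map_add, two_nsmul]) i j
    rw [map_sub, map_sub, Matrix.sub_apply]
    exact h
  have h1 := apply_pow_mem D f (t - 2) hmat
  rw [map_sub, map_ofNat] at h1
  refine Ideal.pow_le_pow_right m.le_succ ?_
  rw [← Ideal.Quotient.eq_zero_iff_mem, map_pow, map_sub] at h1 ⊢
  have h2 := Ideal.Quotient.eq_zero_iff_mem.2 (htr f)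
  rw [map_sub, sub_eq_zero] at h2
  rwa [← h2]

theorem smul_mem_of_det2 {K : Type} [Field K] {w v : Fin 2 → K} (hv : v ≠ 0)
    (h : det2 w v = 0) : ∃ c : K, w = c • v := by
  simp only [det2] at h
  by_cases h0 : v 0 = 0
  · have h1 : v 1 ≠ 0 := fun h1 => hv (funext fun i => by fin_cases i <;> simpa)
    refine ⟨w 1 / v 1, funext fun i => ?_⟩
    fin_cases i
    · simp [h0] at h ⊢
      exact h.resolve_right h1
    · simp [h1]
  · refine ⟨w 0 / v 0, funext fun i => ?_⟩
    fin_cases i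
    · simp [h0]
    · show w 1 = w 0 / v 0 * v 1
      rw [div_mul_eq_mul_div, eq_div_iff h0]
      linear_combination -h

theorem sub_one_mul_sub_eq_zero {R : Type} [CommRing R] (T : Deform.Mt R) (χ : R)
    (ht : T.trace = 1 + χ) (hd : T.det = χ) :
    (T - 1) * (T - χ • 1) = 0 ∧ (T - χ • 1) * (T - 1) = 0 := by
  constructor <;>
  · simp only [sub_mul, mul_sub, mul_one, one_mul, smul_mul_assoc, mul_smul_comm,
      Attach.sq_fin_two, ht, hd, add_smul, one_smul]
    module

/-- without a stable line -/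
theorem noLine {p : ℕ} [NeZero p] (hp : p.Prime) (hrp : r ≠ p) {A : ValuationSubring Qb}
    (hA : A.LiesOverPrime r) (D : HeckeLattice p) (G : GaloisInputs p)
    [Finite (TFull p →+* O)] {R : (TFull p →+* O) → (GalQ →* Deform.Mt O)}
    (hR : ∀ f, IsRep hr hrO f (R f)) (f : TFull p →+* O)
    (hII : ∀ σ ∈ A.inertiaSubgroupIn ℚ, (R f σ).trace = 1 + cycR hr hrO σ)
    {τ : GalQ} (hτ : τ ∈ A.inertiaSubgroupIn ℚ) (hτ1 : cycR hr hrO τ ≠ 1)
    {K : Type} [Field K] (ι : O →+* K) (hι : Function.Injective ι) :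
    NoLine ((ι.mapMatrix : Deform.Mt O →+* Deform.Mt K).toMonoidHom.comp (R f)) := by
  classical
  set ρ := R f with hρ
  set χ : GalQ → O := fun σ => cycR hr hrO σ with hχ
  have hdet : ∀ σ, (ρ σ).det = χ σ := (hR f).det
  have hχu : ∀ σ, IsUnit (χ σ) := Attach.isUnit_cycR hr hrO
  by_contra hno
  simp only [NoLine, not_forall, not_exists, not_not, ne_eq] at hno
  obtain ⟨v, hv, hvg⟩ := hno
  -- the eigenvector is rational
  set T := ρ τ with hT
  have hTt : T.trace = 1 + χ τ := hII τ hτ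
  obtain ⟨hPQ, hQP⟩ := sub_one_mul_sub_eq_zero T (χ τ) hTt (hdet τ)
  have hP0 : T - 1 ≠ 0 := fun h => hτ1 (by
    rw [sub_eq_zero] at h
    have := hdet τ
    rw [← hT, h, Matrix.det_one] at this
    exact this.symm)
  have hQ0 : T - χ τ • 1 ≠ 0 := fun h => hτ1 (by
    rw [sub_eq_zero] at h
    have := hdet τ
    rw [← hT, h, Matrix.det_smul, Matrix.det_one, mul_one, Fintype.card_fin, sq] at this
    exact (hχu τ).mul_left_cancel (this.trans (mul_one _).symm))
  obtain ⟨l, hl⟩ := smul_mem_of_det2 hv (hvg τ)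
  let φ : Deform.Mt O →+* Deform.Mt K := ι.mapMatrix
  change φ T *ᵥ v = l • v at hl
  obtain ⟨P, Q, hP, hQ, hPQ', hPv⟩ : ∃ P Q : Deform.Mt O, P ≠ 0 ∧ Q ≠ 0 ∧ P * Q = 0 ∧
      φ P *ᵥ v = 0 := by
    have e1 : φ (T - 1) *ᵥ v = (l - 1) • v := by
      rw [map_sub, map_one, Matrix.sub_mulVec, hl, Matrix.one_mulVec, sub_smul, one_smul]
    have e2 : φ (T - χ τ • 1) *ᵥ v = (l - ι (χ τ)) • v := by
      have : φ (χ τ • 1) = ι (χ τ) • (1 : Deform.Mt K) := by
        ext i j
        simp [φ, Matrix.one_apply, apply_ite ι]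
      rw [map_sub, this, Matrix.sub_mulVec, hl, Matrix.smul_mulVec, Matrix.one_mulVec, sub_smul]
    have e : ((l - ι (χ τ)) * (l - 1)) • v = 0 := by
      rw [mul_smul, smul_comm, ← e2, ← Matrix.mulVec_smul, ← e1, Matrix.mulVec_mulVec, ← map_mul,
        hQP, map_zero, Matrix.zero_mulVec]
    rcases mul_eq_zero.1 ((smul_eq_zero.1 e).resolve_right hv) with h | h
    · exact ⟨_, _, hQ0, hP0, hQP, by rw [e2, h, zero_smul]⟩
    · exact ⟨_, _, hP0, hQ0, hPQ, by rw [e1, h, zero_smul]⟩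
  obtain ⟨j, hj⟩ : ∃ j, (fun k => Q k j) ≠ 0 := by
    by_contra hcon
    push Not at hcon
    exact hQ (Matrix.ext fun k j => congrFun (hcon j) k)
  obtain ⟨i, hi⟩ : ∃ i, φ P i ≠ 0 := by
    by_contra hcon
    push Not at hcon
    exact hP (Matrix.ext fun a b => hι ((congrFun (hcon a) b).trans (map_zero ι).symm))
  set w : Fin 2 → O := fun k => Q k j with hw
  have hwv : det2 (ι ∘ w) v = 0 := by
    refine det2_eq_zero hi (congrFun hPv i) ?_
    have h := congrArg (fun X : Deform.Mt O => ι (X i j)) hPQ'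
    simp only [Matrix.mul_apply, map_sum, map_mul, Matrix.zero_apply, map_zero] at h
    simpa [dotProduct, φ, hw] using h
  obtain ⟨c, hc⟩ := smul_mem_of_det2 hv hwv
  have hinv : ∀ σ, Attach.cross (ρ σ *ᵥ w) w = 0 := by
    intro σ
    apply hι
    have e : ι ∘ (ρ σ *ᵥ w) = c • (φ (ρ σ) *ᵥ v) := by
      rw [← Matrix.mulVec_smul, ← hc]
      funext k
      exact RingHom.map_mulVec ι (ρ σ) w k
    have h1 : det2 (ι ∘ (ρ σ *ᵥ w)) (ι ∘ w) = c * c * det2 (φ (ρ σ) *ᵥ v) v := by
      rw [e, hc]; simp only [det2, Pi.smul_apply, smul_eq_mul]; ring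
    rw [show det2 (φ (ρ σ) *ᵥ v) v = 0 from hvg σ, mul_zero] at h1
    rw [map_zero, ← h1]
    simp only [Attach.cross, det2, Function.comp_apply, map_sub, map_mul]
  obtain ⟨w', k, hwk, hw'⟩ := Attach.exists_eigen_character ρ hj hinv
  -- the character
  set ψ : GalQ → O := fun σ => (ρ σ *ᵥ w') k with hψ
  have hψ1 : ψ 1 = 1 := by simp only [hψ, map_one, Matrix.one_mulVec, hwk]
  have hψmul : ∀ σ σ', ψ (σ * σ') = ψ σ * ψ σ' := fun σ σ' => by
    change (ρ (σ * σ') *ᵥ w') k = (ρ σ *ᵥ w') k * (ρ σ' *ᵥ w') k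
    rw [map_mul, ← Matrix.mulVec_mulVec]
    conv_lhs => rw [hw' σ']
    rw [Matrix.mulVec_smul, Pi.smul_apply, smul_eq_mul, mul_comm]
  have hχmul : ∀ σ σ', χ (σ * σ') = χ σ * χ σ' := Attach.cycR_mul hr hrO
  have hψinv : ∀ σ, ψ σ * ψ σ⁻¹ = 1 := fun σ => by rw [← hψmul, mul_inv_cancel, hψ1]
  have hquad : ∀ σ, ψ σ * ψ σ = (ρ σ).trace * ψ σ - χ σ := by
    intro σ
    have h := congrArg (fun X : Deform.Mt O => (X *ᵥ w') k) (Attach.sq_fin_two (ρ σ))
    rw [← map_mul] at h
    change ψ (σ * σ) = _ at h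
    rw [hψmul, Matrix.sub_mulVec, Matrix.smul_mulVec, Matrix.smul_mulVec, Matrix.one_mulVec,
      Pi.sub_apply, Pi.smul_apply, Pi.smul_apply, hwk, smul_eq_mul, smul_eq_mul, mul_one,
      hdet] at h
    exact h
  have htr : ∀ σ, (ρ σ).trace = ψ σ + χ σ * ψ σ⁻¹ := fun σ => by
    linear_combination (norm := ring_nf) -(ψ σ⁻¹) * hquad σ - ((ρ σ).trace - ψ σ) * hψinv σ
  have hor : ∀ σ ∈ A.inertiaSubgroupIn ℚ, ψ σ = 1 ∨ ψ σ = χ σ := fun σ hσ => by
    have h : (ψ σ - 1) * (ψ σ - χ σ) = 0 := by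
      linear_combination hquad σ + ψ σ * hII σ hσ
    exact (mul_eq_zero.1 h).imp sub_eq_zero.1 sub_eq_zero.1
  -- one of the two characters is trivial on the inertia at `A`
  obtain ⟨ε, hε1, hεmul, hεtr, hεA, hεcont, hεq⟩ : ∃ ε : GalQ → O, ε 1 = 1 ∧
      (∀ σ σ', ε (σ * σ') = ε σ * ε σ') ∧ (∀ σ, (ρ σ).trace = ε σ + χ σ * ε σ⁻¹) ∧
      (∀ σ ∈ A.inertiaSubgroupIn ℚ, ε σ = 1) ∧
      (∀ n, ∃ L : IntermediateField ℚ Qb, FiniteDimensional ℚ L ∧
        ∀ σ : GalQ, (∀ x ∈ L, σ x = x) → ε σ - 1 ∈ maximalIdeal O ^ n) ∧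
      ∀ σ, χ σ = 1 → ψ σ = 1 → ε σ = 1 := by
    have hcont : ∀ n, ∃ L : IntermediateField ℚ Qb, FiniteDimensional ℚ L ∧
        ∀ σ : GalQ, (∀ x ∈ L, σ x = x) → ψ σ - 1 ∈ maximalIdeal O ^ n := by
      intro n
      obtain ⟨L, hL, h⟩ := (hR f).cont n
      refine ⟨L, hL, fun σ hσ => ?_⟩
      have hq := Attach.map_eq_one_of_cont (h σ hσ)
      have e := RingHom.map_mulVec (Attach.modPow (O := O) n) (ρ σ) w' k
      rw [show (ρ σ).map (Attach.modPow (O := O) n) = 1 from hq, Matrix.one_mulVec,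
        Function.comp_apply, hwk, map_one] at e
      rw [← Ideal.Quotient.eq_zero_iff_mem, map_sub, map_one, sub_eq_zero]
      exact e
    by_cases hone : ∀ σ ∈ A.inertiaSubgroupIn ℚ, ψ σ = 1
    · exact ⟨ψ, hψ1, hψmul, htr, hone, hcont, fun σ _ h => h⟩
    push Not at hone
    obtain ⟨σ₁, hσ₁, hne⟩ := hone
    have hchi : ∀ σ ∈ A.inertiaSubgroupIn ℚ, ψ σ = χ σ := by
      intro σ hσ
      refine (hor σ hσ).elim (fun h1 => ?_) id
      have hσ₁' := (hor σ₁ hσ₁).resolve_left hne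
      rcases hor (σ₁ * σ) (mul_mem hσ₁ hσ) with h | h
      · rw [hψmul, h1, mul_one] at h
        exact absurd h hne
      · rw [hψmul, h1, mul_one, hσ₁', hχmul] at h
        rw [h1]
        exact (hχu σ₁).mul_left_cancel ((mul_one _).trans h)
    refine ⟨fun σ => χ σ * ψ σ⁻¹, ?_, fun σ σ' => ?_, fun σ => ?_, fun σ hσ => ?_, fun n => ?_,
      fun σ h1 h2 => ?_⟩
    · simp only [inv_one, hψ1, mul_one]
      exact Attach.cycR_one hr hrO
    · simp only [mul_inv_rev, hψmul, hχmul]; ring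
    · have e : χ σ * χ σ⁻¹ = 1 := by
        rw [← hχmul, mul_inv_cancel]; exact Attach.cycR_one hr hrO
      simp only [inv_inv]
      rw [htr]
      linear_combination -(ψ σ) * e
    · show χ σ * ψ σ⁻¹ = 1
      rw [← hchi σ hσ]
      exact hψinv σ
    · obtain ⟨L1, hL1, h1⟩ := hcont n
      obtain ⟨L2, hL2, h2⟩ := Attach.cycR_level hr hrO n
      haveI := hL1; haveI := hL2
      refine ⟨L1 ⊔ L2, inferInstance, fun σ hσ => ?_⟩
      have e1 := h1 σ⁻¹ fun y hy => by
        conv_lhs => rw [← hσ y (le_sup_left (a := L1) hy)]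
        exact σ.symm_apply_apply y
      have e2 := h2 σ fun y hy => hσ y (le_sup_right (a := L1) hy)
      convert add_mem (Ideal.mul_mem_left _ (χ σ) e1) e2 using 1
      ring
    · show χ σ * ψ σ⁻¹ = 1
      have := hψinv σ
      rw [h2, one_mul] at this
      rw [h1, this, mul_one]
  -- it is unramified at every prime, hence trivial
  have hεinv : ∀ σ, ε σ * ε σ⁻¹ = 1 := fun σ => by rw [← hεmul, mul_inv_cancel, hε1]
  have htriv : ∀ σ, ε σ = 1 := by
    intro σ
    refine Attach.eq_of_forall_sub_mem_pow fun n => ?_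
    let qn : O →+* O ⧸ (maximalIdeal O ^ n) := Ideal.Quotient.mk _
    let Χ : GalQ →* (O ⧸ (maximalIdeal O ^ n))ˣ :=
      MonoidHom.toHomUnits
        { toFun := fun σ => qn (ε σ)
          map_one' := by rw [hε1, map_one]
          map_mul' := fun a b => by rw [hεmul, map_mul] }
    have hΧ : ∀ σ, ε σ = 1 → Χ σ = 1 := fun σ h => Units.ext (by
      show qn (ε σ) = 1
      rw [h, map_one])
    obtain ⟨L, hL, hLε⟩ := hεcont n
    haveI := hL
    have h1 := Common.hom_eq_one_of_unramified Χ L (fun s hs => Units.ext (by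
      show qn (ε s) = 1
      rw [← map_one qn]
      exact (Ideal.Quotient.mk_eq_mk_iff_sub_mem _ _).2
        (hLε s ((IntermediateField.mem_fixingSubgroup_iff L s).1 hs))))
      (fun q hq V hV s hs => by
        by_cases hqr : q = r
        · subst hqr
          refine MonoidHom.mem_ker.mp
            (Common.inertia_le_of_inertia_le (H := Χ.ker) hq hA hV (fun s hs => ?_) hs)
          exact MonoidHom.mem_ker.mpr (hΧ s (hεA s hs))
        have hχ1 : χ s = 1 := Attach.cycR_inertia hr hrO hq hqr hV hs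
        refine hΧ s (hεq s hχ1 ?_)
        by_cases hqp : q = p
        · subst hqp
          have h2 := trace_inertia_level D G (one_mul _).symm hq hqr hR hV hs f
          have h3 := hquad s
          rw [show (ρ s).trace = 2 from h2, hχ1] at h3
          have h4 : (ψ s - 1) ^ 2 = 0 := by linear_combination h3
          exact sub_eq_zero.1 (eq_zero_of_pow_eq_zero h4)
        · have h2 : ρ s = 1 := (hR f).unram q hq
            (fun h => hqp ((Nat.prime_dvd_prime_iff_eq hq hp).1 h)) hqr V hV s hs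
          simp only [hψ, h2, Matrix.one_mulVec, hwk]) σ
    have h2 : qn (ε σ) = 1 := congrArg Units.val h1
    rwa [← map_one qn, Ideal.Quotient.mk_eq_mk_iff_sub_mem] at h2
  -- the bound on Hecke eigenvalues
  obtain ⟨ℓ, V, σ, -, hℓ, hℓS, hV, hσ, -⟩ :=
    Chebotarev.exists_frobenius_pow (⊥ : IntermediateField ℚ Qb) 1 {p, r}
  simp only [Finset.mem_insert, Finset.mem_singleton, not_or] at hℓS
  have hℓp : ¬ ℓ ∣ p := fun h => hℓS.1 ((Nat.prime_dvd_prime_iff_eq hℓ hp).1 h)
  set x : TFull p := CuspForm.heckeAlgebra.T hℓ hℓp (Set.notMem_empty _) - ((ℓ + 1 : ℕ) : TFull p)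
    with hx
  have hfx : f x = 0 := by
    rw [hx, map_sub, map_natCast, ← (hR f).frob ℓ hℓ hℓp hℓS.2 V hV σ hσ, hεtr, htriv, htriv,
      show χ σ = (ℓ : O) from Attach.cycR_frobenius hr hrO hℓ hℓS.2 hV hσ]
    push_cast
    ring
  have hinj : Function.Injective (x.1 : CuspForm (CongruenceSubgroup.Gamma0 p) 2 → _) := by
    have h := FLTAgent.S58.heckeT_sub_injective hℓ hℓp
    convert h using 2
    simp [hx, CuspForm.heckeAlgebra.coe_T, add_smul, Nat.cast_smul_eq_nsmul]
  have hreg : x ∈ nonZeroDivisors (TFull p) := by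
    rw [mem_nonZeroDivisors_iff_right]
    intro y hy
    apply Subtype.ext
    refine LinearMap.ext fun u => hinj ?_
    rw [mul_comm] at hy
    have := LinearMap.congr_fun (congrArg Subtype.val hy) u
    simpa using this
  haveI := Attach.finite_TFull p
  obtain ⟨z, hz, hzx⟩ :=
    (Algebra.IsIntegral.isIntegral (R := ℤ) x).isAlgebraic.exists_nonzero_dvd hreg
  obtain ⟨y, hy⟩ := hzx
  have := congrArg f hy
  rw [map_mul, hfx, zero_mul, eq_intCast, map_intCast, Int.cast_eq_zero] at this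
  exact hz this

/-! ### the bound -/

/-- a combination of trace operators with non-zero values has kernel of bounded exponent -/
theorem exists_kill {p : ℕ} [NeZero p] (D : HeckeLattice p) (G : GaloisInputs p)
    [Finite (TFull p →+* O)] {R : (TFull p →+* O) → (GalQ →* Deform.Mt O)}
    (hR : ∀ f, IsRep hr hrO f (R f)) (A : ValuationSubring Qb)
    {K : Type} [Field K] [IsAlgClosed K] (ι : O →+* K) (hι : Function.Injective ι)
    (hval : ∀ f : TFull p →+* K, ∃ f0 : TFull p →+* O, ι.comp f0 = f) (b₁ b₂ : GR) (τ : GalQ)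
    (hβ : ∀ f, (∀ σ ∈ A.inertiaSubgroupIn ℚ, (R f σ).trace = 1 + cycR hr hrO σ) →
      lin (fun g => (R f g).trace) b₁ - cycR hr hrO τ * lin (fun g => (R f g).trace) b₂ ≠ 0) :
    ∃ k : ℕ, ∀ (M : Type) [AddCommGroup M] [DistribMulAction GalQ M] (C : Alg2.Cay GalQ M)
      (m : ℕ), IsSubquot p m r M → ChiAt C r m → TraceVanishes A C →
        ∀ z : M, tr C b₁ z - C.chi τ • tr C b₂ z = 0 → r ^ k • z = 0 := by
  classical
  haveI := Fintype.ofFinite (TFull p →+* O)
  have hg : ∀ f : TFull p →+* O, ∃ g ∈ A.inertiaSubgroupIn ℚ,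
      ¬ (∀ σ ∈ A.inertiaSubgroupIn ℚ, (R f σ).trace = 1 + cycR hr hrO σ) →
        (R f g).trace - (1 + cycR hr hrO g) ≠ 0 := by
    intro f
    by_cases h : ∀ σ ∈ A.inertiaSubgroupIn ℚ, (R f σ).trace = 1 + cycR hr hrO σ
    · exact ⟨1, one_mem _, fun h' => absurd h h'⟩
    · push Not at h
      obtain ⟨g, hg, hne⟩ := h
      exact ⟨g, hg, fun _ => sub_ne_zero.2 hne⟩
  choose γ hγmem hγ using hg
  let β : (TFull p →+* O) → O := fun f =>
    lin (fun g => (R f g).trace) b₁ - cycR hr hrO τ * lin (fun g => (R f g).trace) b₂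
  let L : (TFull p →+* O) → (ℤ × ((TFull p →+* O) → ℤ)) →+ O := fun f =>
    { toFun := fun x =>
        x.1 • β f + ∑ i, x.2 i • ((R f (γ i)).trace - (1 + cycR hr hrO (γ i)))
      map_zero' := by simp
      map_add' := fun x y => by
        simp only [Prod.fst_add, Prod.snd_add, Pi.add_apply, add_smul, Finset.sum_add_distrib]
        abel }
  obtain ⟨⟨n, c⟩, hnc⟩ := exists_forall_apply_ne_zero Finset.univ L fun f _ => by
    by_cases h : ∀ σ ∈ A.inertiaSubgroupIn ℚ, (R f σ).trace = 1 + cycR hr hrO σ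
    · exact ⟨(1, 0), by simpa [L] using hβ f h⟩
    · refine ⟨(0, Pi.single f 1), ?_⟩
      show (0 : ℤ) • β f + ∑ i, Pi.single (M := fun _ => ℤ) f 1 i • _ ≠ 0
      rw [zero_smul, zero_add, Finset.sum_eq_single f
        (fun i _ hi => by rw [Pi.single_eq_of_ne hi, zero_smul])
        (fun h' => absurd (Finset.mem_univ f) h'), Pi.single_eq_same, one_smul]
      exact hγ f h
  have he : ∀ f : TFull p →+* O, ∃ e, L f (n, c) ∉ maximalIdeal O ^ e := by
    intro f
    by_contra hcon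
    push Not at hcon
    exact hnc f (Finset.mem_univ f) (Attach.eq_zero_of_forall_mem_pow hcon)
  choose ef hef using he
  set e := Finset.univ.sup ef with hedef
  refine ⟨Fintype.card D.Idx * e + 1 + e, fun M _ _ C m hsub hchi htv z hz => ?_⟩
  rcases lt_or_ge m e with hme | hme
  · rw [← Nat.sub_add_cancel (show m ≤ Fintype.card D.Idx * e + 1 + e by omega), pow_add, mul_smul,
      hsub.torsion, smul_zero]
  haveI : NeZero (r ^ m) := ⟨pow_ne_zero _ hr.ne_zero⟩
  choose tm htm htmR using fun g => exists_traceElem hr hrO D G hR m g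
  let a : GalQ → ℕ := fun g => (cyc (r ^ m) g).val
  have ha : ∀ (g : GalQ) (y : M), C.chi g • y = (a g : ℤ) • y := fun g y => by
    rw [natCast_zsmul]
    exact hchi g (a g) (fun ζ hζ => Attach.cyc_spec g hζ) y
  set t : TFull p := n • (lin tm b₁ - (a τ : ℤ) • lin tm b₂) +
    ∑ i, c i • (tm (γ i) - (1 + (a (γ i) : ℤ)) • (1 : TFull p)) with ht
  -- the values
  have hvalt : ∀ f : TFull p →+* O, f t ∉ maximalIdeal O ^ e := by
    intro f hmem
    refine hef f (Ideal.pow_le_pow_right (Finset.le_sup (Finset.mem_univ f)) ?_)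
    rw [← hedef]
    have hle := Ideal.pow_le_pow_right (I := maximalIdeal O) hme
    let q : O →+* O ⧸ maximalIdeal O ^ e := Ideal.Quotient.mk _
    rw [← Ideal.Quotient.eq_zero_iff_mem] at hmem ⊢
    have hq : ∀ g, q (f (tm g)) = q ((R f g).trace) := fun g =>
      (Ideal.Quotient.mk_eq_mk_iff_sub_mem _ _).2 (hle (htmR g f))
    have hqa : ∀ g, q (cycR hr hrO g) = ((a g : ℕ) : O ⧸ maximalIdeal O ^ e) := fun g => by
      rw [← map_natCast q]
      exact (Ideal.Quotient.mk_eq_mk_iff_sub_mem _ _).2 (hle (Attach.cycR_spec hr hrO g m))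
    have hlin : ∀ b, q (f (lin tm b)) = q (lin (fun g => (R f g).trace) b) := fun b => by
      have e1 := lin_map ((q.comp f).toAddMonoidHom) tm b
      have e2 := lin_map (q.toAddMonoidHom) (fun g => (R f g).trace) b
      simp only [RingHom.toAddMonoidHom_eq_coe, AddMonoidHom.coe_coe, RingHom.comp_apply] at e1 e2
      rw [e1, e2]
      simp only [hq]
    rw [← hmem]
    show q (n • β f + ∑ i, c i • ((R f (γ i)).trace - (1 + cycR hr hrO (γ i)))) = q (f t)
    simp only [ht, β, map_add, map_sum, map_zsmul, map_sub, map_mul, map_one, hlin, hq, hqa,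
      zsmul_eq_mul, mul_one, Int.cast_natCast, map_natCast, map_intCast, Int.cast_add, Int.cast_one]
  have hdvd := not_dvd_det D hrO ι hι hval t hvalt
  -- the operator
  obtain ⟨S, π, hπ, hS, hstab, hequiv⟩ := hsub
  have hn : 0 < r ^ m := pow_pos hr.pos m
  have hone : ∀ g, Induces D (r ^ m) π (D.actS ∅ (tm g)) (Alg2.ρ g + C.conj g) := by
    intro g v hv
    have h1 : g • D.tors (r ^ m) v ∈ S := hstab g _ hv
    have h2 : g⁻¹ • D.tors (r ^ m) v ∈ S := hstab g⁻¹ _ hv
    have heq : D.tors (r ^ m) (D.actS ∅ (tm g) v) =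
        g • D.tors (r ^ m) v + a g • (g⁻¹ • D.tors (r ^ m) v) := (htm g v).symm
    have hmem : D.tors (r ^ m) (D.actS ∅ (tm g) v) ∈ S := by
      rw [heq]; exact S.add_mem h1 (S.nsmul_mem h2 _)
    refine ⟨hmem, ?_⟩
    rw [show (⟨_, hmem⟩ : S) = (⟨_, h1⟩ : S) + a g • ⟨_, h2⟩ from Subtype.ext heq, map_add,
      map_nsmul, hequiv g ⟨_, hv⟩ h1, hequiv g⁻¹ ⟨_, hv⟩ h2, ← natCast_zsmul, ← ha g]
    rfl
  have hlin : ∀ b, Induces D (r ^ m) π (D.actS ∅ (lin tm b)) (tr C b) := by
    intro b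
    induction b using MonoidAlgebra.induction_linear with
    | zero => rw [map_zero, map_zero, map_zero]; exact Induces.zero
    | add b b' hb hb' => rw [map_add, map_add, map_add]; exact hb.add hb'
    | single g k => rw [lin_single, tr, lin_single, map_zsmul]; exact (hone g).zsmul k
  set E : AddMonoid.End M := n • (tr C b₁ - (a τ : ℤ) • tr C b₂) +
    ∑ i, c i • (Alg2.ρ (γ i) + C.conj (γ i) - (1 + (a (γ i) : ℤ)) • (1 : AddMonoid.End M)) with hE
  have hind : Induces D (r ^ m) π (D.actS ∅ t) E := by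
    rw [ht, hE, map_add, map_zsmul, map_sub, map_zsmul, map_sum]
    refine ((((hlin b₁).sub ((hlin b₂).zsmul _)).zsmul n).add (Induces.sum _ fun i _ => ?_))
    rw [map_zsmul, map_sub, map_zsmul, map_one]
    exact ((hone (γ i)).sub (Induces.one.zsmul _)).zsmul _
  have hEz : E z = 0 := by
    let evz : AddMonoid.End M →+ M := AddMonoidHom.mk' (fun F => F z) fun _ _ => rfl
    show evz E = 0
    rw [hE, map_add, map_sum, Finset.sum_eq_zero, add_zero]
    · show n • (tr C b₁ z - (a τ : ℤ) • tr C b₂ z) = 0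
      rw [← ha, hz, smul_zero]
    · intro i _
      show c i • (γ i • z + C.chi (γ i) • (γ i)⁻¹ • z - (1 + (a (γ i) : ℤ)) • z) = 0
      rw [htv (γ i) (hγmem i) z, add_smul, one_smul, ha, sub_self, smul_zero]
  refine pow_smul_eq_zero hr (IsSubquot.torsion ⟨S, π, hπ, hS, hstab, hequiv⟩ z)
    (hind.det_smul hn hπ hS hEz) fun h => hdvd ((pow_dvd_pow _ (Nat.le_add_right _ _)).trans h)

/-- evaluation of the group ring in matrices -/
theorem lin_trace (ρ : GalQ →* Deform.Mt O) (b : GR) :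
    lin (fun g => (ρ g).trace) b = (MonoidAlgebra.lift ℤ (Deform.Mt O) GalQ ρ b).trace := by
  induction b using MonoidAlgebra.induction_linear with
  | zero => simp
  | add a b ha hb => rw [map_add, map_add, Matrix.trace_add, ha, hb]
  | single g n => rw [lin_single, MonoidAlgebra.lift_single, Matrix.trace_smul]

theorem exists_pair_ne_zero {J : Type} {K : Type} [Field K] [IsAlgClosed K] [CharZero K]
    (s : Finset J) (ρ : J → (GalQ →* Deform.Mt O)) (ι : O →+* K) (hι : Function.Injective ι)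
    (P Q : J → Deform.Mt O) (hP : ∀ i ∈ s, P i ≠ 0) (hQ : ∀ i ∈ s, Q i ≠ 0)
    (hρ : ∀ i ∈ s, NoLine ((ι.mapMatrix : Deform.Mt O →+* Deform.Mt K).toMonoidHom.comp (ρ i))) :
    ∃ h x : GR, ∀ i ∈ s,
      (P i * (MonoidAlgebra.lift ℤ _ GalQ (ρ i) h * Q i * MonoidAlgebra.lift ℤ _ GalQ (ρ i) x)).trace
        ≠ 0 := by
  classical
  let φ : Deform.Mt O →+* Deform.Mt K := ι.mapMatrix
  have hne : ∀ X : Deform.Mt O, X ≠ 0 → φ X ≠ 0 := fun X hX h0 => hX (Matrix.ext fun a b =>
    hι ((congrFun (congrFun h0 a) b).trans (map_zero ι).symm))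
  let ev1 := fun i => MonoidAlgebra.lift ℤ (Deform.Mt O) GalQ (ρ i)
  have hev : ∀ i g, ev1 i (MonoidAlgebra.of ℤ GalQ g) = ρ i g := fun i g =>
    MonoidAlgebra.lift_of _ _
  have hgood : ∀ i, ∃ (g : GalQ) (ab : Fin 2 × Fin 2), i ∈ s →
      φ (Q i * ev1 i (MonoidAlgebra.of ℤ GalQ g) * P i) ab.1 ab.2 ≠ 0 := by
    intro i
    by_cases hi : i ∈ s
    · obtain ⟨g, hg⟩ := (hρ i hi).exists_sandwich (hne _ (hP i hi)) (hne _ (hQ i hi))
      by_contra hcon
      push Not at hcon
      refine hg (Matrix.ext fun a b => ?_)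
      have := (hcon g (a, b)).2
      rw [hev, map_mul, map_mul] at this
      exact this
    · exact ⟨1, (0, 0), fun h => absurd h hi⟩
  choose g ab hgab using hgood
  obtain ⟨x, hx⟩ := exists_forall_apply_ne_zero s
    (fun i => (AddMonoidHom.mk' (fun b : GR => φ (Q i * ev1 i b * P i) (ab i).1 (ab i).2)
      fun b b' => by simp only [map_add, mul_add, add_mul, Matrix.add_apply]))
    fun i hi => ⟨_, hgab i hi⟩
  have hX : ∀ i ∈ s, φ (Q i * ev1 i x * P i) ≠ 0 := fun i hi h0 => hx i hi (by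
    show φ (Q i * ev1 i x * P i) (ab i).1 (ab i).2 = 0
    rw [h0]; rfl)
  obtain ⟨h, hh⟩ := exists_forall_apply_ne_zero s
    (fun i => (AddMonoidHom.mk' (fun b : GR => (φ (ev1 i b) * φ (Q i * ev1 i x * P i)).trace)
      fun b b' => by simp only [map_add, add_mul, Matrix.trace_add]))
    fun i hi => by
      obtain ⟨g', hg'⟩ := (hρ i hi).exists_trace_ne_zero (hX i hi)
      exact ⟨MonoidAlgebra.of ℤ GalQ g', by
        show (φ (ev1 i _) * _).trace ≠ 0
        rw [hev]; exact hg'⟩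
  refine ⟨h, x, fun i hi h0 => hh i hi ?_⟩
  show (φ (ev1 i h) * φ (Q i * ev1 i x * P i)).trace = 0
  rw [← map_mul, show φ _ = (_ : Deform.Mt O).map ι from rfl, ← AddMonoidHom.map_trace ι]
  have e : (ev1 i h * (Q i * ev1 i x * P i)).trace = 0 := by
    rw [show ev1 i h * (Q i * ev1 i x * P i) = (ev1 i h * Q i * ev1 i x) * P i by
      simp only [mul_assoc], Matrix.trace_mul_comm]
    exact h0
  rw [e, map_zero]

omit [IsAdicComplete (maximalIdeal O) O] in
theorem natCast_sq_ne_one {p : ℕ} (hp : p.Prime) : ((p : O)) ^ 2 ≠ 1 := fun h => by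
  rw [← Nat.cast_pow, Nat.cast_eq_one] at h
  have := hp.two_le
  nlinarith

end FLTAgent.EIS.Irred

namespace FLTAgent.EIS

open Attach (HeckeLattice GaloisInputs TFull cyc cycR)
open Irred

/-- **The uniform bound.** -/
theorem exists_bound {p r : ℕ} [NeZero p] (hp : p.Prime) (hr : r.Prime) (hrp : r ≠ p)
    {A B : ValuationSubring Qb} (hA : A.LiesOverPrime r) (hB : B.LiesOverPrime p) (φ : GalQ)
    (hφ : B.IsFrobeniusAt φ p) :
    ∃ τ ∈ A.inertiaSubgroupIn ℚ, ∃ (h x u x' : GR) (c : ℕ),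
      ∀ (M : Type) [AddCommGroup M] [DistribMulAction GalQ M] (C : Alg2.Cay GalQ M) (m : ℕ),
        IsSubquot p m r M → ChiAt C r m → TraceVanishes A C →
          Nat.card {y : M | C.sR τ (ev C h) (ev C x) ((C.chi τ - 1) • y) = 0} ≤ c ∧
          Nat.card {y : M | C.sP φ (p : ℤ) (ev C u) (ev C x') (((p : ℤ) ^ 2 - 1) • y) = 0} ≤ c := by
  classical
  haveI : Fact r.Prime := ⟨hr⟩
  obtain ⟨D⟩ := Attach.exists_heckeLattice p
  have G := Attach.galoisInputs p
  obtain ⟨O, _, _, _, _, _, hrO, ι, hι, hval⟩ := exists_coeffRing (N := p) r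
  haveI := Attach.finite_TFull p
  haveI := finite_ringHom (TFull p) (Omega r)
  haveI : Finite (TFull p →+* O) := Finite.of_injective (fun f => ι.comp f) fun f f' h =>
    RingHom.ext fun x => hι (RingHom.congr_fun h x)
  haveI := Fintype.ofFinite (TFull p →+* O)
  choose R hR using fun f => exists_isRep hr hrO D G f
  -- the element of inertia
  obtain ⟨τ, hτ, hτζ⟩ := exists_inertia_zeta hr hA 2 (1 + r)
    (by simp [Nat.coprime_add_self_left])
  have hcyc2 : ∀ m, 2 ≤ m → ∀ [NeZero (r ^ m)],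
      ¬ ((r : ℤ) ^ 2 ∣ (((cyc (r ^ m) τ).val : ℕ) : ℤ) - 1) := by
    intro m hm _ hdvd
    haveI : NeZero (r ^ 2) := ⟨pow_ne_zero _ hr.ne_zero⟩
    have h1 : cyc (r ^ 2) τ = ((1 + r : ℕ) : ZMod (r ^ 2)) :=
      Attach.cyc_unique τ _ fun z hz => by
        rw [hτζ z hz]
        have hlt : 1 + r < r ^ 2 := by nlinarith [hr.two_le]
        rw [ZMod.val_natCast, Nat.mod_eq_of_lt hlt]
    have h2 := Attach.cyc_cast (pow_dvd_pow r hm) τ
    rw [h1, ZMod.castHom_apply, ZMod.cast_eq_val] at h2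
    have h3 : (((cyc (r ^ m) τ).val : ℤ) - (1 + r : ℤ) : ZMod (r ^ 2)) = 0 := by
      simp only [Int.cast_natCast, Int.cast_add, Int.cast_one]
      rw [h2, Nat.cast_add, Nat.cast_one, sub_self]
    rw [← Int.cast_natCast, ← Int.cast_sub, ZMod.intCast_zmod_eq_zero_iff_dvd, Nat.cast_pow] at h3
    have h4 : (r : ℤ) ^ 2 ∣ (r : ℤ) := by
      have e := dvd_sub hdvd h3
      push_cast at e
      ring_nf at e ⊢
      exact e
    have h5 : r ^ 2 ∣ r := by exact_mod_cast h4
    have := Nat.le_of_dvd hr.pos h5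
    nlinarith [hr.two_le]
  have hτ1 : cycR hr hrO τ ≠ 1 := by
    intro h
    obtain ⟨e, he⟩ : ∃ e, (r : O) ∉ maximalIdeal O ^ e := by
      by_contra hcon
      push Not at hcon
      exact hr.ne_zero (Nat.cast_eq_zero.1 (Attach.eq_zero_of_forall_mem_pow hcon))
    haveI : NeZero (r ^ (e + 2)) := ⟨pow_ne_zero _ hr.ne_zero⟩
    have h1 := Attach.cycR_spec hr hrO τ (e + 2)
    rw [h, ← neg_mem_iff, neg_sub] at h1
    set z : ℤ := (((cyc (r ^ (e + 2)) τ).val : ℕ) : ℤ) - 1 with hz
    have h2 := hcyc2 (e + 2) (by omega)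
    rw [← hz] at h2
    have hzO : (z : O) ∈ maximalIdeal O ^ e := Ideal.pow_le_pow_right (show e ≤ e + 2 by omega) (by
      rw [hz, Int.cast_sub, Int.cast_natCast, Int.cast_one]; exact h1)
    rcases em ((r : ℤ) ∣ z) with ⟨w, hw⟩ | hnd
    · have hw' : ¬ (r : ℤ) ∣ w := fun hd => h2 (by rw [hw, sq]; exact mul_dvd_mul_left _ hd)
      refine he ((Ideal.mul_unit_mem_iff_mem _ ?_).1 (by rw [hw, Int.cast_mul, Int.cast_natCast] at hzO; exact hzO))
      obtain ⟨a, b, hab⟩ := ((Nat.prime_iff_prime_int.1 hr).coprime_iff_not_dvd.2 hw')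
      by_contra hu
      apply (maximalIdeal.isMaximal O).ne_top
      rw [Ideal.eq_top_iff_one]
      have h4 : (a : O) * (r : O) + (b : O) * (w : O) = 1 := by
        exact_mod_cast congrArg (fun z : ℤ => (z : O)) hab
      rw [← h4]
      exact add_mem (Ideal.mul_mem_left _ _ hrO)
        (Ideal.mul_mem_left _ _ ((IsLocalRing.mem_maximalIdeal _).2 hu))
    · obtain ⟨a, b, hab⟩ := ((Nat.prime_iff_prime_int.1 hr).coprime_iff_not_dvd.2 hnd)
      rcases Nat.eq_zero_or_pos e with he0 | he0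
      · exact he (by rw [he0, pow_zero, Ideal.one_eq_top]; trivial)
      apply (maximalIdeal.isMaximal O).ne_top
      rw [Ideal.eq_top_iff_one]
      have h4 : (a : O) * (r : O) + (b : O) * (z : O) = 1 := by
        exact_mod_cast congrArg (fun z : ℤ => (z : O)) hab
      rw [← h4]
      exact add_mem (Ideal.mul_mem_left _ _ hrO)
        (Ideal.mul_mem_left _ _ (Ideal.pow_le_self he0.ne' hzO))
  let II : Finset (TFull p →+* O) := Finset.univ.filter fun f =>
    ∀ σ ∈ A.inertiaSubgroupIn ℚ, (R f σ).trace = 1 + cycR hr hrO σ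
  have hno : ∀ f ∈ II, NoLine ((ι.mapMatrix : Deform.Mt O →+* Deform.Mt (Omega r)).toMonoidHom.comp
      (R f)) := fun f hf =>
    noLine hp hrp hA D G hR f (Finset.mem_filter.1 hf).2 hτ hτ1 ι hι
  have hχφ : cycR hr hrO φ = (p : O) := Attach.cycR_frobenius hr hrO hp hrp.symm hB hφ
  have hu : ∀ σ, IsUnit (cycR hr hrO σ) := Attach.isUnit_cycR hr hrO
  -- at `r`
  obtain ⟨h, x, hhx⟩ := exists_pair_ne_zero II R ι hι
    (fun f => R f τ - 1) (fun f => R f τ - cycR hr hrO τ • 1)
    (fun f _ h => hτ1 (by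
      have := (hR f).det τ
      rw [sub_eq_zero.1 h, Matrix.det_one] at this
      exact this.symm))
    (fun f _ h => hτ1 (by
      have := (hR f).det τ
      rw [sub_eq_zero.1 h, Matrix.det_smul, Matrix.det_one, mul_one, Fintype.card_fin, sq] at this
      exact (hu τ).mul_left_cancel (this.trans (mul_one _).symm))) hno
  obtain ⟨k, hk⟩ := exists_kill D G hR A ι hι hval
    ((MonoidAlgebra.of ℤ GalQ τ - 1) * (h * MonoidAlgebra.of ℤ GalQ τ * x))
    ((MonoidAlgebra.of ℤ GalQ τ - 1) * (h * x)) τ fun f hf => by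
      have := hhx f (Finset.mem_filter.2 ⟨Finset.mem_univ f, hf⟩)
      simp only [lin_trace, map_mul, map_sub, map_one, MonoidAlgebra.lift_of]
      intro h0
      apply this
      simpa [mul_sub, sub_mul, Matrix.trace_sub, Matrix.trace_smul] using h0
  -- at `p`
  obtain ⟨u, x', hux⟩ := exists_pair_ne_zero II R ι hι
    (fun f => R f (φ * φ) - 1) (fun f => R f (φ * φ) - (p : O) ^ 2 • 1)
    (fun f _ h => natCast_sq_ne_one hp (O := O) (by
      have := (hR f).det (φ * φ)
      rw [sub_eq_zero.1 h, Matrix.det_one, Attach.cycR_mul, hχφ, ← sq] at this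
      exact this.symm))
    (fun f _ h => natCast_sq_ne_one hp (O := O) (by
      have := (hR f).det (φ * φ)
      rw [sub_eq_zero.1 h, Matrix.det_smul, Matrix.det_one, mul_one, Fintype.card_fin,
        Attach.cycR_mul, hχφ, ← sq, sq] at this
      exact mul_left_cancel₀ (pow_ne_zero 2 (Nat.cast_ne_zero.2 hp.ne_zero))
        (this.trans (mul_one _).symm))) hno
  obtain ⟨k', hk'⟩ := exists_kill D G hR A ι hι hval
    ((MonoidAlgebra.of ℤ GalQ (φ * φ) - 1) *
      (u * (MonoidAlgebra.of ℤ GalQ (φ * φ) - (p : ℤ) ^ 2 • 1) * x')) 0 1 fun f hf => by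
      have := hux f (Finset.mem_filter.2 ⟨Finset.mem_univ f, hf⟩)
      simp only [lin_trace, map_mul, map_sub, map_one, map_zsmul, MonoidAlgebra.lift_of, map_zero,
        Matrix.trace_zero, mul_zero, sub_zero]
      intro h0
      apply this
      simp only [← Int.cast_smul_eq_zsmul O] at h0
      push_cast at h0
      simpa only [map_mul] using h0
  set K := k + k' + 2 + (((p : ℤ) ^ 2 - 1).natAbs + 1) with hK
  refine ⟨τ, hτ, h, x, u, x', Nat.card {z : JZero p | r ^ K • z = 0}, fun M _ _ C m hsub hchi htv =>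
    ⟨?_, ?_⟩⟩
  all_goals
    obtain ⟨S, π, hπ, hS, -, -⟩ := id hsub
    haveI : Finite {z : JZero p | r ^ m • z = 0} :=
      (Flat.finite_torsion (r ^ m) (pow_pos hr.pos m)).to_subtype
    haveI : Finite S := Finite.of_injective
      (fun z : S => (⟨z.1, hS z.1 z.2⟩ : {z : JZero p | r ^ m • z = 0}))
      fun a b hab => Subtype.ext (congrArg (fun w : {z : JZero p | r ^ m • z = 0} => w.1) hab)
    haveI : Finite M := Finite.of_surjective π hπ
    refine le_trans (Nat.card_mono (Set.toFinite _) fun y hy => ?_) (hsub.card_torsion_le hr)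
    rw [Set.mem_setOf_eq] at hy ⊢
  · rcases lt_or_ge m 2 with hm | hm
    · rw [← Nat.sub_add_cancel (show m ≤ K by omega), pow_add, mul_smul, hsub.torsion, smul_zero]
    haveI : NeZero (r ^ m) := ⟨pow_ne_zero _ hr.ne_zero⟩
    have h1 := hk M C m hsub hchi htv ((C.chi τ - 1) • y) (by rw [← sR_eq]; exact hy)
    have ha : C.chi τ • y = ((cyc (r ^ m) τ).val : ℤ) • y := by
      rw [natCast_zsmul]
      exact hchi τ _ (fun ζ hζ => Attach.cyc_spec τ hζ) y
    rw [sub_smul, one_smul, ha, ← natCast_zsmul _ (r ^ k),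
      show ((cyc (r ^ m) τ).val : ℤ) • y - y = (((cyc (r ^ m) τ).val : ℤ) - 1) • y by
        rw [sub_smul, one_smul], ← mul_smul] at h1
    refine pow_smul_eq_zero hr (hsub.torsion y) h1 fun hd => hcyc2 m hm ?_
    rw [Nat.cast_pow] at hd
    refine (mul_dvd_mul_iff_left (pow_ne_zero k (Nat.cast_ne_zero.2 hr.ne_zero))).1
      (dvd_trans ?_ hd)
    rw [← pow_add]
    exact pow_dvd_pow _ (by omega)
  · have h1 := hk' M C m hsub hchi htv (((p : ℤ) ^ 2 - 1) • y) (by
      rw [map_zero]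
      show _ - C.chi 1 • (0 : M) = 0
      rw [smul_zero, sub_zero, ← sP_eq]
      exact hy)
    rw [← natCast_zsmul _ (r ^ k'), ← mul_smul] at h1
    refine pow_smul_eq_zero hr (hsub.torsion y) h1 fun hd => ?_
    rw [Nat.cast_pow] at hd
    have h2 : (r : ℤ) ^ (((p : ℤ) ^ 2 - 1).natAbs + 1) ∣ (p : ℤ) ^ 2 - 1 :=
      (mul_dvd_mul_iff_left (pow_ne_zero k' (Nat.cast_ne_zero.2 hr.ne_zero))).1
        (dvd_trans (by rw [← pow_add]; exact pow_dvd_pow _ (by omega)) hd)
    rw [← Int.natAbs_dvd_natAbs, Int.natAbs_pow, Int.natAbs_natCast] at h2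
    have hne : ((p : ℤ) ^ 2 - 1).natAbs ≠ 0 := by
      rw [Int.natAbs_ne_zero, sub_ne_zero]
      have : (2 : ℤ) ≤ p := by exact_mod_cast hp.two_le
      nlinarith
    have h3 := Nat.le_of_dvd (Nat.pos_of_ne_zero hne) h2
    have h4 := Nat.lt_pow_self (n := ((p : ℤ) ^ 2 - 1).natAbs + 1) hr.one_lt
    omega

/-- the trace operators on the `r ^ m`-torsion commute with the Galois action -/
theorem trace_central {p r : ℕ} [NeZero p] (hr : r.Prime) (m : ℕ) (g g' : GalQ) {a : ℕ}
    (ha : ∀ ζ : Qb, ζ ^ (r ^ m) = 1 → g ζ = ζ ^ a) {z : JZero p} (hz : r ^ m • z = 0) :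
    g' • (g • z + a • g⁻¹ • z) = g • g' • z + a • g⁻¹ • g' • z := by
  classical
  haveI : Fact r.Prime := ⟨hr⟩
  haveI : NeZero (r ^ m) := ⟨pow_ne_zero _ hr.ne_zero⟩
  obtain ⟨D⟩ := Attach.exists_heckeLattice p
  have G := Attach.galoisInputs p
  obtain ⟨O, _, _, _, _, _, hrO, ι, hι, -⟩ := exists_coeffRing (N := p) r
  haveI := Attach.finite_TFull p
  haveI := finite_ringHom (TFull p) (Omega r)
  haveI : Finite (TFull p →+* O) := Finite.of_injective (fun f => ι.comp f) fun f f' h =>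
    RingHom.ext fun x => hι (RingHom.congr_fun h x)
  choose R hR using fun f => exists_isRep hr hrO D G f
  obtain ⟨t, ht, -⟩ := exists_traceElem hr hrO D G hR m g
  have hn : 0 < r ^ m := pow_pos hr.pos m
  have hcy : ((cyc (r ^ m) g).val : ZMod (r ^ m)) = (a : ZMod (r ^ m)) := by
    rw [ZMod.natCast_zmod_val]
    exact Attach.cyc_unique g _ fun w hw => by
      rw [ha w hw, ZMod.val_natCast]
      exact pow_eq_pow_mod a hw
  have hop : ∀ v, g • D.tors (r ^ m) v + a • (g⁻¹ • D.tors (r ^ m) v) =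
      D.tors (r ^ m) (D.actS ∅ t v) := fun v => by
    rw [← ht v, HeckeLattice.twist]
    congr 1
    obtain ⟨c, hc⟩ := (ZMod.intCast_eq_intCast_iff_dvd_sub _ _ _).1
      (show (((cyc (r ^ m) g).val : ℤ) : ZMod (r ^ m)) = ((a : ℤ) : ZMod (r ^ m)) by
        rw [Int.cast_natCast, Int.cast_natCast]; exact hcy)
    rw [← natCast_zsmul, ← natCast_zsmul _ ((cyc (r ^ m) g).val), ← sub_eq_zero, ← sub_smul, hc,
      mul_comm, mul_smul, natCast_zsmul, D.nsmul_smul_tors hn, smul_zero]
  obtain ⟨v, rfl⟩ := (D.nsmul_eq_zero_iff (r ^ m) hn z).1 hz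
  obtain ⟨w, hw⟩ := D.exists_tors_eq_smul hn g' v
  rw [← hw, hop, hop]
  exact (D.galois_hecke G (D.actS_mem ∅ t) hn g' v w hw).symm

end FLTAgent.EIS

end
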