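import Fermat.Agent.SS.Fibre
import Fermat.Agent.SS.Push
import Fermat.Agent.AJ.Main
import Fermat.Agent.Genus.Places
import Fermat.Agent.RR.API

/-!
Area EIS: at prime level `q` the fibre at `q` gives inertia and Frobenius relations on all torsion
prime to `q`, since `J₀(1)` has no torsion.
-/

set_option autoImplicit false
set_option linter.unusedSectionVars false
set_option linter.style.haveILetI false
set_option synthInstance.maxHeartbeats 200000

noncomputable section

open ModularCurve AlgebraicCurve IsLocalRing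
open FLTAgent.Reduction (Qb kA FB FS Ctx Val)

namespace FLTAgent.EIS

local notation "GalQ" => AlgebraicClosure ℚ ≃ₐ[ℚ] AlgebraicClosure ℚ

theorem genusFormula_one : genusFormula 1 = 0 := by
  have h2 : nuTwo 1 = 1 := by
    rw [nuTwo, Nat.card_eq_one_iff_unique]
    exact ⟨inferInstance, ⟨⟨0, Subsingleton.elim _ _⟩⟩⟩
  have h3 : nuThree 1 = 1 := by
    rw [nuThree, Nat.card_eq_one_iff_unique]
    exact ⟨inferInstance, ⟨⟨0, Subsingleton.elim _ _⟩⟩⟩
  have hψ : dedekindPsi 1 = 1 := by simp [dedekindPsi, Finset.sum_filter]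
  rw [genusFormula, h2, h3, hψ, cuspCount_one]
  norm_num

theorem jzero_one_torsion {n : ℕ} (hn : 0 < n) {x : JZero 1} (hx : n • x = 0) : x = 0 := by
  haveI := RR.hasCanonicalDivisor (K := Qb) (F := FB 1)
  have hg : genusFF Qb (FB 1) = 0 := by
    have h := Genus.genusFF_eq (N := 1)
    rw [genusFormula_one] at h
    exact_mod_cast h
  have h := AJ.natCard_torsion (K := Qb) (F := FB 1) n hn
  rw [hg, mul_zero, pow_zero] at h
  haveI : Subsingleton (Pic0.torsion Qb (FB 1) n) := (Nat.card_eq_one_iff_unique.mp h).1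
  exact congrArg Subtype.val (Subsingleton.elim (α := Pic0.torsion Qb (FB 1) n)
    ⟨x, Pic0.mem_torsion.mpr (by rw [natCast_zsmul]; exact hx)⟩ 0)

theorem killedByPush_one {q : ℕ} [NeZero q] {n : ℕ} (hn : 0 < n) {y : JZero (1 * q)}
    (hy : n • y = 0) : SS.KilledByPush 1 q y := by
  refine SS.killedByPush_of_pushJ 1 q (jzero_one_torsion hn ?_) (jzero_one_torsion hn ?_) <;>
    rw [← map_nsmul, hy, map_zero]

/-- Frobenius relation on the torsion prime to `q` at level `q` -/
theorem frobenius_quartic_prime {N q : ℕ} [NeZero N] [NeZero q] (hN : N = 1 * q) (hq : q.Prime)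
    {V : ValuationSubring (AlgebraicClosure ℚ)} (hV : V.LiesOverPrime q) {σ : GalQ} (hσ : V.IsFrobeniusAt σ q)
    {n : ℕ} (hn : ¬ q ∣ n) (y : JZero N) (hy : n • y = 0) :
    σ • σ • (σ • σ • y - y) = q ^ 2 • (σ • σ • y - y) := by
  subst hN
  exact SS.frobenius_quartic hq hV (SS.fibreInputs ⟨hq, hq.not_dvd_one, hV⟩) hσ hn y hy
    (killedByPush_one (n := n) (Nat.pos_of_ne_zero fun h => hn (by rw [h]; exact dvd_zero q)) hy)

/-- the image of inertia minus one is toric: fixed by inertia, and `φ² = q²` on it -/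
theorem toric_inertia_prime {N q : ℕ} [NeZero N] [NeZero q] (hN : N = 1 * q) (hq : q.Prime)
    {V : ValuationSubring (AlgebraicClosure ℚ)} (hV : V.LiesOverPrime q) {τ : GalQ}
    (hτ : τ ∈ V.inertiaSubgroupIn ℚ) {n : ℕ} (hn : ¬ q ∣ n) (y : JZero N) (hy : n • y = 0) :
    τ • (τ • y - y) = τ • y - y ∧
      ∀ σ : GalQ, V.IsFrobeniusAt σ q → σ • σ • (τ • y - y) = q ^ 2 • (τ • y - y) := by
  subst hN
  obtain ⟨D, hin, hfr⟩ := SS.fibreInputs (M := 1) (q := q) ⟨hq, hq.not_dvd_one, hV⟩
  have hn0 : n ≠ 0 := fun h => hn (h ▸ dvd_zero q)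
  have hc := hin τ hτ
  have ht : D.Toric n (SS.galAut 1 q τ • y - y) :=
    SS.Data.toric_smul_sub D.exists_surj hn0 hy hc fun E f _ _ _ b c _ _ _ =>
      ⟨1, one_ne_zero, by simp⟩
  refine ⟨?_, fun σ hσ => ?_⟩
  · have h := ht.smul_eq D.exists_surj (SS.arch hq hV) (SS.natCast_ne_zero_kA hq hV hn) hc
      (χ := RingHom.id _) (fun _ _ _ _ h => h) 1 (fun ζ _ => (pow_one ζ).symm)
    rw [one_nsmul] at h
    exact h
  · obtain ⟨gs, hg, hpt, -⟩ := hfr σ hσ
    have hg2 : SS.Compat D.toCore (SS.galAut 1 q (σ * σ)) (gs.trans gs) := by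
      rw [SS.galAut, map_mul]; exact hg.comp hg
    haveI := Reduction.charP_residue V hq hV
    haveI : ExpChar (kA V) q := ExpChar.prime hq
    have h := ht.smul_eq D.exists_surj (SS.arch hq hV) (SS.natCast_ne_zero_kA hq hV hn) hg2
      (χ := iterateFrobenius (kA V) q 2)
      (fun b s z c hv => by rw [iterateFrobenius_def]; exact hpt b s z c hv) (q ^ 2)
      (fun ζ _ => iterateFrobenius_def q 2 ζ)
    change (σ * σ) • (τ • y - y) = q ^ 2 • (τ • y - y) at h
    simpa only [mul_smul] using h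

end FLTAgent.EIS

end
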