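import Fermat.Agent.EIS.Classes
import Fermat.Agent.EIS.Descent
import Fermat.Agent.EIS.Irred
import Fermat.Agent.EIS.LevelOne

/-!
Area EIS: the uniform bound for the Selmer groups of the finite levels, and the uniform divisibility
of rational points in the Eisenstein quotient.
-/

set_option autoImplicit false
set_option linter.unusedSectionVars false
set_option linter.style.haveILetI false
set_option maxHeartbeats 1600000

noncomputable section

open ModularCurve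
open FLTAgent.Reduction (Ctx kA)

namespace FLTAgent.EIS

variable {p r : ℕ} [NeZero p] {A : ValuationSubring Qb} (H : Cond p r A)

theorem chiAt_tor {m M : ℕ} (hmM : m ≤ M) : Irred.ChiAt (cay H m) r M := by
  intro g a ha y
  refine cay_chi_eq H (fun ζ hζ => ha ζ ?_) y
  rw [← Nat.sub_add_cancel hmM, pow_add, pow_mul', hζ, one_pow]

theorem traceVanishes_tor (m : ℕ) : Irred.TraceVanishes A (cay H m) := fun _ hτ y =>
  Alg2.inertia_quadratic (conn H m) (tor_inertia H hτ) y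

/-- every level is a subquotient of the torsion -/
theorem exists_isSubquot (m : ℕ) : ∃ M, m ≤ M ∧ Irred.IsSubquot p M r ((raw H).tor m) := by
  obtain ⟨M, hmM, hM⟩ := exists_lift_level H m
  let S : AddSubgroup (JZero p) :=
    { carrier := {z | ∃ h : z ∈ torR p r, r ^ M • z = 0 ∧
        r ^ m • (raw H).qmk (⟨z, h⟩ : JR p r) = 0}
      zero_mem' := ⟨zero_mem _, smul_zero _, by
        rw [show (⟨0, _⟩ : JR p r) = 0 from rfl, map_zero, smul_zero]⟩
      add_mem' := fun {a b} ⟨ha, ha1, ha2⟩ ⟨hb, hb1, hb2⟩ => ⟨add_mem ha hb,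
        by rw [nsmul_add, ha1, hb1, add_zero], by
          rw [show (⟨a + b, _⟩ : JR p r) = ⟨a, ha⟩ + ⟨b, hb⟩ from rfl, map_add, nsmul_add, ha2, hb2,
            add_zero]⟩
      neg_mem' := fun {a} ⟨ha, ha1, ha2⟩ => ⟨neg_mem ha, by rw [neg_nsmul, ha1, neg_zero], by
          rw [show (⟨-a, _⟩ : JR p r) = -⟨a, ha⟩ from rfl, map_neg, neg_nsmul, ha2, neg_zero]⟩ }
  let ι : S →+ JR p r := S.subtype.codRestrict (torR p r) fun z => z.2.choose
  let π : S →+ (raw H).tor m := ((raw H).qmk.comp ι).codRestrict ((raw H).tor m)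
    fun z => z.2.choose_spec.2
  refine ⟨M, hmM, S, π, fun w => ?_, fun z hz => hz.choose_spec.1, fun g z hz => ?_, fun g z h => ?_⟩
  · obtain ⟨z, hz, hzw⟩ := hM (w : (raw H).W) w.2
    refine ⟨⟨(z : JZero p), z.2, congrArg Subtype.val hz, ?_⟩, Subtype.ext hzw⟩
    show r ^ m • (raw H).qmk z = 0
    rw [hzw]
    exact w.2
  · obtain ⟨h, h1, h2⟩ := hz
    refine ⟨(g • (⟨z, h⟩ : JR p r)).2, ?_, ?_⟩
    · exact (smul_nsmul' g (r ^ M) z).symm.trans (by rw [h1, smul_zero])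
    · show r ^ m • (raw H).qmk (g • (⟨z, h⟩ : JR p r)) = 0
      rw [← Raw.smul_qmk, ← smul_nsmul', h2, smul_zero]
  · refine Subtype.ext ?_
    show (raw H).qmk (g • ι z) = g • (raw H).qmk (ι z)
    rw [Raw.smul_qmk]

section LevelP

variable {B : ValuationSubring Qb} (hB : B.LiesOverPrime p)
include H hB

theorem toric_inertia_W {τ : GalQ} (hτ : τ ∈ B.inertiaSubgroupIn ℚ) (w : (raw H).W) :
    τ • (τ • w - w) = τ • w - w ∧
      ∀ φ : GalQ, B.IsFrobeniusAt φ p → φ • φ • (τ • w - w) = (p : ℤ) ^ 2 • (τ • w - w) := by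
  obtain ⟨z, rfl⟩ := (raw H).qmk_surjective w
  obtain ⟨M, hM⟩ := z.2
  obtain ⟨h1, h2⟩ := toric_inertia_prime (one_mul p).symm H.hp hB hτ
    (fun h => H.hrp ((Nat.prime_dvd_prime_iff_eq H.hp H.hr).mp (H.hp.dvd_of_dvd_pow h)).symm)
    (z : JZero p) hM
  rw [Raw.smul_qmk, ← map_sub, Raw.smul_qmk]
  refine ⟨congrArg (raw H).qmk (Subtype.ext h1), fun φ hφ => ?_⟩
  rw [Raw.smul_qmk, Raw.smul_qmk, ← Nat.cast_pow, natCast_zsmul, ← map_nsmul]
  exact congrArg (raw H).qmk (Subtype.ext (h2 φ hφ))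

theorem frobenius_W {φ : GalQ} (hφ : B.IsFrobeniusAt φ p) (w : (raw H).W) :
    φ • φ • (φ • φ • w - w) = (p : ℤ) ^ 2 • (φ • φ • w - w) := by
  obtain ⟨z, rfl⟩ := (raw H).qmk_surjective w
  obtain ⟨M, hM⟩ := z.2
  have h := frobenius_quartic_prime (one_mul p).symm H.hp hB hφ
    (fun h => H.hrp ((Nat.prime_dvd_prime_iff_eq H.hp H.hr).mp (H.hp.dvd_of_dvd_pow h)).symm)
    (z : JZero p) hM
  rw [Raw.smul_qmk, Raw.smul_qmk, ← map_sub, Raw.smul_qmk, Raw.smul_qmk, ← Nat.cast_pow,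
    natCast_zsmul, ← map_nsmul]
  exact congrArg (raw H).qmk (Subtype.ext h)

end LevelP

/-- the torsion killed by `p ^ 2 - 1` at every level is uniformly bounded -/
theorem exists_card_sub_one_le : ∃ D : ℕ, ∀ m,
    Nat.card {x : (raw H).tor m // ((p : ℤ) ^ 2 - 1) • x = 0} ≤ D := by
  have h0 : ((p : ℤ) ^ 2 - 1).natAbs ≠ 0 := by
    rw [Int.natAbs_ne_zero]
    have : (2 : ℤ) ≤ p := by exact_mod_cast H.hp.two_le
    nlinarith
  set s := ((p : ℤ) ^ 2 - 1).natAbs.factorization r + 1 with hs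
  refine ⟨Nat.card {z : JR p r // r ^ s • z = 0}, fun m => le_trans ?_ ((raw H).card_tor_le s)⟩
  haveI := (raw H).finite_tor s
  refine Nat.card_le_card_of_injective (fun x => ⟨((x.1 : (raw H).tor m) : (raw H).W), ?_⟩)
    fun a b h => Subtype.ext (Subtype.ext (congrArg Subtype.val h :))
  show r ^ s • ((x.1 : (raw H).tor m) : (raw H).W) = 0
  refine Irred.pow_smul_eq_zero H.hr (m := m) (x.1 : (raw H).tor m).2
    (D := (p : ℤ) ^ 2 - 1) ?_ fun h => ?_
  · have := congrArg Subtype.val x.2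
    rwa [AddSubgroupClass.coe_zsmul] at this
  · have h' : r ^ s ∣ ((p : ℤ) ^ 2 - 1).natAbs := by
      have := Int.natAbs_dvd_natAbs.mpr h
      rwa [Int.natAbs_pow, Int.natAbs_natCast] at this
    have := (Nat.Prime.pow_dvd_iff_le_factorization H.hr h0).mp h'
    omega

/-- the bound of the Selmer groups for one finite module -/
theorem sel_card_le {p r : ℕ} (hp : p.Prime) (hrp : r ≠ p) {A B : ValuationSubring Qb}
    {M : Type} [AddCommGroup M] [DistribMulAction GalQ M] [Finite M] {M0 : AddSubgroup M}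
    (Hy : Hyp M p r A M0) (hB : B.LiesOverPrime p) {φ : GalQ} (hφ : B.IsFrobeniusAt φ p)
    (C : Alg2.Cay GalQ M) (hC : Alg2.Conn C M0) {τ : GalQ} (hτ : ∀ z : M, τ • z - z ∈ M0)
    (hone : ∀ z : M, C.chi 1 • z = z) (hχ : ∀ z : M, C.chi φ • z = (p : ℤ) • z)
    (huni : ∀ τ ∈ B.inertiaSubgroupIn ℚ, ∀ z : M, τ • (τ • z - z) = τ • z - z)
    (hq : ∀ z : M, φ • φ • (φ • φ • z - z) = (p : ℤ) ^ 2 • (φ • φ • z - z))
    (hs : ∀ τ ∈ B.inertiaSubgroupIn ℚ, ∀ z : M,
      φ • φ • (τ • z - z) = (p : ℤ) ^ 2 • (τ • z - z))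
    {h x u x' : AddMonoid.End M × AddMonoid.End M} {c D : ℕ}
    (hcR : Nat.card {y : M | C.sR τ h x ((C.chi τ - 1) • y) = 0} ≤ c)
    (hcP : Nat.card {y : M | C.sP φ (p : ℤ) u x' (((p : ℤ) ^ 2 - 1) • y) = 0} ≤ c)
    (hD : Nat.card {y : M // ((p : ℤ) ^ 2 - 1) • y = 0} ≤ D)
    (F : AddSubgroup (GalQ → M)) [Finite F] (hF : F ≤ selSub M p r A M0) :
    Nat.card F ≤ Nat.card M * (c * D) := by
  have hsel := selP_bound hp hrp Hy hB hφ
    (descentBound hp hrp.symm hB Hy) huni hq hs F fun d hd => hF hd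
  have hR : Nat.card M0 ≤ Nat.card (M ⧸ M0) * c :=
    (Alg2.card_conn_le hC hτ hone).trans (Nat.mul_le_mul_left _ hcR)
  have hT : toricPart M φ (p : ℤ) = C.toric φ (p : ℤ) :=
    AddSubgroup.ext fun z => (Alg2.mem_toric φ (p : ℤ)).symm
  have hP : Nat.card (toricPart M φ (p : ℤ)) ≤ Nat.card (M ⧸ toricPart M φ (p : ℤ)) * c := by
    rw [hT]
    exact (Alg2.card_toric_le φ (p : ℤ) hone hχ hq).trans (Nat.mul_le_mul_left _ hcP)
  have e0 := AddSubgroup.card_eq_card_quotient_mul_card_addSubgroup M0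
  have e1 := AddSubgroup.card_eq_card_quotient_mul_card_addSubgroup (toricPart M φ (p : ℤ))
  haveI : Nonempty M := ⟨0⟩
  have hpos : 0 < Nat.card M := Nat.card_pos
  set X := Nat.card (M ⧸ M0)
  set Y := Nat.card (M ⧸ toricPart M φ (p : ℤ))
  set n := Nat.card M
  have hX : n ≤ X * X * c := by
    rw [e0, mul_assoc]; exact Nat.mul_le_mul_left _ hR
  have hY : n ≤ Y * Y * c := by
    rw [e1, mul_assoc]; exact Nat.mul_le_mul_left _ hP
  have hnXY : n ≤ X * Y * c := by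
    by_contra hcon
    have h2 := Nat.mul_self_lt_mul_self (not_le.mp hcon)
    have h3 := Nat.mul_le_mul hX hY
    have e : X * Y * c * (X * Y * c) = X * X * c * (Y * Y * c) := by ring
    rw [e] at h2
    omega
  have hXY : 0 < X * Y := by
    rcases Nat.eq_zero_or_pos (X * Y) with h0 | h0
    · rw [h0, zero_mul] at hnXY; omega
    · exact h0
  refine Nat.le_of_mul_le_mul_right ?_ hXY
  calc Nat.card F * (X * Y) = Nat.card F * X * Y := by ring
    _ ≤ n * n * D := hsel.trans (Nat.mul_le_mul_left _ hD)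
    _ ≤ n * (X * Y * c) * D := Nat.mul_le_mul_right _ (Nat.mul_le_mul_left _ hnXY)
    _ = n * (c * D) * (X * Y) := by ring

/-- the Selmer groups of the levels are bounded by a constant times the level -/
theorem exists_sel_bound {a : ℕ} (hfix : FixBound p r A H.ctx a) :
    ∃ C₁ : ℕ, ∀ (m : ℕ) (F : AddSubgroup (GalQ → (raw H).tor m)), Finite F →
      F ≤ selSub ((raw H).tor m) p r A ((raw H).tor0 m) →
      Nat.card F ≤ Nat.card ((raw H).tor m) * C₁ := by
  obtain ⟨B, φ, hB, hφ⟩ := Alg.exists_place_frobenius p H.hp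
  obtain ⟨τ, hτ, h, x, u, x', c, hc⟩ :=
    exists_bound H.hp H.hr H.hrp H.hA hB φ hφ
  obtain ⟨D, hD⟩ := exists_card_sub_one_le H
  refine ⟨c * D, fun m F hFf hF => ?_⟩
  haveI : Finite ((raw H).tor m) := (raw H).finite_tor m
  obtain ⟨N, hmN, hN⟩ := exists_isSubquot H m
  obtain ⟨hcR, hcP⟩ := hc ((raw H).tor m) (cay H m) N hN (chiAt_tor H hmN) (traceVanishes_tor H m)
  refine sel_card_le H.hp H.hrp (hyp H hfix m) hB hφ (cay H m) (conn H m) (tor_inertia H hτ)
    (cay_one H m) (fun z => ?_) (fun t ht z => Subtype.ext (toric_inertia_W H hB ht _).1)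
    (fun z => Subtype.ext (frobenius_W H hB hφ _))
    (fun t ht z => Subtype.ext ((toric_inertia_W H hB ht _).2 φ hφ)) hcR hcP (hD m) F hF
  rw [natCast_zsmul]
  refine cay_chi_eq H (a := p) (fun ζ hζ => ?_) z
  haveI : NeZero (r ^ m) := ⟨(pow_pos H.hr.pos m).ne'⟩
  rw [Attach.cyc_spec φ hζ, Attach.cyc_frobenius H.hp
    (fun h => H.hrp ((Nat.prime_dvd_prime_iff_eq H.hp H.hr).mp (H.hp.dvd_of_dvd_pow h)).symm) hB hφ,
    ZMod.val_natCast, ← pow_eq_pow_mod p hζ]

/-- a uniform power of `r` makes every rational point divisible by all powers of `r` among the fixed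
classes modulo `K` -/
theorem exists_uniform_div : ∃ e : ℕ, ∀ x : JZero p, (∀ g : GalQ, g • x = x) → ∀ m : ℕ,
    ∃ y : JZero p, (∀ g : GalQ, g • y - y ∈ KJ H) ∧ r ^ e • x - r ^ m • y ∈ KJ H := by
  obtain ⟨a, hfix⟩ := exists_fixBound (A := A) H.ctx
  obtain ⟨C₁, hC₁⟩ := exists_sel_bound H hfix
  obtain ⟨n₀, hn₀⟩ := exists_fixed_tor_bound H
  refine ⟨n₀ * C₁ + a, fun x hx m => exists_fixed_div H hfix (hC₁ m)
    (hn₀ m _ fun w hw g => mem_ker_bdryHom.mp hw g) hx⟩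

end FLTAgent.EIS

end
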