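import Fermat.Agent.AJ.Main

/-!
Classes of degree zero over an algebraically closed field of characteristic zero are divisible.
-/

set_option autoImplicit false
set_option linter.unusedSectionVars false
set_option linter.style.haveILetI false

noncomputable section

open AlgebraicCurve TensorProduct Filter Topology

namespace FLTAgent.AJ

theorem exists_nsmul_eq_complex {F : Type*} [Field F] [Algebra ℂ F] [RR.FnField ℂ F] (n : ℕ)
    (hn : 0 < n) (c : Pic0 ℂ F) : ∃ y, n • y = c := by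
  obtain ⟨Φ, R, -, hcov⟩ := exists_cover (F := F)
  obtain ⟨v, -, rfl⟩ := hcov c
  refine ⟨Φ ((n : ℂ)⁻¹ • v), ?_⟩
  rw [← map_nsmul, ← Nat.cast_smul_eq_nsmul ℂ, smul_inv_smul₀ (Nat.cast_ne_zero.mpr hn.ne')]

namespace ConstExt

variable {K₀ L F₀ F : Type*} [Field K₀] [Field L] [Algebra K₀ L] [Field F₀] [Algebra K₀ F₀]
  [Field F] [Algebra L F] (e : ConstExt K₀ L F₀ F)
  [IsAlgClosed L] [CharZero L] [RR.FnField L F]
  [IsAlgClosed K₀] [CharZero K₀] [RR.FnField K₀ F₀]

theorem act_smul_toPic (σ : L ≃ₐ[K₀] L) (c : Pic0 K₀ F₀) : e.act σ • e.toPic c = e.toPic c := by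
  obtain ⟨D, rfl⟩ := Pic0.mk_surjective c
  have hdeg : Divisor.degree (e.liftDiv (D : Divisor K₀ F₀)) = 0 := (e.degree_liftDiv _).trans D.2
  rw [e.toPic_mk, cls_of_deg hdeg, SemilinearAut.pic0_smul_mk]
  refine congrArg Pic0.mk (Subtype.ext ?_)
  show e.act σ • e.liftDiv (D : Divisor K₀ F₀) = e.liftDiv (D : Divisor K₀ F₀)
  rw [SemilinearAut.divisor_smul_def, liftDiv, Finsupp.mapDomain.addMonoidHom_apply,
    ← Finsupp.mapDomain_comp]
  exact Finsupp.mapDomain_congr fun v _ => e.lift_fixed v σ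

end ConstExt

theorem exists_nsmul_eq_of_embedding (K₀ F₀ : Type*) [Field K₀] [IsAlgClosed K₀] [CharZero K₀]
    [Field F₀] [Algebra K₀ F₀] [RR.FnField K₀ F₀] (σ : K₀ →+* ℂ) (n : ℕ) (hn : 0 < n)
    (c : Pic0 K₀ F₀) : ∃ y, n • y = c := by
  letI : Algebra K₀ ℂ := σ.toAlgebra
  haveI := isDomain_tensor (K₀ := K₀) ℂ F₀
  let j : F₀ →ₐ[K₀] FractionRing (ℂ ⊗[K₀] F₀) :=
    (IsScalarTower.toAlgHom K₀ (ℂ ⊗[K₀] F₀) _).comp Algebra.TensorProduct.includeRight
  have hm : ∀ a, mulMap (L := ℂ) j a = algebraMap (ℂ ⊗[K₀] F₀) (FractionRing (ℂ ⊗[K₀] F₀)) a := by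
    intro a
    induction a using TensorProduct.induction_on with
    | zero => simp
    | tmul l x =>
      rw [mulMap_tmul, Algebra.smul_def,
        IsScalarTower.algebraMap_apply ℂ (ℂ ⊗[K₀] F₀) (FractionRing (ℂ ⊗[K₀] F₀))]
      simp [j, ← map_mul]
    | add u v hu hv => rw [map_add, map_add, hu, hv]
  have hinj : Function.Injective (mulMap (L := ℂ) j) := fun a b h =>
    IsFractionRing.injective (ℂ ⊗[K₀] F₀) (FractionRing (ℂ ⊗[K₀] F₀)) (by rwa [hm, hm] at h)
  obtain ⟨e, -⟩ := nonempty_constExt j hinj fun f => by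
    obtain ⟨a, b, -, h⟩ := IsFractionRing.div_surjective (A := ℂ ⊗[K₀] F₀) f
    exact ⟨a, b, by rw [hm, hm, h]⟩
  haveI := e.fnField
  obtain ⟨y, hy⟩ := exists_nsmul_eq_complex n hn (e.toPic c)
  haveI : Finite (Pic0.torsion ℂ (FractionRing (ℂ ⊗[K₀] F₀)) n) := Nat.finite_of_card_ne_zero
    (by rw [natCard_torsion_complex n hn]; exact pow_ne_zero _ hn.ne')
  obtain ⟨y₀, hy₀⟩ := e.mem_range_toPic_of_finite_orbit y (by
    refine ((Set.toFinite (Pic0.torsion ℂ (FractionRing (ℂ ⊗[K₀] F₀)) n :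
      Set (Pic0 ℂ (FractionRing (ℂ ⊗[K₀] F₀))))).image (fun t => y + t)).subset ?_
    rintro _ ⟨s, rfl⟩
    refine ⟨e.act s • y - y, Pic0.mem_torsion.mpr ?_, add_sub_cancel _ _⟩
    rw [natCast_zsmul, nsmul_sub,
      ← show e.act s • (n • y) = n • e.act s • y from
        map_nsmul (DistribSMul.toAddMonoidHom _ (e.act s)) n y, hy]
    exact sub_eq_zero.mpr (e.act_smul_toPic s c))
  exact ⟨y₀, e.toPic_injective (by rw [map_nsmul, hy₀, hy])⟩

/-- divisibility of the classes of degree zero -/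
theorem exists_nsmul_eq {K F : Type*} [Field K] [Field F] [Algebra K F] [IsAlgClosed K] [CharZero K]
    [RR.FnField K F] (n : ℕ) (hn : 0 < n) (c : Pic0 K F) : ∃ y, n • y = c := by
  classical
  obtain ⟨D, hD⟩ := Pic0.mk_surjective c
  choose f hfT hfw hfo using fun w : Place K F => HeckeJ.exists_only_pole w
  refine with_model (K := K) ((D : Divisor K F).support.image f) fun K₀ F₀ _ _ _ e he hG => ?_
  have hfix : ∀ w ∈ (D : Divisor K F).support, ∃ v, e.lift v = w := by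
    intro w hw
    have hmem : f w ∈ F₀ := hG (Finset.mem_coe.mpr (Finset.mem_image_of_mem f hw))
    refine e.exists_lift_eq fun τ => ?_
    by_contra hne
    have h1 := e.ord_smul_i τ w ⟨f w, hmem⟩
    rw [he] at h1
    have h2 := hfo w _ hne
    have h3 := hfw w
    simp only at h1
    omega
  choose v hv using fun u : (D : Divisor K F).support => hfix u.1 u.2
  set D₀ : Divisor K₀ F₀ := ∑ u, Finsupp.single (v u) ((D : Divisor K F) u) with hD₀
  have hlift : e.liftDiv D₀ = (D : Divisor K F) := by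
    simp only [hD₀, map_sum, ConstExt.liftDiv_single, hv]
    rw [Finset.sum_coe_sort (D : Divisor K F).support
      fun u => Finsupp.single u ((D : Divisor K F) u)]
    exact Finsupp.sum_single _
  have hdeg : Divisor.degree D₀ = 0 := by
    rw [← e.degree_liftDiv, hlift]
    exact D.2
  have heq : e.toPic (Pic0.mk ⟨D₀, hdeg⟩) = c := by
    rw [e.toPic_mk]
    simp only [hlift]
    rw [cls_of_deg D.2]
    exact hD
  obtain ⟨σ⟩ := exists_ringHom_complex K₀
  obtain ⟨y₀, hy₀⟩ := exists_nsmul_eq_of_embedding K₀ F₀ σ n hn (Pic0.mk ⟨D₀, hdeg⟩)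
  exact ⟨e.toPic y₀, by rw [← map_nsmul, hy₀, heq]⟩

end FLTAgent.AJ

end
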