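import Fermat.Agent.EIS.RedHecke
import Fermat.Agent.Reduction.Rigid
import Fermat.Agent.EllFrob.Reduction

/-!
Fixed points of powers of Frobenius on the Jacobian of the special fibre: finitely many, and every
class is fixed by some power.
-/

set_option autoImplicit false
set_option linter.unusedSectionVars false
set_option synthInstance.maxHeartbeats 200000
set_option maxHeartbeats 800000
set_option linter.style.haveILetI false

noncomputable section

open ModularCurve AlgebraicCurve Polynomial IsLocalRing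
open FLTAgent.Reduction
open FLTAgent.RR (Bd KK)

namespace FLTAgent.EIS

variable {A : ValuationSubring Reduction.Qb} {N ℓ : ℕ} [NeZero N]

/-- `a` is fixed by a positive power of Frobenius of the residue field -/
theorem exists_pow_eq_self (C : Ctx A N ℓ) (a : kA A) : ∃ n, 1 ≤ n ∧ a ^ ℓ ^ n = a := by
  haveI : Fact ℓ.Prime := ⟨C.prime⟩
  haveI := charP_residue A C.prime C.lies
  letI : Algebra (ZMod ℓ) (kA A) := ZMod.algebra _ ℓ
  haveI := EllFrob.isAlgebraic_residue A (ℓ := ℓ)
  set E := IntermediateField.adjoin (ZMod ℓ) ({a} : Set (kA A))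
  haveI : FiniteDimensional (ZMod ℓ) E :=
    IntermediateField.adjoin.finiteDimensional (Algebra.IsAlgebraic.isAlgebraic a).isIntegral
  haveI : Finite E := Module.finite_of_finite (ZMod ℓ)
  haveI := Fintype.ofFinite E
  haveI : CharP E ℓ := charP_of_injective_algebraMap (algebraMap (ZMod ℓ) E).injective ℓ
  obtain ⟨n, -, hn⟩ := FiniteField.card E ℓ
  refine ⟨n, n.pos, ?_⟩
  have h := congrArg Subtype.val
    (FiniteField.pow_card (⟨a, IntermediateField.mem_adjoin_simple_self _ a⟩ : E))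
  rw [hn] at h
  simpa using h

theorem smul_pow_fix {G X : Type*} [Monoid G] [MulAction G X] {g : G} {x : X} (h : g • x = x) :
    ∀ k : ℕ, g ^ k • x = x
  | 0 => by rw [pow_zero, one_smul]
  | k + 1 => by rw [pow_succ, mul_smul, h, smul_pow_fix h k]

theorem smul_pow_dvd {G X : Type*} [Monoid G] [MulAction G X] {g : G} {x : X} {m n : ℕ}
    (h : g ^ m • x = x) (hd : m ∣ n) : g ^ n • x = x := by
  obtain ⟨k, rfl⟩ := hd
  rw [pow_mul]; exact smul_pow_fix h k

/-- the orbit of a point inside a finite stable set closes up -/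
theorem exists_period {G X : Type*} [Group G] [MulAction G X] {g : G} {x : X} (S : Finset X)
    (h : ∀ k : ℕ, g ^ k • x ∈ S) : ∃ d, 1 ≤ d ∧ d ≤ S.card ∧ g ^ d • x = x := by
  classical
  obtain ⟨i, hi, j, hj, hne, he⟩ : ∃ i ∈ Finset.range (S.card + 1), ∃ j ∈ Finset.range (S.card + 1),
      i ≠ j ∧ g ^ i • x = g ^ j • x :=
    Finset.exists_ne_map_eq_of_card_lt_of_maps_to (by simp) fun k _ => h k
  rw [Finset.mem_range] at hi hj
  wlog hij : i < j generalizing i j
  · exact this j hj i hi hne.symm he.symm (by omega)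
  refine ⟨j - i, by omega, by omega, ?_⟩
  have h1 : g ^ j • x = g ^ i • g ^ (j - i) • x := by
    rw [← mul_smul, ← pow_add]; congr 2; omega
  rw [h1] at he
  exact (MulAction.injective _ he).symm

section Fibre

variable (C : Ctx A N ℓ)
include C

theorem baseAut_frobS_pow (n : ℕ) (a : kA A) :
    SemilinearAut.baseAut (frobS C ^ n) a = a ^ ℓ ^ n := by
  induction n generalizing a with
  | zero => simp
  | succ n ih =>
    rw [pow_succ, SemilinearAut.baseAut_mul]
    show SemilinearAut.baseAut (frobS C ^ n) (SemilinearAut.baseAut (frobS C) a) = _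
    rw [show SemilinearAut.baseAut (frobS C) a = a ^ ℓ from rfl, ih, ← pow_mul, pow_succ']

theorem frobS_smul_tS (s : Bool) : frobS C • tS A N s = tS A N s := by
  have h : frobS C • jS A N = jS A N := Subtype.ext (by
    rw [frobS, coe_fullAut_smul]
    exact coeffMap_jqModC _)
  cases s
  · exact h
  · show frobS C • (jS A N)⁻¹ = (jS A N)⁻¹
    rw [smul_inv'', h]

theorem exists_chart_S (Q : PS A N) : ∃ (s : Bool) (a : kA A),
    0 < Q.ord (tS A N s - algebraMap (kA A) (FS A N) a) := by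
  obtain ⟨s, hs⟩ : ∃ s, Bd Q (tS A N s) 0 := by
    by_cases h : Bd Q (tS A N false) 0
    · exact ⟨false, h⟩
    · exact ⟨true, by
        rw [show true = !false from rfl, tS_not]; exact (bd_inv_of_not_bd h).mono (by norm_num)⟩
  obtain ⟨a, ha⟩ := val_exists_S C hs
  refine ⟨s, a, ?_⟩
  have h := (ha.sub (Val.const (v := Q) a))
  rw [sub_self] at h
  have := h.ord_pos (ne_zero_of_transc (RR.transcendental_sub_const (transcendental_tS A N s) a))
  omega

theorem chart_smul {n : ℕ} {Q : PS A N} {s : Bool} {a : kA A}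
    (h : 0 < Q.ord (tS A N s - algebraMap (kA A) (FS A N) a)) :
    0 < (frobS C ^ n • Q).ord (tS A N s - algebraMap (kA A) (FS A N) (a ^ ℓ ^ n)) := by
  have e : frobS C ^ n • (tS A N s - algebraMap (kA A) (FS A N) a) =
      tS A N s - algebraMap (kA A) (FS A N) (a ^ ℓ ^ n) := by
    rw [smul_sub, smul_pow_fix (frobS_smul_tS C s), SemilinearAut.smul_algebraMap,
      baseAut_frobS_pow]
  rw [← e, SemilinearAut.ord_smul]
  exact h

theorem val_unique_of_ord_pos {Q : PS A N} {x : FS A N} {a b : kA A}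
    (ha : 0 < Q.ord (x - algebraMap (kA A) (FS A N) a))
    (hb : 0 < Q.ord (x - algebraMap (kA A) (FS A N) b)) : a = b := by
  have h1 := (val_zero_of_ord_pos ha).add (Val.const (v := Q) a)
  have h2 := (val_zero_of_ord_pos hb).add (Val.const (v := Q) b)
  rw [sub_add_cancel, zero_add] at h1 h2
  exact h1.unique h2

/-- finitely many places are fixed by a power of Frobenius -/
theorem finite_fixed_PS {n : ℕ} (hn : 1 ≤ n) : {Q : PS A N | frobS C ^ n • Q = Q}.Finite := by
  classical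
  choose Z hZ _ using fun (s : Bool) (a : kA A) => exists_zeros_S C s a
  have hne : (X ^ ℓ ^ n - X : (kA A)[X]) ≠ 0 :=
    FiniteField.X_pow_card_sub_X_ne_zero _ (Nat.one_lt_pow (by omega) C.prime.one_lt)
  set T := (X ^ ℓ ^ n - X : (kA A)[X]).roots.toFinset
  refine ((Finset.univ ×ˢ T).biUnion fun p : Bool × kA A => Z p.1 p.2).finite_toSet.subset
    fun Q hQ => ?_
  obtain ⟨s, a, ha⟩ := exists_chart_S C Q
  have h := chart_smul C (n := n) ha
  rw [show frobS C ^ n • Q = Q from hQ] at h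
  rw [Finset.coe_biUnion, Set.mem_iUnion₂]
  refine ⟨(s, a), Finset.mem_product.mpr ⟨Finset.mem_univ _, ?_⟩, (hZ s a Q).mpr ha⟩
  rw [Multiset.mem_toFinset, Polynomial.mem_roots hne]
  simp [val_unique_of_ord_pos C h ha]

/-- every place is fixed by a power of Frobenius -/
theorem exists_fixed_PS (Q : PS A N) : ∃ n, 1 ≤ n ∧ frobS C ^ n • Q = Q := by
  obtain ⟨s, a, ha⟩ := exists_chart_S C Q
  obtain ⟨n, hn, hna⟩ := exists_pow_eq_self C a
  obtain ⟨Z, hZ, -⟩ := exists_zeros_S C s a
  have hk : ∀ k, a ^ ℓ ^ (n * k) = a := fun k => by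
    induction k with
    | zero => simp
    | succ k ih => rw [Nat.mul_succ, pow_add, pow_mul, ih, hna]
  obtain ⟨d, hd, -, hdQ⟩ := exists_period (g := frobS C ^ n) (x := Q) Z fun k => by
    rw [hZ, ← pow_mul]
    have h := chart_smul C (n := n * k) ha
    rwa [hk] at h
  exact ⟨n * d, Nat.one_le_iff_ne_zero.mpr (by positivity), by rw [pow_mul]; exact hdQ⟩

theorem exists_fixed_finset (S : Finset (PS A N)) :
    ∃ n, 1 ≤ n ∧ ∀ Q ∈ S, frobS C ^ n • Q = Q := by
  classical
  choose per hper hperQ using exists_fixed_PS C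
  refine ⟨∏ Q ∈ S, per Q, Finset.one_le_prod' fun Q _ => hper Q, fun Q hQ =>
    smul_pow_dvd (hperQ Q) (Finset.dvd_prod_of_mem _ hQ)⟩

theorem smul_divisor_of_fix {g : SemilinearAut (kA A) (FS A N)} {D : Divisor (kA A) (FS A N)}
    (h : ∀ Q ∈ D.support, g • Q = Q) : g • D = D := by
  rw [SemilinearAut.divisor_smul_def]
  conv_rhs => rw [← Finsupp.mapDomain_id (v := D)]
  exact Finsupp.mapDomain_congr h

/-- every class is fixed by a positive power of Frobenius -/
theorem exists_fixed_frobS (z : JZeroC (kA A) N) : ∃ n, 1 ≤ n ∧ frobS C ^ n • z = z := by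
  obtain ⟨D, rfl⟩ := Pic0.mk_surjective z
  obtain ⟨n, hn, hfix⟩ := exists_fixed_finset C (D : Divisor (kA A) (FS A N)).support
  refine ⟨n, hn, ?_⟩
  rw [SemilinearAut.pic0_smul_mk]
  exact congrArg Pic0.mk (Subtype.ext (smul_divisor_of_fix C hfix))

/-! ### lifting -/

/-- every place of the special fibre is a reduction -/
theorem exists_rP_eq (Q : PS A N) : ∃ P : PB N, rP C P = Q := by
  classical
  obtain ⟨s, a, ha⟩ := exists_chart_S C Q
  obtain ⟨⟨c, hc⟩, rfl⟩ := residue_surjective (R := A) a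
  obtain ⟨hU, hr⟩ := UG_sub_const C s hc
  have hd := defect_eq_zero C hU Q
  rw [defect, hr, sub_eq_zero, mapDomain_apply_eq_sum (rP C) _ Q _ subset_rfl] at hd
  by_contra hno
  rw [Finset.filter_false_of_mem (fun P _ h => hno ⟨P, h⟩), Finset.sum_empty] at hd
  omega

theorem deg_PS (Q : PS A N) : Q.deg = 1 := by
  obtain ⟨P, rfl⟩ := exists_rP_eq C Q
  rw [deg_rP C, RR.deg_place]

theorem degree_mapDomain_rP (D : Divisor Reduction.Qb (FB N)) :
    Divisor.degree (Finsupp.mapDomain (rP C) D) = Divisor.degree D :=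
  degree_mapDomain_of_deg_eq (deg_rP C) D

theorem degree_nonneg_S {D : Divisor (kA A) (FS A N)} (h : ∀ Q, 0 ≤ D Q) :
    0 ≤ Divisor.degree D := by
  have e : Divisor.degree D = D.sum fun v n => n * (v.deg : ℤ) := rfl
  rw [e, Finsupp.sum]
  exact Finset.sum_nonneg fun Q _ => mul_nonneg (h Q) (by positivity)

theorem le_degree_S {D : Divisor (kA A) (FS A N)} (h : ∀ Q, 0 ≤ D Q) (Q : PS A N) :
    D Q ≤ Divisor.degree D := by
  classical
  have h1 := degree_nonneg_S C (D := D - Finsupp.single Q (D Q)) fun V => by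
    rw [Finsupp.sub_apply, Finsupp.single_apply]
    split_ifs with he
    · rw [he]; simp
    · simpa using h V
  rw [map_sub, Divisor.degree_single, deg_PS C] at h1
  simpa using h1

theorem card_support_le_degree {D : Divisor (kA A) (FS A N)} (h : ∀ Q, 0 ≤ D Q) :
    (D.support.card : ℤ) ≤ Divisor.degree D := by
  have e : Divisor.degree D = D.sum fun v n => n * (v.deg : ℤ) := rfl
  rw [e, Finsupp.sum, Finset.card_eq_sum_ones, Nat.cast_sum]
  refine Finset.sum_le_sum fun Q hQ => ?_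
  rw [deg_PS C, Nat.cast_one, mul_one]
  have := Finsupp.mem_support_iff.mp hQ
  have := h Q
  omega

/-- the divisor of a function on the special fibre -/
theorem exists_divisor_S {x : FS A N} (hx : x ≠ 0) :
    ∃ E : Divisor (kA A) (FS A N), Divisor.degree E = 0 ∧ ∀ Q, E Q = Q.ord x := by
  obtain ⟨f, hf, rfl⟩ := exists_UG_lift C hx
  refine ⟨Finsupp.mapDomain (rP C) (dv f), ?_, fun Q => ?_⟩
  · rw [degree_mapDomain_rP C, degree_dv (hf.ne_zero C)]
  · have h := defect_eq_zero C hf Q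
    rw [defect, sub_eq_zero] at h
    exact h

theorem mk_eq_mk_iff (D E : Divisor.degZero (K := kA A) (F := FS A N)) :
    Pic0.mk D = Pic0.mk E ↔
      (E : Divisor (kA A) (FS A N)) - (D : Divisor (kA A) (FS A N)) ∈
        Divisor.principal (K := kA A) (F := FS A N) := by
  refine Iff.trans (QuotientAddGroup.eq (s := _) (a := D) (b := E)) ?_
  rw [AddSubgroup.mem_addSubgroupOf, AddSubgroup.coe_add, AddSubgroup.coe_neg, neg_add_eq_sub]

/-- `z = [D - k Q₀]` with `D` effective of degree `k` -/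
def EffRep (Q₀ : PS A N) (z : JZeroC (kA A) N) (k : ℕ) (D : Divisor (kA A) (FS A N)) : Prop :=
  (∀ Q, 0 ≤ D Q) ∧
    ∃ h : D - Finsupp.single Q₀ (k : ℤ) ∈ Divisor.degZero (K := kA A) (F := FS A N),
      Pic0.mk ⟨_, h⟩ = z

theorem EffRep.degree_eq {Q₀ : PS A N} {z : JZeroC (kA A) N} {k : ℕ}
    {D : Divisor (kA A) (FS A N)} (h : EffRep Q₀ z k D) : Divisor.degree D = k := by
  obtain ⟨-, h, -⟩ := h
  rw [Divisor.mem_degZero, map_sub, Divisor.degree_single, deg_PS C] at h
  simpa [sub_eq_zero] using h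

theorem EffRep.lower {Q₀ : PS A N} {z : JZeroC (kA A) N} {k : ℕ}
    {D : Divisor (kA A) (FS A N)} (h : EffRep Q₀ z k D) (h1 : 1 ≤ D Q₀) :
    1 ≤ k ∧ EffRep Q₀ z (k - 1) (D - Finsupp.single Q₀ 1) := by
  classical
  have hdeg := h.degree_eq C
  have hk : 1 ≤ k := by
    have := le_degree_S C h.1 Q₀
    omega
  refine ⟨hk, fun Q => ?_, ?_⟩
  · rw [Finsupp.sub_apply, Finsupp.single_apply]
    split_ifs with he
    · subst he; omega
    · simpa using h.1 Q
  · obtain ⟨-, hm, hz⟩ := h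
    have e : D - Finsupp.single Q₀ 1 - Finsupp.single Q₀ ((k - 1 : ℕ) : ℤ) =
        D - Finsupp.single Q₀ (k : ℤ) := by
      rw [sub_sub, ← Finsupp.single_add]
      congr 2
      omega
    exact ⟨e.symm ▸ hm, (congrArg Pic0.mk (Subtype.ext e)).trans hz⟩

theorem EffRep.unique {Q₀ : PS A N} {z : JZeroC (kA A) N} {k : ℕ}
    {D D' : Divisor (kA A) (FS A N)} (h : EffRep Q₀ z k D) (h' : EffRep Q₀ z k D')
    (hmin : ∀ m E, EffRep Q₀ z m E → k ≤ m) : D = D' := by
  classical
  have hzero : ∀ E, EffRep Q₀ z k E → E Q₀ = 0 := fun E hE => by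
    by_contra hne
    obtain ⟨hk, hE'⟩ := hE.lower C (by have := hE.1 Q₀; omega)
    have := hmin _ _ hE'
    omega
  obtain ⟨m1, hz1⟩ := h.2
  obtain ⟨m2, hz2⟩ := h'.2
  obtain ⟨φ, hφ, hφD⟩ := (mk_eq_mk_iff C _ _).mp (hz2.trans hz1.symm)
  have hφD' : ∀ Q, D Q - D' Q = Q.ord φ := fun Q => by
    rw [← hφD Q]
    show D Q - D' Q = ((D - Finsupp.single Q₀ (k : ℤ)) - (D' - Finsupp.single Q₀ (k : ℤ))) Q
    rw [sub_sub_sub_cancel_right, Finsupp.sub_apply]
  have h0 : Q₀.ord φ = 0 := by rw [← hφD', hzero D h, hzero D' h', sub_self]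
  obtain ⟨c, hc⟩ := val_exists_S C (Q := Q₀) (x := φ)
    (RR.bd_iff.mpr (Or.inr (by rw [h0]; norm_num)))
  by_cases hφc : φ - algebraMap (kA A) (FS A N) c = 0
  · refine Finsupp.ext fun Q => ?_
    have := hφD' Q
    rw [sub_eq_zero.mp hφc, RR.ord_algebraMap] at this
    omega
  exfalso
  obtain ⟨E, hE0, hE⟩ := exists_divisor_S C hφc
  have hrep : EffRep Q₀ z k (D' + E) := by
    refine ⟨fun Q => ?_, ?_⟩
    · have hb : Bd Q (φ - algebraMap (kA A) (FS A N) c) (D' Q) :=
        (RR.bd_iff.mpr (Or.inr (by have := hφD' Q; have := h.1 Q; omega))).sub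
          ((RR.Bd.of_algebraMap c).mono (h'.1 Q))
      have := (RR.bd_iff_ord hφc).mp hb
      rw [Finsupp.add_apply, hE]
      omega
    · have hm : D' + E - Finsupp.single Q₀ (k : ℤ) ∈
          Divisor.degZero (K := kA A) (F := FS A N) := by
        rw [Divisor.mem_degZero, map_sub, map_add, hE0, add_zero, ← map_sub]
        exact Divisor.mem_degZero.mp m2
      refine ⟨hm, Eq.trans ?_ hz2⟩
      refine ((mk_eq_mk_iff C _ _).mpr ⟨_, hφc, fun Q => ?_⟩).symm
      show ((D' + E - Finsupp.single Q₀ (k : ℤ)) - (D' - Finsupp.single Q₀ (k : ℤ))) Q = _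
      rw [← hE Q, sub_sub_sub_cancel_right, add_sub_cancel_left]
  have h1 := hzero _ hrep
  rw [Finsupp.add_apply, hzero D' h', hE, zero_add] at h1
  have h2 := hc.sub (Val.const (v := Q₀) c)
  rw [sub_self] at h2
  have := h2.ord_pos hφc
  omega

/-- every class has a representative `[D - g Q₀]` -/
theorem exists_effRep : ∃ g : ℕ, ∀ (Q₀ : PS A N) (z : JZeroC (kA A) N),
    ∃ D, EffRep Q₀ z g D := by
  classical
  obtain ⟨g, hg⟩ := Reduction.exists_effective (K := Reduction.Qb) (F := FB N)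
  refine ⟨g, fun Q₀ z => ?_⟩
  obtain ⟨⟨D0, hD0⟩, rfl⟩ := Pic0.mk_surjective z
  choose σ hσ using exists_rP_eq C
  set D1 := Finsupp.mapDomain σ D0 + Finsupp.single (σ Q₀) (g : ℤ) with hD1
  have hr1 : Finsupp.mapDomain (rP C) D1 = D0 + Finsupp.single Q₀ (g : ℤ) := by
    rw [hD1, Finsupp.mapDomain_add, Finsupp.mapDomain_single, hσ, ← Finsupp.mapDomain_comp,
      show rP C ∘ σ = id from funext hσ, Finsupp.mapDomain_id]
  have hdeg1 : Divisor.degree D1 = g := by
    rw [← degree_mapDomain_rP C, hr1, map_add, Divisor.mem_degZero.mp hD0, zero_add,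
      Divisor.degree_single, deg_PS C]
    simp
  obtain ⟨f, hf, heff⟩ := hg D1 hdeg1.ge
  obtain ⟨c, u, hc, hu, hfu⟩ := exists_scale_UG C hf
  set E := D1 + dv u with hE
  have hEnn : ∀ P, 0 ≤ E P := fun P => by
    have := heff P
    rw [hfu, P.ord_mul ((_root_.map_ne_zero _).mpr hc) (hu.ne_zero C), RR.ord_algebraMap, zero_add] at this
    rw [hE, Finsupp.add_apply, dv_apply]
    exact this
  refine ⟨Finsupp.mapDomain (rP C) E, fun Q => ?_, ?_⟩
  · rw [mapDomain_apply_eq_sum (rP C) E Q _ subset_rfl]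
    exact Finset.sum_nonneg fun P _ => hEnn P
  · have hm : Finsupp.mapDomain (rP C) E - Finsupp.single Q₀ (g : ℤ) ∈
        Divisor.degZero (K := kA A) (F := FS A N) := by
      rw [Divisor.mem_degZero, map_sub, degree_mapDomain_rP C, hE, map_add, hdeg1,
        degree_dv (hu.ne_zero C), Divisor.degree_single, deg_PS C]
      simp
    refine ⟨hm, ((mk_eq_mk_iff C _ _).mpr ⟨red A N u, hu.2, fun Q => ?_⟩).symm⟩
    have h := defect_eq_zero C hu Q
    rw [defect, sub_eq_zero] at h
    show ((Finsupp.mapDomain (rP C) E - Finsupp.single Q₀ (g : ℤ)) - D0) Q = _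
    rw [← h, hE, Finsupp.mapDomain_add, hr1]
    simp only [Finsupp.sub_apply, Finsupp.add_apply]
    ring

/-- finitely many classes are fixed by a given power of Frobenius -/
theorem finite_fixed_frobS {f : ℕ} (hf : 1 ≤ f) :
    {z : JZeroC (kA A) N | frobS C ^ f • z = z}.Finite := by
  classical
  obtain ⟨Q₀, -⟩ : ∃ Q : PS A N, True := by
    obtain ⟨Z, -, hsum⟩ := exists_zeros_S C false (0 : kA A)
    obtain ⟨Q, -, -⟩ := Finset.exists_ne_zero_of_sum_ne_zero (s := Z)
      (f := fun v => v.ord (tS A N false - algebraMap (kA A) (FS A N) 0))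
      (by rw [hsum]; have := dedekindPsi_pos C; omega)
    exact ⟨Q, trivial⟩
  obtain ⟨h, hh, hhQ⟩ := exists_fixed_PS C Q₀
  obtain ⟨g, hg⟩ := exists_effRep C
  set m := f * h with hm
  have hm1 : 1 ≤ m := Nat.one_le_iff_ne_zero.mpr (by positivity)
  set S := (finite_fixed_PS C (n := m * g.factorial)
    (Nat.one_le_iff_ne_zero.mpr (by positivity))).toFinset with hS
  let mkz : (S → Fin (g + 1)) × Fin (g + 1) → JZeroC (kA A) N := fun e =>
    if h : (∑ v : S, Finsupp.single (v : PS A N) ((e.1 v : ℕ) : ℤ)) -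
        Finsupp.single Q₀ ((e.2 : ℕ) : ℤ) ∈ Divisor.degZero (K := kA A) (F := FS A N)
    then Pic0.mk ⟨_, h⟩ else 0
  refine (Set.finite_range mkz).subset fun z hz => ?_
  have hzm : frobS C ^ m • z = z := smul_pow_dvd hz (hm ▸ Dvd.intro h rfl)
  have hQm : frobS C ^ m • Q₀ = Q₀ := smul_pow_dvd hhQ (hm ▸ Dvd.intro_left f rfl)
  have hex : ∃ k D, EffRep Q₀ z k D := ⟨g, hg Q₀ z⟩
  obtain ⟨D, hD⟩ := Nat.find_spec hex
  set k := Nat.find hex
  have hmin : ∀ n E, EffRep Q₀ z n E → k ≤ n := fun n E hE => Nat.find_min' hex ⟨E, hE⟩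
  have hkg : k ≤ g := Nat.find_min' hex (hg Q₀ z)
  have hfix : frobS C ^ m • D = D := by
    refine (hD.unique C ?_ hmin).symm
    obtain ⟨hd, hmem, hzD⟩ := hD
    refine ⟨fun Q => by rw [SemilinearAut.divisor_smul_apply]; exact hd _, ?_⟩
    have e : frobS C ^ m • (D - Finsupp.single Q₀ (k : ℤ)) =
        frobS C ^ m • D - Finsupp.single Q₀ (k : ℤ) := by
      rw [smul_sub, SemilinearAut.smul_single, hQm]
    refine ⟨e ▸ SemilinearAut.smul_mem_degZero _ hmem, ?_⟩
    rw [← hzm, ← hzD, SemilinearAut.pic0_smul_mk]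
    exact congrArg Pic0.mk (Subtype.ext e.symm)
  have hdeg := hD.degree_eq C
  have hcard : D.support.card ≤ g := by
    have := card_support_le_degree C hD.1
    omega
  have hSup : D.support ⊆ S := fun Q hQ => by
    obtain ⟨d, hd1, hdc, hdQ⟩ := exists_period (g := frobS C ^ m) (x := Q) D.support fun i => by
      rw [Finsupp.mem_support_iff] at hQ ⊢
      have e : (frobS C ^ m) ^ i • D = D := smul_pow_fix hfix i
      rw [← e, SemilinearAut.divisor_smul_apply_smul]
      exact hQ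
    rw [hS, Set.Finite.mem_toFinset, Set.mem_ofPred_eq, pow_mul]
    exact smul_pow_dvd hdQ (Nat.dvd_factorial hd1 (hdc.trans hcard))
  have hbnd : ∀ Q, (D Q).toNat < g + 1 := fun Q => by
    have := le_degree_S C hD.1 Q
    omega
  refine ⟨(fun v => ⟨(D (v : PS A N)).toNat, hbnd _⟩, ⟨k, by omega⟩), ?_⟩
  have e : (∑ v : S, Finsupp.single (v : PS A N) (((D (v : PS A N)).toNat : ℕ) : ℤ)) = D := by
    conv_rhs => rw [← Finsupp.sum_single D]
    rw [Finset.sum_coe_sort S (fun v => Finsupp.single v (((D v).toNat : ℕ) : ℤ)),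
      Finsupp.sum_of_support_subset D hSup _ (fun v _ => Finsupp.single_zero v)]
    exact Finset.sum_congr rfl fun v _ => by rw [Int.toNat_of_nonneg (hD.1 v)]
  obtain ⟨-, hmem, hzD⟩ := hD
  simp only [mkz, e]
  rw [dif_pos hmem]
  exact hzD

end Fibre

end FLTAgent.EIS

end
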