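import Fermat.Agent.EIS.Setup
import Fermat.Agent.EIS.FixedFinite
import Fermat.Agent.EIS.Cyclo

/-!
Area EIS: finiteness of the fixed points of Frobenius on quotients of the special fibre, and the
bounds it gives for the fixed points of the Eisenstein quotient.
-/

set_option autoImplicit false
set_option linter.unusedSectionVars false
set_option linter.style.haveILetI false
set_option synthInstance.maxHeartbeats 200000

noncomputable section

open ModularCurve
open FLTAgent.Reduction (Ctx kA frobS)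

namespace FLTAgent.EIS

/-- the kernel of an endomorphism of a finite group does not grow on quotients -/
theorem card_ker_map_le {M : Type} [AddCommGroup M] [Finite M] (f : M →+ M) (N : AddSubgroup M)
    (hN : N ≤ N.comap f) :
    Nat.card (QuotientAddGroup.map N N f hN).ker ≤ Nat.card f.ker := by
  set g := QuotientAddGroup.map N N f hN with hgdef
  have hf : Nat.card f.ker * Nat.card f.range = Nat.card M := by
    rw [← AddSubgroup.index_ker, mul_comm, AddSubgroup.index_mul_card]
  have hg : Nat.card g.ker * Nat.card g.range = Nat.card (M ⧸ N) := by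
    rw [← AddSubgroup.index_ker, mul_comm, AddSubgroup.index_mul_card]
  let π : f.range →+ g.range :=
    ((QuotientAddGroup.mk' N).comp f.range.subtype).codRestrict g.range fun y => by
      obtain ⟨x, hx⟩ := y.2
      refine ⟨QuotientAddGroup.mk' N x, ?_⟩
      show g (QuotientAddGroup.mk' N x) = QuotientAddGroup.mk' N (y : M)
      rw [← show f x = (y : M) from hx]
      rfl
  have hπ : Function.Surjective π := by
    rintro ⟨_, ⟨x, rfl⟩⟩
    obtain ⟨x, rfl⟩ := QuotientAddGroup.mk'_surjective N x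
    exact ⟨⟨f x, x, rfl⟩, Subtype.ext rfl⟩
  have hk : Nat.card π.ker ≤ Nat.card N := by
    refine Nat.card_le_card_of_injective
      (fun y => ⟨((y : f.range) : M), ?_⟩) fun a b h => ?_
    · have := congrArg Subtype.val y.2
      exact (QuotientAddGroup.eq_zero_iff _).mp this
    · exact Subtype.ext (Subtype.ext (congrArg Subtype.val h :))
  have hr : Nat.card f.range = Nat.card π.ker * Nat.card g.range := by
    rw [← AddSubgroup.index_mul_card π.ker, AddSubgroup.index_ker,
      AddMonoidHom.range_eq_top.mpr hπ, AddSubgroup.card_top, mul_comm]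
  have h2 : Nat.card M ≤ Nat.card f.ker * (Nat.card N * Nat.card g.range) := by
    rw [← hf, hr]
    exact Nat.mul_le_mul_left _ (Nat.mul_le_mul_right _ hk)
  rw [AddSubgroup.card_eq_card_quotient_mul_card_addSubgroup N, ← hg] at h2
  refine Nat.le_of_mul_le_mul_right ?_
    (Nat.mul_pos (Nat.card_pos (α := N)) (Nat.card_pos (α := g.range)))
  calc Nat.card g.ker * (Nat.card N * Nat.card g.range)
      = Nat.card g.ker * Nat.card g.range * Nat.card N := by ring
    _ ≤ _ := h2

section Quotient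

variable {J : Type} [AddCommGroup J] (f : AddMonoid.End J)

/-- the points fixed by `f` -/
def fixPts : AddSubgroup J := (f - 1 : AddMonoid.End J).ker

theorem mem_fixPts {z : J} : z ∈ fixPts f ↔ f z = z := by
  show f z - z = 0 ↔ _
  exact sub_eq_zero

theorem pow_fix {z : J} {m : ℕ} (h : (f ^ m) z = z) : ∀ k, (f ^ (m * k)) z = z
  | 0 => rfl
  | k + 1 => by
    rw [Nat.mul_succ, pow_add]
    show (f ^ (m * k)) ((f ^ m) z) = z
    rw [h, pow_fix h k]

theorem exists_period_finset (hper : ∀ z, ∃ n, 1 ≤ n ∧ (f ^ n) z = z) (s : Finset J) :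
    ∃ n, 1 ≤ n ∧ ∀ z ∈ s, (f ^ n) z = z := by
  choose per hper1 hperz using hper
  refine ⟨∏ z ∈ s, per z, Finset.one_le_prod' fun z _ => hper1 z, fun z hz => ?_⟩
  obtain ⟨k, hk⟩ := Finset.dvd_prod_of_mem per hz
  rw [hk]; exact pow_fix f (hperz z) k

theorem card_fixed_quotient_le (hfin : ∀ n, 1 ≤ n → (fixPts (f ^ n) : Set J).Finite)
    (hper : ∀ z, ∃ n, 1 ≤ n ∧ (f ^ n) z = z) (S : AddSubgroup J) (hS : ∀ z ∈ S, f z ∈ S)
    (s : Finset (J ⧸ S)) (hs : ∀ q ∈ s, ∃ z : J, QuotientAddGroup.mk' S z = q ∧ f z - z ∈ S) :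
    s.card ≤ Nat.card (fixPts f) := by
  classical
  choose z hzq hzS using hs
  let zs : Finset J := s.attach.image fun q : {x // x ∈ s} => z q.1 q.2
  obtain ⟨n, hn, hnz⟩ := exists_period_finset f hper zs
  set T := fixPts (f ^ n) with hT
  haveI : Finite T := (hfin n hn).to_subtype
  have hfT : ∀ x ∈ T, f x ∈ T := fun x hx => by
    rw [hT, mem_fixPts] at hx ⊢
    show (f ^ n * f) x = f x
    rw [← pow_succ, pow_succ']
    show f ((f ^ n) x) = f x
    rw [hx]
  have hzT : ∀ q (hq : q ∈ s), z q hq ∈ T := fun q hq =>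
    (mem_fixPts _).mpr (hnz _ (Finset.mem_image.mpr ⟨⟨q, hq⟩, Finset.mem_attach _ _, rfl⟩))
  let g : T →+ T := ((f : J →+ J).comp T.subtype).codRestrict T (fun x => hfT x x.2) -
    AddMonoidHom.id T
  let N : AddSubgroup T := S.addSubgroupOf T
  have hN : N ≤ N.comap g := fun x hx => sub_mem (show f (x : J) ∈ S from hS _ hx) hx
  let φ : s → (QuotientAddGroup.map N N g hN).ker := fun q =>
    ⟨QuotientAddGroup.mk' N ⟨z q.1 q.2, hzT _ _⟩, (QuotientAddGroup.eq_zero_iff _).mpr (hzS q.1 q.2)⟩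
  have hφ : Function.Injective φ := fun a b h => by
    have h1 := (QuotientAddGroup.eq_iff_sub_mem).mp (congrArg Subtype.val h :)
    have h2 : z a.1 a.2 - z b.1 b.2 ∈ S := h1
    refine Subtype.ext ((hzq a.1 a.2).symm.trans (Eq.trans ?_ (hzq b.1 b.2)))
    exact QuotientAddGroup.eq_iff_sub_mem.mpr h2
  have h1 : s.card ≤ Nat.card g.ker := by
    refine le_trans ?_ (card_ker_map_le g N hN)
    rw [← Fintype.card_coe, ← Nat.card_eq_fintype_card]
    exact Nat.card_le_card_of_injective φ hφ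
  haveI : Finite (fixPts f) := (by simpa using hfin 1 le_rfl : (fixPts f : Set J).Finite).to_subtype
  refine h1.trans (Nat.card_le_card_of_injective (fun x => ⟨((x : T) : J), ?_⟩) fun a b h => ?_)
  · exact congrArg Subtype.val x.2
  · exact Subtype.ext (Subtype.ext (congrArg Subtype.val h :))

/-- an integer `r ^ v * k`, `k` prime to `r`, kills the fixed points of the quotient -/
theorem exists_kill_fixed (hfin : ∀ n, 1 ≤ n → (fixPts (f ^ n) : Set J).Finite)
    (hper : ∀ z, ∃ n, 1 ≤ n ∧ (f ^ n) z = z) (S : AddSubgroup J) (hS : ∀ z ∈ S, f z ∈ S)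
    {r : ℕ} (hr : r.Prime) :
    ∃ v k, ¬ r ∣ k ∧ ∀ z : J, f z - z ∈ S → (r ^ v * k) • z ∈ S := by
  classical
  let g : J ⧸ S →+ J ⧸ S := QuotientAddGroup.map S S ((f - 1 : AddMonoid.End J) : J →+ J)
    fun z hz => sub_mem (hS z hz) hz
  have hbound : ∀ s : Finset (J ⧸ S), (∀ q ∈ s, q ∈ g.ker) → s.card ≤ Nat.card (fixPts f) :=
    fun s hs => card_fixed_quotient_le f hfin hper S hS s fun q hq => by
      obtain ⟨z, rfl⟩ := QuotientAddGroup.mk'_surjective S q
      exact ⟨z, rfl, (QuotientAddGroup.eq_zero_iff _).mp (hs _ hq)⟩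
  haveI : Finite g.ker := by
    by_contra hinf
    rw [not_finite_iff_infinite] at hinf
    obtain ⟨s, hs⟩ := Infinite.exists_subset_card_eq g.ker (Nat.card (fixPts f) + 1)
    have := hbound (s.map ⟨Subtype.val, Subtype.val_injective⟩) (fun q hq => by
      obtain ⟨x, -, rfl⟩ := Finset.mem_map.mp hq
      exact x.2)
    rw [Finset.card_map, hs] at this
    omega
  obtain ⟨v, k, hk, hvk⟩ := Nat.exists_eq_pow_mul_and_not_dvd (Nat.card_pos (α := g.ker)).ne' r hr.ne_one
  refine ⟨v, k, hk, fun z hz => ?_⟩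
  have h := card_nsmul_eq_zero' (x := (⟨QuotientAddGroup.mk' S z,
    (QuotientAddGroup.eq_zero_iff _).mpr hz⟩ : g.ker))
  rw [hvk] at h
  have h' := congrArg Subtype.val h
  rw [AddSubgroupClass.coe_nsmul, ← map_nsmul] at h'
  exact (QuotientAddGroup.eq_zero_iff _).mp h'

end Quotient

/-! ### Frobenius of the special fibre -/

variable {p ℓ : ℕ} [NeZero p] {B : ValuationSubring Qb}

/-- Frobenius on the Jacobian of the special fibre -/
def frobEnd (C : Ctx B p ℓ) : AddMonoid.End (JZeroC (kA B) p) :=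
  DistribSMul.toAddMonoidHom (JZeroC (kA B) p) (frobS C)

theorem frobEnd_pow (C : Ctx B p ℓ) (n : ℕ) (z : JZeroC (kA B) p) :
    (frobEnd C ^ n) z = frobS C ^ n • z := by
  induction n generalizing z with
  | zero => rw [pow_zero, pow_zero, one_smul]; rfl
  | succ n ih =>
    rw [pow_succ, pow_succ, mul_smul, ← ih]
    rfl

theorem finite_fixPts_frobEnd (C : Ctx B p ℓ) {n : ℕ} (hn : 1 ≤ n) :
    (fixPts (frobEnd C ^ n) : Set (JZeroC (kA B) p)).Finite :=
  (finite_fixed_frobS C hn).subset fun z hz => by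
    rw [SetLike.mem_coe, mem_fixPts, frobEnd_pow] at hz
    exact hz

theorem frobEnd_periodic (C : Ctx B p ℓ) (z : JZeroC (kA B) p) :
    ∃ n, 1 ≤ n ∧ (frobEnd C ^ n) z = z := by
  obtain ⟨n, hn, h⟩ := exists_fixed_frobS C z
  exact ⟨n, hn, by rw [frobEnd_pow]; exact h⟩

/-- the fixed points of the square of Frobenius are bounded -/
theorem exists_fixBound {A : ValuationSubring Qb} {r : ℕ} (C : Ctx A p r) :
    ∃ a, FixBound p r A C a := by
  classical
  set s := (finite_fixed_frobS C (f := 2) (by norm_num)).toFinset with hs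
  have hk : ∀ z : JZeroC (kA A) p, ∃ k : ℕ, (∃ j, r ^ j • z = 0) → r ^ k • z = 0 := fun z => by
    by_cases h : ∃ j, r ^ j • z = 0
    · obtain ⟨j, hj⟩ := h; exact ⟨j, fun _ => hj⟩
    · exact ⟨0, fun h' => absurd h' h⟩
  choose k hk using hk
  refine ⟨s.sup k, fun x hx hfx => ?_⟩
  obtain ⟨j, hj⟩ := hx
  have hmem : reductionModL A p x ∈ s := by
    rw [hs, Set.Finite.mem_toFinset, Set.mem_ofPred_eq, sq, mul_smul]
    exact hfx
  obtain ⟨d, hd⟩ := Nat.exists_eq_add_of_le (Finset.le_sup (f := k) hmem)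
  rw [hd, pow_add, mul_comm, mul_smul, hk _ ⟨j, by rw [← map_nsmul, hj, map_zero]⟩, smul_zero]

/-! ### the quotient by `K` inside `J₀(p)` -/

variable {r : ℕ} {A : ValuationSubring Qb} (H : Cond p r A)

/-- `K` as a subgroup of `J₀(p)` -/
def KJ : AddSubgroup (JZero p) := (raw H).K.map (torR p r).subtype

theorem coe_mem_KJ {z : JR p r} : (z : JZero p) ∈ KJ H ↔ z ∈ (raw H).K := by
  refine ⟨fun ⟨w, hw, he⟩ => ?_, fun h => ⟨z, h, rfl⟩⟩
  rwa [← Subtype.ext (he : (w : JZero p) = z)]

theorem mem_torR_of_mem_KJ {y : JZero p} (hy : y ∈ KJ H) : y ∈ torR p r := by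
  obtain ⟨w, -, rfl⟩ := hy
  exact w.2

theorem smul_mem_KJ (g : GalQ) {y : JZero p} (hy : y ∈ KJ H) : g • y ∈ KJ H := by
  obtain ⟨w, hw, rfl⟩ := hy
  exact ⟨g • w, (raw H).smul_mem_K g hw, rfl⟩

/-- fixed classes modulo `K` reduce to classes killed by a fixed integer -/
theorem exists_kill_red {B : ValuationSubring Qb} (C : Ctx B p ℓ) :
    ∃ v k, ¬ r ∣ k ∧ ∀ y : JZero p, (∀ g : GalQ, g • y - y ∈ KJ H) →
      ∃ z ∈ KJ H, (r ^ v * k) • reductionModL B p y = reductionModL B p z := by
  obtain ⟨σ, hσ⟩ := exists_frobenius_at (r := ℓ) (A := B) C.prime C.lies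
  have hfr := Reduction.reductionModL_frobenius C hσ
  obtain ⟨v, k, hk, h⟩ := exists_kill_fixed (frobEnd C) (fun n hn => finite_fixPts_frobEnd C hn)
    (frobEnd_periodic C) ((KJ H).map (reductionModL B p)) (by
      rintro _ ⟨w, hw, rfl⟩
      exact ⟨σ • w, smul_mem_KJ H σ hw, hfr w⟩) H.hr
  refine ⟨v, k, hk, fun y hy => ?_⟩
  obtain ⟨z, hz, he⟩ := h (reductionModL B p y) ⟨σ • y - y, hy σ, by rw [map_sub, hfr]; rfl⟩
  exact ⟨z, hz, he.symm⟩

set_option maxHeartbeats 1600000 in
/-- the fixed points of the torsion levels of the quotient are uniformly bounded -/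
theorem exists_fixed_tor_bound : ∃ n₀ : ℕ, ∀ (m : ℕ) (F : AddSubgroup ((raw H).tor m)),
    (∀ w ∈ F, ∀ g : GalQ, g • w = w) → Nat.card F ≤ n₀ := by
  classical
  obtain ⟨q, hq, hqp⟩ := Nat.exists_infinite_primes (p + r + 1)
  obtain ⟨B, σ, hB, hσ⟩ := Alg.exists_place_frobenius q hqp
  have hqP : ¬ q ∣ p := fun h => by have := Nat.le_of_dvd (NeZero.pos p) h; omega
  have C : Ctx B p q := ⟨hqp, hqP, hB⟩
  have hfr := Reduction.reductionModL_frobenius C hσ
  refine ⟨Nat.card (fixPts (frobEnd C)), fun m F hF => ?_⟩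
  obtain ⟨M, hmM, hM⟩ := exists_lift_level H m
  let T : AddSubgroup (JR p r) := (nsmulAddMonoidHom (α := JR p r) (r ^ M)).ker
  haveI : Finite T := ((raw H).fin M).to_subtype
  have hσT : ∀ x : T, r ^ M • σ • (x : JR p r) = 0 := fun x =>
    (smul_nsmul' σ (r ^ M) (x : JR p r)).symm.trans
      ((congrArg (fun y : JR p r => σ • y) (x.2 : r ^ M • (x : JR p r) = 0)).trans (smul_zero σ))
  let g : T →+ T := ((DistribSMul.toAddMonoidHom (JR p r) σ).comp T.subtype).codRestrict T hσT -
    AddMonoidHom.id T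
  let N : AddSubgroup T := (raw H).K.addSubgroupOf T
  have hN : N ≤ N.comap g := fun x hx => sub_mem ((raw H).smul_mem_K σ hx) hx
  choose z hz hzw using fun w : F => hM ((w : (raw H).tor m) : (raw H).W) (w : (raw H).tor m).2
  let φ : F → (QuotientAddGroup.map N N g hN).ker := fun w =>
    ⟨QuotientAddGroup.mk' N ⟨z w, hz w⟩, by
      refine (QuotientAddGroup.eq_zero_iff _).mpr ?_
      show σ • z w - z w ∈ (raw H).K
      rw [← Raw.qmk_eq_zero, map_sub, ← Raw.smul_qmk, hzw, ← Raw.coe_smul_tor, hF _ w.2 σ, sub_self]⟩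
  have hφ : Function.Injective φ := fun a b h => by
    have h1 := (QuotientAddGroup.eq_iff_sub_mem).mp (congrArg Subtype.val h :)
    have h2 : z a - z b ∈ (raw H).K := h1
    rw [← Raw.qmk_eq_zero, map_sub, hzw, hzw, sub_eq_zero] at h2
    exact Subtype.ext (Subtype.ext h2)
  refine ((Nat.card_le_card_of_injective φ hφ).trans (card_ker_map_le g N hN)).trans ?_
  haveI : Finite (fixPts (frobEnd C)) := by
    have := finite_fixPts_frobEnd C (n := 1) le_rfl
    rw [pow_one] at this
    exact this.to_subtype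
  refine Nat.card_le_card_of_injective (fun x => ⟨reductionModL B p (((x : T) : JR p r) : JZero p),
    (mem_fixPts _).mpr ?_⟩) fun a b h => ?_
  · have h1 : σ • ((x : T) : JR p r) - ((x : T) : JR p r) = 0 := congrArg Subtype.val x.2
    refine (hfr (((x : T) : JR p r) : JZero p)).symm.trans ?_
    exact congrArg (fun y : JR p r => reductionModL B p (y : JZero p)) (sub_eq_zero.mp h1)
  · have h1 : reductionModL B p (((a : T) : JR p r) : JZero p) =
      reductionModL B p (((b : T) : JR p r) : JZero p) := congrArg Subtype.val h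
    refine Subtype.ext (Subtype.ext (Subtype.ext (sub_eq_zero.mp ?_)))
    refine Reduction.eq_zero_of_torsion C (m := r ^ M) (fun h => ?_) ?_ (by rw [map_sub, h1, sub_self])
    · have := Nat.le_of_dvd H.hr.pos (hqp.dvd_of_dvd_pow h)
      omega
    · have e : ∀ x : g.ker, r ^ M • (((x : T) : JR p r) : JZero p) = 0 := fun x =>
        congrArg Subtype.val ((x : T).2 : r ^ M • ((x : T) : JR p r) = 0)
      rw [nsmul_sub, e, e, sub_zero]

end FLTAgent.EIS

end
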