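import Fermat.Agent.EIS.Tame
import Fermat.Agent.Common.EverywhereUnramified

/-!
Area EIS, parcel G: the bound for classes without condition at the level `p`.
-/

set_option autoImplicit false
set_option linter.unusedSectionVars false

noncomputable section

namespace FLTAgent.EIS

variable {M : Type} [AddCommGroup M] [DistribMulAction GalQ M]

theorem cocycle_one {c : GalQ → M} (hc : IsCocycle c) : c 1 = 0 := by
  have := hc 1 1
  rw [mul_one, one_smul] at this
  simpa using this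

theorem cocycle_inv {c : GalQ → M} (hc : IsCocycle c) (g : GalQ) : c g⁻¹ = -(g⁻¹ • c g) := by
  have := hc g⁻¹ g
  rw [inv_mul_cancel, cocycle_one hc] at this
  exact eq_neg_of_add_eq_zero_left this.symm

/-- the subgroup acting trivially on `M` and killed by a family of cocycles, with all `r`-th roots
of unity fixed -/
def trivSubgroup (F : Set (GalQ → M)) (hF : ∀ c ∈ F, IsCocycle c) (r : ℕ) : Subgroup GalQ where
  carrier := {g | (∀ m : M, g • m = m) ∧ (∀ c ∈ F, c g = 0) ∧ ∀ ζ : Qb, ζ ^ r = 1 → g ζ = ζ}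
  one_mem' := ⟨one_smul _, fun c hc => cocycle_one (hF c hc), fun _ _ => rfl⟩
  mul_mem' := fun {a b} ha hb => ⟨fun m => by rw [mul_smul, hb.1, ha.1],
    fun c hc => by rw [hF c hc, ha.2.1 c hc, hb.2.1 c hc, smul_zero, add_zero],
    fun ζ hζ => by show a (b ζ) = ζ; rw [hb.2.2 ζ hζ, ha.2.2 ζ hζ]⟩
  inv_mem' := fun {a} ha => ⟨fun m => by rw [inv_smul_eq_iff, ha.1],
    fun c hc => by rw [cocycle_inv (hF c hc), ha.2.1 c hc, smul_zero, neg_zero],
    fun ζ hζ => by
      have := congrArg (⇑(a⁻¹ : GalQ)) (ha.2.2 ζ hζ)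
      rwa [show (a⁻¹ : GalQ) (a ζ) = ζ from a.symm_apply_apply ζ, eq_comm] at this⟩

theorem trivSubgroup_normal (F : Set (GalQ → M)) (hF : ∀ c ∈ F, IsCocycle c) (r : ℕ) :
    (trivSubgroup F hF r).Normal := by
  refine ⟨fun a ha g => ⟨fun m => ?_, fun c hc => ?_, fun ζ hζ => ?_⟩⟩
  · rw [mul_smul, mul_smul, ha.1, smul_inv_smul]
  · rw [hF c hc, hF c hc g a, ha.2.1 c hc, smul_zero, add_zero, mul_smul, ha.1, cocycle_inv (hF c hc),
      smul_neg, smul_inv_smul, add_neg_cancel]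
  · show g (a (g⁻¹ ζ)) = ζ
    rw [ha.2.2 _ (by rw [← map_pow, hζ, map_one])]
    exact g.apply_symm_apply ζ

/-- a finite normal extension whose group is `trivSubgroup` -/
theorem exists_level_triv [Finite M] (hM : IsContMod M) (F : Set (GalQ → M)) (hfin : F.Finite)
    (hF : ∀ c ∈ F, IsCocycle c) (hs : ∀ c ∈ F, IsSmooth c) (r : ℕ) (hr : 0 < r) :
    ∃ L : IntermediateField ℚ Qb, FiniteDimensional ℚ L ∧ (∀ σ : GalQ, ∀ x ∈ L, σ x ∈ L) ∧
      (∀ ζ : Qb, ζ ^ r = 1 → ζ ∈ L) ∧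
      (∀ σ : GalQ, (∀ x ∈ L, σ x = x) ↔ σ ∈ trivSubgroup F hF r) := by
  classical
  haveI := Common.isGalois_qbar
  choose Lm hLm hLmfix using hM
  choose Lc hLc hLcfix using hs
  haveI : ∀ m, FiniteDimensional ℚ (Lm m) := hLm
  haveI : Finite F := hfin.to_subtype
  haveI : ∀ c : F, FiniteDimensional ℚ (Lc c.1 c.2) := fun c => hLc c.1 c.2
  let Z : Set Qb := {ζ | ζ ^ r = 1}
  have hZ : Z.Finite := by
    refine (Polynomial.nthRoots r (1 : Qb)).toFinset.finite_toSet.subset fun ζ hζ => ?_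
    simpa [Z, Polynomial.mem_nthRoots hr] using hζ
  haveI : Finite Z := hZ.to_subtype
  haveI : FiniteDimensional ℚ (IntermediateField.adjoin ℚ Z) :=
    IntermediateField.finiteDimensional_adjoin fun x _ =>
      ((AlgebraicClosure.isAlgebraic ℚ).isAlgebraic x).isIntegral
  let E : IntermediateField ℚ Qb :=
    ((⨆ m, Lm m) ⊔ (⨆ c : F, Lc c.1 c.2)) ⊔ IntermediateField.adjoin ℚ Z
  let U := trivSubgroup F hF r
  have hEU : E.fixingSubgroup ≤ U := fun g hg => by
    have hg' := (IntermediateField.mem_fixingSubgroup_iff E g).mp hg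
    refine ⟨fun m => hLmfix m g fun x hx => hg' x ?_, fun c hc => hLcfix c hc g fun x hx => hg' x ?_,
      fun ζ hζ => hg' ζ ?_⟩
    · exact le_sup_left (a := (⨆ m, Lm m) ⊔ (⨆ c : F, Lc c.1 c.2))
        (le_sup_left (a := ⨆ m, Lm m) (le_iSup Lm m hx))
    · exact le_sup_left (a := (⨆ m, Lm m) ⊔ (⨆ c : F, Lc c.1 c.2))
        (le_sup_right (b := ⨆ c : F, Lc c.1 c.2) (le_iSup (fun c : F => Lc c.1 c.2) ⟨c, hc⟩ hx))
    · exact le_sup_right (b := IntermediateField.adjoin ℚ Z) (IntermediateField.subset_adjoin ℚ Z hζ)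
  have hopen : IsOpen (U : Set GalQ) :=
    Subgroup.isOpen_mono hEU (IntermediateField.fixingSubgroup_isOpen E)
  let Uc : ClosedSubgroup GalQ := ⟨U, Subgroup.isClosed_of_isOpen U hopen⟩
  let L := IntermediateField.fixedField U
  have hfix : L.fixingSubgroup = U := InfiniteGalois.fixingSubgroup_fixedField Uc
  have hLfin : FiniteDimensional ℚ L := (InfiniteGalois.isOpen_iff_finite L).mp (by rw [hfix]; exact hopen)
  refine ⟨L, hLfin, fun σ x hx => ?_, fun ζ hζ => ?_, fun σ => ?_⟩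
  · rw [IntermediateField.mem_fixedField_iff] at hx ⊢
    intro u hu
    have := hx _ ((trivSubgroup_normal F hF r).conj_mem u hu σ⁻¹)
    rw [inv_inv] at this
    calc u (σ x) = σ ((σ⁻¹ * u * σ) x) := (σ.apply_symm_apply (u (σ x))).symm
      _ = σ x := by rw [this]
  · rw [IntermediateField.mem_fixedField_iff]
    exact fun u hu => hu.2.2 ζ hζ
  · rw [← IntermediateField.mem_fixingSubgroup_iff, hfix]

theorem smul_pow_eq {τ : GalQ} (h : ∀ z : M, τ • (τ • z - z) = τ • z - z) (n : ℕ) (z : M) :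
    τ ^ n • z = z + n • (τ • z - z) := by
  induction n with
  | zero => simp
  | succ n ih =>
    rw [pow_succ', mul_smul, ih, smul_add, show τ • (n • (τ • z - z)) = n • (τ • (τ • z - z)) from
      map_nsmul (DistribSMul.toAddMonoidHom M τ) n _, h, succ_nsmul]
    abel

theorem cocycle_pow_of_triv {c : GalQ → M} (hc : IsCocycle c) {τ : GalQ} (h : ∀ z : M, τ • z = z)
    (n : ℕ) : c (τ ^ n) = n • c τ := by
  induction n with
  | zero => rw [pow_zero, cocycle_one hc, zero_nsmul]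
  | succ n ih => rw [pow_succ', hc, h, ih, succ_nsmul, add_comm]

/-- the counting lemma for the `n`-torsion of a quotient -/
theorem card_torsion_quotient_le [Finite M] (N : AddSubgroup M) (n : ℤ) :
    Nat.card {x : M ⧸ N // n • x = 0} ≤ Nat.card {x : M // n • x = 0} := by
  let f : M →+ M := DistribSMul.toAddMonoidHom M n
  let g : (M ⧸ N) →+ (M ⧸ N) := DistribSMul.toAddMonoidHom (M ⧸ N) n
  have hf : Nat.card f.ker * Nat.card f.range = Nat.card M := by
    rw [← AddSubgroup.index_ker, mul_comm, AddSubgroup.index_mul_card]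
  have hg : Nat.card g.ker * Nat.card g.range = Nat.card (M ⧸ N) := by
    rw [← AddSubgroup.index_ker, mul_comm, AddSubgroup.index_mul_card]
  let π : f.range →+ g.range :=
    ((QuotientAddGroup.mk' N).comp f.range.subtype).codRestrict g.range fun y => by
      obtain ⟨x, hx⟩ := y.2
      refine ⟨QuotientAddGroup.mk' N x, ?_⟩
      show g (QuotientAddGroup.mk' N x) = QuotientAddGroup.mk' N (y : M)
      rw [← show f x = (y : M) from hx]
      rfl
  have hπ : Function.Surjective π := by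
    rintro ⟨_, ⟨x, rfl⟩⟩
    obtain ⟨x, rfl⟩ := QuotientAddGroup.mk'_surjective N x
    exact ⟨⟨f x, x, rfl⟩, Subtype.ext rfl⟩
  have hk : Nat.card π.ker ≤ Nat.card N := by
    refine Nat.card_le_card_of_injective
      (fun y => ⟨((y : f.range) : M), ?_⟩) fun a b h => ?_
    · have := congrArg Subtype.val y.2
      exact (QuotientAddGroup.eq_zero_iff _).mp this
    · exact Subtype.ext (Subtype.ext (congrArg Subtype.val h :))
  have hr : Nat.card f.range = Nat.card π.ker * Nat.card g.range := by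
    rw [← AddSubgroup.index_mul_card π.ker, AddSubgroup.index_ker,
      AddMonoidHom.range_eq_top.mpr hπ, AddSubgroup.card_top, mul_comm]
  have hMN : Nat.card M = Nat.card (M ⧸ N) * Nat.card N := AddSubgroup.card_eq_card_quotient_mul_card_addSubgroup N
  have h2 : Nat.card M ≤ Nat.card f.ker * (Nat.card N * Nat.card g.range) := by
    rw [← hf, hr]
    exact Nat.mul_le_mul_left _ (Nat.mul_le_mul_right _ hk)
  rw [hMN, ← hg] at h2
  show Nat.card g.ker ≤ Nat.card f.ker
  refine Nat.le_of_mul_le_mul_right ?_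
    (Nat.mul_pos (Nat.card_pos (α := N)) (Nat.card_pos (α := g.range)))
  calc Nat.card g.ker * (Nat.card N * Nat.card g.range)
      = Nat.card g.ker * Nat.card g.range * Nat.card N := by ring
    _ ≤ _ := h2

/-- the classes considered: no condition at `p` -/
structure InSelP (M : Type) [AddCommGroup M] [DistribMulAction GalQ M] (p r : ℕ)
    (A : ValuationSubring Qb) (M0 : AddSubgroup M) (c : GalQ → M) : Prop where
  cocycle : IsCocycle c
  smooth : IsSmooth c
  unram : ∀ ℓ : ℕ, ℓ.Prime → ℓ ≠ p → ℓ ≠ r → UnramAt ℓ c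
  unit : UnitAt A M0 c

/-- `ker (φ² - p²)` -/
def toricPart (M : Type) [AddCommGroup M] [DistribMulAction GalQ M] (φ : GalQ) (p : ℤ) :
    AddSubgroup M where
  carrier := {z | φ • φ • z = p ^ 2 • z}
  zero_mem' := by simp
  add_mem' := fun {a b} ha hb => by
    show φ • φ • (a + b) = p ^ 2 • (a + b)
    rw [smul_add, smul_add, smul_add, ha, hb]
  neg_mem' := fun {a} ha => by
    show φ • φ • (-a) = p ^ 2 • (-a)
    rw [smul_neg, smul_neg, smul_neg, ha]

theorem selP_bound {p r : ℕ} (hp : p.Prime) (hrp : r ≠ p) {A B : ValuationSubring Qb}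
    {M0 : AddSubgroup M} [Finite M] (H : Hyp M p r A M0) (hB : B.LiesOverPrime p) {φ : GalQ}
    (hφ : B.IsFrobeniusAt φ p) (hD : DescentBound M p r A B M0)
    (huni : ∀ τ ∈ B.inertiaSubgroupIn ℚ, ∀ z : M, τ • (τ • z - z) = τ • z - z)
    (hq : ∀ z : M, φ • φ • (φ • φ • z - z) = (p : ℤ) ^ 2 • (φ • φ • z - z))
    (hs : ∀ τ ∈ B.inertiaSubgroupIn ℚ, ∀ z : M, φ • φ • (τ • z - z) = (p : ℤ) ^ 2 • (τ • z - z))
    (F : AddSubgroup (GalQ → M)) [Finite F] (hF : ∀ c ∈ F, InSelP M p r A M0 c) :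
    Nat.card F * Nat.card (M ⧸ M0) * Nat.card (M ⧸ toricPart M φ (p : ℤ)) ≤
      Nat.card M * Nat.card M * Nat.card {x : M // ((p : ℤ) ^ 2 - 1) • x = 0} := by
  classical
  obtain ⟨k, hk⟩ := H.killed
  have hcoc : ∀ c ∈ (F : Set (GalQ → M)), IsCocycle c := fun c hc => (hF c hc).cocycle
  obtain ⟨L, hLfin, hLn, hLζ, hLU⟩ := exists_level_triv H.cont (F : Set (GalQ → M))
    (Set.toFinite _) hcoc (fun c hc => (hF c hc).smooth) r H.hr.pos
  have hexp : ∀ τ ∈ B.inertiaSubgroupIn ℚ, ∀ x ∈ L, (τ ^ (r ^ (k + k))) x = x := by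
    intro τ hτ
    rw [hLU]
    have htriv : ∀ z : M, τ ^ (r ^ k) • z = z := fun z => by rw [smul_pow_eq (huni τ hτ), hk, add_zero]
    rw [pow_add, pow_mul]
    refine ⟨fun z => ?_, fun c hc => ?_, fun ζ hζ => ?_⟩
    · rw [smul_pow_eq (τ := τ ^ r ^ k) (fun z => by rw [htriv]), htriv, sub_self, smul_zero, add_zero]
    · rw [cocycle_pow_of_triv (hcoc c hc) htriv, hk]
    · haveI : NeZero r := ⟨H.hr.ne_zero⟩
      haveI : Fact (1 < r) := ⟨H.hr.one_lt⟩
      have hpr : ¬ p ∣ r := fun h => hrp ((Nat.prime_dvd_prime_iff_eq hp H.hr).mp h).symm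
      have h1 := Attach.cyc_inertia (n := r) hp hpr hB (pow_mem (pow_mem hτ (r ^ k)) (r ^ k))
      have h2 := Attach.cyc_spec (n := r) ((τ ^ r ^ k) ^ r ^ k) hζ
      rwa [h1, ZMod.val_one, pow_one] at h2
  obtain ⟨σ, hσ, hgen, hconj⟩ := exists_tame_generator hp hB H.hr hrp L hLn hLζ hexp
  have hU : ∀ {τ τ' : GalQ}, (∀ x ∈ L, τ x = τ' x) →
      (∀ z : M, τ • z = τ' • z) ∧ ∀ c ∈ F, c τ = c τ' := by
    intro τ τ' h
    have hu : τ'⁻¹ * τ ∈ trivSubgroup (F : Set (GalQ → M)) hcoc r := (hLU _).mp fun x hx => by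
      show τ'⁻¹ (τ x) = x
      rw [h x hx]
      exact τ'.symm_apply_apply x
    refine ⟨fun z => ?_, fun c hc => ?_⟩
    · have := hu.1 z
      rw [mul_smul, inv_smul_eq_iff] at this
      exact this
    · have := hcoc c hc τ' (τ'⁻¹ * τ)
      rw [mul_inv_cancel_left, hu.2.1 c hc, smul_zero, add_zero] at this
      exact this
  let N : AddSubgroup M := (DistribSMul.toAddMonoidHom M σ - AddMonoidHom.id M).range
  have hN : ∀ z, σ • z - z ∈ N := fun z => ⟨z, rfl⟩
  have hNpow : ∀ (n : ℕ) z, σ ^ n • z - z ∈ N := fun n z => by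
    rw [smul_pow_eq (huni σ hσ), add_sub_cancel_left]
    exact nsmul_mem (hN z) n
  let T := toricPart M φ (p : ℤ)
  have hNT : N ≤ T := by rintro _ ⟨z, rfl⟩; exact hs σ hσ z
  have hφN : ∀ z ∈ N, φ • z ∈ N := by
    rintro _ ⟨z, rfl⟩
    show φ • (σ • z - z) ∈ N
    have : φ • σ • z = σ ^ p • φ • z := by
      rw [← (hU (hconj φ hφ)).1 (φ • z), mul_smul, inv_smul_smul, mul_smul]
    rw [smul_sub, this]
    exact hNpow p _
  -- `φ - p` on `M ⧸ N`, landing modulo `T`
  let ψ : M →+ M := DistribSMul.toAddMonoidHom M φ - DistribSMul.toAddMonoidHom M (p : ℤ)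
  have hψN : N ≤ N.comap ψ := fun z hz => sub_mem (hφN z hz) (zsmul_mem hz _)
  let Ψ : (M ⧸ N) →+ (M ⧸ N) := QuotientAddGroup.map N N ψ hψN
  have hTφ : ∀ z ∈ T, φ • z ∈ T := fun z hz => by
    show φ • φ • φ • z = (p : ℤ) ^ 2 • φ • z
    rw [show φ • φ • z = (p : ℤ) ^ 2 • z from hz, smul_comm φ ((p : ℤ) ^ 2)]
  let ΨT : (M ⧸ T) →+ (M ⧸ T) :=
    QuotientAddGroup.map T T ψ fun z hz => sub_mem (hTφ z hz) (zsmul_mem hz _)
  have hkerT : Nat.card ΨT.ker ≤ Nat.card {x : M // ((p : ℤ) ^ 2 - 1) • x = 0} := by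
    refine le_trans ?_ (card_torsion_quotient_le T ((p : ℤ) ^ 2 - 1))
    refine Nat.card_le_card_of_injective (fun x => ⟨x.1, ?_⟩) fun a b h =>
      Subtype.ext (congrArg Subtype.val h :)
    obtain ⟨x, hx⟩ := x
    obtain ⟨z, rfl⟩ := QuotientAddGroup.mk'_surjective T x
    have h1 : φ • z - (p : ℤ) • z ∈ T := (QuotientAddGroup.eq_zero_iff _).mp hx
    have h2 : φ • φ • z - z ∈ T := hq z
    have h3 : φ • φ • z - (p : ℤ) ^ 2 • z ∈ T := by
      have e := add_mem (hTφ _ h1) (zsmul_mem h1 (p : ℤ))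
      rw [smul_sub, smul_sub, smul_comm φ (p : ℤ), smul_smul (p : ℤ) (p : ℤ), ← sq] at e
      convert e using 1
      abel
    show ((p : ℤ) ^ 2 - 1) • QuotientAddGroup.mk' T z = 0
    rw [← map_zsmul]
    refine (QuotientAddGroup.eq_zero_iff _).mpr ?_
    rw [sub_smul, one_smul]
    convert sub_mem h2 h3 using 1
    abel
  have hrange : Nat.card ΨT.range ≤ Nat.card Ψ.range := by
    let π : (M ⧸ N) →+ (M ⧸ T) := QuotientAddGroup.map N T (AddMonoidHom.id M) hNT
    let π' : Ψ.range →+ ΨT.range := (π.comp Ψ.range.subtype).codRestrict ΨT.range fun y => by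
      obtain ⟨x, hx⟩ := y.2
      obtain ⟨z, rfl⟩ := QuotientAddGroup.mk'_surjective N x
      refine ⟨QuotientAddGroup.mk' T z, ?_⟩
      show ΨT (QuotientAddGroup.mk' T z) = π (y : M ⧸ N)
      rw [← show Ψ _ = (y : M ⧸ N) from hx]
      rfl
    refine Nat.card_le_card_of_surjective π' ?_
    rintro ⟨_, x, rfl⟩
    obtain ⟨z, rfl⟩ := QuotientAddGroup.mk'_surjective T x
    exact ⟨⟨Ψ (QuotientAddGroup.mk' N z), _, rfl⟩, Subtype.ext rfl⟩
  have hT : Nat.card (M ⧸ T) ≤ Nat.card {x : M // ((p : ℤ) ^ 2 - 1) • x = 0} * Nat.card Ψ.range := by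
    have : Nat.card (M ⧸ T) = Nat.card ΨT.ker * Nat.card ΨT.range := by
      rw [← AddSubgroup.index_ker, mul_comm, AddSubgroup.index_mul_card]
    rw [this]
    exact Nat.mul_le_mul hkerT hrange
  -- the class at `p`
  let Φ : F →+ M ⧸ N :=
    { toFun := fun c => QuotientAddGroup.mk' N ((c : GalQ → M) σ)
      map_zero' := map_zero (QuotientAddGroup.mk' N)
      map_add' := fun a b => map_add (QuotientAddGroup.mk' N) _ _ }
  have hΦ : Φ.range ≤ Ψ.ker := by
    rintro _ ⟨⟨c, hc⟩, rfl⟩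
    have hcc := hcoc c hc
    show QuotientAddGroup.mk' N (φ • c σ - (p : ℤ) • c σ) = 0
    refine (QuotientAddGroup.eq_zero_iff _).mpr ?_
    have e1 := (hU (hconj φ hφ)).2 c hc
    rw [hcc (φ * σ) φ⁻¹, hcc φ σ, cocycle_inv hcc φ, smul_neg, ← mul_smul (φ * σ)] at e1
    have e2 : (φ * σ * φ⁻¹) • c φ = σ ^ p • c φ := (hU (hconj φ hφ)).1 _
    have e3 : ∀ n : ℕ, c (σ ^ n) - (n : ℤ) • c σ ∈ N := fun n => by
      induction n with
      | zero => simp [cocycle_one hcc]
      | succ n ih =>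
        rw [pow_succ, hcc]
        convert add_mem ih (hNpow n (c σ)) using 1
        rw [Nat.cast_succ, add_smul, one_smul]
        abel
    rw [e2] at e1
    convert add_mem (hNpow p (c φ)) (e3 p) using 1
    rw [← e1]
    abel
  have hker : Nat.card Φ.ker * Nat.card (M ⧸ M0) * Nat.card (inertiaInv M B) ≤
      Nat.card M * Nat.card M := by
    let F' : AddSubgroup (GalQ → M) := Φ.ker.map F.subtype
    have hcard : Nat.card F' = Nat.card Φ.ker :=
      (Nat.card_congr (Φ.ker.equivMapOfInjective F.subtype Subtype.val_injective).toEquiv).symm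
    haveI : Finite F' :=
      Finite.of_equiv _ (Φ.ker.equivMapOfInjective F.subtype Subtype.val_injective).toEquiv
    rw [← hcard]
    refine hD F' inferInstance ?_
    rintro _ ⟨⟨c, hc⟩, hc0, rfl⟩
    have h := hF c hc
    refine ⟨h.cocycle, h.smooth, h.unram, h.unit, ?_⟩
    obtain ⟨m, hm⟩ : c σ ∈ N := (QuotientAddGroup.eq_zero_iff _).mp hc0
    refine ⟨m, fun τ hτ => ?_⟩
    obtain ⟨n, hn⟩ := hgen τ hτ
    show c τ = τ • m - m
    rw [(hU hn).2 c hc, (hU hn).1 m]
    induction n with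
    | zero => rw [pow_zero, cocycle_one h.cocycle, one_smul, sub_self]
    | succ i ih =>
      rw [pow_succ, h.cocycle, mul_smul]
      have hm' : c σ = σ • m - m := hm.symm
      have : ∀ j : ℕ, c (σ ^ j) = σ ^ j • m - m := fun j => by
        induction j with
        | zero => rw [pow_zero, cocycle_one h.cocycle, one_smul, sub_self]
        | succ j ihj => rw [pow_succ, h.cocycle, mul_smul, hm', ihj, smul_sub]; abel
      rw [this i, hm', smul_sub]
      abel
  have hinv : Nat.card (inertiaInv M B) = Nat.card (M ⧸ N) := by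
    have h1 : inertiaInv M B = (DistribSMul.toAddMonoidHom M σ - AddMonoidHom.id M).ker := by
      ext z
      refine ⟨fun hz => sub_eq_zero.mpr (hz σ hσ), fun hz τ hτ => ?_⟩
      obtain ⟨n, hn⟩ := hgen τ hτ
      rw [(hU hn).1 z, smul_pow_eq (huni σ hσ), show σ • z - z = 0 from hz, smul_zero, add_zero]
    rw [h1]
    have e1 : Nat.card (DistribSMul.toAddMonoidHom M σ - AddMonoidHom.id M).ker * Nat.card N =
        Nat.card M := by
      rw [← AddSubgroup.index_ker, mul_comm, AddSubgroup.index_mul_card]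
    exact Nat.eq_of_mul_eq_mul_right (Nat.card_pos (α := N))
      (e1.trans (AddSubgroup.card_eq_card_quotient_mul_card_addSubgroup N))
  have hFcard : Nat.card F = Nat.card Φ.ker * Nat.card Φ.range := by
    rw [← AddSubgroup.index_ker, mul_comm, AddSubgroup.index_mul_card]
  have hΨ : Nat.card Ψ.ker * Nat.card Ψ.range = Nat.card (M ⧸ N) := by
    rw [← AddSubgroup.index_ker, mul_comm, AddSubgroup.index_mul_card]
  calc Nat.card F * Nat.card (M ⧸ M0) * Nat.card (M ⧸ T)
      ≤ (Nat.card Φ.ker * Nat.card Ψ.ker) * Nat.card (M ⧸ M0) *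
          (Nat.card {x : M // ((p : ℤ) ^ 2 - 1) • x = 0} * Nat.card Ψ.range) := by
        rw [hFcard]
        exact Nat.mul_le_mul (Nat.mul_le_mul_right _ (Nat.mul_le_mul_left _
          (AddSubgroup.card_le_of_le hΦ))) hT
    _ = (Nat.card Φ.ker * Nat.card (M ⧸ M0) * Nat.card (M ⧸ N)) *
          Nat.card {x : M // ((p : ℤ) ^ 2 - 1) • x = 0} := by
        rw [← hΨ]; ring
    _ ≤ _ := Nat.mul_le_mul_right _ (hinv ▸ hker)

end FLTAgent.EIS

end
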