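import Fermat.Agent.EIS.SetupHyp
import Fermat.Agent.EIS.SelP
import Fermat.Agent.EIS.FrobQuot
import Fermat.Agent.EIS.Divisible

/-!
Area EIS: the classes of rational points in the cohomology of the finite levels of the Eisenstein
quotient, and the order of a class under a bound on the Selmer groups.
-/

set_option autoImplicit false
set_option linter.unusedSectionVars false
set_option linter.style.haveILetI false

noncomputable section

open ModularCurve
open FLTAgent.Reduction (Ctx kA)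

namespace FLTAgent.EIS

section Abstract

variable {M : Type} [AddCommGroup M] [DistribMulAction GalQ M]

theorem unitAt_zero {A : ValuationSubring Qb} {M0 : AddSubgroup M} :
    UnitAt A M0 (0 : GalQ → M) :=
  unitAt_iff.mpr ⟨fun _ _ => zero_mem _, fun f => by
    rw [show push f (0 : GalQ → M) = 0 from funext fun _ => map_zero f]
    exact zero_mem _⟩

variable (M) in
/-- the classes without condition at `p`, as a subgroup -/
def selSub (p r : ℕ) (A : ValuationSubring Qb) (M0 : AddSubgroup M) : AddSubgroup (GalQ → M) where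
  carrier := {c | InSelP M p r A M0 c}
  zero_mem' := ⟨fun σ τ => by simp only [Pi.zero_apply, smul_zero, add_zero],
    ⟨⊥, inferInstance, fun _ _ => rfl⟩, fun _ _ _ _ _ _ _ _ => rfl, unitAt_zero⟩
  add_mem' := fun {c d} hc hd => by
    refine ⟨fun σ τ => ?_, ?_, fun ℓ h1 h2 h3 B hB τ hτ => ?_, unitAt_iff.mpr ⟨fun τ hτ => ?_, fun f => ?_⟩⟩
    · simp only [Pi.add_apply, hc.cocycle σ τ, hd.cocycle σ τ, smul_add]
      abel
    · obtain ⟨L1, h1, h1'⟩ := hc.smooth
      obtain ⟨L2, h2, h2'⟩ := hd.smooth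
      haveI := h1
      haveI := h2
      exact ⟨L1 ⊔ L2, inferInstance, fun σ hσ => by
        rw [Pi.add_apply, h1' σ fun x hx => hσ x (le_sup_left (b := L2) hx),
          h2' σ fun x hx => hσ x (le_sup_right (a := L1) hx), add_zero]⟩
    · rw [Pi.add_apply, hc.unram ℓ h1 h2 h3 B hB τ hτ, hd.unram ℓ h1 h2 h3 B hB τ hτ, add_zero]
    · exact add_mem ((unitAt_iff.mp hc.unit).1 τ hτ) ((unitAt_iff.mp hd.unit).1 τ hτ)
    · rw [show push f (c + d) = push f c + push f d from funext fun _ => map_add f _ _]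
      exact add_mem ((unitAt_iff.mp hc.unit).2 f) ((unitAt_iff.mp hd.unit).2 f)
  neg_mem' := fun {c} hc => by
    refine ⟨fun σ τ => ?_, ?_, fun ℓ h1 h2 h3 B hB τ hτ => ?_, unitAt_iff.mpr ⟨fun τ hτ => ?_, fun f => ?_⟩⟩
    · simp only [Pi.neg_apply, hc.cocycle σ τ, smul_neg]
      abel
    · obtain ⟨L, hL, h⟩ := hc.smooth
      exact ⟨L, hL, fun σ hσ => by rw [Pi.neg_apply, h σ hσ, neg_zero]⟩
    · rw [Pi.neg_apply, hc.unram ℓ h1 h2 h3 B hB τ hτ, neg_zero]
    · exact neg_mem ((unitAt_iff.mp hc.unit).1 τ hτ)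
    · rw [show push f (-c) = -push f c from funext fun _ => map_neg f _]
      exact neg_mem ((unitAt_iff.mp hc.unit).2 f)

theorem mem_selSub {p r : ℕ} {A : ValuationSubring Qb} {M0 : AddSubgroup M} {c : GalQ → M} :
    c ∈ selSub M p r A M0 ↔ InSelP M p r A M0 c := Iff.rfl

variable (M) in
/-- coboundaries -/
def bdryHom : M →+ (GalQ → M) where
  toFun := bdry
  map_zero' := funext fun σ => by simp [bdry]
  map_add' a b := funext fun σ => by
    show σ • (a + b) - (a + b) = (σ • a - a) + (σ • b - b)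
    rw [smul_add]
    abel

theorem bdry_mem_selSub {p r : ℕ} {A : ValuationSubring Qb} {M0 : AddSubgroup M}
    (H : Hyp M p r A M0) (x : M) : bdry x ∈ selSub M p r A M0 :=
  ⟨isCocycle_bdry x, isSmooth_bdry H.cont x, fun ℓ h1 h2 h3 => H.unram ℓ h1 h2 h3 x, H.conn x⟩

theorem mem_ker_bdryHom {x : M} : x ∈ (bdryHom M).ker ↔ ∀ g : GalQ, g • x = x :=
  ⟨fun h g => sub_eq_zero.mp (congrFun (h : bdry x = 0) g),
    fun h => funext fun g => sub_eq_zero.mpr (h g)⟩

/-- a class killed by `r ^ m` is killed by a power of `r` bounded by the Selmer groups -/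
theorem exists_pow_smul_bdry {p r m : ℕ} (hr : r.Prime) {A : ValuationSubring Qb}
    {M0 : AddSubgroup M} (H : Hyp M p r A M0) {c : GalQ → M} (hc : InSelP M p r A M0 c)
    (hkill : ∀ σ, r ^ m • c σ = 0) {n₀ C₁ : ℕ}
    (hF : ∀ F : AddSubgroup (GalQ → M), Finite F → F ≤ selSub M p r A M0 →
      Nat.card F ≤ Nat.card M * C₁)
    (hfix : Nat.card (bdryHom M).ker ≤ n₀) :
    ∃ w : M, bdry w = r ^ (n₀ * C₁) • c := by
  classical
  haveI := H.finite
  haveI : NeZero (r ^ m) := ⟨(pow_pos hr.pos m).ne'⟩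
  have hz : zmultiplesHom (GalQ → M) c ((r ^ m : ℕ) : ℤ) = 0 := by
    rw [zmultiplesHom_apply, natCast_zsmul]
    exact funext hkill
  let f : M × ZMod (r ^ m) →+ (GalQ → M) :=
    (bdryHom M).coprod (ZMod.lift (r ^ m) ⟨zmultiplesHom (GalQ → M) c, hz⟩)
  let F := f.range
  haveI : Finite F := Finite.of_surjective f.rangeRestrict f.rangeRestrict_surjective
  have hFle : F ≤ selSub M p r A M0 := by
    rintro _ ⟨⟨w, k⟩, rfl⟩
    obtain ⟨k, rfl⟩ := ZMod.intCast_surjective k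
    show bdryHom M w + ZMod.lift (r ^ m) ⟨zmultiplesHom (GalQ → M) c, hz⟩ (k : ZMod (r ^ m)) ∈ _
    rw [ZMod.lift_coe]
    exact add_mem (bdry_mem_selSub H w) (zsmul_mem (mem_selSub.mpr hc) k)
  have hcF : c ∈ F := ⟨(0, ((1 : ℤ) : ZMod (r ^ m))), by
    rw [AddMonoidHom.coprod_apply, map_zero, zero_add, ZMod.lift_coe]
    exact one_zsmul c⟩
  have hBF : (bdryHom M).range ≤ F := by
    rintro _ ⟨w, rfl⟩
    exact ⟨(w, 0), by rw [AddMonoidHom.coprod_apply, map_zero, add_zero]⟩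
  let B1 : AddSubgroup F := (bdryHom M).range.addSubgroupOf F
  haveI : Finite (bdryHom M).range := Finite.of_surjective (bdryHom M).rangeRestrict
    (bdryHom M).rangeRestrict_surjective
  have hB1 : Nat.card B1 = Nat.card (bdryHom M).range :=
    Nat.card_congr (AddSubgroup.addSubgroupOfEquivOfLe hBF).toEquiv
  have hM : Nat.card M = Nat.card (bdryHom M).ker * Nat.card (bdryHom M).range := by
    rw [← AddSubgroup.index_ker, mul_comm, AddSubgroup.index_mul_card]
  have hQ : Nat.card (F ⧸ B1) ≤ n₀ * C₁ := by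
    have h := hF F inferInstance hFle
    rw [AddSubgroup.card_eq_card_quotient_mul_card_addSubgroup B1, hB1, hM] at h
    refine Nat.le_of_mul_le_mul_right (h.trans ?_) (Nat.card_pos (α := (bdryHom M).range))
    rw [mul_right_comm]
    exact Nat.mul_le_mul_right _ (Nat.mul_le_mul_right _ hfix)
  let q : F ⧸ B1 := QuotientAddGroup.mk' B1 ⟨c, hcF⟩
  have hq : r ^ m • q = 0 := by
    rw [← map_nsmul, show r ^ m • (⟨c, hcF⟩ : F) = 0 from Subtype.ext (funext hkill), map_zero]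
  obtain ⟨j, -, hj⟩ := (Nat.dvd_prime_pow hr).mp (addOrderOf_dvd_of_nsmul_eq_zero hq)
  have hj' : j ≤ n₀ * C₁ :=
    ((Nat.lt_pow_self hr.one_lt).le.trans (hj ▸ addOrderOf_le_card)).trans hQ
  have h0 : r ^ (n₀ * C₁) • q = 0 :=
    addOrderOf_dvd_iff_nsmul_eq_zero.mp (hj ▸ pow_dvd_pow r hj')
  rw [← map_nsmul] at h0
  obtain ⟨w, hw⟩ := ((QuotientAddGroup.eq_zero_iff _).mp h0 :)
  exact ⟨w, hw⟩

end Abstract

variable {p r : ℕ} [NeZero p] {A : ValuationSubring Qb} (H : Cond p r A) {a : ℕ}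

set_option maxHeartbeats 1600000 in
/-- a rational point is, up to a bounded power of `r`, divisible by every power of `r` among the
fixed classes modulo `K` -/
theorem exists_fixed_div (hfix : FixBound p r A H.ctx a) {m n₀ C₁ : ℕ}
    (hF : ∀ F : AddSubgroup (GalQ → (raw H).tor m), Finite F →
      F ≤ selSub ((raw H).tor m) p r A ((raw H).tor0 m) → Nat.card F ≤ Nat.card ((raw H).tor m) * C₁)
    (hn₀ : Nat.card (bdryHom ((raw H).tor m)).ker ≤ n₀)
    {x : JZero p} (hx : ∀ g : GalQ, g • x = x) :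
    ∃ y : JZero p, (∀ g : GalQ, g • y - y ∈ KJ H) ∧
      r ^ (n₀ * C₁ + a) • x - r ^ m • y ∈ KJ H := by
  obtain ⟨y₀, hy₀⟩ := AJ.exists_nsmul_eq (r ^ m) (pow_pos H.hr.pos m) x
  have h0 : ∀ g : GalQ, r ^ m • (g • y₀ - y₀) = 0 := fun g => by
    rw [nsmul_sub, show r ^ m • (g • y₀) = g • (r ^ m • y₀) from
      (smul_nsmul' g (r ^ m) y₀).symm, hy₀]
    exact sub_eq_zero.mpr (hx g)
  let d : GalQ → JR p r := fun g => ⟨g • y₀ - y₀, m, h0 g⟩
  have hd0 : ∀ g, r ^ m • d g = 0 := fun g => Subtype.ext (h0 g)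
  let c : GalQ → (raw H).tor m := fun g => ⟨(raw H).qmk (d g), by
    show r ^ m • (raw H).qmk (d g) = 0
    rw [← map_nsmul, hd0, map_zero]⟩
  have hcoc : IsCocycle c := fun σ τ => by
    refine Subtype.ext ?_
    show (raw H).qmk (d (σ * τ)) = (raw H).qmk (d σ) + σ • (raw H).qmk (d τ)
    rw [Raw.smul_qmk, ← map_add]
    refine congrArg (raw H).qmk (Subtype.ext ?_)
    show (σ * τ) • y₀ - y₀ = (σ • y₀ - y₀) + σ • (τ • y₀ - y₀)
    rw [mul_smul, smul_sub]
    abel
  have hsm : IsSmooth c := by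
    obtain ⟨L, hL, h⟩ := HeckeJ.exists_level p y₀
    refine ⟨L, hL, fun σ hσ => Subtype.ext ?_⟩
    show (raw H).qmk (d σ) = 0
    rw [show d σ = 0 from Subtype.ext (sub_eq_zero.mpr (h σ hσ)), map_zero]
  have h0r : ∀ τ ∈ A.inertiaSubgroupIn ℚ, c τ ∈ (raw H).tor0 m := fun τ hτ => by
    rw [Raw.mem_tor0]
    refine ((raw H).mem_W0_iff (hd0 τ)).mpr ((raw H).ring_red ((raw H).pr_mem m) _ ?_)
    show reductionModL A p (τ • y₀ - y₀) = 0
    rw [map_sub, Reduction.reductionModL_inertia H.ctx hτ, sub_self]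
  have hcS : InSelP ((raw H).tor m) p r A ((raw H).tor0 m) (r ^ a • c) := by
    refine ⟨fun σ τ => ?_, ?_, fun ℓ hℓ hℓp hℓr B hB τ hτ => ?_,
      (localR H hfix).unitAt_pow_smul ((raw H).tor m).subtype Subtype.val_injective (fun _ _ => rfl)
        (m := m) (fun w => Subtype.ext w.2) hcoc hsm h0r⟩
    · simp only [Pi.smul_apply, hcoc σ τ, nsmul_add, smul_nsmul']
    · obtain ⟨L, hL, h⟩ := hsm
      exact ⟨L, hL, fun σ hσ => by rw [Pi.smul_apply, h σ hσ, nsmul_zero]⟩
    · have hℓP : ¬ ℓ ∣ p := fun h => hℓp ((Nat.prime_dvd_prime_iff_eq hℓ H.hp).mp h)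
      have C : Ctx B p ℓ := ⟨hℓ, hℓP, hB⟩
      have hz : τ • y₀ - y₀ = 0 := Reduction.eq_zero_of_torsion C (m := r ^ m)
        (fun h => hℓr ((Nat.prime_dvd_prime_iff_eq hℓ H.hr).mp (hℓ.dvd_of_dvd_pow h))) (h0 τ)
        (by rw [map_sub, Reduction.reductionModL_inertia C hτ, sub_self])
      rw [Pi.smul_apply, show c τ = 0 from Subtype.ext (by
        show (raw H).qmk (d τ) = 0
        rw [show d τ = 0 from Subtype.ext hz, map_zero]), nsmul_zero]
  obtain ⟨w, hw⟩ := exists_pow_smul_bdry H.hr (hyp H hfix m) hcS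
    (fun σ => Subtype.ext (by
      show r ^ m • r ^ a • (raw H).qmk (d σ) = 0
      rw [smul_comm, ← map_nsmul, hd0, map_zero, smul_zero])) hF hn₀
  obtain ⟨z, hz⟩ := (raw H).qmk_surjective (w : (raw H).W)
  refine ⟨r ^ (n₀ * C₁ + a) • y₀ - (z : JZero p), fun g => ?_, ?_⟩
  · have e1 : (raw H).qmk (g • z - z) = r ^ (n₀ * C₁ + a) • (raw H).qmk (d g) := by
      rw [map_sub, ← Raw.smul_qmk, hz, pow_add, mul_smul]
      exact congrArg Subtype.val (congrFun hw g)
    have e2 : r ^ (n₀ * C₁ + a) • d g - (g • z - z) ∈ (raw H).K := by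
      rw [← Raw.qmk_eq_zero, map_sub, map_nsmul, e1, sub_self]
    convert (coe_mem_KJ H).mpr e2 using 1
    rw [AddSubgroupClass.coe_sub, AddSubgroupClass.coe_nsmul, AddSubgroupClass.coe_sub, coe_smul_JR,
      smul_sub, smul_nsmul']
    show _ = r ^ (n₀ * C₁ + a) • (g • y₀ - y₀) - _
    rw [nsmul_sub]
    abel
  · have e2 : r ^ m • z ∈ (raw H).K := by
      rw [← Raw.qmk_eq_zero, map_nsmul, hz]
      exact w.2
    convert (coe_mem_KJ H).mpr e2 using 1
    rw [AddSubgroupClass.coe_nsmul, nsmul_sub, smul_comm (r ^ m), hy₀, sub_sub_cancel]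

end FLTAgent.EIS

end
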