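import Fermat.Agent.Reduction.API
import Fermat.Agent.Attach.Defs
import Fermat.Prelude.Def_FLTPrelim_Ramification

/-!
Area EIS: descent on the Eisenstein part of `J₀(p)` (Mazur's step three).  Shared definitions.
-/

set_option autoImplicit false

noncomputable section

open ModularCurve

namespace FLTAgent.EIS

abbrev Qb := AlgebraicClosure ℚ
abbrev GalQ := AlgebraicClosure ℚ ≃ₐ[ℚ] AlgebraicClosure ℚ

section Modules

variable {M : Type} [AddCommGroup M] [DistribMulAction GalQ M]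

/-- a crossed homomorphism -/
def IsCocycle (c : GalQ → M) : Prop := ∀ σ τ, c (σ * τ) = c σ + σ • c τ

/-- factors through a finite extension -/
def IsSmooth (c : GalQ → M) : Prop :=
  ∃ L : IntermediateField ℚ Qb, FiniteDimensional ℚ L ∧
    ∀ σ : GalQ, (∀ x ∈ L, σ x = x) → c σ = 0

/-- every element is fixed by an open subgroup -/
def IsContMod (M : Type) [AddCommGroup M] [DistribMulAction GalQ M] : Prop :=
  ∀ m : M, ∃ L : IntermediateField ℚ Qb, FiniteDimensional ℚ L ∧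
    ∀ σ : GalQ, (∀ x ∈ L, σ x = x) → σ • m = m

/-- the coboundary of `m` -/
def bdry (m : M) : GalQ → M := fun σ => σ • m - m

/-- zero on every inertia group at the prime `ℓ` -/
def UnramAt (ℓ : ℕ) (c : GalQ → M) : Prop :=
  ∀ B : ValuationSubring Qb, B.LiesOverPrime ℓ → ∀ τ ∈ B.inertiaSubgroupIn ℚ, c τ = 0

/-- On the inertia group of `A` the cocycle takes values in `M0`, and each of its images in the roots
of unity is the Kummer cocycle of a unit of `A`. -/
def UnitAt (A : ValuationSubring Qb) (M0 : AddSubgroup M) (c : GalQ → M) : Prop :=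
  (∀ τ ∈ A.inertiaSubgroupIn ℚ, c τ ∈ M0) ∧
    ∀ f : M →+ Additive Qbˣ, ∃ u : Qbˣ, (u : Qb) ∈ A ∧ ((u⁻¹ : Qbˣ) : Qb) ∈ A ∧
      ∀ τ ∈ A.inertiaSubgroupIn ℚ, ((Additive.toMul (f (c τ)) : Qbˣ) : Qb) = τ (u : Qb) / (u : Qb)

/-- on the inertia group of `B` the cocycle is a coboundary -/
def BdryAt (B : ValuationSubring Qb) (c : GalQ → M) : Prop :=
  ∃ m : M, ∀ τ ∈ B.inertiaSubgroupIn ℚ, c τ = τ • m - m

variable (M)

/-- hypotheses for the dévissage: `r` is the residual prime, `p` the level, `A` a place over `r`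
and `M0` the connected part of `M` at `A` -/
structure Hyp (p r : ℕ) (A : ValuationSubring Qb) (M0 : AddSubgroup M) : Prop where
  hr : r.Prime
  hA : A.LiesOverPrime r
  finite : Finite M
  cont : IsContMod M
  killed : ∃ k : ℕ, ∀ m : M, r ^ k • m = 0
  unram : ∀ ℓ : ℕ, ℓ.Prime → ℓ ≠ p → ℓ ≠ r → ∀ m : M, UnramAt ℓ (bdry m)
  /-- every simple Galois constituent is trivial or the mod `r` cyclotomic character -/
  constituents : ∀ N : AddSubgroup M, (∀ (σ : GalQ), ∀ m ∈ N, σ • m ∈ N) → N ≠ ⊤ →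
    ∃ m, m ∉ N ∧ r • m ∈ N ∧
      ((∀ σ : GalQ, σ • m - m ∈ N) ∨
        ∀ (σ : GalQ) (a : ℕ), (∀ ζ : Qb, ζ ^ r = 1 → σ ζ = ζ ^ a) → σ • m - a • m ∈ N)
  /-- the conjugation by inertia on `M0` is cyclotomic -/
  cyclo : ∀ (k : ℕ), (∀ m : M, r ^ k • m = 0) → ∀ τ ∈ A.inertiaSubgroupIn ℚ, ∀ a : ℕ,
    (∀ ζ : Qb, ζ ^ (r ^ k) = 1 → τ ζ = ζ ^ a) → ∀ x ∈ M0, τ • x = a • x
  /-- torsion elements give unit classes; in particular inertia is trivial on `M ⧸ M0` -/
  conn : ∀ m : M, UnitAt A M0 (bdry m)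

/-- the classes bounded by the dévissage -/
structure InSel (p r : ℕ) (A B : ValuationSubring Qb) (M0 : AddSubgroup M) (c : GalQ → M) :
    Prop where
  cocycle : IsCocycle c
  smooth : IsSmooth c
  unram : ∀ ℓ : ℕ, ℓ.Prime → ℓ ≠ p → ℓ ≠ r → UnramAt ℓ c
  unit : UnitAt A M0 c
  bdry : BdryAt B c

/-- the elements fixed by the inertia group of `B` -/
def inertiaInv (B : ValuationSubring Qb) : AddSubgroup M where
  carrier := {m | ∀ τ ∈ B.inertiaSubgroupIn ℚ, τ • m = m}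
  zero_mem' _ _ := smul_zero _
  add_mem' ha hb τ hτ := by rw [smul_add, ha τ hτ, hb τ hτ]
  neg_mem' ha τ hτ := by rw [smul_neg, ha τ hτ]

/-- the bound of the dévissage, as a proposition (proved in `EIS.Descent`) -/
def DescentBound (p r : ℕ) (A B : ValuationSubring Qb) (M0 : AddSubgroup M) : Prop :=
  ∀ F : AddSubgroup (GalQ → M), Finite F → (∀ c ∈ F, InSel M p r A B M0 c) →
    Nat.card F * Nat.card (M ⧸ M0) * Nat.card (inertiaInv M B) ≤ Nat.card M * Nat.card M

end Modules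

section Jacobian

variable (p : ℕ) [NeZero p]

/-- the Eisenstein conditions of depth `k` at the Hecke operators prime to `p * r` -/
def EisTors (r : ℕ) (z : JZero p) : Prop :=
  (∃ k : ℕ, r ^ k • z = 0) ∧
    ∀ ℓ : Nat.Primes, (ℓ : ℕ) ≠ p → (ℓ : ℕ) ≠ r → ∃ k : ℕ,
      (fun y => heckeOperatorBar p ℓ y - ((ℓ : ℕ) + 1) • y)^[k] z = 0

end Jacobian

end FLTAgent.EIS

end
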