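import Fermat.Agent.ModFun.API
import Fermat.Agent.EIS.Defs
import Fermat.Agent.Genus.Embed
import Fermat.Agent.Genus.Fibre
import Fermat.Agent.Reduction.Setup
import Fermat.Agent.SS2.Rational

/-!
Area EIS: the two cusps of `X₀(p)` as places (`Poo` over `∞`, `P0` over `0`) and the Atkin–Lehner
automorphism `atkinP`.
-/

set_option autoImplicit false

noncomputable section

open ModularCurve AlgebraicCurve UpperHalfPlane LaurentSeries
open scoped MatrixGroups WithZero

namespace FLTAgent.EIS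

open Reduction (FB)
open Genus (vlog)
open SS2 (galFn)

/-- the valuation given by the order of the `q`-expansion -/
def qVal (N : ℕ) [NeZero N] : Valuation (FB N) ℤᵐ⁰ :=
  ((PowerSeries.idealX Qb).valuation (LaurentSeries Qb)).comap
    (modularFunctionFieldBar N).val.toRingHom

theorem qVal_le_exp_iff {N : ℕ} [NeZero N] {f : FB N} {D : ℤ} :
    qVal N f ≤ WithZero.exp (-D) ↔ ∀ n < D, (f : LaurentSeries Qb).coeff n = 0 :=
  LaurentSeries.valuation_le_iff_coeff_lt_eq_zero Qb

theorem vlog_qVal {N : ℕ} [NeZero N] {f : FB N} (hf : f ≠ 0) :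
    vlog (qVal N) f = HahnSeries.order (f : LaurentSeries Qb) := by
  have hf' : (f : LaurentSeries Qb) ≠ 0 := fun h => hf (Subtype.ext h)
  have hv : qVal N f ≠ 0 := (Valuation.ne_zero_iff _).mpr hf
  have e : ∀ D : ℤ, D ≤ vlog (qVal N) f ↔ ∀ n < D, (f : LaurentSeries Qb).coeff n = 0 := by
    intro D
    rw [← qVal_le_exp_iff, ← WithZero.log_le_iff_le_exp hv, vlog]
    omega
  refine le_antisymm ?_ ((e _).mpr fun n hn => HahnSeries.coeff_eq_zero_of_lt_order hn)
  by_contra hc
  exact hf' (HahnSeries.coeff_order_eq_zero.mp ((e _).mp le_rfl _ (not_le.mp hc)))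

theorem exists_ord_eq_order (N : ℕ) [NeZero N] :
    ∃ w : Place Qb (FB N), ∀ f : FB N, f ≠ 0 →
      w.ord f = HahnSeries.order (f : LaurentSeries Qb) := by
  have hj : (ModFun.jBar N : FB N) ≠ 0 :=
    Reduction.ne_zero_of_transc (ModFun.transcendental_jBar N)
  have hord : HahnSeries.order ((ModFun.jBar N : FB N) : LaurentSeries Qb) = -1 := by
    rw [Reduction.coe_jBar]
    refine le_antisymm (HahnSeries.order_le_of_coeff_ne_zero ?_) ?_
    · rw [coeffEmb_coeff, coeff_jq_neg_one, map_one]; exact one_ne_zero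
    · refine (HahnSeries.le_order_iff_forall (fun h => hj (Subtype.ext h))).mpr fun n hn => ?_
      rw [Reduction.coe_jBar, coeffEmb_coeff, coeff_jq_of_lt hn, map_zero]
  have hK : ∀ c : Qb, qVal N (algebraMap Qb (FB N) c) ≤ 1 := by
    intro c
    rw [← WithZero.exp_zero, ← neg_zero, qVal_le_exp_iff]
    intro n hn
    rw [show ((algebraMap Qb (FB N) c : FB N) : LaurentSeries Qb) =
      algebraMap Qb (LaurentSeries Qb) c from rfl, algebraMap_laurentSeries_eq_single,
      HahnSeries.coeff_single_of_ne hn.ne]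
  have hx : 1 < qVal N (ModFun.jBar N) := by
    by_contra hc
    rw [not_lt, Genus.val_le_one_iff] at hc
    rcases hc with h | h
    · exact hj h
    · rw [vlog_qVal hj, hord] at h; omega
  obtain ⟨w, g, hg, hw⟩ := Genus.exists_place_of_valuation (qVal N) hK hx
  refine ⟨w, fun f hf => ?_⟩
  have h1 := hw _ hj
  rw [vlog_qVal hj, hord] at h1
  have hg1 : (g : ℤ) = 1 := Int.eq_one_of_dvd_one (by omega) ⟨-w.ord (ModFun.jBar N), by
    linear_combination -h1⟩
  have h2 := hw f hf
  rw [vlog_qVal hf, hg1, one_mul] at h2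
  exact h2.symm

variable (p : ℕ) [Fact p.Prime]

/-- `d ↦ p / d` on the divisors of `p` -/
def swapP (d : p.divisors) : p.divisors :=
  ⟨p / (d : ℕ), Nat.mem_divisors.mpr
    ⟨Nat.div_dvd_of_dvd (Nat.dvd_of_mem_divisors d.2), (Fact.out : p.Prime).ne_zero⟩⟩

theorem swapP_swapP (d : p.divisors) : swapP p (swapP p d) = d :=
  Subtype.ext (Nat.div_div_self (Nat.dvd_of_mem_divisors d.2) (Fact.out : p.Prime).ne_zero)

/-- `τ ↦ -1/(pτ)` -/
def atkinPt (τ : ℍ) : ℍ := ModularGroup.S • ModFun.scale p τ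

theorem jFun_atkinPt (d : p.divisors) [NeZero (d : ℕ)] [NeZero ((swapP p d : p.divisors) : ℕ)]
    (τ : ℍ) : ModFun.jFun (ModFun.scale (d : ℕ) (atkinPt p τ)) =
      ModFun.jFun (ModFun.scale ((swapP p d : p.divisors) : ℕ) τ) := by
  rcases (Fact.out : p.Prime).eq_one_or_self_of_dvd _ (Nat.dvd_of_mem_divisors d.2) with h | h
  · have e1 : ModFun.scale (d : ℕ) (atkinPt p τ) = atkinPt p τ :=
      UpperHalfPlane.ext (by rw [ModFun.coe_scale, h]; simp)
    have e2 : ModFun.scale ((swapP p d : p.divisors) : ℕ) τ = ModFun.scale p τ :=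
      UpperHalfPlane.ext (by
        rw [ModFun.coe_scale, ModFun.coe_scale]; simp [swapP, h])
    rw [e1, e2, atkinPt, ModFun.jFun_smul]
  · have e1 : ModFun.scale (d : ℕ) (atkinPt p τ) = ModularGroup.S • τ := by
      refine UpperHalfPlane.ext ?_
      rw [ModFun.coe_scale, atkinPt, UpperHalfPlane.modular_S_smul, UpperHalfPlane.modular_S_smul]
      show (((d : ℕ) : ℂ)) * (-(ModFun.scale p τ : ℂ))⁻¹ = (-(τ : ℂ))⁻¹
      have hp : (p : ℂ) ≠ 0 := Nat.cast_ne_zero.mpr (Fact.out : p.Prime).ne_zero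
      have hτ := τ.ne_zero
      rw [ModFun.coe_scale, h]
      field_simp
    have e2 : ModFun.scale ((swapP p d : p.divisors) : ℕ) τ = τ :=
      UpperHalfPlane.ext (by
        rw [ModFun.coe_scale]
        simp [swapP, h, Nat.div_self (Fact.out : p.Prime).pos])
    rw [e1, e2, ModFun.jFun_smul]

theorem rel_swapP (P : MvPolynomial p.divisors Qb)
    (h : MvPolynomial.aeval (Genus.jgen p) P = 0) :
    MvPolynomial.aeval (Genus.jgen p ∘ swapP p) P = 0 := by
  haveI : ∀ d : p.divisors, NeZero ((d : ℕ)) := fun d => ⟨(Nat.pos_of_mem_divisors d.2).ne'⟩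
  rw [← MvPolynomial.aeval_rename]
  refine (ModFun.transferBar ModFun.embC (fun d : p.divisors => (d : ℕ)) _).mpr fun τ => ?_
  rw [MvPolynomial.map_rename, MvPolynomial.eval_rename]
  refine Eq.trans ?_
    ((ModFun.transferBar ModFun.embC (fun d : p.divisors => (d : ℕ)) P).mp h (atkinPt p τ))
  congr 2
  funext d
  exact (jFun_atkinPt p d τ).symm

theorem exists_atkinP : ∃ w : FB p →ₐ[Qb] FB p, ∀ d, w (Genus.gen p d) = Genus.gen p (swapP p d) := by
  refine Genus.exists_algHom (fun d => Genus.gen p (swapP p d)) fun P => ?_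
  have e : MvPolynomial.aeval (fun d => Genus.gen p (swapP p d)) P = 0 ↔
      MvPolynomial.aeval (Genus.jgen p ∘ swapP p) P = 0 := by
    rw [← MvPolynomial.aeval_rename, ← Genus.coe_aeval_gen, MvPolynomial.aeval_rename]
    exact (ZeroMemClass.coe_eq_zero).symm
  rw [e]
  refine ⟨rel_swapP p P, fun h => ?_⟩
  rw [← MvPolynomial.aeval_rename] at h
  have h2 := rel_swapP p _ h
  rw [MvPolynomial.aeval_rename, Function.comp_assoc] at h2
  rwa [show swapP p ∘ swapP p = id from funext (swapP_swapP p), Function.comp_id] at h2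

/-- the Atkin–Lehner automorphism of `ℚ̄(X₀(p))` -/
def atkinP : FB p →ₐ[Qb] FB p := (exists_atkinP p).choose

theorem atkinP_gen (d : p.divisors) : atkinP p (Genus.gen p d) = Genus.gen p (swapP p d) :=
  (exists_atkinP p).choose_spec d

theorem atkinP_atkinP (f : FB p) : atkinP p (atkinP p f) = f := by
  have h : (atkinP p).comp (atkinP p) = AlgHom.id Qb (FB p) :=
    Genus.algHom_ext fun d => by simp [atkinP_gen, swapP_swapP]
  exact DFunLike.congr_fun h f

/-- the cusp `∞` -/
def Poo : Place Qb (FB p) := (exists_ord_eq_order p).choose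

theorem ord_Poo {f : FB p} (hf : f ≠ 0) :
    (Poo p).ord f = HahnSeries.order (f : LaurentSeries Qb) :=
  (exists_ord_eq_order p).choose_spec f hf

/-- `atkinP` as a semilinear automorphism -/
def atkinAut : SemilinearAut Qb (FB p) :=
  ⟨((AlgEquiv.ofBijective (atkinP p) ⟨(atkinP p).toRingHom.injective,
      fun f => ⟨atkinP p f, atkinP_atkinP p f⟩⟩).toRingEquiv, RingEquiv.refl Qb),
    fun a => (atkinP p).commutes a⟩

theorem atkinAut_smul (f : FB p) : atkinAut p • f = atkinP p f := rfl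

/-- the cusp `0` -/
def P0 : Place Qb (FB p) := atkinAut p • Poo p

theorem ord_P0 {f : FB p} (hf : f ≠ 0) :
    (P0 p).ord f = HahnSeries.order (atkinP p f : LaurentSeries Qb) := by
  conv_lhs => rw [← atkinP_atkinP p f]
  rw [P0, ← atkinAut_smul, SemilinearAut.ord_smul, ord_Poo p ((map_ne_zero _).mpr hf)]

theorem ord_Poo_jBar : (Poo p).ord (ModFun.jBar p) = -1 := by
  have hj : (ModFun.jBar p : FB p) ≠ 0 :=
    Reduction.ne_zero_of_transc (ModFun.transcendental_jBar p)
  rw [ord_Poo p hj, Reduction.coe_jBar]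
  refine le_antisymm (HahnSeries.order_le_of_coeff_ne_zero ?_) ?_
  · rw [coeffEmb_coeff, coeff_jq_neg_one, map_one]; exact one_ne_zero
  · refine (HahnSeries.le_order_iff_forall (fun h => hj (Subtype.ext h))).mpr fun n hn => ?_
    rw [Reduction.coe_jBar, coeffEmb_coeff, coeff_jq_of_lt hn, map_zero]

theorem atkinP_jBar : atkinP p (ModFun.jBar p) = ModFun.jNBar p := by
  have hp := (Fact.out : p.Prime)
  let d : p.divisors := ⟨1, Nat.one_mem_divisors.mpr hp.ne_zero⟩
  have e : (ModFun.jBar p : FB p) = Genus.gen p d := Subtype.ext (by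
    show coeffEmb Qb jq = coeffEmb Qb (qExpand ℚ 1 jq)
    rw [qExpand_one_apply])
  rw [e, atkinP_gen]
  refine Subtype.ext ?_
  show coeffEmb Qb (qExpand ℚ ((swapP p d : p.divisors) : ℕ) jq) = coeffEmb Qb (qExpand ℚ p jq)
  rw [qExpand_congr (show ((swapP p d : p.divisors) : ℕ) = p by simp [swapP, d]) jq]

theorem ord_P0_jBar : (P0 p).ord (ModFun.jBar p) = -(p : ℤ) := by
  have hj : (ModFun.jBar p : FB p) ≠ 0 :=
    Reduction.ne_zero_of_transc (ModFun.transcendental_jBar p)
  have hp := (Fact.out : p.Prime)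
  rw [ord_P0 p hj, atkinP_jBar]
  show HahnSeries.order (coeffEmb Qb (qExpand ℚ p jq)) = _
  have h0 : coeffEmb Qb (qExpand ℚ p jq) ≠ 0 :=
    (_root_.map_ne_zero _).mpr
      ((map_ne_zero_iff _ (qExpand_injective p)).mpr jq_ne_zero)
  refine le_antisymm (HahnSeries.order_le_of_coeff_ne_zero ?_) ?_
  · rw [coeffEmb_coeff, show -(p : ℤ) = (p : ℤ) * (-1) by ring, qExpand_coeff_mul,
      coeff_jq_neg_one, map_one]
    exact one_ne_zero
  · refine (HahnSeries.le_order_iff_forall h0).mpr fun n hn => ?_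
    rw [coeffEmb_coeff]
    by_cases hd : (p : ℤ) ∣ n
    · obtain ⟨k, rfl⟩ := hd
      have : k < -1 := by
        by_contra hk
        have : (0 : ℤ) ≤ (p : ℤ) * (k + 1) := mul_nonneg (by positivity) (by omega)
        linarith
      rw [qExpand_coeff_mul, coeff_jq_of_lt this, map_zero]
    · rw [qExpand_coeff_of_not_dvd _ _ hd, map_zero]

theorem Poo_ne_P0 : Poo p ≠ P0 p := fun h => by
  have h1 := ord_P0_jBar p
  rw [← h, ord_Poo_jBar] at h1
  have := (Fact.out : p.Prime).two_le
  omega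

/-- there are no other cusps -/
theorem eq_Poo_or_P0 {w : Place Qb (FB p)} (hw : w.ord (ModFun.jBar p) < 0) :
    w = Poo p ∨ w = P0 p := by
  classical
  set t : FB p := (ModFun.jBar p)⁻¹ with ht
  have htr : Transcendental Qb t := RR.transcendental_inv (ModFun.transcendental_jBar p)
  have hsum := RR.sum_zeros (K := Qb) htr
  have hndeg : RR.ndeg Qb t = p + 1 := by
    rw [RR.ndeg_congr (RR.KK_inv _), ModFun.ndeg_jBar, Genus.card_cosetSpace,
      show p = p ^ 1 from (pow_one p).symm, Genus.dedekindPsi_prime_pow Fact.out one_pos]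
    simp
  have hmem : ∀ v : Place Qb (FB p), v.ord (ModFun.jBar p) < 0 → v ∈ RR.zeros (K := Qb) t :=
    fun v hv => RR.mem_zeros.mpr (by rw [ht, v.ord_inv]; omega)
  by_contra hc
  rw [not_or] at hc
  have hsub : ({w, Poo p, P0 p} : Finset (Place Qb (FB p))) ⊆ RR.zeros (K := Qb) t := by
    intro v hv
    simp only [Finset.mem_insert, Finset.mem_singleton] at hv
    rcases hv with rfl | rfl | rfl
    · exact hmem _ hw
    · exact hmem _ (by rw [ord_Poo_jBar]; omega)
    · exact hmem _ (by rw [ord_P0_jBar]; have := (Fact.out : p.Prime).pos; omega)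
  have hle := Finset.sum_le_sum_of_subset_of_nonneg (f := fun v => v.ord t) hsub
    (fun v hv _ => (RR.mem_zeros.mp hv).le)
  rw [hsum, hndeg, Finset.sum_insert (by simp [hc.1, hc.2]),
    Finset.sum_pair (Poo_ne_P0 p), ht, w.ord_inv, (Poo p).ord_inv, (P0 p).ord_inv,
    ord_Poo_jBar, ord_P0_jBar] at hle
  push_cast at hle
  omega

theorem coeff_galFn_smul (σ : GalQ) (f : FB p) (n : ℤ) :
    ((galFn p σ • f : FB p) : LaurentSeries Qb).coeff n = σ ((f : LaurentSeries Qb).coeff n) := by
  rw [show ((galFn p σ • f : FB p) : LaurentSeries Qb) =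
    coeffMap (σ : Qb →+* Qb) (f : LaurentSeries Qb) from rfl, coeffMap_coeff]
  rfl

theorem galFn_smul_jBar (σ : GalQ) : galFn p σ • (ModFun.jBar p : FB p) = ModFun.jBar p := by
  refine Subtype.ext (HahnSeries.ext (funext fun n => ?_))
  rw [coeff_galFn_smul, Reduction.coe_jBar, coeffEmb_coeff]
  exact σ.commutes _

theorem galFn_smul_Poo (σ : GalQ) : galFn p σ • Poo p = Poo p := by
  rcases eq_Poo_or_P0 p (w := galFn p σ • Poo p) (by
    rw [← galFn_smul_jBar p σ, SemilinearAut.ord_smul, ord_Poo_jBar]; omega) with h | h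
  · exact h
  · exfalso
    have h1 := ord_P0_jBar p
    rw [← h, ← galFn_smul_jBar p σ, SemilinearAut.ord_smul, ord_Poo_jBar] at h1
    have := (Fact.out : p.Prime).two_le
    omega

theorem galFn_smul_P0 (σ : GalQ) : galFn p σ • P0 p = P0 p := by
  rcases eq_Poo_or_P0 p (w := galFn p σ • P0 p) (by
    rw [← galFn_smul_jBar p σ, SemilinearAut.ord_smul, ord_P0_jBar]
    have := (Fact.out : p.Prime).pos
    omega) with h | h
  · exfalso
    have h1 := ord_Poo_jBar p
    rw [← h, ← galFn_smul_jBar p σ, SemilinearAut.ord_smul, ord_P0_jBar] at h1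
    have := (Fact.out : p.Prime).two_le
    omega
  · exact h

end FLTAgent.EIS
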