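import Fermat.Agent.EIS.CuspUnit
import Fermat.Agent.Reduction.Twist

/-!
The `q`-series of `Δ(τ)/Δ(pτ)` in characteristic `r`: it is not an `r`-th power, resp. not a ninth
power if `r = 3`.
-/

set_option autoImplicit false
set_option linter.unusedSectionVars false

noncomputable section

open ModularCurve PowerSeries
open scoped PowerSeries.WithPiTopology

namespace FLTAgent.EIS

/-- `1 / ∏ (1 - qⁿ)` -/
def etaProdInv : PowerSeries ℤ := etaProd.invOfUnit 1

theorem etaProd_mul_inv : etaProd * etaProdInv = 1 :=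
  PowerSeries.mul_invOfUnit _ _ (by rw [constantCoeff_etaProd]; rfl)

variable (p : ℕ) [NeZero p]

/-- `∏ (1 - qⁿ)/(1 - q^(pn))` -/
def wSeries : PowerSeries ℤ := etaProd * PowerSeries.expand p (NeZero.ne p) etaProdInv

theorem wSeries_mul : wSeries p * PowerSeries.expand p (NeZero.ne p) etaProd = etaProd := by
  rw [wSeries, mul_assoc, ← map_mul, mul_comm etaProdInv, etaProd_mul_inv, map_one, mul_one]

theorem constantCoeff_wSeries : constantCoeff (wSeries p) = 1 := by
  have h := congrArg (constantCoeff (R := ℤ)) (wSeries_mul p)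
  rw [map_mul, PowerSeries.constantCoeff_expand, constantCoeff_etaProd, mul_one] at h
  exact h

theorem coeff_one_mul {R : Type*} [CommRing R] (f g : PowerSeries R) :
    coeff 1 (f * g) = coeff 1 f * constantCoeff g + constantCoeff f * coeff 1 g := by
  rw [coeff_mul, show Finset.HasAntidiagonal.antidiagonal 1 = {(0, 1), (1, 0)} from rfl,
    Finset.sum_pair (by decide)]
  simp only [coeff_zero_eq_constantCoeff]
  ring

theorem coeff_one_etaProd : coeff 1 etaProd = -1 := by
  have h := (WithPiTopology.multipliable_one_sub_X_pow ℤ).hasProd.tendsto_prod_nat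
  rw [WithPiTopology.tendsto_iff_coeff_tendsto] at h
  have h2 := h 1
  rw [nhds_discrete, Filter.tendsto_pure] at h2
  obtain ⟨M, hM⟩ := Filter.eventually_atTop.mp h2
  have key : ∀ n : ℕ,
      constantCoeff (∏ i ∈ Finset.range (n + 1), (1 - X ^ (i + 1) : PowerSeries ℤ)) = 1 ∧
        coeff 1 (∏ i ∈ Finset.range (n + 1), (1 - X ^ (i + 1) : PowerSeries ℤ)) = -1 := by
    intro n
    induction n with
    | zero => simp [coeff_one]
    | succ n ih =>
      rw [Finset.prod_range_succ]
      refine ⟨?_, ?_⟩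
      · rw [map_mul, ih.1]; simp
      · rw [coeff_one_mul, ih.1, ih.2]
        simp [coeff_one, coeff_X_pow]
  have := hM (M + 1) (by omega)
  rw [(key M).2] at this
  exact this.symm

theorem coeff_one_wSeries (hp : 1 < p) : coeff 1 (wSeries p) = -1 := by
  have h := congrArg (coeff (R := ℤ) 1) (wSeries_mul p)
  rw [coeff_one_mul, PowerSeries.constantCoeff_expand, constantCoeff_etaProd,
    constantCoeff_wSeries, mul_one, one_mul, coeff_one_etaProd,
    PowerSeries.coeff_expand_of_not_dvd _ _ _ (fun h => absurd (Nat.le_of_dvd one_pos h) (not_le.mpr hp)),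
    add_zero] at h
  exact h

theorem coeff_one_pow {R : Type*} [CommRing R] {f : PowerSeries R} (hf : constantCoeff f = 1)
    (j : ℕ) : coeff 1 (f ^ j) = (j : R) * coeff 1 f := by
  induction j with
  | zero => simp [coeff_one]
  | succ j ih => rw [pow_succ, coeff_one_mul, ih, map_pow, hf, one_pow]; push_cast; ring

theorem single_mul_pow (a : ℤ) (x : LaurentSeries ℚ) :
    qExpand ℚ p (HahnSeries.single a 1 * x) = HahnSeries.single ((p : ℤ) * a) 1 * qExpand ℚ p x := by
  rw [map_mul, qExpand_single]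

theorem modularUnitSeries_eq :
    modularUnitSeries p = HahnSeries.single (1 - (p : ℤ)) 1 *
      HahnSeries.ofPowerSeries ℤ ℚ ((wSeries p ^ 24).map (Int.castRingHom ℚ)) := by
  have h := modularUnitSeries_mul_deltaSeriesN p
  refine mul_right_cancel₀ (deltaSeriesN_ne_zero p) (h.trans ?_)
  rw [deltaSeriesN, deltaSeries, single_mul_pow, mul_one, dedekindEtaUnitQ,
    ← Reduction.ofPowerSeries_expand, ← PowerSeries.map_expand, mul_mul_mul_comm,
    HahnSeries.single_mul_single, one_mul, ← map_mul, ← map_mul, sub_add_cancel, dedekindEtaUnit,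
    map_pow (PowerSeries.expand p (NeZero.ne p)), ← mul_pow, wSeries_mul]

variable {k : Type*} [Field k] {r : ℕ} [Fact r.Prime] [CharP k r]

/-- the expansion over `k` -/
def uSeries (k : Type*) [Field k] : LaurentSeries k :=
  HahnSeries.single (1 - (p : ℤ)) 1 *
    HahnSeries.ofPowerSeries ℤ k ((wSeries p ^ 24).map (Int.castRingHom k))

theorem coeff_uSeries (n : ℕ) :
    (uSeries p k).coeff (1 - (p : ℤ) + n) = ((coeff n (wSeries p ^ 24) : ℤ) : k) := by
  rw [uSeries, HahnSeries.coeff_single_mul, one_mul, add_sub_cancel_left,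
    HahnSeries.ofPowerSeries_apply_coeff, coeff_map]
  rfl

theorem coeff_pow_char {i : ℤ} (hi : ¬ (r : ℤ) ∣ i) (g : LaurentSeries k) :
    (g ^ r).coeff i = 0 := by
  haveI : NeZero r := ⟨(Fact.out : r.Prime).ne_zero⟩
  haveI : ExpChar k r := ExpChar.prime Fact.out
  rw [Reduction.pow_char_eq r g, qExpand_coeff_of_not_dvd r _ hi]

theorem coeff_pow_char_sq {i : ℤ} (hi : ¬ ((r : ℤ) * r) ∣ i) (g : LaurentSeries k) :
    (g ^ (r * r)).coeff i = 0 := by
  haveI : NeZero r := ⟨(Fact.out : r.Prime).ne_zero⟩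
  haveI : ExpChar k r := ExpChar.prime Fact.out
  rw [pow_mul, Reduction.pow_char_eq r (g ^ r)]
  by_cases h : (r : ℤ) ∣ i
  · obtain ⟨j, rfl⟩ := h
    rw [qExpand_coeff_mul, coeffMap_coeff, coeff_pow_char (fun hj => hi (mul_dvd_mul_left _ hj)),
      map_zero]
  · rw [qExpand_coeff_of_not_dvd r _ h]

/-- no `r`-th power, `r ≥ 5` -/
theorem uSeries_ne_pow (hp : 1 < p) (hr : 5 ≤ r) (hrp : r ∣ p - 1) (κ : k) (g : LaurentSeries k) :
    uSeries p k ≠ algebraMap k (LaurentSeries k) κ * g ^ r := by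
  intro h
  have h1 := congrArg (fun x : LaurentSeries k => x.coeff (1 - (p : ℤ) + (1 : ℕ))) h
  have hd : (r : ℤ) ∣ (p : ℤ) - 1 := by
    rw [← Nat.cast_one, ← Nat.cast_sub hp.le]; exact_mod_cast hrp
  have hnd : ¬ (r : ℤ) ∣ 1 - (p : ℤ) + ((1 : ℕ) : ℤ) := fun hc => by
    have h' := dvd_add hc hd
    rw [show 1 - (p : ℤ) + ((1 : ℕ) : ℤ) + ((p : ℤ) - 1) = 1 by push_cast; ring] at h'
    have := Int.le_of_dvd one_pos h'
    omega
  simp only [coeff_uSeries, algebraMap_laurentSeries_eq_single, HahnSeries.coeff_single_zero_mul,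
    coeff_pow_char hnd, mul_zero, coeff_one_pow (constantCoeff_wSeries p),
    coeff_one_wSeries p hp] at h1
  push_cast at h1
  have h24 : ((24 : ℕ) : k) = 0 := by push_cast; linear_combination -h1
  have hr24 : r ∣ 24 := (CharP.cast_eq_zero_iff k r 24).mp h24
  have := Nat.le_of_dvd (by norm_num) hr24
  have hprime := (Fact.out : r.Prime)
  interval_cases r <;> first | omega | norm_num at hprime

/-- no ninth power in characteristic three -/
theorem uSeries_ne_pow_nine [CharP k 3] (hp : 1 < p) (h9 : 9 ∣ p - 1) (κ : k)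
    (g : LaurentSeries k) : uSeries p k ≠ algebraMap k (LaurentSeries k) κ * g ^ (3 * 3) := by
  intro h
  haveI : Fact (Nat.Prime 3) := ⟨Nat.prime_three⟩
  haveI : ExpChar (PowerSeries k) 3 :=
    expChar_of_injective_ringHom (f := (PowerSeries.C (R := k)))
      PowerSeries.C_injective 3
  have h1 := congrArg (fun x : LaurentSeries k => x.coeff (1 - (p : ℤ) + (3 : ℕ))) h
  have hd : ((3 : ℕ) : ℤ) * (3 : ℕ) ∣ (p : ℤ) - 1 := by
    rw [← Nat.cast_one, ← Nat.cast_sub hp.le]; exact_mod_cast h9
  have hnd : ¬ ((3 : ℕ) : ℤ) * (3 : ℕ) ∣ 1 - (p : ℤ) + ((3 : ℕ) : ℤ) := fun hc => by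
    have h' := dvd_add hc hd
    rw [show 1 - (p : ℤ) + ((3 : ℕ) : ℤ) + ((p : ℤ) - 1) = 3 by push_cast; ring] at h'
    have := Int.le_of_dvd (by norm_num) h'
    omega
  simp only [coeff_uSeries, algebraMap_laurentSeries_eq_single, HahnSeries.coeff_single_zero_mul,
    coeff_pow_char_sq hnd, mul_zero] at h1
  set V : PowerSeries k := (wSeries p ^ 8).map (Int.castRingHom k) with hV
  have hcast : ((coeff 3 (wSeries p ^ 24) : ℤ) : k) = coeff 3 (V ^ 3) := by
    rw [hV, ← map_pow, ← pow_mul, coeff_map]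
    rfl
  have hV0 : constantCoeff V = 1 := by
    rw [hV, ← coeff_zero_eq_constantCoeff, coeff_map, coeff_zero_eq_constantCoeff, map_pow,
      constantCoeff_wSeries, one_pow, map_one]
  have hV1 : coeff 1 V = -8 := by
    rw [hV, coeff_map, coeff_one_pow (constantCoeff_wSeries p), coeff_one_wSeries p hp]
    simp
  have hsplit : V = 1 + X * PowerSeries.mk fun i => coeff (i + 1) V := by
    conv_lhs => rw [eq_X_mul_shift_add_const V]
    rw [hV0, map_one, add_comm]
  have hcube : coeff 3 (V ^ 3) = (coeff 1 V) ^ 3 := by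
    conv_lhs => rw [hsplit]
    rw [add_pow_expChar, one_pow, mul_pow, map_add, coeff_one, if_neg (by norm_num), zero_add,
      show coeff (R := k) 3 (X ^ 3 * (PowerSeries.mk fun i => coeff (i + 1) V) ^ 3) =
        coeff (R := k) (0 + 3) (X ^ 3 * (PowerSeries.mk fun i => coeff (i + 1) V) ^ 3) from rfl,
      coeff_X_pow_mul, coeff_zero_eq_constantCoeff, map_pow, ← coeff_zero_eq_constantCoeff,
      coeff_mk]
  rw [hcast, hcube, hV1] at h1
  have h8 : ((8 : ℕ) : k) = 0 := by
    have := eq_zero_of_pow_eq_zero h1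
    push_cast
    linear_combination -this
  have := (CharP.cast_eq_zero_iff k 3 8).mp h8
  norm_num at this

end FLTAgent.EIS
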