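import Fermat.Agent.EIS.CuspNumerator
import Fermat.Agent.EIS.CuspSeries
import Fermat.Agent.EIS.CuspPlaces
import Fermat.Agent.Alg.Frobenius
import Fermat.Agent.Flat.Residual
import Fermat.Agent.Reduction.API

/-!
Reduction of the cusp class of `X₀(p)`.
-/

set_option autoImplicit false
set_option linter.unusedSectionVars false
set_option synthInstance.maxHeartbeats 200000

noncomputable section

open ModularCurve AlgebraicCurve IsLocalRing
open FLTAgent.Reduction
open FLTAgent.RR (Bd)

namespace FLTAgent.EIS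

theorem cuspInf_eq_Poo (p : ℕ) [Fact p.Prime] : cuspInf p = Poo p := by
  rcases cusp_cases (p := p) Fact.out (w := Poo p) (by rw [ord_Poo_jBar]; omega) with h | h
  · exact h.symm
  · have h1 := ord_jBar_cuspZero (p := p) Fact.out
    rw [← h, ord_Poo_jBar] at h1
    have := (Fact.out : p.Prime).two_le
    omega

theorem cuspZero_eq_P0 (p : ℕ) [Fact p.Prime] : cuspZero p = P0 p := by
  have h2 := (Fact.out : p.Prime).two_le
  rcases cusp_cases (p := p) Fact.out (w := P0 p) (by rw [ord_P0_jBar]; omega) with h | h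
  · exact absurd (h.trans (cuspInf_eq_Poo p)) (Ne.symm (Poo_ne_P0 p))
  · exact h.symm

variable {p : ℕ} [NeZero p] {A : ValuationSubring Reduction.Qb} {ℓ : ℕ}

theorem order_jS : ((jS A p : FS A p) : LaurentSeries (kA A)).order = -1 :=
  order_eq_of (m := -1) (by
      show (jqModC (kA A)).coeff (-1) ≠ 0
      have h := coeff_jqModC_pow_self (kA A) 1
      rw [pow_one, Nat.cast_one] at h
      rw [h]; exact one_ne_zero)
    fun k hk => by
      show (jqModC (kA A)).coeff k = 0
      have h := coeff_jqModC_pow_of_lt (kA A) (b := 1)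
        (show k < -((1 : ℕ) : ℤ) by rw [Nat.cast_one]; exact hk)
      rwa [pow_one] at h

theorem rP_cuspZero_ne (hp : p.Prime) (C : Ctx A p ℓ) :
    rP C (cuspZero p) ≠ rP C (cuspInf p) := by
  classical
  intro hQ
  obtain ⟨v, hv⟩ := exists_orderPlace (modularFunctionFieldFullC (kA A) p) ⟨_, order_jS⟩
  have hv1 : v.ord (jS A p) = -1 := by
    rw [hv _ (Reduction.ne_zero_of_transc (Reduction.transcendental_jS A p)), order_jS]
  have hd := Reduction.defect_eq_zero C (UG_tB C false) v
  rw [defect, red_tB C, show tS A p false = jS A p from rfl, hv1, sub_eq_zero] at hd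
  set j : FB p := tB p false
  have hjdef : j = ModFun.jBar p := rfl
  set R := dv j - (Finsupp.single (cuspInf p) (-1 : ℤ) + Finsupp.single (cuspZero p) (-(p : ℤ)))
  have hne := cuspZero_ne hp
  have hR : ∀ w ∈ R.support, 0 < w.ord j := by
    intro w hw
    rw [Finsupp.mem_support_iff, Finsupp.sub_apply, Finsupp.add_apply, dv_apply,
      Finsupp.single_apply, Finsupp.single_apply] at hw
    by_contra hc
    rcases (not_lt.mp hc).lt_or_eq with h | h
    · rcases cusp_cases hp (hjdef ▸ h) with rfl | rfl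
      · rw [if_pos rfl, if_neg hne, hjdef, ord_jBar_cuspInf] at hw; simp at hw
      · rw [if_pos rfl, if_neg hne.symm, hjdef, ord_jBar_cuspZero hp] at hw; simp at hw
    · rw [h] at hw
      rw [hjdef] at h
      have := hp.two_le
      rw [if_neg (fun e => by rw [← e, ord_jBar_cuspInf] at h; omega),
        if_neg (fun e => by rw [← e, ord_jBar_cuspZero hp] at h; omega)] at hw
      simp at hw
  have hR0 : Finsupp.mapDomain (rP C) R v = 0 := by
    by_contra hne0
    obtain ⟨w, hw, hwv⟩ := Finset.mem_image.mp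
      (Finsupp.mapDomain_support (Finsupp.mem_support_iff.mpr hne0))
    have hval : Val w j 0 := by
      rw [Val, map_zero, sub_zero, RR.bd_iff]
      exact Or.inr (by have := hR w hw; omega)
    have hb : Bd (rP C w) (tS A p false) 0 := (fin_rP_iff C).mpr ⟨0, A.zero_mem, hval⟩
    rw [hwv, RR.bd_iff_ord (tS_ne_zero A p false),
      show tS A p false = jS A p from rfl, hv1] at hb
    omega
  have hdec : dv j =
      Finsupp.single (cuspInf p) (-1 : ℤ) + Finsupp.single (cuspZero p) (-(p : ℤ)) + R :=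
    (add_sub_cancel _ _).symm
  rw [hdec, Finsupp.mapDomain_add, Finsupp.mapDomain_add, Finsupp.mapDomain_single,
    Finsupp.mapDomain_single, hQ, Finsupp.add_apply, Finsupp.add_apply, hR0,
    Finsupp.single_apply, add_zero, Finsupp.single_apply] at hd
  have := hp.two_le
  split_ifs at hd <;> omega

/-- if two distinct points of the special fibre are linearly equivalent then its `Pic⁰` is zero -/
theorem pic0_S_eq_zero (C : Ctx A p ℓ) {Q0 Qi : PS A p} (hne : Q0 ≠ Qi)
    (h : Divisor.IsPrincipal (Finsupp.single Q0 (1 : ℤ) - Finsupp.single Qi 1))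
    (z : JZeroC (kA A) p) : z = 0 := by
  classical
  obtain ⟨f, hf, hfd⟩ := h
  have hC := Flat.curveLike_S C
  have key : ∀ Q, Finsupp.single Q (1 : ℤ) - Finsupp.single Qi 1 ∈
      Divisor.principal (K := kA A) (F := FS A p) := by
    intro Q
    rcases eq_or_ne Q Qi with rfl | hQ
    · rw [sub_self]; exact zero_mem _
    have hnn : ∀ v, v ≠ Qi → 0 ≤ v.ord f := fun v hv => by
      rw [← hfd, Finsupp.sub_apply, Finsupp.single_apply, Finsupp.single_apply, if_neg hv.symm]
      split_ifs <;> omega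
    have hi : Qi.ord f = -1 := by
      rw [← hfd, Finsupp.sub_apply, Finsupp.single_apply, Finsupp.single_apply, if_neg hne,
        if_pos rfl]
      omega
    obtain ⟨c, hc⟩ := val_exists_S C (Q := Q) (x := f) (by
      rw [RR.bd_iff_ord hf]; simpa using hnn Q hQ)
    set y := f - algebraMap (kA A) (FS A p) c with hy
    have hyi : Qi.ord y = -1 := by rw [hy, ord_sub_const_of_pole C (by rw [RR.bd_iff_ord hf, hi]; omega), hi]
    have hy0 : y ≠ 0 := fun e => by rw [e, Place.ord_zero] at hyi; omega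
    have hyQ : 1 ≤ Q.ord y := by
      have := (RR.bd_iff_ord hy0).mp hc
      omega
    have hynn : ∀ v, v ≠ Qi → 0 ≤ v.ord y := fun v hv => by
      have h1 : Bd v f 0 := (RR.bd_iff_ord hf).mpr (by simpa using hnn v hv)
      have h2 : Bd v (algebraMap (kA A) (FS A p) c) 0 := Bd.of_algebraMap c
      have := (RR.bd_iff_ord hy0).mp (h1.sub h2)
      omega
    obtain ⟨D, hD, hDdeg⟩ := hC.div y hy0
    refine ⟨y, hy0, fun v => ?_⟩
    set E := D - (Finsupp.single Q (1 : ℤ) - Finsupp.single Qi 1) with hE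
    suffices hE0 : E = 0 by
      rw [← hD v, ← sub_eq_zero, ← Finsupp.sub_apply,
        show Finsupp.single Q (1 : ℤ) - Finsupp.single Qi 1 - D = -E by rw [hE]; abel, hE0]
      simp
    have hEnn : ∀ w, 0 ≤ E w := fun w => by
      rw [hE, Finsupp.sub_apply, Finsupp.sub_apply, hD, Finsupp.single_apply, Finsupp.single_apply]
      rcases eq_or_ne w Qi with rfl | hw
      · rw [if_neg hQ, if_pos rfl, hyi]; omega
      · rw [if_neg (Ne.symm hw)]
        rcases eq_or_ne Q w with rfl | hwQ
        · rw [if_pos rfl]; omega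
        · rw [if_neg hwQ]; have := hynn w hw; omega
    ext w
    by_contra hw
    have hpos : 1 ≤ E w := by
      have := hEnn w
      have : E w ≠ 0 := by simpa using hw
      omega
    have hle : 0 ≤ E - Finsupp.single w 1 := fun u => by
      rw [Finsupp.coe_zero, Pi.zero_apply, Finsupp.sub_apply, Finsupp.single_apply]
      split_ifs with e
      · subst e; omega
      · simpa using hEnn u
    have h1 := hC.degree_nonneg hle
    rw [map_sub, hC.degree_single, hE, map_sub, hDdeg, map_sub, hC.degree_single,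
      hC.degree_single] at h1
    omega
  obtain ⟨⟨D, hD⟩, rfl⟩ := Pic0.mk_surjective z
  refine (QuotientAddGroup.eq_zero_iff _).mpr ?_
  rw [AddSubgroup.mem_addSubgroupOf]
  have gen : ∀ E : Divisor (kA A) (FS A p), E - Finsupp.single Qi (Divisor.degree E) ∈
      Divisor.principal (K := kA A) (F := FS A p) := by
    intro E
    induction E using Finsupp.induction with
    | zero => simp
    | single_add Q n E _ _ ih =>
      rw [map_add, hC.degree_single, Finsupp.single_add,
        show Finsupp.single Q n + E -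
          (Finsupp.single Qi n + Finsupp.single Qi (Divisor.degree E)) =
          n • (Finsupp.single Q (1 : ℤ) - Finsupp.single Qi 1) +
            (E - Finsupp.single Qi (Divisor.degree E)) by
          rw [smul_sub, Finsupp.smul_single, Finsupp.smul_single, smul_eq_mul, mul_one]; abel]
      exact add_mem (AddSubgroup.zsmul_mem _ (key Q) n) ih
  have h1 := gen D
  rwa [Divisor.mem_degZero.mp hD, Finsupp.single_zero, sub_zero] at h1

theorem mapDomain_cuspDiv (C : Ctx A p ℓ) :
    Finsupp.mapDomain (rP C) (cuspDiv p : Divisor Reduction.Qb (FB p)) =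
      Finsupp.single (rP C (cuspZero p)) 1 - Finsupp.single (rP C (cuspInf p)) 1 := by
  rw [coe_cuspDiv, Finsupp.mapDomain_sub, Finsupp.mapDomain_single, Finsupp.mapDomain_single]

theorem isPrincipal_of_red_nsmul (C : Ctx A p ℓ) {n : ℕ}
    (h : reductionModL A p (n • cuspClass p) = 0) :
    Divisor.IsPrincipal ((n : ℤ) • (Finsupp.single (rP C (cuspZero p)) (1 : ℤ) -
      Finsupp.single (rP C (cuspInf p)) 1)) := by
  have e : n • cuspClass p = Pic0.mk (n • cuspDiv p) :=
    (map_nsmul (QuotientAddGroup.mk' _) n (cuspDiv p)).symm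
  rw [e, reductionModL_mk_rP C] at h
  have h1 := (QuotientAddGroup.eq_zero_iff _).mp h
  rw [AddSubgroup.mem_addSubgroupOf, Divisor.mem_principal] at h1
  convert h1 using 1
  rw [← mapDomain_cuspDiv C, natCast_zsmul]
  show _ = Finsupp.mapDomain (rP C) ((n • cuspDiv p : Divisor.degZero) : Divisor Reduction.Qb (FB p))
  rw [AddSubgroupClass.coe_nsmul]
  exact (map_nsmul (Finsupp.mapDomain.addMonoidHom (rP C)) n _).symm

/-- the cusp class does not vanish under reduction -/
theorem reductionModL_cuspClass_ne_zero (hp : p.Prime) (hg : 0 < genusFormula p) {ℓ : ℕ}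
    (hℓ : ℓ.Prime) (hℓp : ℓ ≠ p) (A : ValuationSubring Reduction.Qb) (hA : A.LiesOverPrime ℓ) :
    reductionModL A p (cuspClass p) ≠ 0 := by
  intro h
  have C : Ctx A p ℓ := ⟨hℓ, fun hd => hℓp ((Nat.prime_dvd_prime_iff_eq hℓ hp).mp hd), hA⟩
  have hP := isPrincipal_of_red_nsmul C (n := 1) (by rwa [one_smul])
  rw [Nat.cast_one, one_smul] at hP
  obtain ⟨q, hq, hqℓ⟩ : ∃ q : ℕ, q.Prime ∧ ¬ ℓ ∣ q := by
    rcases eq_or_ne ℓ 2 with rfl | h2
    · exact ⟨3, Nat.prime_three, by norm_num⟩
    · exact ⟨2, Nat.prime_two, fun hd => h2 ((Nat.prime_dvd_prime_iff_eq hℓ Nat.prime_two).mp hd)⟩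
  obtain ⟨z, hz, hzq⟩ := exists_torsion_ne_zero hg hq
  exact hz (eq_zero_of_torsion C hqℓ hzq (pic0_S_eq_zero C (rP_cuspZero_ne hp C) hP _))

theorem cuspClass_ne_zero (hp : p.Prime) (hg : 0 < genusFormula p) : cuspClass p ≠ 0 := by
  intro h
  obtain ⟨q, hq, hqp⟩ : ∃ q : ℕ, q.Prime ∧ q ≠ p := by
    rcases eq_or_ne p 2 with rfl | h2
    · exact ⟨3, Nat.prime_three, by norm_num⟩
    · exact ⟨2, Nat.prime_two, Ne.symm h2⟩
  obtain ⟨B, -, hB, -⟩ := FLTAgent.Alg.exists_place_frobenius q hq
  exact reductionModL_cuspClass_ne_zero hp hg hq hqp B hB (by rw [h, map_zero])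

/-- the reduction of `Δ(τ)/Δ(pτ)` -/
theorem red_uBar (C : Ctx A p ℓ) :
    uBar p ∈ GR A p ∧ redS A p (uBar p) = uSeries p (kA A) ∧ UG A p (uBar p) := by
  set G : LaurentSeries A := HahnSeries.single (1 - (p : ℤ)) 1 *
    HahnSeries.ofPowerSeries ℤ A ((wSeries p ^ 24).map (Int.castRingHom A)) with hG
  have hup : up A G = (uBar p : LaurentSeries Reduction.Qb) := by
    rw [coe_uBar, modularUnitSeries_eq, hG, map_mul, map_mul, coeffMap_single, A.subtype.map_one,
      coeffEmb, coeffMap_single, (algebraMap ℚ Reduction.Qb).map_one,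
      ModFun.coeffMap_ofPowerSeries, ModFun.coeffMap_ofPowerSeries]
    congr 2
  have hdn : redS A p (uBar p) = uSeries p (kA A) := by
    rw [redS_series hup, hG, uSeries, map_mul, coeffMap_single, (residue A).map_one,
      ModFun.coeffMap_ofPowerSeries]
    congr 2
  refine ⟨mem_GR_of_series hup, hdn, mem_GR_of_series hup, fun h0 => ?_⟩
  have h1 := congrArg Subtype.val h0
  rw [coe_red C (mem_GR_of_series hup), hdn] at h1
  have h2 := congrArg (fun x : LaurentSeries (kA A) => x.coeff (1 - (p : ℤ) + (0 : ℕ))) h1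
  simp only [coeff_uSeries] at h2
  rw [PowerSeries.coeff_zero_eq_constantCoeff, map_pow, constantCoeff_wSeries, one_pow,
    Int.cast_one, ZeroMemClass.coe_zero, HahnSeries.coeff_zero] at h2
  exact one_ne_zero h2

theorem exists_const_S (C : Ctx A p ℓ) {x : FS A p} (hx0 : x ≠ 0) (hx : ∀ v : PS A p, 0 ≤ v.ord x) :
    ∃ c : kA A, x = algebraMap (kA A) (FS A p) c := by
  have hreg : ∀ s, BS A p s x := fun s => (BS_iff C).mpr fun v _ =>
    (RR.bd_iff_ord hx0).mpr (by simpa using hx v)
  have hal : IsAlgebraic (kA A) x := isAlgebraic_of_isIntegral_both (t := tS A p false) (hreg false)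
    (by rw [← tS_not]; exact hreg _)
  obtain ⟨P, hP0, hP⟩ := hal
  obtain ⟨c, hc⟩ := RingHom.mem_range.mp
    ((IsAlgClosed.splits P).mem_range_of_isRoot (i := algebraMap (kA A) (FS A p)) hP0
      (by rwa [Polynomial.IsRoot.def, Polynomial.eval_map_algebraMap]))
  exact ⟨c, hc.symm⟩

/-- at an odd residue characteristic `r` the `r`-part of the cusp class reduces injectively -/
theorem pow_dvd_of_reductionModL_nsmul_eq_zero (hp : p.Prime) {r : ℕ} (hr : r.Prime) (hr2 : r ≠ 2)
    (A : ValuationSubring Reduction.Qb) (hA : A.LiesOverPrime r) {v n : ℕ}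
    (hv : r ^ v ∣ addOrderOf (cuspClass p)) (h : reductionModL A p (n • cuspClass p) = 0) :
    r ^ v ∣ n := by
  classical
  by_contra hn
  have hv0 : v ≠ 0 := fun e => hn (by rw [e, pow_zero]; exact one_dvd _)
  set E := addOrderOf (cuspClass p) with hE
  have hE0 : 0 < E := addOrderOf_cuspClass_pos hp
  have hEn : E ∣ eisensteinNumerator p := addOrderOf_cuspClass_dvd hp
  have hrE : r ∣ E := (dvd_pow_self r hv0).trans hv
  have hrp1 : r ∣ p - 1 := hrE.trans (hEn.trans (eisensteinNumerator_dvd p))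
  have hrp : r ≠ p := by
    have h1 := Nat.le_of_dvd (Nat.sub_pos_of_lt hp.one_lt) hrp1
    have h2 := hp.one_lt
    omega
  have C : Ctx A p r := ⟨hr, fun hd => hrp ((Nat.prime_dvd_prime_iff_eq hr hp).mp hd), hA⟩
  haveI : Fact r.Prime := ⟨hr⟩
  haveI : CharP (kA A) r := charP_residue A hr hA
  set d := Nat.gcd n E with hd
  have hdred : reductionModL A p (d • cuspClass p) = 0 := by
    have hz : (d : ℤ) • cuspClass p =
        Nat.gcdA n E • (n • cuspClass p) + Nat.gcdB n E • (E • cuspClass p) := by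
      rw [hd, Nat.gcd_eq_gcd_ab, add_zsmul, mul_comm (n : ℤ), mul_comm (E : ℤ), mul_zsmul,
        mul_zsmul, natCast_zsmul, natCast_zsmul]
    rw [← natCast_zsmul, hz, hE, addOrderOf_nsmul_eq_zero, smul_zero, add_zero, map_zsmul, h,
      smul_zero]
  obtain ⟨k, hk⟩ : d ∣ E := Nat.gcd_dvd_right n E
  have hrk : r ∣ k := by
    by_contra hrk
    refine hn (dvd_trans ?_ (Nat.gcd_dvd_left n E))
    exact (Nat.Coprime.pow_left v (hr.coprime_iff_not_dvd.mpr hrk)).dvd_of_dvd_mul_right
      (by rwa [← hd, ← hk])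
  obtain ⟨k', rfl⟩ := hrk
  set e0 := d * k' with he0
  have hEe : E = r * e0 := by rw [hk, he0]; ring
  have hred : reductionModL A p (e0 • cuspClass p) = 0 := by
    rw [he0, mul_comm, mul_smul, map_nsmul, hdred, smul_zero]
  obtain ⟨f, hf, hfd⟩ := isPrincipal_of_red_nsmul C hred
  obtain ⟨m, hm⟩ : E ∣ p - 1 := hEn.trans (eisensteinNumerator_dvd p)
  obtain ⟨hGR, hser, hUG⟩ := red_uBar C
  set ū := red A p (uBar p) with hū
  have hordu : ∀ w : PS A p, w.ord ū = ((r * m : ℕ) : ℤ) * w.ord f := by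
    intro w
    have h1 := Reduction.defect_eq_zero C hUG w
    rw [defect, dv_uBar p hp, sub_eq_zero] at h1
    have hp1 : (p : ℤ) - 1 = ((p - 1 : ℕ) : ℤ) := by rw [Nat.cast_sub hp.one_le, Nat.cast_one]
    rw [hū, ← h1, ← hfd w, hp1, hm, hEe, natCast_zsmul,
      show Finsupp.mapDomain (rP C) ((r * e0 * m) • (cuspDiv p : Divisor Reduction.Qb (FB p))) =
        (r * e0 * m) • Finsupp.mapDomain (rP C) (cuspDiv p : Divisor Reduction.Qb (FB p)) from
        map_nsmul (Finsupp.mapDomain.addMonoidHom (rP C)) _ _, mapDomain_cuspDiv C,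
      Finsupp.smul_apply, Finsupp.smul_apply, nsmul_eq_mul, smul_eq_mul]
    push_cast
    ring
  set y := ū * (f ^ (r * m))⁻¹ with hy
  have hu0 : ū ≠ 0 := hUG.2
  have hy0 : y ≠ 0 := mul_ne_zero hu0 (inv_ne_zero (pow_ne_zero _ hf))
  obtain ⟨κ, hκ⟩ := exists_const_S C hy0 fun w => by
    rw [hy, w.ord_mul hu0 (inv_ne_zero (pow_ne_zero _ hf)), w.ord_inv, ← zpow_natCast, w.ord_zpow,
      hordu]
    omega
  have heq : uSeries p (kA A) = algebraMap (kA A) (LaurentSeries (kA A)) κ *
      ((f : LaurentSeries (kA A)) ^ m) ^ r := by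
    have e : ū = algebraMap (kA A) (FS A p) κ * f ^ (r * m) := by
      rw [← hκ, hy, inv_mul_cancel_right₀ (pow_ne_zero _ hf)]
    have e1 := congrArg Subtype.val e
    rw [hū, coe_red C hGR, hser, MulMemClass.coe_mul, SubmonoidClass.coe_pow] at e1
    rw [e1, ← pow_mul, mul_comm m r]
    rfl
  rcases Nat.lt_or_ge r 5 with hr5 | hr5
  · have hr3 : r = 3 := by
      have := hr.two_le
      interval_cases r <;> first | rfl | omega | norm_num at hr
    subst hr3
    obtain ⟨j, hj⟩ := hEn
    have hnum : eisensteinNumerator p * Nat.gcd (p - 1) 12 = p - 1 :=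
      Nat.div_mul_cancel (Nat.gcd_dvd_left _ _)
    have h3g : 3 ∣ Nat.gcd (p - 1) 12 := Nat.dvd_gcd hrp1 (by norm_num)
    have h9 : 9 ∣ p - 1 := by
      rw [← hnum]
      exact (mul_dvd_mul (hrE.trans ⟨j, hj⟩) h3g : 3 * 3 ∣ _)
    have h3m : 3 ∣ m := by
      have e : E * m = E * (j * Nat.gcd (p - 1) 12) := by
        rw [← hm, ← mul_assoc, ← hj, hnum]
      rw [Nat.eq_of_mul_eq_mul_left hE0 e]
      exact h3g.mul_left j
    obtain ⟨m', rfl⟩ := h3m
    refine uSeries_ne_pow_nine p hp.one_lt h9 κ ((f : LaurentSeries (kA A)) ^ m') ?_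
    rw [heq, ← pow_mul, ← pow_mul]
    ring_nf
  · exact uSeries_ne_pow p hp.one_lt hr5 hrp1 κ _ heq

end FLTAgent.EIS
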