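import Fermat.Agent.EIS.CuspPlaces
import Fermat.Agent.Reduction.PlaceMap
import Fermat.Prelude.Def_EllipticCurve_ZeroComponentAt
import Fermat.Prelude.Def_FLTPrelim_GaloisRep

/-!
Area EIS, parcel H: the statement that the Frey argument for `p ≥ 17` takes as input.
-/

set_option autoImplicit false

noncomputable section

open ModularCurve AlgebraicCurve
open scoped WeierstrassCurve.Affine

namespace FLTAgent.EIS

open Reduction (FB rP Ctx Val)
open SS2 (galFn)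

/-- Step three for a stable line `⟨Q⟩` of order `p` which lies in the identity component at `2` and
at `3`: a `Gal(ℚ̄/ℚ)`-fixed place of `X₀(p)` with the same `j`, reducing to the cusp `∞` at every
prime `ℓ ≠ p` of multiplicative reduction. -/
def CoreProp : Prop :=
  ∀ (p : ℕ) [Fact p.Prime], p ∉ ({2, 3, 5, 7, 13} : Finset ℕ) →
    ∀ (W : WeierstrassCurve ℤ), W.Δ ≠ 0 →
    ∀ (Q : ((W.map (Int.castRingHom ℚ))⁄(AlgebraicClosure ℚ)).Point),
      addOrderOf Q = p →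
      (∀ σ : GalQ, σ • Q ∈ AddSubgroup.zmultiples Q) →
      (2 : ℤ) ∣ W.Δ → ¬ (2 : ℤ) ∣ W.c₄ →
      (∀ A : ValuationSubring Qb, A.LiesOverPrime 2 → W.InZeroComponentAt A Q) →
      (3 : ℤ) ∣ W.Δ → ¬ (3 : ℤ) ∣ W.c₄ →
      (∀ A : ValuationSubring Qb, A.LiesOverPrime 3 → W.InZeroComponentAt A Q) →
      ∃ X : Place Qb (FB p), (∀ σ : GalQ, galFn p σ • X = X) ∧
        Val X (ModFun.jBar p) ((W.c₄ : Qb) ^ 3 / (W.Δ : Qb)) ∧
        ∀ (ℓ : ℕ), (ℓ : ℤ) ∣ W.Δ → ¬ (ℓ : ℤ) ∣ W.c₄ →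
          ∀ (A : ValuationSubring Qb) (C : Ctx A p ℓ), rP C X = rP C (Poo p)

end FLTAgent.EIS

end
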