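import Fermat.Agent.EIS.PointCusp
import Fermat.Agent.Local.API
import Fermat.Prelude.Def_EllipticCurve_ZeroComponentAt

/-!
Area EIS, parcel F: the fixed place of `X₀(p)` attached to a curve with a Galois stable line of
order `p`, and the cusp to which it reduces at a prime of multiplicative reduction.
-/

set_option autoImplicit false

noncomputable section

open ModularCurve AlgebraicCurve UpperHalfPlane WeierstrassCurve IsLocalRing ModularForm
open scoped MatrixGroups Manifold WeierstrassCurve.Affine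

namespace FLTAgent.EIS

open Good (Lbl pDiff)
open Reduction (FB Ctx Val rP tB)
open JTors (ofH evH ordAt)
open SS2 (galFn)
open Genus (embC)

/-- two singular points of a Weierstrass cubic have the same abscissa -/
theorem singular_x_eq {k : Type*} [Field k] {V : WeierstrassCurve.Affine k} {x y x' y' : k}
    (h : V.Equation x y) (h' : V.Equation x' y') (hs : ¬ V.Nonsingular x y)
    (hs' : ¬ V.Nonsingular x' y') : x = x' := by
  rw [Affine.nonsingular_iff'] at hs hs'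
  simp only [h, h', true_and, not_or, not_not] at hs hs'
  rw [Affine.equation_iff'] at h h'
  refine sub_eq_zero.mp (pow_eq_zero_iff (n := 3) (by norm_num) |>.mp ?_)
  linear_combination 2 * h - 2 * h' - (x - x') * hs'.1 - (y - y') * hs'.2 - (y - y') * hs.2
    - (x - x') * hs.1

theorem c4_c6_ne_zero {W : WeierstrassCurve ℤ} {ℓ : ℕ} (hℓ : ℓ.Prime) (hd : (ℓ : ℤ) ∣ W.Δ)
    (hc : ¬ (ℓ : ℤ) ∣ W.c₄) : W.c₄ ≠ 0 ∧ W.c₆ ≠ 0 := by
  refine ⟨fun h => hc (h ▸ dvd_zero _), fun h => hc ?_⟩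
  have hr := W.c_relation
  rw [h] at hr
  have h3 : (ℓ : ℤ) ∣ W.c₄ ^ 3 := by
    rw [show W.c₄ ^ 3 = 1728 * W.Δ by linear_combination -hr]
    exact dvd_mul_of_dvd_right hd _
  exact (Nat.prime_iff_prime_int.mp hℓ).dvd_of_dvd_pow h3

namespace PointData

variable {W : WeierstrassCurve ℤ} {p : ℕ} [Fact p.Prime] {Q : Local.QPoint W}
  (D : PointData W p Q)

/-- the value of the separating function at the place of `(W, Q)` -/
def sepVal : Qb :=
  (∏ q ∈ pmPairs p, (D.xQ (sc p q.1 (0, 1)) - D.xQ (sc p q.2 (0, 1)))) ^ 2 /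
    (W.c₄ : Qb) ^ (pmPairs p).card

theorem Pform_sq_eq (h4 : W.c₄ ≠ 0) :
    (Pform p (0, 1) ^ 2) D.U.τ = embC D.sepVal * Eden p D.U.τ := by
  have h4' : (W.c₄ : ℂ) ≠ 0 := by exact_mod_cast h4
  have hu : ((0, 1) : Lbl p) ≠ 0 := by simp [Prod.ext_iff]
  have h : Pform p (0, 1) D.U.τ = D.U.kap ^ (pmPairs p).card *
      embC (∏ q ∈ pmPairs p, (D.xQ (sc p q.1 (0, 1)) - D.xQ (sc p q.2 (0, 1)))) := by
    rw [Pform, Finset.prod_apply, map_prod, ← Finset.prod_const, ← Finset.prod_mul_distrib]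
    refine Finset.prod_congr rfl fun q hq => ?_
    obtain ⟨h1, h2, -, -⟩ := (mem_pmPairs p).mp hq
    exact D.pDiff_eq (sc_ne_zero p h1 hu) (sc_ne_zero p h2 hu)
  rw [Pi.pow_apply, h, Eden, Pi.pow_apply, D.U.E4_eq, sepVal, map_div₀, map_pow, map_pow,
    map_intCast]
  field_simp
  ring

theorem nsmul_L (v : Lbl p) : p • D.L v = 0 := by
  rw [← map_nsmul, show p • v = 0 by simp [Prod.ext_iff, nsmul_eq_mul], map_zero]

theorem L_mem_zeroComp {A : ValuationSubring Qb} (hz : Q ∈ Local.zeroComp W A) (i : ZMod p) :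
    D.L (sc p i (0, 1)) ∈ Local.zeroComp W A := by
  rw [D.L_line]
  exact AddSubgroup.nsmul_mem _ hz _

theorem zero_comp_of_L_mem {A : ValuationSubring Qb} {i : ZMod p} (hi : i ≠ 0)
    (hz : D.L (sc p i (0, 1)) ∈ Local.zeroComp W A) : Q ∈ Local.zeroComp W A := by
  have h : (i⁻¹).val • sc p i ((0, 1) : Lbl p) = (0, 1) := by
    simp [sc, Prod.ext_iff, nsmul_eq_mul, hi]
  have := AddSubgroup.nsmul_mem _ hz (i⁻¹).val
  rwa [← map_nsmul, h, D.base] at this

/-- in the identity component the abscissae on the line stay distinct modulo `A` -/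
theorem val_diff_of_zeroComp {A : ValuationSubring Qb} {ℓ : ℕ} (C : Ctx A p ℓ)
    (hz : Q ∈ Local.zeroComp W A) {q : ZMod p × ZMod p} (hq : q ∈ pmPairs p) :
    A.valuation (D.xQ (sc p q.1 (0, 1)) - D.xQ (sc p q.2 (0, 1))) = 1 := by
  classical
  obtain ⟨h1, h2, hne, hneg⟩ := (mem_pmPairs p).mp hq
  have hu : ((0, 1) : Lbl p) ≠ 0 := by simp [Prod.ext_iff]
  have hker : ∀ v, D.L v ∈ Local.redKernel W A → v = 0 := fun v hv =>
    D.inj ((Local.redKernel_torsion_eq_zero C.lies C.prime C.not_dvd hv (D.nsmul_L v)).trans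
      (map_zero D.L).symm)
  have key : ∀ {i : ZMod p}, i ≠ 0 → ∃ (x y : A) (h : _) (n : _),
      D.xQ (sc p i (0, 1)) = (x : Qb) ∧
      Local.toLoc A W (D.L (sc p i (0, 1))) =
        (Affine.Point.some (x : Qb) (y : Qb) h : (Local.genFib (Local.locModel A W)).toAffine.Point) ∧
      Local.red (Local.toLoc A W (D.L (sc p i (0, 1)))) =
        (Affine.Point.some (residue A x) (residue A y) n :
          (Local.specFib (Local.locModel A W)).toAffine.Point) := by
    intro i hi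
    obtain ⟨y, h, e⟩ := D.exists_L_eq (sc_ne_zero p hi hu)
    obtain ⟨h', e'⟩ := Local.toLoc_some A W h
    have h0 := (Local.inE0_toLoc A W).mpr (D.L_mem_zeroComp hz i)
    rw [e, e'] at h0
    rcases h0 with hx | ⟨hx, hy, hns⟩
    · exact absurd (hker _ (Or.inr ⟨_, y, h, e, hx⟩)) (sc_ne_zero p hi hu)
    · exact ⟨⟨_, hx⟩, ⟨y, hy⟩, h', hns, rfl, by rw [e, e'],
        by rw [e, e', Local.red_some hx hy hns]⟩
  obtain ⟨x1, y1, g1, n1, hx1, e1, r1⟩ := key h1
  obtain ⟨x2, y2, g2, n2, hx2, e2, r2⟩ := key h2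
  rw [hx1, hx2, show (x1 : Qb) - x2 = ((x1 - x2 : A) : Qb) from rfl, ← Local.res_ne_zero, map_sub,
    sub_ne_zero]
  intro hres
  have hT : ∀ v, v ∈ ({sc p q.1 (0, 1), sc p q.2 (0, 1)} : Set (Lbl p)) →
      Local.InE0 (Local.toLoc A W (D.L v)) := by
    rintro v (rfl | rfl) <;> exact (Local.inE0_toLoc A W).mpr (D.L_mem_zeroComp hz _)
  have hT1 := hT _ (Or.inl rfl)
  have hT2 := hT _ (Or.inr rfl)
  have hzero : ∀ v, Local.InE0 (Local.toLoc A W (D.L v)) →
      Local.red (Local.toLoc A W (D.L v)) = 0 → v = 0 := fun v hv hr =>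
    hker v ((Local.inE1_toLoc W A).mp (Local.inE1_of_red_eq_zero hv hr))
  rcases (Affine.Point.X_eq_iff (h₁ := n1) (h₂ := n2)).mp hres with e | e
  · rw [← r1, ← r2] at e
    have hneg2 := Local.inE0_neg hT2
    have hsum := Local.inE0_add hT1 hneg2
    have hv := hzero (sc p q.1 (0, 1) - sc p q.2 (0, 1))
      (by rw [map_sub, map_sub, sub_eq_add_neg]; exact hsum.1)
      (by rw [map_sub, map_sub, sub_eq_add_neg, hsum.2, Local.red_neg hT2, e, add_neg_cancel])
    exact hne (sc_injective p hu (sub_eq_zero.mp hv))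
  · rw [← r1, ← r2] at e
    have hsum := Local.inE0_add hT1 hT2
    have hv := hzero (sc p q.1 (0, 1) + sc p q.2 (0, 1))
      (by rw [map_add, map_add]; exact hsum.1)
      (by rw [map_add, map_add, hsum.2, e, neg_add_cancel])
    exact hneg (sc_injective p hu ((eq_neg_of_add_eq_zero_left hv).trans (sc_neg p _ _).symm))

/-- outside the identity component every point of the line reduces to the singular point -/
theorem val_diff_of_not_zeroComp {A : ValuationSubring Qb} (hz : Q ∉ Local.zeroComp W A)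
    {q : ZMod p × ZMod p} (hq : q ∈ pmPairs p) :
    A.valuation (D.xQ (sc p q.1 (0, 1)) - D.xQ (sc p q.2 (0, 1))) < 1 := by
  obtain ⟨h1, h2, -, -⟩ := (mem_pmPairs p).mp hq
  have hu : ((0, 1) : Lbl p) ≠ 0 := by simp [Prod.ext_iff]
  have key : ∀ {i : ZMod p}, i ≠ 0 → ∃ x y : A, D.xQ (sc p i (0, 1)) = (x : Qb) ∧
      (Local.specFib (Local.locModel A W)).toAffine.Equation (residue A x) (residue A y) ∧
      ¬ (Local.specFib (Local.locModel A W)).toAffine.Nonsingular (residue A x) (residue A y) := by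
    intro i hi
    obtain ⟨y, h, e⟩ := D.exists_L_eq (sc_ne_zero p hi hu)
    obtain ⟨h', e'⟩ := Local.toLoc_some A W h
    have h0 : ¬ Local.InE0 (Local.toLoc A W (D.L (sc p i (0, 1)))) := fun h0 =>
      hz (D.zero_comp_of_L_mem hi ((Local.inE0_toLoc A W).mp h0))
    rw [e, e'] at h0
    simp only [Local.InE0, not_or, not_not, not_exists] at h0
    obtain ⟨hx, hns⟩ := h0
    have hy := Local.y_mem h'.1 hx
    exact ⟨⟨_, hx⟩, ⟨y, hy⟩, rfl, Local.equation_res (x := ⟨_, hx⟩) (y := ⟨y, hy⟩) h'.1,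
      hns hx hy⟩
  obtain ⟨x1, y1, hx1, q1, s1⟩ := key h1
  obtain ⟨x2, y2, hx2, q2, s2⟩ := key h2
  rw [hx1, hx2]
  exact Local.res_eq_res.mp (singular_x_eq q1 q2 s1 s2)

theorem valuation_sepVal {A : ValuationSubring Qb} (h4 : A.valuation (W.c₄ : Qb) = 1) :
    A.valuation D.sepVal =
      (∏ q ∈ pmPairs p, A.valuation (D.xQ (sc p q.1 (0, 1)) - D.xQ (sc p q.2 (0, 1)))) ^ 2 := by
  rw [sepVal, map_div₀, map_pow, map_pow, map_prod, h4, one_pow, div_one]

end PointData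

/-- The place of `X₀(p)` attached to a curve `W` with a Galois stable line `⟨Q⟩` of order `p`: it is
fixed by Galois, has the `j`-invariant of `W`, and at a prime `ℓ ≠ p` of multiplicative reduction it
reduces to the cusp `∞` if `Q` is in the identity component and to the cusp `0` otherwise. -/
theorem exists_place_point {p : ℕ} [Fact p.Prime] (hp5 : 5 ≤ p) (W : WeierstrassCurve ℤ)
    (hΔ : W.Δ ≠ 0) (h4 : W.c₄ ≠ 0) (h6 : W.c₆ ≠ 0)
    (Q : ((W.map (Int.castRingHom ℚ))⁄(AlgebraicClosure ℚ)).Point) (hQ : addOrderOf Q = p)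
    (hline : ∀ σ : GalQ, σ • Q ∈ AddSubgroup.zmultiples Q) :
    ∃ X : Place Qb (FB p), (∀ σ : GalQ, galFn p σ • X = X) ∧
      Val X (ModFun.jBar p) ((W.c₄ : Qb) ^ 3 / (W.Δ : Qb)) ∧
      ∀ (ℓ : ℕ), (ℓ : ℤ) ∣ W.Δ → ¬ (ℓ : ℤ) ∣ W.c₄ →
        ∀ (A : ValuationSubring Qb) (C : Ctx A p ℓ),
          (W.InZeroComponentAt A Q → rP C X = rP C (Poo p)) ∧
          (¬ W.InZeroComponentAt A Q → rP C X = rP C (P0 p)) := by
  obtain ⟨D⟩ := exists_pointData hΔ h4 h6 hQ
  obtain ⟨X, g, hg, hgX, hjX, hfix⟩ := D.exists_fixed_place (by omega) h4 h6 hline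
  refine ⟨X, hfix, hjX, fun ℓ hd hc A C => ?_⟩
  obtain ⟨H, ⟨hE, hP, hrel⟩, hreg, hP0, c0, hoo, hint⟩ := exists_Hfun (p := p) hp5
  obtain ⟨hGR, hc0, hc0', hc00⟩ := hint A ℓ C
  have h4' : (W.c₄ : ℂ) ≠ 0 := by exact_mod_cast h4
  have hEτ : Eden p D.U.τ ≠ 0 := by
    rw [Eden, Pi.pow_apply, D.U.E4_eq]
    exact pow_ne_zero _ (mul_ne_zero (pow_ne_zero _ D.U.kap_ne) h4')
  have hH : Val X H D.sepVal :=
    (val_iff_eval hg hgX hP hE hrel hEτ _).mpr (D.Pform_sq_eq h4)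
  have hj0 : (W.c₄ : Qb) ^ 3 / (W.Δ : Qb) ≠ 0 :=
    div_ne_zero (pow_ne_zero _ (Int.cast_ne_zero.mpr h4)) (Int.cast_ne_zero.mpr hΔ)
  have hd1 : Val X (tB p true) ((W.c₄ : Qb) ^ 3 / (W.Δ : Qb))⁻¹ := hjX.inv hj0
  have hv4 : A.valuation (W.c₄ : Qb) = 1 := Local.val_int_eq_one C.lies C.prime hc
  have hvd : A.valuation ((W.c₄ : Qb) ^ 3 / (W.Δ : Qb))⁻¹ < 1 := by
    rw [inv_div, map_div₀, map_pow, hv4, one_pow, div_one]
    exact (Local.val_int_lt_one_iff C.lies C.prime _).mpr hd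
  have hdA := (A.valuation_le_one_iff _).mp hvd.le
  obtain ⟨hA, hooX, h0X⟩ := rP_eq_of_residue C hreg hGR hc0 hc0' hc00 hoo hP0 hd1 hdA
    (Local.res_eq_zero.mpr hvd) hH
  refine ⟨fun hz => hooX (Local.res_ne_zero.mpr ?_), fun hz => h0X (Local.res_eq_zero.mpr ?_)⟩
  · show A.valuation D.sepVal = 1
    rw [D.valuation_sepVal hv4,
      Finset.prod_eq_one fun q hq => D.val_diff_of_zeroComp C hz hq, one_pow]
  · show A.valuation D.sepVal < 1
    rw [D.valuation_sepVal hv4]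
    refine pow_lt_one₀ zero_le ?_ two_ne_zero
    obtain ⟨q₀, hq₀⟩ := pmPairs_nonempty p hp5
    rw [← Finset.mul_prod_erase _ _ hq₀]
    refine mul_lt_one_of_nonneg_of_lt_one_left zero_le (D.val_diff_of_not_zeroComp hz hq₀) ?_
    exact Finset.prod_le_one' fun q hq => (D.val_diff_of_not_zeroComp hz
      (Finset.mem_of_mem_erase hq)).le

end FLTAgent.EIS
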