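import Fermat.Agent.Reduction.Kronecker
import Fermat.Agent.SS.Frame

/-!
Reduction commutes with `T_l`, `l` prime to the level and to the residue characteristic: the kernel
of the reduction map on `J₀(N)` is stable under `T_l`.
-/

set_option autoImplicit false
set_option linter.unusedSectionVars false
set_option synthInstance.maxHeartbeats 200000
set_option linter.style.haveILetI false

noncomputable section

open ModularCurve AlgebraicCurve Polynomial IsLocalRing
open FLTAgent.Reduction
open FLTAgent.RR (Bd KK)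

namespace FLTAgent.EIS

section Along

variable {F F' : Type*} [Field F] [Field F'] [Algebra Reduction.Qb F] [Algebra Reduction.Qb F']
  (φ : F →ₐ[Reduction.Qb] F') (hφ : φ.toRingHom.IsIntegral)

theorem bd_restrictAlong {W : Place Reduction.Qb F'} {f : F}
    (h : Bd (W.restrictAlong φ hφ) f 0) : Bd W (φ f) 0 := by
  rcases eq_or_ne f 0 with rfl | hf
  · rw [map_zero]; exact RR.Bd.zero
  have h1 := (RR.bd_iff_ord hf).mp h
  refine RR.bd_iff.mpr (Or.inr ?_)
  rw [Place.ord_restrictAlong φ hφ]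
  simp only [neg_zero] at h1 ⊢
  exact mul_nonneg (Int.natCast_nonneg _) h1

theorem val_restrictAlong {W : Place Reduction.Qb F'} {f : F} {c : Reduction.Qb}
    (h : Val (W.restrictAlong φ hφ) f c) : Val W (φ f) c := by
  have e : φ f - algebraMap Reduction.Qb F' c = φ (f - algebraMap Reduction.Qb F c) := by
    rw [map_sub, AlgHom.commutes]
  rw [Val, e]
  rcases eq_or_ne (f - algebraMap Reduction.Qb F c) 0 with h0 | h0
  · rw [h0, map_zero]; exact RR.Bd.zero
  have h1 := (RR.bd_iff_ord h0).mp h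
  refine RR.bd_iff.mpr (Or.inr ?_)
  rw [Place.ord_restrictAlong φ hφ]
  simp only [neg_neg] at h1 ⊢
  letI := algebraAlong φ
  haveI := isScalarTower_along φ
  haveI := isIntegral_along φ hφ
  have he : (1 : ℤ) ≤ (W.ramificationIndex F : ℤ) := by
    exact_mod_cast W.ramificationIndex_pos (F := F)
  exact one_le_mul_of_one_le_of_one_le he h1

end Along

variable {A : ValuationSubring Reduction.Qb} {N N' : ℕ} [NeZero N] [NeZero N']

/-- an element integral over `A[y]` has an integral value where `y` has one -/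
theorem exists_val_of_isIntegralElem {y x : FB N'} {W : PB N'} {e : Reduction.Qb}
    (he : Val W y e) (heA : e ∈ A)
    (h : (Polynomial.eval₂RingHom ((algebraMap Reduction.Qb (FB N')).comp A.subtype) y).IsIntegralElem x) :
    ∃ d, d ∈ A ∧ Val W x d := by
  obtain ⟨p, hp, hpx⟩ := h
  set ev : A[X] →+* A := Polynomial.evalRingHom ⟨e, heA⟩
  set ψ := Polynomial.eval₂RingHom ((algebraMap Reduction.Qb (FB N')).comp A.subtype) y
  have hev : ∀ r : A[X], Val W (ψ r) ((ev r : A) : Reduction.Qb) := by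
    intro r
    induction r using Polynomial.induction_on' with
    | add r r' hr hr' => rw [map_add, map_add]; exact hr.add hr'
    | monomial n a =>
      simp only [ψ, ev, coe_eval₂RingHom, eval₂_monomial, coe_evalRingHom, eval_monomial,
        MulMemClass.coe_mul, SubmonoidClass.coe_pow, RingHom.comp_apply]
      exact (Val.const (a : Reduction.Qb)).mul (he.pow n)
  have hxreg : Bd W x 0 := by
    refine mem_regOn_of_isIntegral (K := Reduction.Qb) (x := y) ψ (fun r => ?_) ⟨p, hp, hpx⟩ W he.bd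
    induction r using Polynomial.induction_on' with
    | add r r' hr hr' => rw [map_add]; exact add_mem hr hr'
    | monomial n a =>
      simp only [ψ, coe_eval₂RingHom, eval₂_monomial, RingHom.comp_apply]
      exact mul_mem (algebraMap_mem _ _) (pow_mem (self_mem_regOn y) n)
  obtain ⟨d, hd⟩ := val_exists_B hxreg
  refine ⟨d, ?_, hd⟩
  have hval : ∀ n : ℕ, Val W (∑ i ∈ Finset.range n, ψ (p.coeff i) * x ^ i)
      (∑ i ∈ Finset.range n, ((ev (p.coeff i) : A) : Reduction.Qb) * d ^ i) := by
    intro n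
    induction n with
    | zero => simpa using Val.zero
    | succ n ih =>
        rw [Finset.sum_range_succ, Finset.sum_range_succ]
        exact ih.add ((hev _).mul (hd.pow n))
  have h1 := hval (p.natDegree + 1)
  rw [← Polynomial.eval₂_eq_sum_range, hpx] at h1
  have h2 := h1.unique Val.zero
  refine mem_A_of_isIntegral A ⟨p.map ev, hp.map _, ?_⟩
  rw [Polynomial.eval₂_map, Polynomial.eval₂_eq_sum_range]
  exact h2

variable {ℓ : ℕ}

set_option maxHeartbeats 4000000 in
/-- reduction of values of Gauss integral functions without poles at the points with the same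
reduction -/
theorem val_rP_of_regular (C : Ctx A N ℓ) {g : FB N} (hg : g ∈ GR A N) {P : PB N}
    (hreg : ∀ W, rP C W = rP C P → Bd W g 0) {c : Reduction.Qb} (hc : Val P g c) :
    ∃ hc : c ∈ A, Val (rP C P) (red A N g) (residue A ⟨c, hc⟩) := by
  classical
  rcases eq_or_ne g 0 with rfl | hg0
  · obtain rfl := hc.unique Val.zero
    refine ⟨A.zero_mem, ?_⟩
    rw [red_zero C, show (⟨0, A.zero_mem⟩ : A) = 0 from rfl, map_zero]
    exact Val.zero
  obtain ⟨s, hs⟩ : ∃ s, Bd (rP C P) (tS A N s) 0 := by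
    by_cases h : Bd (rP C P) (tS A N false) 0
    · exact ⟨false, h⟩
    · exact ⟨true, by
        rw [show true = !false from rfl, tS_not]; exact (bd_inv_of_not_bd h).mono (by norm_num)⟩
  set S := (finite_ord_B hg0).toFinset.filter (fun W => Bd W (tB N s) 0 ∧ W.ord g < 0)
  obtain ⟨x, hx, hxU, hxo, hxQ⟩ := exists_prod_elem C hs S
    (fun W hW => (Finset.mem_filter.mp hW).2.1) (fun W => (-W.ord g).toNat)
  have hQ0 : (rP C P).ord (red A N x) = 0 := by
    rw [hxQ]
    refine Finset.sum_eq_zero fun W hW => ?_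
    rw [Finset.mem_filter] at hW
    have h1 := (Finset.mem_filter.mp hW.1).2.2
    have h2 := (RR.bd_iff_ord hg0).mp (hreg W hW.2)
    omega
  have hxg : BT A N s (x * g) := by
    refine BT_of_mem C (fun W hW => ?_) (mul_mem hxU.1 hg)
    rw [RR.bd_iff_ord (mul_ne_zero (hxU.ne_zero C) hg0), W.ord_mul (hxU.ne_zero C) hg0]
    have h0 := (RR.bd_iff_ord (hxU.ne_zero C)).mp (hx.mem_regOn W hW)
    by_cases hWS : W ∈ S
    · have := hxo W hWS
      have := Int.self_le_toNat (-W.ord g)
      omega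
    · have h1 : ¬ W.ord g < 0 := fun h => hWS
        (Finset.mem_filter.mpr ⟨(Set.Finite.mem_toFinset _).mpr (show W.ord g ≠ 0 by omega), hW, h⟩)
      omega
  obtain ⟨d, hdA, hd⟩ := (fin_rP_iff C).mp hs
  obtain ⟨e, he⟩ := val_exists_B (hx.mem_regOn P hd.bd)
  obtain ⟨heA, heQ⟩ := val_rP C hx hd hdA he
  have he0 : residue A ⟨e, heA⟩ ≠ 0 := fun h0 => by
    rw [h0] at heQ
    have := heQ.ord_pos hxU.2
    omega
  obtain ⟨hecA, hecQ⟩ := val_rP C hxg hd hdA (he.mul hc)
  have hev : A.valuation e = 1 := (res_ne_zero_iff A ⟨e, heA⟩).mp he0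
  have hcA : c ∈ A := by
    refine (A.valuation_le_one_iff c).mp ?_
    have := val_le_one_of_mem hecA
    rwa [map_mul, hev, one_mul] at this
  refine ⟨hcA, ?_⟩
  rw [red_mul C hxU.1 hg] at hecQ
  have h3 := (heQ.inv he0).mul hecQ
  rw [inv_mul_cancel_left₀ hxU.2, show (⟨e * c, hecA⟩ : A) = ⟨e, heA⟩ * ⟨c, hcA⟩ from rfl, map_mul,
    inv_mul_cancel_left₀ he0] at h3
  exact h3

/-- what is used of a degeneracy map -/
structure Degen (A : ValuationSubring Reduction.Qb) (φ : FB N →ₐ[Reduction.Qb] FB N') : Prop where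
  gr : ∀ f ∈ GR A N, φ f ∈ GR A N'
  red_congr : ∀ f ∈ GR A N, ∀ g ∈ GR A N, red A N f = red A N g → red A N' (φ f) = red A N' (φ g)
  ug : ∀ f, UG A N f → UG A N' (φ f)
  fwd : BT A N' false (φ (tB N false))
  back : (Polynomial.eval₂RingHom ((algebraMap Reduction.Qb (FB N')).comp A.subtype)
    (φ (tB N false))).IsIntegralElem (tB N' false)

section DegenMap

variable {φ : FB N →ₐ[Reduction.Qb] FB N'} (hD : Degen A φ) (hφ : φ.toRingHom.IsIntegral)
  (C : Ctx A N ℓ) (C' : Ctx A N' ℓ)
include hD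

theorem Degen.fin_iff {W : PB N'} :
    Bd (rP C (W.restrictAlong φ hφ)) (tS A N false) 0 ↔ Bd (rP C' W) (tS A N' false) 0 := by
  constructor
  · intro h
    obtain ⟨e, heA, he⟩ := (fin_rP_iff C).mp h
    exact (fin_rP_iff C').mpr (exists_val_of_isIntegralElem (val_restrictAlong φ hφ he) heA hD.back)
  · intro h
    obtain ⟨d, hdA, hd⟩ := (fin_rP_iff C').mp h
    by_contra hc
    rcases exists_chart (A := A) (W.restrictAlong φ hφ) false with ⟨e, heA, he⟩ |
        ⟨e, he1, he, hno⟩
    · exact hc ((fin_rP_iff C).mpr ⟨e, heA, he⟩)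
    · have h1 := val_restrictAlong φ hφ he
      rw [tB_not, map_inv₀] at h1
      obtain ⟨v, hv⟩ := val_exists_B (hD.fwd.mem_regOn W hd.bd)
      have hvA := val_mem_A C' hD.fwd hd hdA hv
      have h2 := hv.mul h1
      rw [mul_inv_cancel₀ ((map_ne_zero φ).mpr (tB_ne_zero N false))] at h2
      have h3 := h2.unique Val.one
      have h4 : A.valuation (v * e) < 1 := by
        rw [map_mul]
        exact lt_of_le_of_lt (mul_le_mul_left (val_le_one_of_mem hvA) _) (by rwa [one_mul])
      rw [h3, map_one] at h4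
      exact lt_irrefl _ h4

set_option maxHeartbeats 4000000 in
/-- the reduction of the restriction of a point depends only on the reduction of the point -/
theorem Degen.rP_restrict {W W' : PB N'} (h : rP C' W = rP C' W') :
    rP C (W.restrictAlong φ hφ) = rP C (W'.restrictAlong φ hφ) := by
  classical
  obtain ⟨s, hs⟩ : ∃ s, ∀ V : PB N', rP C' V = rP C' W →
      Bd (rP C (V.restrictAlong φ hφ)) (tS A N s) 0 := by
    by_cases hf : Bd (rP C' W) (tS A N' false) 0
    · exact ⟨false, fun V hV => (hD.fin_iff hφ C C').mpr (hV ▸ hf)⟩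
    · refine ⟨true, fun V hV => ?_⟩
      have h1 : ¬ Bd (rP C (V.restrictAlong φ hφ)) (tS A N false) 0 := fun h1 =>
        hf (hV ▸ (hD.fin_iff hφ C C').mp h1)
      rw [show true = !false from rfl, tS_not]
      exact (bd_inv_of_not_bd h1).mono (by norm_num)
  haveI := finite_tS C s
  haveI := separable_tS C s
  have key : ∀ x ∈ regOn (kA A) (tS A N s), ∃ a : kA A,
      Val (rP C (W.restrictAlong φ hφ)) x a ∧ Val (rP C (W'.restrictAlong φ hφ)) x a := by
    intro x hx
    obtain ⟨b, hb, hbx⟩ := exists_lift C ((BS_iff C).mpr hx)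
    have hreg : ∀ V : PB N', rP C' V = rP C' W → Bd V (φ b) 0 := fun V hV => by
      obtain ⟨d, -, hd⟩ := (fin_rP_iff C).mp (hs V hV)
      exact bd_restrictAlong φ hφ (hb.mem_regOn _ hd.bd)
    have step : ∀ V : PB N', rP C' V = rP C' W → ∃ a : kA A,
        Val (rP C (V.restrictAlong φ hφ)) x a ∧ Val (rP C' W) (red A N' (φ b)) a := by
      intro V hV
      obtain ⟨d, hdA, hd⟩ := (fin_rP_iff C).mp (hs V hV)
      obtain ⟨c, hc⟩ := val_exists_B (hb.mem_regOn _ hd.bd)
      obtain ⟨hcA, h1⟩ := val_rP C hb hd hdA hc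
      obtain ⟨_, h2⟩ := val_rP_of_regular C' (hD.gr b (BT.mem_GR C hb))
        (fun U hU => hreg U (hU.trans hV)) (val_restrictAlong φ hφ hc)
      rw [hbx] at h1
      exact ⟨_, h1, hV ▸ h2⟩
    obtain ⟨a, ha, ha'⟩ := step W rfl
    obtain ⟨a', hb1, hb2⟩ := step W' h.symm
    obtain rfl := ha'.unique hb2
    exact ⟨a, ha, hb1⟩
  by_contra hne
  obtain ⟨g, hg, hgv, hg0, hgw⟩ := exists_separate (transcendental_tS A N s) (hs W rfl)
    (hs W' h.symm) hne
  obtain ⟨a, ha, ha'⟩ := key g hg
  obtain rfl := ha.unique (show Val _ g 0 by rw [Val, map_zero, sub_zero]; exact hgv)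
  have := ha'.ord_pos hg0
  omega

set_option maxHeartbeats 4000000 in
/-- the reduced pullback of a point depends only on the reduction of the point -/
theorem Degen.mapDomain_pullback [HasPrincipalDivisors Reduction.Qb (FB N')] {P P' : PB N}
    (h : rP C P = rP C P') :
    Finsupp.mapDomain (rP C') (Divisor.pullbackAlong φ hφ (Finsupp.single P 1)) =
      Finsupp.mapDomain (rP C') (Divisor.pullbackAlong φ hφ (Finsupp.single P' 1)) := by
  classical
  set Q := rP C P with hQ
  obtain ⟨s, hs⟩ : ∃ s, Bd Q (tS A N s) 0 := by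
    by_cases h : Bd Q (tS A N false) 0
    · exact ⟨false, h⟩
    · exact ⟨true, by
        rw [show true = !false from rfl, tS_not]; exact (bd_inv_of_not_bd h).mono (by norm_num)⟩
  haveI := finite_tS C s
  haveI := separable_tS C s
  obtain ⟨g, hg, hg0, hg1⟩ := exists_unif (transcendental_tS A N s) hs
  obtain ⟨b, hb, hbg⟩ := exists_lift C ((BS_iff C).mpr hg)
  have main : ∀ R : PB N, rP C R = Q → ∃ y : FB N, UG A N y ∧ red A N y = g ∧
      ∀ P₀ : PB N, rP C P₀ = Q → P₀.ord y = Finsupp.single R (1 : ℤ) P₀ := by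
    intro R hR
    obtain ⟨d, hdA, hd⟩ := (fin_rP_iff C).mp (hR ▸ hs : Bd (rP C R) (tS A N s) 0)
    obtain ⟨c, hc⟩ := val_exists_B (hb.mem_regOn R hd.bd)
    obtain ⟨hcA, hval⟩ := val_rP C hb hd hdA hc
    rw [hbg, hR] at hval
    have hres : residue A ⟨c, hcA⟩ = 0 := hval.unique (val_zero_of_ord_pos (by omega))
    have hy : BT A N s (b - cB N c) := hb.sub (BT_const s hcA)
    have hred : red A N (b - cB N c) = g := by
      rw [red_sub C (BT.mem_GR C hb) (cB_mem hcA), red_cB C ⟨c, hcA⟩, hres, map_zero, sub_zero,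
        hbg]
    have hUG : UG A N (b - cB N c) := ⟨BT.mem_GR C hy, by rw [hred]; exact hg0⟩
    refine ⟨_, hUG, hred, ?_⟩
    have hR1 : 1 ≤ R.ord (b - cB N c) :=
      Val.ord_pos (by simpa using hc.sub (Val.const c)) (hUG.ne_zero C)
    have hdef := defect_eq_zero C hUG Q
    rw [defect, hred, hg1, sub_eq_zero, mapDomain_apply_eq_sum (rP C) _ Q
      ((dv (b - cB N c)).support ∪ {R}) Finset.subset_union_left] at hdef
    simp only [dv_apply] at hdef
    set T := ((dv (b - cB N c)).support ∪ {R}).filter (fun P₀ => rP C P₀ = Q)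
    have hnn : ∀ P₀ : PB N, rP C P₀ = Q → 0 ≤ P₀.ord (b - cB N c) := by
      intro P₀ hP₀
      obtain ⟨d', -, hd'⟩ := (fin_rP_iff C).mp (hP₀ ▸ hs : Bd (rP C P₀) (tS A N s) 0)
      simpa using (RR.bd_iff_ord (hUG.ne_zero C)).mp (hy.mem_regOn P₀ hd'.bd)
    intro P₀ hP₀
    rw [Finsupp.single_apply]
    split_ifs with he
    · subst he
      have h1 : R.ord (b - cB N c) ≤ 1 := by
        rw [← hdef]
        exact Finset.single_le_sum (fun x hx => hnn x (Finset.mem_filter.mp hx).2)
          (Finset.mem_filter.mpr ⟨by simp, hR⟩)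
      omega
    · by_contra hne
      have hmem : P₀ ∈ T := Finset.mem_filter.mpr ⟨Finset.mem_union_left _
        (Finsupp.mem_support_iff.mpr (by rwa [dv_apply])), hP₀⟩
      have hRmem : R ∈ T := Finset.mem_filter.mpr ⟨by simp, hR⟩
      have h1 : R.ord (b - cB N c) + P₀.ord (b - cB N c) ≤ 1 := by
        rw [← hdef, ← Finset.sum_pair (f := fun x : PB N => x.ord (b - cB N c)) he]
        exact Finset.sum_le_sum_of_subset_of_nonneg
          (by simp [Finset.insert_subset_iff, hmem, hRmem])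
          fun x hx _ => hnn x (Finset.mem_filter.mp hx).2
      have := hnn P₀ hP₀
      omega
  have value : ∀ R : PB N, rP C R = Q → ∀ Q' : PS A N', ∀ y : FB N, UG A N y → red A N y = g →
      (∀ P₀ : PB N, rP C P₀ = Q → P₀.ord y = Finsupp.single R (1 : ℤ) P₀) →
      Finsupp.mapDomain (rP C') (Divisor.pullbackAlong φ hφ (Finsupp.single R 1)) Q' =
        if ∃ W : PB N', rP C' W = Q' ∧ rP C (W.restrictAlong φ hφ) = Q
          then Q'.ord (red A N' (φ y)) else 0 := by
    intro R hR Q' y hy hyr hord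
    split_ifs with hW
    · obtain ⟨W, hW1, hW2⟩ := hW
      have h1 := defect_eq_zero C' (hD.ug y hy) Q'
      rw [defect, sub_eq_zero] at h1
      rw [← h1]
      refine (mapDomain_congr_fibre (rP C') (dv (φ y))
        (Divisor.pullbackAlong φ hφ (Finsupp.single R 1)) Q' fun V hV => ?_).symm
      rw [dv_apply, Place.ord_restrictAlong φ hφ, Divisor.pullbackAlong_apply,
        hord _ ((hD.rP_restrict hφ C C' (hV.trans hW1.symm)).trans hW2)]
    · rw [mapDomain_apply_eq_sum (rP C') _ Q' _ subset_rfl]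
      refine Finset.sum_eq_zero fun V hV => ?_
      rw [Finset.mem_filter] at hV
      rw [Divisor.pullbackAlong_apply]
      have hne : V.restrictAlong φ hφ ≠ R := fun he => hW ⟨V, hV.2, by rw [he]; exact hR⟩
      rw [Finsupp.single_eq_of_ne hne, mul_zero]
  obtain ⟨y, hy, hyr, hord⟩ := main P rfl
  obtain ⟨y', hy', hyr', hord'⟩ := main P' h.symm
  refine Finsupp.ext fun Q' => ?_
  rw [value P rfl Q' y hy hyr hord, value P' h.symm Q' y' hy' hyr' hord',
    hD.red_congr y hy.1 y' hy'.1 (hyr.trans hyr'.symm)]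

end DegenMap

/-! ### the two degeneracy maps -/

variable {l : ℕ} [NeZero l]

theorem tB_false (M : ℕ) [NeZero M] : tB M false = (ModFun.jBar M : FB M) := rfl

theorem alpha_tB : heckeAlphaBar Reduction.Qb N l (tB N false) = tB (N * l) false := by
  refine Subtype.ext ((coe_heckeAlphaBar (L := Reduction.Qb) (N := N) (ℓ := l) _).trans ?_)
  exact (congrArg Subtype.val (tB_false N)).trans ((coe_jBar (N := N)).trans ((coe_jBar (N := N * l)).symm.trans
    (congrArg Subtype.val (tB_false (N * l))).symm))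

theorem tB_mul_eq_aFn : tB (N * l) false = SS.aFn N l :=
  alpha_tB.symm.trans (congrArg _ (tB_false N))

theorem redS_eq_of_red (C : Ctx A N ℓ) {f g : FB N} (hf : f ∈ GR A N) (hg : g ∈ GR A N)
    (h : red A N f = red A N g) : redS A N f = redS A N g := by
  rw [← coe_red C hf, ← coe_red C hg, h]

theorem red_alpha_congr (C : Ctx A N ℓ) (C' : Ctx A (N * l) ℓ) {f g : FB N} (hf : f ∈ GR A N)
    (hg : g ∈ GR A N) (h : red A N f = red A N g) :
    red A (N * l) (heckeAlphaBar Reduction.Qb N l f) = red A (N * l) (heckeAlphaBar Reduction.Qb N l g) := by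
  refine Subtype.ext ?_
  rw [coe_red C' (SS.redS_i1 hf).1, coe_red C' (SS.redS_i1 hg).1, (SS.redS_i1 hf).2,
    (SS.redS_i1 hg).2, redS_eq_of_red C hf hg h]

theorem coe_zero_FS (M : ℕ) [NeZero M] : ((0 : FS A M) : LaurentSeries (kA A)) = 0 := rfl

theorem ug_alpha (C : Ctx A N ℓ) (C' : Ctx A (N * l) ℓ) {f : FB N} (hf : UG A N f) :
    UG A (N * l) (heckeAlphaBar Reduction.Qb N l f) := by
  refine ⟨(SS.redS_i1 hf.1).1, fun h0 => hf.2 (Subtype.ext ?_)⟩
  have h1 : ((red A (N * l) (heckeAlphaBar Reduction.Qb N l f) : FS A (N * l)) : LaurentSeries (kA A)) = 0 := by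
    rw [h0]; exact coe_zero_FS (N * l)
  rw [coe_red C' (SS.redS_i1 hf.1).1, (SS.redS_i1 hf.1).2] at h1
  rw [coe_red C hf.1, coe_zero_FS N]
  exact h1

theorem fwd_alpha : BT A (N * l) false (heckeAlphaBar Reduction.Qb N l (tB N false)) := by
  rw [alpha_tB]; exact BT_tB false

theorem back_alpha : (Polynomial.eval₂RingHom ((algebraMap Reduction.Qb (FB (N * l))).comp A.subtype)
      (heckeAlphaBar Reduction.Qb N l (tB N false))).IsIntegralElem (tB (N * l) false) := by
  rw [alpha_tB]; exact BT_tB (A := A) false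

theorem degen_alpha (C : Ctx A N ℓ) (C' : Ctx A (N * l) ℓ) :
    Degen A (heckeAlphaBar Reduction.Qb N l) :=
  ⟨fun _ hf => (SS.redS_i1 hf).1, fun _ hf _ hg h => red_alpha_congr C C' hf hg h,
    fun _ hf => ug_alpha C C' hf, fwd_alpha, back_alpha⟩

theorem beta_tB_eq : heckeBetaBar Reduction.Qb N l (tB N false) = SS.bFn N l := rfl

theorem BT_beta_tB (C' : Ctx A (N * l) ℓ) :
    BT A (N * l) false (heckeBetaBar Reduction.Qb N l (tB N false)) := by
  refine BT_of_mem C' ?_ (SS.redS_i2 (tB_mem false)).1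
  rw [beta_tB_eq, tB_mul_eq_aFn]
  exact SS.bFn_mem_regOn

theorem isIntegralElem_of_symm (W : FB (N * l) →ₐ[Reduction.Qb] FB (N * l)) {x y : FB (N * l)}
    (hWx : W x = y) (hWy : W y = x)
    (h : (Polynomial.eval₂RingHom ((algebraMap Reduction.Qb (FB (N * l))).comp A.subtype) x).IsIntegralElem y) :
    (Polynomial.eval₂RingHom ((algebraMap Reduction.Qb (FB (N * l))).comp A.subtype) y).IsIntegralElem x := by
  obtain ⟨p, hp, hpb⟩ := h
  refine ⟨p, hp, ?_⟩
  have h1 := congrArg W hpb
  rw [map_zero, ← AlgHom.coe_toRingHom, Polynomial.hom_eval₂, AlgHom.coe_toRingHom, hWy] at h1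
  refine Eq.trans ?_ h1
  congr 1
  refine Polynomial.ringHom_ext (fun a => ?_) ?_
  · simp only [coe_eval₂RingHom, RingHom.comp_apply, eval₂_C]
    exact (W.commutes _).symm
  · simp only [coe_eval₂RingHom, RingHom.comp_apply, eval₂_X]
    exact hWx.symm

theorem back_beta (hl : l.Prime) (hlN : ¬ l ∣ N) (C' : Ctx A (N * l) ℓ) :
    (Polynomial.eval₂RingHom ((algebraMap Reduction.Qb (FB (N * l))).comp A.subtype)
      (heckeBetaBar Reduction.Qb N l (tB N false))).IsIntegralElem (tB (N * l) false) := by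
  obtain ⟨W, hWa, hWb⟩ := exists_atkin (N := N) hl hlN
  refine isIntegralElem_of_symm W ?_ ?_ (BT_beta_tB C')
  · rw [← alpha_tB]; exact hWa _
  · rw [hWb]; exact alpha_tB

theorem degen_beta (hl : l.Prime) (hlN : ¬ l ∣ N) (C : Ctx A N ℓ) (C' : Ctx A (N * l) ℓ) :
    Degen A (heckeBetaBar Reduction.Qb N l) := by
  refine ⟨fun f hf => (SS.redS_i2 hf).1, fun f hf g hg h => ?_, fun f hf => ?_, BT_beta_tB C',
    back_beta hl hlN C'⟩
  · refine Subtype.ext ?_
    rw [coe_red C' (SS.redS_i2 hf).1, coe_red C' (SS.redS_i2 hg).1, (SS.redS_i2 hf).2,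
      (SS.redS_i2 hg).2, redS_eq_of_red C hf hg h]
  · refine ⟨(SS.redS_i2 hf.1).1, fun h0 => hf.2 (Subtype.ext ?_)⟩
    have h1 := congrArg Subtype.val h0
    rw [coe_red C' (SS.redS_i2 hf.1).1, (SS.redS_i2 hf.1).2] at h1
    rw [coe_red C hf.1]
    exact qExpand_injective (R := kA A) (N := l) (h1.trans (map_zero _).symm)

/-! ### the kernel of reduction -/

theorem exists_UG_lift (C : Ctx A N ℓ) {x : FS A N} (hx : x ≠ 0) :
    ∃ f : FB N, UG A N f ∧ red A N f = x := by
  haveI := finite_tS C false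
  haveI := separable_tS C false
  obtain ⟨a, b, ha, hb, hb0, hxab⟩ : ∃ a b : FS A N, BS A N false a ∧ BS A N false b ∧ b ≠ 0 ∧
      x = a / b := by
    refine with_sepChart (transcendental_tS A N false) ?_
    intro _ _ _ _ _ _ hp _ _
    obtain ⟨a, b, hb0, hab⟩ := RR.Chart.exists_div (K := kA A) x
    have hint : ∀ z : RR.Chart.A (kA A) (FS A N), BS A N false (z : FS A N) := fun z => by
      show (Polynomial.aeval (R := kA A) (tS A N false)).toRingHom.IsIntegralElem _
      rw [show (Polynomial.aeval (R := kA A) (tS A N false)).toRingHom =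
        algebraMap (kA A)[X] (FS A N) from RingHom.ext fun r => (hp r).symm]
      exact z.2
    exact ⟨a, b, hint a, hint b, hb0, hab⟩
  obtain ⟨a', ha', har⟩ := exists_lift C ha
  obtain ⟨b', hb', hbr⟩ := exists_lift C hb
  have haU : UG A N a' := ⟨BT.mem_GR C ha', by
    rw [har]; intro h0; exact hx (by rw [hxab, h0, zero_div])⟩
  have hbU : UG A N b' := ⟨BT.mem_GR C hb', by rw [hbr]; exact hb0⟩
  obtain ⟨hbi, hbir⟩ := hbU.inv C
  exact ⟨a' * b'⁻¹, haU.mul C hbi, by
    rw [red_mul C haU.1 hbi.1, hbir, har, hbr, hxab, div_eq_mul_inv]⟩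

variable (hl : l.Prime) (hlN : ¬ l ∣ N) (hlℓ : l ≠ ℓ) (C : Ctx A N ℓ)
include hl hlN hlℓ C

theorem ctx_mul : Ctx A (N * l) ℓ :=
  ⟨C.prime, fun h => (C.prime.dvd_mul.mp h).elim C.not_dvd fun h' =>
    hlℓ ((Nat.prime_dvd_prime_iff_eq C.prime hl).mp h').symm, C.lies⟩

set_option maxHeartbeats 1600000 in
/-- the reduced image of a point under `T_l` depends only on the reduction of the point -/
theorem mapDomain_correspondence_congr [HasPrincipalDivisors Reduction.Qb (FB (N * l))]
    (hα : (heckeAlphaBar Reduction.Qb N l).toRingHom.IsIntegral)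
    (hβ : (heckeBetaBar Reduction.Qb N l).toRingHom.IsIntegral) {P P' : PB N}
    (h : rP C P = rP C P') :
    Finsupp.mapDomain (rP C) (Divisor.correspondence (heckeBetaBar Reduction.Qb N l)
        (heckeAlphaBar Reduction.Qb N l) hβ hα (Finsupp.single P 1)) =
      Finsupp.mapDomain (rP C) (Divisor.correspondence (heckeBetaBar Reduction.Qb N l)
        (heckeAlphaBar Reduction.Qb N l) hβ hα (Finsupp.single P' 1)) := by
  classical
  have C' := ctx_mul hl hlN hlℓ C
  have hDa := degen_alpha C C'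
  let g : PS A (N * l) → PS A N := fun Q' => if h : ∃ W, rP C' W = Q'
    then rP C (h.choose.restrictAlong (heckeAlphaBar Reduction.Qb N l) hα) else rP C P
  have hg : ∀ W, g (rP C' W) = rP C (W.restrictAlong (heckeAlphaBar Reduction.Qb N l) hα) := by
    intro W
    have hex : ∃ V, rP C' V = rP C' W := ⟨W, rfl⟩
    simp only [g, dif_pos hex]
    exact hDa.rP_restrict hα C C' hex.choose_spec
  have hpush : ∀ D : Divisor Reduction.Qb (FB (N * l)),
      Finsupp.mapDomain (rP C) (Divisor.pushforwardAlong (heckeAlphaBar Reduction.Qb N l) hα D) =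
        Finsupp.mapDomain g (Finsupp.mapDomain (rP C') D) := by
    intro D
    induction D using Finsupp.induction with
    | zero => simp
    | single_add W n D _ _ ih =>
      simp only [map_add, Finsupp.mapDomain_add, ih]
      rw [Divisor.pushforwardAlong_single, HeckeJ.inertiaDegAlong_eq_one, Nat.cast_one, mul_one,
        Finsupp.mapDomain_single, Finsupp.mapDomain_single, Finsupp.mapDomain_single, hg]
  have happ : ∀ R : PB N, Divisor.correspondence (heckeBetaBar Reduction.Qb N l)
      (heckeAlphaBar Reduction.Qb N l) hβ hα (Finsupp.single R 1) =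
        Divisor.pushforwardAlong (heckeAlphaBar Reduction.Qb N l) hα
          (Divisor.pullbackAlong (heckeBetaBar Reduction.Qb N l) hβ (Finsupp.single R 1)) :=
    fun R => rfl
  rw [happ, happ, hpush, hpush, (degen_beta hl hlN C C').mapDomain_pullback hβ C C' h]

set_option maxHeartbeats 1600000 in
/-- the kernel of reduction is stable under `T_l` -/
theorem reductionModL_hecke_eq_zero {x : JZero N} (hx : reductionModL A N x = 0) :
    reductionModL A N (heckeOperatorBar N ⟨l, hl⟩ x) = 0 := by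
  classical
  haveI : HasPrincipalDivisors Reduction.Qb (FB (N * l)) := HeckeJ.hasPrincipalDivisors_bar (N * l)
  have hα : (heckeAlphaBar Reduction.Qb N l).toRingHom.IsIntegral :=
    HeckeJ.heckeAlphaBarIntegral N l
  have hβ : (heckeBetaBar Reduction.Qb N l).toRingHom.IsIntegral :=
    HeckeJ.heckeBetaBarIntegral N l
  have hFI : FundamentalIdentityAlong Reduction.Qb (heckeBetaBar Reduction.Qb N l) hβ :=
    HeckeJ.fundamentalIdentityAlong _ _
  have hfin : FiniteAlong Reduction.Qb (heckeAlphaBar Reduction.Qb N l) := HeckeJ.finiteAlong _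
  have hN : NormFormulaAlong Reduction.Qb (heckeAlphaBar Reduction.Qb N l) hfin :=
    HeckeJ.normFormulaAlong _ _
  obtain ⟨⟨D0, hD0⟩, rfl⟩ := Pic0.mk_surjective x
  rw [reductionModL_mk_rP C] at hx
  obtain ⟨φ₀, hφ₀, hφ₀D⟩ : Finsupp.mapDomain (rP C) D0 ∈
      Divisor.principal (K := kA A) (F := FS A N) :=
    (QuotientAddGroup.eq_zero_iff (reductionDegZeroAlong (rP C) (deg_rP C) ⟨D0, hD0⟩)).mp hx
  obtain ⟨f, hf, hfr⟩ := exists_UG_lift C hφ₀
  set D := D0 - dv f with hD
  have hDdeg : Divisor.degree D = 0 := by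
    rw [hD, map_sub, Divisor.mem_degZero.mp hD0, degree_dv (hf.ne_zero C), sub_zero]
  have hr0 : Finsupp.mapDomain (rP C) D = 0 := by
    refine Finsupp.ext fun Q => ?_
    have h1 := defect_eq_zero C hf Q
    rw [defect, sub_eq_zero, hfr] at h1
    rw [hD, ← Finsupp.mapDomain.addMonoidHom_apply, map_sub, Finsupp.sub_apply,
      Finsupp.mapDomain.addMonoidHom_apply, Finsupp.mapDomain.addMonoidHom_apply, h1, hφ₀D,
      sub_self, Finsupp.zero_apply]
  have hcl : Pic0.mk (⟨D0, hD0⟩ : Divisor.degZero (K := Reduction.Qb) (F := FB N)) =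
      Pic0.mk ⟨D, Divisor.mem_degZero.mpr hDdeg⟩ := by
    refine QuotientAddGroup.eq.mpr ?_
    show -D0 + D ∈ Divisor.principal (K := Reduction.Qb) (F := FB N)
    rw [hD, neg_add_eq_sub, sub_sub_cancel_left]
    exact AddSubgroup.neg_mem _ (dv_mem_principal (hf.ne_zero C))
  rw [hcl]
  have e : heckeOperatorBar N ⟨l, hl⟩ (Pic0.mk ⟨D, Divisor.mem_degZero.mpr hDdeg⟩) =
      Pic0.mk (Pic0.degZeroCorrespondence (heckeBetaBar Reduction.Qb N l)
        (heckeAlphaBar Reduction.Qb N l) hβ hα hFI ⟨D, Divisor.mem_degZero.mpr hDdeg⟩) := by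
    show heckeOperatorAlong Reduction.Qb N l (Pic0.mk _) = _
    rw [heckeOperatorAlong_eq hα hβ hFI hfin hN]
    rfl
  rw [e, reductionModL_mk_rP C]
  refine Eq.trans (congrArg Pic0.mk (a₂ := 0) ?_) (QuotientAddGroup.mk_zero _)
  refine Subtype.ext ?_
  show Finsupp.mapDomain (rP C) (Divisor.correspondence (heckeBetaBar Reduction.Qb N l)
    (heckeAlphaBar Reduction.Qb N l) hβ hα D) = 0
  set Δ : Divisor Reduction.Qb (FB N) →+ Divisor (kA A) (FS A N) :=
    (Finsupp.mapDomain.addMonoidHom (rP C)).comp (Divisor.correspondence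
      (heckeBetaBar Reduction.Qb N l) (heckeAlphaBar Reduction.Qb N l) hβ hα)
  let F : PS A N → Divisor (kA A) (FS A N) := fun Q =>
    if h : ∃ P, rP C P = Q then Δ (Finsupp.single h.choose 1) else 0
  have hF : ∀ P, Δ (Finsupp.single P 1) = F (rP C P) := by
    intro P
    have hex : ∃ R, rP C R = rP C P := ⟨P, rfl⟩
    simp only [F, dif_pos hex]
    exact mapDomain_correspondence_congr hl hlN hlℓ C hα hβ hex.choose_spec.symm
  let G : Divisor (kA A) (FS A N) →+ Divisor (kA A) (FS A N) :=
    Finsupp.liftAddHom fun Q => (zmultiplesHom _) (F Q)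
  have hΔ : ∀ E, Δ E = G (Finsupp.mapDomain (rP C) E) := by
    intro E
    induction E using Finsupp.induction with
    | zero => simp
    | single_add P n E _ _ ih =>
      rw [map_add, Finsupp.mapDomain_add, map_add, ih, Finsupp.mapDomain_single,
        Finsupp.liftAddHom_apply_single, zmultiplesHom_apply, ← hF, ← map_zsmul,
        Finsupp.smul_single, smul_eq_mul, mul_one]
  show Δ D = 0
  rw [hΔ, hr0, map_zero]

/-- reduction determines the reduction of `T_l` -/
theorem reductionModL_hecke_congr {x y : JZero N}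
    (h : reductionModL A N x = reductionModL A N y) :
    reductionModL A N (heckeOperatorBar N ⟨l, hl⟩ x) =
      reductionModL A N (heckeOperatorBar N ⟨l, hl⟩ y) := by
  have h1 := reductionModL_hecke_eq_zero hl hlN hlℓ C (x := x - y) (by rw [map_sub, h, sub_self])
  rwa [map_sub, map_sub, sub_eq_zero] at h1

/-- classes supported on points with the same reduction stay in the kernel under `T_l` -/
theorem reductionModL_hecke_of_mapDomain {D : Divisor.degZero (K := Reduction.Qb) (F := FB N)}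
    (h : Finsupp.mapDomain (rP C) (D : Divisor Reduction.Qb (FB N)) = 0) :
    reductionModL A N (heckeOperatorBar N ⟨l, hl⟩ (Pic0.mk D)) = 0 := by
  refine reductionModL_hecke_eq_zero hl hlN hlℓ C ?_
  rw [reductionModL_mk_rP C]
  exact (congrArg Pic0.mk (Subtype.ext h : reductionDegZeroAlong (rP C) (deg_rP C) D = 0)).trans
    (QuotientAddGroup.mk_zero _)

end FLTAgent.EIS
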