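import Fermat.Agent.EIS.Bound
import Fermat.Agent.EIS.RedHecke
import Fermat.Agent.EIS.Cusp
import Fermat.Agent.EIS.Point
import Fermat.Agent.EIS.FreyDefs

/-!
Area EIS: the final comparison.  If the classes of the rational points in the Eisenstein quotient are
bounded, a rational place reducing to the same cusp at `2` and at `3` reduces to that cusp at every
prime where it reduces to a cusp.
-/

set_option autoImplicit false
set_option linter.unusedSectionVars false
set_option linter.style.haveILetI false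
set_option maxHeartbeats 2000000

noncomputable section

open ModularCurve AlgebraicCurve

namespace FLTAgent.EIS

open Reduction (FB PB rP Ctx kA frobS)
open SS2 (galFn)

variable {p r : ℕ} [NeZero p] {A : ValuationSubring Qb}

/-- the kernel of reduction is stable under every Hecke operator prime to the level -/
theorem redStable (hp : p.Prime) (C : Ctx A p r) : RedStable p A := fun ℓ hℓ x hx => by
  obtain ⟨l, hl⟩ := ℓ
  by_cases h : l = r
  · subst h
    haveI : NeZero l := ⟨hl.ne_zero⟩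
    rw [show (⟨l, hl⟩ : Nat.Primes) = ⟨l, C.prime⟩ from rfl, Reduction.reductionModL_hecke C x, hx,
      show frobS C • (0 : JZeroC (kA A) p) = 0 from
        map_zero (DistribSMul.toAddMonoidHom (JZeroC (kA A) p) (frobS C)),
      show (frobS C)⁻¹ • (0 : JZeroC (kA A) p) = 0 from
        map_zero (DistribSMul.toAddMonoidHom (JZeroC (kA A) p) (frobS C)⁻¹), smul_zero, add_zero]
  · haveI : NeZero l := ⟨hl.ne_zero⟩
    exact reductionModL_hecke_eq_zero hl (fun hd => hℓ ((Nat.prime_dvd_prime_iff_eq hl hp).mp hd)) h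
      C hx

theorem pow_kill_add {G : Type*} [AddCommGroup G] {b a : ℕ} {r : ℕ} {t z : G} (ht : r ^ a • t = 0)
    (hz : r ^ b • z = 0) (i j : ℕ) : r ^ (a + b) • (i • t + j • z) = 0 := by
  rw [nsmul_add, smul_comm _ i, smul_comm _ j,
    show r ^ (a + b) • t = r ^ b • r ^ a • t by rw [← mul_nsmul', ← pow_add, add_comm b],
    show r ^ (a + b) • z = r ^ a • r ^ b • z by rw [← mul_nsmul', ← pow_add],
    ht, hz, smul_zero, smul_zero, smul_zero, smul_zero, add_zero]

/-- A rational class that reduces to zero at some prime different from `r` reduces, at every prime,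
into the reduction of `K` after multiplication by an integer prime to `r`. -/
theorem exists_red_mem (H : Cond p r A) {q : ℕ} {B₀ : ValuationSubring Qb}
    (C₀ : Ctx B₀ p q) (hqr : q ≠ r) {x : JZero p} (hx : ∀ g : GalQ, g • x = x)
    (hx₀ : reductionModL B₀ p x = 0) {ℓ : ℕ} {B : ValuationSubring Qb} (C : Ctx B p ℓ) :
    ∃ k : ℕ, ¬ r ∣ k ∧ ∃ z ∈ KJ H, k • reductionModL B p x = reductionModL B p z := by
  obtain ⟨s, hb⟩ := exists_uniform_div H
  obtain ⟨v₁, k₁, hk₁, h₁⟩ := exists_kill_red H C₀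
  obtain ⟨v₂, k₂, hk₂, h₂⟩ := exists_kill_red H C
  obtain ⟨y, hy, hm⟩ := hb x hx (v₁ + v₂ + s)
  obtain ⟨z₁, hz₁, e₁⟩ := h₁ y hy
  obtain ⟨z₂, hz₂, e₂⟩ := h₂ y hy
  set t := x - r ^ (v₁ + v₂) • y with ht
  have hts : r ^ s • t ∈ KJ H := by
    rw [ht, nsmul_sub, ← mul_nsmul', ← pow_add, add_comm s]
    exact hm
  clear_value t
  -- the remainder lies in `K`
  have hd : k₁ • t + r ^ v₂ • z₁ = 0 := by
    obtain ⟨M₁, hM₁⟩ := mem_torR_of_mem_KJ H hts
    obtain ⟨M₂, hM₂⟩ := mem_torR_of_mem_KJ H hz₁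
    refine Reduction.eq_zero_of_torsion C₀ (m := r ^ (M₁ + s + M₂)) (fun h => hqr ?_) ?_ ?_
    · exact (Nat.prime_dvd_prime_iff_eq C₀.prime H.hr).mp (C₀.prime.dvd_of_dvd_pow h)
    · have e3 : r ^ (M₁ + s) • t = 0 := (congrArg (· • t) (pow_add r M₁ s)).trans
        ((mul_nsmul' t (r ^ M₁) (r ^ s)).trans hM₁)
      exact pow_kill_add (t := t) (z := z₁) e3 hM₂ k₁ (r ^ v₂)
    · rw [ht, map_add, map_nsmul, map_nsmul, map_sub, map_nsmul, hx₀,
        zero_sub, neg_nsmul, ← e₁, ← mul_nsmul', ← mul_nsmul', pow_add]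
      rw [show k₁ * (r ^ v₁ * r ^ v₂) = r ^ v₂ * (r ^ v₁ * k₁) by ring, neg_add_cancel]
  have hk₁t : k₁ • t ∈ KJ H := by
    rw [eq_neg_of_add_eq_zero_left hd]
    exact neg_mem (nsmul_mem hz₁ _)
  have htK : t ∈ KJ H := by
    have hco : Nat.Coprime k₁ (r ^ s) :=
      Nat.Coprime.pow_right s (((Nat.Prime.coprime_iff_not_dvd H.hr).mpr hk₁).symm)
    have hg := Int.gcd_eq_gcd_ab (k₁ : ℤ) ((r ^ s : ℕ) : ℤ)
    rw [Int.gcd_natCast_natCast, hco.gcd_eq_one, Nat.cast_one] at hg
    have e : t = (k₁ : ℤ).gcdA ((r ^ s : ℕ) : ℤ) • (k₁ • t) +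
        (k₁ : ℤ).gcdB ((r ^ s : ℕ) : ℤ) • (r ^ s • t) := by
      rw [← natCast_zsmul, ← natCast_zsmul, ← mul_zsmul, ← mul_zsmul, ← add_zsmul]
      rw [show (Int.gcdA (k₁ : ℤ) ((r ^ s : ℕ) : ℤ) * (k₁ : ℤ) +
        Int.gcdB (k₁ : ℤ) ((r ^ s : ℕ) : ℤ) * ((r ^ s : ℕ) : ℤ)) = 1 by linarith, one_zsmul]
    rw [e]
    exact add_mem (zsmul_mem hk₁t _) (zsmul_mem hts _)
  -- reduce at the second prime
  refine ⟨k₂, hk₂, k₂ • t + r ^ v₁ • z₂,
    add_mem (nsmul_mem htK _) (nsmul_mem hz₂ _), ?_⟩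
  rw [map_add, map_nsmul, map_nsmul, ht, map_sub, map_nsmul, ← e₂, nsmul_sub,
    ← mul_nsmul', ← mul_nsmul', pow_add,
    show r ^ v₁ * (r ^ v₂ * k₂) = k₂ * (r ^ v₁ * r ^ v₂) by ring, sub_add_cancel]

/-- A multiple prime to `r` of the cusp class does not reduce into the reduction of `K`. -/
theorem cusp_not_red_mem (H : Cond p r A)
    (hsep : ∀ n : ℕ, reductionModL A p (n • cuspClass p) = 0 → r ∣ n)
    {ℓ : ℕ} {B : ValuationSubring Qb} (C : Ctx B p ℓ) (hB : ℓ ≠ r ∨ B = A) {k : ℕ} (hk : ¬ r ∣ k)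
    {z : JZero p} (hz : z ∈ KJ H) :
    k • reductionModL B p (cuspClass p) ≠ reductionModL B p z := by
  intro heq
  obtain ⟨v, u, hu, ho⟩ := Nat.exists_eq_pow_mul_and_not_dvd
    (addOrderOf_cuspClass_pos H.hp).ne' r H.hr.ne_one
  obtain ⟨w, hw, rfl⟩ := hz
  obtain ⟨M, hM⟩ := w.2
  set c := cuspClass p with hc
  have hcr : r ^ v • (u * k) • c = 0 := by
    rw [← mul_nsmul', ← mul_assoc, ← ho, mul_comm, mul_nsmul', addOrderOf_nsmul_eq_zero, smul_zero]
  let cr : JR p r := ⟨(u * k) • c, v, hcr⟩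
  have hcrM : r ^ (v + M) • cr = 0 :=
    Subtype.ext (by
      show r ^ (v + M) • (u * k) • c = 0
      rw [pow_add, mul_comm, mul_nsmul', hcr, smul_zero])
  have hwM : r ^ (v + M) • w = 0 :=
    Subtype.ext (by
      show r ^ (v + M) • (w : JZero p) = 0
      rw [pow_add, mul_nsmul', hM, smul_zero])
  -- the multiple of the cusp class is Eisenstein
  have hpr : (raw H).pr (v + M) cr = cr := by
    refine proj_eq_self _ _ _ _ ((mem_nilPart _ _).mpr ⟨⟨v + M, hcrM⟩, fun i => ⟨1, ?_⟩⟩) hcrM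
    refine Subtype.ext ?_
    rw [pow_one]
    show ((Xop p r i cr : JR p r) : JZero p) = 0
    rw [Xop_apply, AddSubgroupClass.coe_sub, AddSubgroupClass.coe_nsmul, coe_hkR]
    have hd : ¬ (i.1 : ℕ) ∣ p := fun hd => i.2.1 ((Nat.prime_dvd_prime_iff_eq i.1.2 H.hp).mp hd)
    show heckeOperatorBar p i.1 ((u * k) • c) - ((i.1 : ℕ) + 1) • (u * k) • c = 0
    rw [map_nsmul, hc, hecke_cuspClass H.hp, eisensteinSystem_of_not_dvd hd,
      show (1 : ℤ) + ((i.1 : ℕ) : ℤ) = (((i.1 : ℕ) + 1 : ℕ) : ℤ) by push_cast; ring, natCast_zsmul,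
      smul_comm, sub_self]
  set d : JR p r := cr - u • w with hddef
  have hdM : r ^ (v + M) • d = 0 := by
    rw [hddef, nsmul_sub, hcrM, smul_comm, hwM, smul_zero, sub_zero]
  have hdB : reductionModL B p (d : JZero p) = 0 := by
    show reductionModL B p ((u * k) • c - ((u • w : JR p r) : JZero p)) = 0
    rw [AddSubgroupClass.coe_nsmul, map_sub, map_nsmul, map_nsmul, mul_nsmul', heq]
    exact sub_self _
  have hdA : (raw H).red ((raw H).pr (v + M) d) = 0 := by
    refine hB.elim (fun hℓ => ?_) (fun h => ?_)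
    · have h0 : d = 0 := Subtype.ext (Reduction.eq_zero_of_torsion C (m := r ^ (v + M))
        (fun h => hℓ ((Nat.prime_dvd_prime_iff_eq C.prime H.hr).mp (C.prime.dvd_of_dvd_pow h)))
        (congrArg Subtype.val hdM) hdB)
      rw [h0, map_zero, map_zero]
    · subst h
      exact (raw H).ring_red ((raw H).pr_mem _) d hdB
  have hw0 : (raw H).red ((raw H).pr (v + M) w) = 0 := by
    have := (raw H).red_of_mem_K hw hwM (1 : GalQ)
    rwa [one_smul] at this
  rw [hddef, map_sub, map_nsmul, map_sub, map_nsmul, hpr, hw0, smul_zero, sub_zero] at hdA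
  exact (H.hr.dvd_mul.mp (hsep (u * k) hdA)).elim hu hk

/-! ### divisors supported on two places -/

/-- the class of `[X] - [Y]` -/
def pairClass (X Y : PB p) : JZero p :=
  Pic0.mk ⟨Finsupp.single X 1 - Finsupp.single Y 1, by
    rw [Divisor.mem_degZero, map_sub, Divisor.degree_single, Divisor.degree_single, RR.deg_eq_one,
      RR.deg_eq_one, sub_self]⟩

theorem smul_pairClass {X Y : PB p} (σ : GalQ) (hX : galFn p σ • X = X) (hY : galFn p σ • Y = Y) :
    σ • pairClass X Y = pairClass X Y := by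
  rw [pairClass, galois_smul_pic0_def, SemilinearAut.pic0_smul_mk]
  refine congrArg Pic0.mk (Subtype.ext ?_)
  show galFn p σ • (Finsupp.single X (1 : ℤ) - Finsupp.single Y 1) = _
  rw [smul_sub, SemilinearAut.smul_single, SemilinearAut.smul_single, hX, hY]

theorem reduction_pairClass_congr {ℓ : ℕ} {B : ValuationSubring Qb} (C : Ctx B p ℓ)
    {X Y X' Y' : PB p} (hX : rP C X = rP C X') (hY : rP C Y = rP C Y') :
    reductionModL B p (pairClass X Y) = reductionModL B p (pairClass X' Y') := by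
  rw [pairClass, pairClass, Reduction.reductionModL_mk_rP C, Reduction.reductionModL_mk_rP C]
  refine congrArg Pic0.mk (Subtype.ext ?_)
  show Finsupp.mapDomain (rP C) (Finsupp.single X (1 : ℤ) - Finsupp.single Y 1) =
    Finsupp.mapDomain (rP C) (Finsupp.single X' (1 : ℤ) - Finsupp.single Y' 1)
  have h : ∀ a b : PB p, Finsupp.mapDomain (rP C) (Finsupp.single a (1 : ℤ) - Finsupp.single b 1) =
      Finsupp.single (rP C a) 1 - Finsupp.single (rP C b) 1 := fun a b => by
    rw [← Finsupp.mapDomain.addMonoidHom_apply, map_sub, Finsupp.mapDomain.addMonoidHom_apply,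
      Finsupp.mapDomain.addMonoidHom_apply, Finsupp.mapDomain_single, Finsupp.mapDomain_single]
  rw [h, h, hX, hY]

theorem pairClass_self (X : PB p) : pairClass X X = 0 := by
  have e : (⟨Finsupp.single X 1 - Finsupp.single X 1, by
      rw [sub_self]; exact zero_mem _⟩ : Divisor.degZero (K := Qb) (F := FB p)) = 0 :=
    Subtype.ext (sub_self _)
  rw [pairClass, e]
  exact map_zero (QuotientAddGroup.mk' _)

theorem pairClass_swap (X Y : PB p) : pairClass Y X = -pairClass X Y := by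
  rw [pairClass, pairClass]
  refine Eq.trans (congrArg Pic0.mk (Subtype.ext ?_)) (map_neg (QuotientAddGroup.mk' _) _)
  exact (neg_sub _ _).symm

section Cusps

variable [Fact p.Prime]

theorem pairClass_P0_Poo : pairClass (P0 p) (Poo p) = cuspClass p := by
  rw [← cuspInf_eq_Poo, ← cuspZero_eq_P0]
  rfl

end Cusps

end FLTAgent.EIS

end
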