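import Fermat.Agent.EIS.Defs
import Fermat.Agent.Attach.Cyclotomic

/-!
Area EIS: when every `(σ - 1)(σ - χ(σ))` is nilpotent and central, the simple constituents are the
trivial and the cyclotomic character.
-/

set_option autoImplicit false

noncomputable section

namespace FLTAgent.EIS

/-- a purely group theoretic statement -/
theorem exists_eigen {G : Type} [Group G] {S : Type} [AddCommGroup S] [DistribMulAction G S]
    [Finite S] {r : ℕ} (hr : r.Prime) (hS : ∃ s : S, s ≠ 0) (hkill : ∀ s : S, r • s = 0)
    (hsimple : ∀ N : AddSubgroup S, (∀ g : G, ∀ x ∈ N, g • x ∈ N) → N ≠ ⊥ → N = ⊤)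
    (χ : G →* ZMod r) (a : G → ℕ) (ha : ∀ g, (a g : ZMod r) = χ g)
    (hnil : ∀ g : G, ∃ k : ℕ, ∀ s : S,
      ((fun y => g • (g • y - a g • y) - (g • y - a g • y))^[k]) s = 0)
    (hcent : ∀ g h : G, ∀ s : S,
      h • (g • (g • s - a g • s) - (g • s - a g • s)) =
        g • (g • (h • s) - a g • (h • s)) - (g • (h • s) - a g • (h • s)) ∨
      h • g⁻¹ • (g • (g • s - a g • s) - (g • s - a g • s)) =
        g⁻¹ • (g • (g • (h • s) - a g • (h • s)) - (g • (h • s) - a g • (h • s)))) :
    ∃ s : S, s ≠ 0 ∧ ((∀ g : G, g • s = s) ∨ ∀ g : G, g • s = a g • s) := by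
  classical
  have hsm : ∀ (g : G) (n : ℕ) (s : S), g • n • s = n • g • s := fun g n s =>
    map_nsmul (DistribSMul.toAddMonoidHom S g) n s
  let u : G → S →+ S := fun g =>
    (DistribSMul.toAddMonoidHom S g - AddMonoidHom.id S).comp
      (DistribSMul.toAddMonoidHom S g - a g • AddMonoidHom.id S)
  have hu : ∀ g s, u g s = g • (g • s - a g • s) - (g • s - a g • s) := fun g s => rfl
  -- each `(g - 1)(g - χ g)` vanishes
  have hzero : ∀ g s, u g s = 0 := by
    intro g
    have hker : (u g).ker ≠ ⊥ := by
      intro hbot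
      obtain ⟨s, hs⟩ := hS
      obtain ⟨k, hk⟩ := hnil g
      have hinj : Function.Injective (u g) := (AddMonoidHom.ker_eq_bot_iff _).mp hbot
      have : ∀ k, Function.Injective (u g)^[k] := fun k => hinj.iterate k
      exact hs (this k ((hk s).trans (Function.iterate_fixed (map_zero (u g)) k).symm))
    have hst : ∀ h : G, ∀ x ∈ (u g).ker, h • x ∈ (u g).ker := by
      intro h x hx
      have hx' : g • (g • x - a g • x) - (g • x - a g • x) = 0 := hx
      rcases hcent g h x with e | e
      · rw [hx', smul_zero] at e; exact e.symm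
      · rw [hx', smul_zero, smul_zero] at e
        have e2 := e.symm
        rw [inv_smul_eq_iff, smul_zero] at e2
        exact e2
    exact fun s => (hsimple _ hst hker ▸ AddSubgroup.mem_top s : s ∈ (u g).ker)
  -- the kernel of `χ` acts trivially
  have hmodr : ∀ (m n : ℕ) (s : S), (m : ZMod r) = n → m • s = n • s := by
    intro m n s h
    rw [ZMod.natCast_eq_natCast_iff'] at h
    rw [← Nat.mod_add_div m r, ← Nat.mod_add_div n r, add_nsmul, add_nsmul, mul_comm r, mul_comm r,
      mul_nsmul', mul_nsmul', hkill, nsmul_zero, nsmul_zero, h]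
  have hH : ∀ g : G, χ g = 1 → ∀ s : S, g • s = s := by
    by_contra hne
    push_neg at hne
    let H := χ.ker
    let Gb : Type := ↥(MonoidHom.range (MulAction.toPermHom H S))
    haveI : Finite Gb := inferInstance
    have hp : IsPGroup r Gb := by
      rintro ⟨_, ⟨g, rfl⟩⟩
      refine ⟨1, Subtype.ext (Equiv.ext fun s => ?_)⟩
      show ((MulAction.toPermHom H S g) ^ r ^ 1) s = s
      rw [pow_one, ← map_pow]
      show ((g ^ r : H) : G) • s = s
      rw [SubmonoidClass.coe_pow]
      have hfix : ∀ y : S, (g : G) • ((g : G) • y - y) = (g : G) • y - y := fun y => by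
        have := hzero g y
        rw [hu, hmodr (a g) 1 y (by rw [ha, Nat.cast_one]; exact g.2), one_nsmul] at this
        exact sub_eq_zero.mp this
      have hpow : ∀ n : ℕ, (g : G) ^ n • s = s + n • ((g : G) • s - s) := fun n => by
        induction n with
        | zero => simp
        | succ n ih =>
          rw [pow_succ', mul_smul, ih, smul_add, hsm, hfix, succ_nsmul]
          abel
      rw [hpow, hkill, add_zero]
    letI : MulAction Gb S := MulAction.compHom S (Subgroup.subtype _)
    haveI : Fact r.Prime := ⟨hr⟩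
    have hcard : r ∣ Nat.card S := by
      obtain ⟨s, hs⟩ := hS
      have := addOrderOf_eq_prime (p := r) (hkill s) hs
      rw [← this]
      exact addOrderOf_dvd_natCard s
    have hzfix : (0 : S) ∈ MulAction.fixedPoints Gb S := by
      rintro ⟨_, ⟨g, rfl⟩⟩
      show ((g : H) : G) • (0 : S) = 0
      exact smul_zero _
    obtain ⟨s, hs, hs0⟩ := hp.exists_fixed_point_of_prime_dvd_card_of_fixed_point S hcard hzfix
    let N : AddSubgroup S :=
      { carrier := {x | ∀ g : G, χ g = 1 → g • x = x}
        zero_mem' := fun g _ => smul_zero g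
        add_mem' := fun {x y} hx hy g hg => by rw [smul_add, hx g hg, hy g hg]
        neg_mem' := fun {x} hx g hg => by rw [smul_neg, hx g hg] }
    have hN : ∀ h : G, ∀ x ∈ N, h • x ∈ N := fun h x hx g hg => by
      have : χ (h⁻¹ * g * h) = 1 := by
        rw [map_mul, map_mul, hg, mul_one, ← map_mul, inv_mul_cancel, map_one]
      have e := hx _ this
      rw [mul_smul, mul_smul, inv_smul_eq_iff] at e
      exact e
    have hsN : s ∈ N := fun g hg => hs ⟨_, ⟨g, hg⟩, rfl⟩
    have hNe : N ≠ ⊥ := fun h => hs0 ((AddSubgroup.mem_bot.mp (h ▸ hsN)).symm)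
    have := hsimple N hN hNe
    obtain ⟨g, hg, x, hx⟩ := hne
    exact hx ((this ▸ AddSubgroup.mem_top x : x ∈ N) g hg)
  -- so the action is abelian
  have hab : ∀ g h : G, ∀ s : S, g • h • s = h • g • s := fun g h s => by
    have : χ ((h * g)⁻¹ * (g * h)) = 1 := by
      rw [map_mul, map_mul χ g h, mul_comm (χ g), ← map_mul, ← map_mul, inv_mul_cancel, map_one]
    have e := hH _ this s
    rw [mul_smul, inv_smul_eq_iff, mul_smul, mul_smul] at e
    exact e
  have halt : ∀ g : G, (∀ s : S, g • s = s) ∨ ∀ s : S, g • s = a g • s := by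
    intro g
    let K := (DistribSMul.toAddMonoidHom S g - AddMonoidHom.id S).ker
    by_cases hK : K = ⊥
    · refine Or.inr fun s => ?_
      have := hzero g s
      rw [hu] at this
      have hmem : g • s - a g • s ∈ K := this
      rw [hK, AddSubgroup.mem_bot] at hmem
      exact sub_eq_zero.mp hmem
    · have hst : ∀ h : G, ∀ x ∈ K, h • x ∈ K := fun h x hx => by
        have hx' : g • x - x = 0 := hx
        show g • h • x - h • x = 0
        rw [hab, ← smul_sub, hx', smul_zero]
      refine Or.inl fun s => ?_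
      have := (hsimple K hst hK ▸ AddSubgroup.mem_top s : s ∈ K)
      exact sub_eq_zero.mp this
  obtain ⟨s, hs⟩ := hS
  refine ⟨s, hs, ?_⟩
  by_contra hcon
  push_neg at hcon
  obtain ⟨⟨g, hg⟩, ⟨h, hh⟩⟩ := hcon
  have hg' := (halt g).resolve_left fun e => hg (e s)
  have hh' := (halt h).resolve_right fun e => hh (e s)
  rcases halt (g * h) with e | e
  · have := e s
    rw [mul_smul, hh'] at this
    exact hg this
  · have := e s
    rw [mul_smul, hh', hg'] at this
    refine hh ?_
    rw [hh']
    -- `χ h = 1`, as `r` is the exponent of `S`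
    by_contra hne'
    have hab2 : (a g : ZMod r) = (a (g * h) : ℕ) := by
      by_contra hdiff
      rw [ZMod.natCast_eq_natCast_iff'] at hdiff
      have hord : addOrderOf s = r :=
        haveI : Fact r.Prime := ⟨hr⟩
        addOrderOf_eq_prime (p := r) (hkill s) hs
      apply hdiff
      have := (nsmul_eq_nsmul_iff_modEq).mp this
      rwa [hord] at this
    rw [ha, ha, map_mul] at hab2
    have hu' : IsUnit (χ g) := ⟨⟨χ g, χ g⁻¹, by rw [← map_mul, mul_inv_cancel, map_one],
      by rw [← map_mul, inv_mul_cancel, map_one]⟩, rfl⟩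
    have h1 : χ h = 1 := (hu'.mul_left_cancel (by rw [mul_one]; exact hab2)).symm
    exact hne' ((one_nsmul s).symm.trans (hmodr 1 (a h) s (by rw [Nat.cast_one, ha, h1])))

end FLTAgent.EIS

end
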