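import Fermat.Agent.EIS.CuspPlace
import Fermat.Prelude.Def_ModularCurve_HeckeModule
import Mathlib.Tactic.LinearCombination

/-!
The cusp class of `X₀(p)` and the Hecke operators on it.
-/

set_option autoImplicit false
set_option linter.unusedSectionVars false
set_option synthInstance.maxHeartbeats 200000

noncomputable section

open ModularCurve AlgebraicCurve
open FLTAgent.Reduction (FB PB Qb)

namespace FLTAgent.EIS

/-! ### degeneracy maps -/

variable {q d M : ℕ} [NeZero q] [NeZero d] [NeZero M]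

theorem laurentBaseChange_full_mono {a b : ℕ} [NeZero a] [NeZero b] (h : a ∣ b) :
    modularFunctionFieldBar a ≤ modularFunctionFieldBar b :=
  IntermediateField.adjoin.mono _ _ _ (Set.image_mono (full_degeneracy_le h))

/-- `f(τ) ↦ f(dτ)` from level `q` to a multiple of `q d` -/
def dgn (q d M : ℕ) [NeZero q] [NeZero d] [NeZero M] (h : q * d ∣ M) : FB q →ₐ[Qb] FB M :=
  (IntermediateField.inclusion (laurentBaseChange_full_mono h)).comp (heckeBetaBar Qb q d)

theorem coe_dgn (h : q * d ∣ M) (x : FB q) :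
    (dgn q d M h x : LaurentSeries Qb) = qExpand Qb d (x : LaurentSeries Qb) := rfl

theorem qExpand_coeffEmb (n : ℕ) [NeZero n] (x : LaurentSeries ℚ) :
    qExpand Qb n (coeffEmb Qb x) = coeffEmb Qb (qExpand ℚ n x) := by
  rw [coeffEmb, ← ModularCurve.coeffMap_qExpand]

/-- over a cusp of `X₀(q)` the two functions have proportional orders -/
theorem cusp_ratio (hq : q.Prime) (φ : FB q →ₐ[Qb] FB M) (hφ : φ.toRingHom.IsIntegral)
    (W : PB M) (h : W.ord (φ (ModFun.jBar q)) < 0 ∨ W.ord (φ (ModFun.jNBar q)) < 0) :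
    W.ord (φ (ModFun.jBar q)) < 0 ∧ W.ord (φ (ModFun.jNBar q)) < 0 ∧
    ((W.restrictAlong φ hφ = cuspInf q ∧
        W.ord (φ (ModFun.jNBar q)) = (q : ℤ) * W.ord (φ (ModFun.jBar q))) ∨
      (W.restrictAlong φ hφ = cuspZero q ∧
        W.ord (φ (ModFun.jBar q)) = (q : ℤ) * W.ord (φ (ModFun.jNBar q)))) := by
  rw [Place.ord_restrictAlong φ hφ, Place.ord_restrictAlong φ hφ] at h ⊢
  set e : ℤ := (Place.ramificationIndexAlong φ W : ℤ) with he
  have he0 : 0 ≤ e := Int.natCast_nonneg _
  have hcase : W.restrictAlong φ hφ = cuspInf q ∨ W.restrictAlong φ hφ = cuspZero q := by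
    rcases h with h | h
    · exact cusp_cases hq (by nlinarith)
    · exact cusp_cases' hq (by nlinarith)
  have hq2 := hq.two_le
  rcases hcase with e' | e' <;> simp only [e'] at h ⊢
  · rw [ord_jBar_cuspInf, ord_jNBar_cuspInf] at h ⊢
    have hepos : 0 < e := by rcases h with h | h <;> nlinarith
    exact ⟨by nlinarith, by nlinarith, Or.inl ⟨trivial, by ring⟩⟩
  · rw [ord_jBar_cuspZero hq, ord_jNBar_cuspZero hq] at h ⊢
    have hepos : 0 < e := by rcases h with h | h <;> nlinarith
    exact ⟨by nlinarith, by nlinarith, Or.inr ⟨trivial, by ring⟩⟩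

/-! ### pushing divisors with support over one place -/

theorem pushforwardAlong_eq_single {F F' : Type*} [Field F] [Field F'] [Algebra Qb F] [Algebra Qb F']
    [RR.FnField Qb F] [RR.FnField Qb F'] (φ : F →ₐ[Qb] F') (hφ : φ.toRingHom.IsIntegral) {P : Place Qb F}
    (D : Divisor Qb F') (h : ∀ W ∈ D.support, W.restrictAlong φ hφ = P) :
    Divisor.pushforwardAlong φ hφ D = Finsupp.single P (Divisor.degree D) := by
  classical
  induction D using Finsupp.induction with
  | zero => simp
  | single_add W n D hW hn ih =>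
    have hsupp : (Finsupp.single W n + D).support = insert W D.support := by
      rw [Finsupp.support_add_eq (by
        rw [Finsupp.support_single_ne_zero _ hn]; simpa using hW),
        Finsupp.support_single_ne_zero _ hn, Finset.singleton_union]
    rw [hsupp] at h
    rw [map_add, map_add, ih fun V hV => h V (Finset.mem_insert_of_mem hV),
      Divisor.pushforwardAlong_single, HeckeJ.inertiaDegAlong_eq_one, Nat.cast_one, mul_one,
      h W (Finset.mem_insert_self _ _), Divisor.degree_single, RR.deg_eq_one, Nat.cast_one,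
      mul_one, Finsupp.single_add]

theorem ratio_false {p l a a' b b' : ℤ} (hp : 2 ≤ p) (hl : 2 ≤ l) (hpl : p ≠ l) (ha : a' < 0)
    (hb : b' = p * b) (hA : a = p * a') (h1 : b = l * a ∨ a = l * b)
    (h2 : b' = l * a' ∨ a' = l * b') : False := by
  have hne : a' ≠ 0 := ne_of_lt ha
  rcases h2 with e2 | e2 <;> rcases h1 with e1 | e1
  · have : (p * p * l - l) * a' = 0 := by subst b a; linear_combination e2 - hb
    rcases mul_eq_zero.mp this with h | h
    · nlinarith [mul_le_mul hp hp (by norm_num) (by linarith)]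
    · exact hne h
  · have : (p * p - l * l) * a' = 0 := by
      linear_combination l * e2 - l * hb + p * e1 - p * hA
    rcases mul_eq_zero.mp this with h | h
    · rcases mul_self_eq_mul_self_iff.mp (sub_eq_zero.mp h) with h' | h' <;> omega
    · exact hne h
  · have : (1 - l * l * p * p) * a' = 0 := by
      subst b a
      linear_combination e2 + l * hb
    rcases mul_eq_zero.mp this with h | h
    · nlinarith [mul_le_mul hl hl (by norm_num) (by linarith),
        mul_le_mul hp hp (by norm_num) (by linarith)]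
    · exact hne h
  · have : (1 - p * p) * a' = 0 := by linear_combination e2 + l * hb - p * e1 + p * hA
    rcases mul_eq_zero.mp this with h | h
    · nlinarith
    · exact hne h

/-! ### the class -/

variable (p : ℕ) [NeZero p]

/-- `[0] - [∞]` -/
def cuspDiv : Divisor.degZero (K := Qb) (F := FB p) :=
  ⟨Finsupp.single (cuspZero p) 1 - Finsupp.single (cuspInf p) 1, by
    rw [Divisor.mem_degZero, map_sub, Divisor.degree_single, Divisor.degree_single, RR.deg_eq_one,
      RR.deg_eq_one, sub_self]⟩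

/-- the cusp class -/
def cuspClass : JZero p := Pic0.mk (cuspDiv p)

theorem coe_cuspDiv : (cuspDiv p : Divisor Qb (FB p)) =
    Finsupp.single (cuspZero p) 1 - Finsupp.single (cuspInf p) 1 := rfl

variable {p}

theorem smul_cuspClass (hp : p.Prime) (σ : Qb ≃ₐ[ℚ] Qb) : σ • cuspClass p = cuspClass p := by
  rw [cuspClass, galois_smul_pic0_def, SemilinearAut.pic0_smul_mk]
  refine congrArg Pic0.mk (Subtype.ext ?_)
  show arithmeticGalois (modularFunctionFieldFull p) σ •
    (Finsupp.single (cuspZero p) (1 : ℤ) - Finsupp.single (cuspInf p) 1) = _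
  rw [smul_sub, SemilinearAut.smul_single, SemilinearAut.smul_single, smul_cuspInf hp,
    smul_cuspZero hp]
  rfl

/-! ### degrees -/

variable {l : ℕ} [NeZero l]

theorem ndeg_beta_jBar (hl : l.Prime) :
    RR.ndeg Qb (heckeBetaBar Qb p l (ModFun.jBar p)) = dedekindPsi (p * l) := by
  have h1 : (l * 1 : ℕ) ∣ p * l := by rw [mul_one]; exact dvd_mul_left _ _
  have eb : heckeBetaBar Qb p l (ModFun.jBar p) = dgn l 1 (p * l) h1 (ModFun.jNBar l) :=
    Subtype.ext (by
      rw [coe_heckeBetaBar, coe_dgn, qExpand_one_apply]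
      exact qExpand_coeffEmb l jq)
  have ej : dgn l 1 (p * l) h1 (ModFun.jBar l) = ModFun.jBar (p * l) :=
    Subtype.ext (by rw [coe_dgn, qExpand_one_apply]; rfl)
  have e2 := SS.ndeg_algHom (dgn l 1 (p * l) h1) (ModFun.jBar l)
  rw [ej, Reduction.ndeg_jBar_eq, ndeg_jBar_prime l hl] at e2
  rw [eb, SS.ndeg_algHom, ndeg_jNBar_prime l hl, e2]

theorem finrankAlong_beta (hp : p.Prime) (hl : l.Prime) :
    (p + 1) * finrankAlong Qb (heckeBetaBar Qb p l) = dedekindPsi (p * l) := by
  rw [← ndeg_beta_jBar hl, SS.ndeg_algHom, ndeg_jBar_prime p hp]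

theorem finrankAlong_alpha' (hp : p.Prime) :
    (p + 1) * finrankAlong Qb (heckeAlphaBar Qb p l) = dedekindPsi (p * l) := by
  have e : heckeAlphaBar Qb p l (ModFun.jBar p) = ModFun.jBar (p * l) :=
    Subtype.ext (coe_heckeAlphaBar p l _)
  rw [← Reduction.ndeg_jBar_eq (p * l), ← e, SS.ndeg_algHom, ndeg_jBar_prime p hp]

theorem finrankAlong_beta_of_ne (hp : p.Prime) (hl : l.Prime) (hpl : l ≠ p) :
    finrankAlong Qb (heckeBetaBar Qb p l) = l + 1 := by
  have h := finrankAlong_beta hp hl (l := l)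
  rw [Genus.dedekindPsi_mul ((Nat.coprime_primes hp hl).mpr (Ne.symm hpl)),
    Reduction.dedekindPsi_prime hp, Reduction.dedekindPsi_prime hl] at h
  exact Nat.eq_of_mul_eq_mul_left (Nat.succ_pos p) h

theorem dedekindPsi_prime_sq (hp : p.Prime) : dedekindPsi (p * p) = (p + 1) * p := by
  have h := Genus.dedekindPsi_prime_pow hp (k := 2) two_pos
  rw [pow_two] at h
  rw [h]
  simp
  ring

/-! ### `T_l`, `l ≠ p` -/

theorem correspondence_cusp_of_ne (hp : p.Prime) (hl : l.Prime) (hpl : l ≠ p)
    [HasPrincipalDivisors Qb (FB (p * l))]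
    (hα : (heckeAlphaBar Qb p l).toRingHom.IsIntegral)
    (hβ : (heckeBetaBar Qb p l).toRingHom.IsIntegral)
    (P : PB p) (hP : P = cuspInf p ∨ P = cuspZero p) :
    Divisor.correspondence (heckeBetaBar Qb p l) (heckeAlphaBar Qb p l) hβ hα (Finsupp.single P 1) =
      Finsupp.single P ((l : ℤ) + 1) := by
  classical
  rw [Divisor.correspondence_apply, pushforwardAlong_eq_single (P := P)]
  · rw [Divisor.degree_pullbackAlong _ hβ (HeckeJ.fundamentalIdentityAlong _ hβ),
      Divisor.degree_single, RR.deg_eq_one, finrankAlong_beta_of_ne hp hl hpl]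
    simp
  intro W hW
  rw [Finsupp.mem_support_iff, Divisor.pullbackAlong_apply, Finsupp.single_apply] at hW
  have hWP : P = W.restrictAlong (heckeBetaBar Qb p l) hβ := by
    by_contra hne; simp [hne] at hW
  have hepos : (0 : ℤ) < Place.ramificationIndexAlong (heckeBetaBar Qb p l) W := by
    rcases Nat.eq_zero_or_pos (Place.ramificationIndexAlong (heckeBetaBar Qb p l) W) with h | h
    · simp [h] at hW
    · exact_mod_cast h
  have hb : W.ord (heckeBetaBar Qb p l (ModFun.jBar p)) < 0 := by
    rw [Place.ord_restrictAlong _ hβ, ← hWP]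
    rcases hP with e | e <;> rw [e]
    · rw [ord_jBar_cuspInf]; nlinarith
    · rw [ord_jBar_cuspZero hp]; have := hp.two_le; nlinarith
  obtain ⟨-, hb', hβr⟩ := cusp_ratio hp _ hβ W (Or.inl hb)
  have h1 : (l * 1 : ℕ) ∣ p * l := by rw [mul_one]; exact dvd_mul_left _ _
  have h2 : (l * p : ℕ) ∣ p * l := by rw [mul_comm]
  have eb : heckeBetaBar Qb p l (ModFun.jBar p) = dgn l 1 (p * l) h1 (ModFun.jNBar l) :=
    Subtype.ext (by rw [coe_heckeBetaBar, coe_dgn, qExpand_one_apply]; exact qExpand_coeffEmb l jq)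
  have ea : heckeAlphaBar Qb p l (ModFun.jBar p) = dgn l 1 (p * l) h1 (ModFun.jBar l) :=
    Subtype.ext (by rw [coe_heckeAlphaBar, coe_dgn, qExpand_one_apply]; rfl)
  have eb' : heckeBetaBar Qb p l (ModFun.jNBar p) = dgn l p (p * l) h2 (ModFun.jNBar l) :=
    Subtype.ext (by
      rw [coe_heckeBetaBar, coe_dgn]
      show qExpand Qb l (coeffEmb Qb (qExpand ℚ p jq)) = qExpand Qb p (coeffEmb Qb (qExpand ℚ l jq))
      rw [qExpand_coeffEmb, qExpand_coeffEmb, qExpand_qExpand, qExpand_qExpand,
        qExpand_congr (mul_comm l p)])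
  have ea' : heckeAlphaBar Qb p l (ModFun.jNBar p) = dgn l p (p * l) h2 (ModFun.jBar l) :=
    Subtype.ext (by rw [coe_heckeAlphaBar, coe_dgn]; exact (qExpand_coeffEmb p jq).symm)
  obtain ⟨hA, -, r1⟩ := cusp_ratio hl _ (HeckeJ.isIntegralAlong (dgn l 1 (p * l) h1)) W
    (Or.inr (eb ▸ hb))
  obtain ⟨hA', -, r2⟩ := cusp_ratio hl _ (HeckeJ.isIntegralAlong (dgn l p (p * l) h2)) W
    (Or.inr (eb' ▸ hb'))
  rw [← ea, ← eb] at r1
  rw [← ea', ← eb'] at r2
  rw [← ea] at hA
  rw [← ea'] at hA'
  have hp2 : (2 : ℤ) ≤ p := by exact_mod_cast hp.two_le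
  have hl2 : (2 : ℤ) ≤ l := by exact_mod_cast hl.two_le
  have hne : (p : ℤ) ≠ l := by exact_mod_cast Ne.symm hpl
  have hcz := cuspZero_ne hp
  obtain ⟨-, -, hαr⟩ := cusp_ratio hp _ hα W (Or.inl hA)
  rcases hαr with ⟨ha, hae⟩ | ⟨ha, hae⟩ <;> rcases hβr with ⟨hb1, hbe⟩ | ⟨hb1, hbe⟩
  · rw [ha, hWP, hb1]
  · refine (ratio_false hp2 hl2 hne hA hbe hae (r2.imp And.right And.right)
      (r1.imp And.right And.right)).elim
  · refine (ratio_false hp2 hl2 hne hA' hbe hae (r1.imp And.right And.right)
      (r2.imp And.right And.right)).elim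
  · rw [ha, hWP, hb1]

/-! ### `U_p` -/

theorem eq_single_of_le_degree {F : Type*} [Field F] [Algebra Qb F] [RR.FnField Qb F]
    {D : Divisor Qb F} {w : Place Qb F} {n : ℤ} (h0 : ∀ v, 0 ≤ D v) (hw : D w = n)
    (hd : Divisor.degree D = n) : D = Finsupp.single w n := by
  classical
  have hR : ∀ v, 0 ≤ (D - Finsupp.single w n) v := fun v => by
    rw [Finsupp.sub_apply, Finsupp.single_apply]
    split_ifs with h
    · subst h; omega
    · simpa using h0 v
  have hdeg : Divisor.degree (D - Finsupp.single w n) = 0 := by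
    rw [map_sub, hd, Divisor.degree_single, RR.deg_eq_one]; simp
  rw [← sub_eq_zero]
  ext v
  by_contra hv
  have hpos : 0 < (D - Finsupp.single w n) v := lt_of_le_of_ne (hR v) (Ne.symm (by simpa using hv))
  have : 0 < Divisor.degree (D - Finsupp.single w n) := by
    rw [Divisor.degree, Finsupp.liftAddHom_apply, Finsupp.sum]
    refine Finset.sum_pos' (fun u _ => ?_) ⟨v, Finsupp.mem_support_iff.mpr hpos.ne', ?_⟩
    · rw [RR.deg_eq_one]; simpa using hR u
    · rw [RR.deg_eq_one]; simpa using hpos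
  omega

theorem correspondence_cusp_self (hp : p.Prime)
    [HasPrincipalDivisors Qb (FB (p * p))]
    (hα : (heckeAlphaBar Qb p p).toRingHom.IsIntegral)
    (hβ : (heckeBetaBar Qb p p).toRingHom.IsIntegral) :
    Divisor.correspondence (heckeBetaBar Qb p p) (heckeAlphaBar Qb p p) hβ hα
        (cuspDiv p : Divisor Qb (FB p)) = (cuspDiv p : Divisor Qb (FB p)) := by
  classical
  have hp2 := hp.two_le
  set α := heckeAlphaBar Qb p p
  set β := heckeBetaBar Qb p p with hβdef
  have hfb : finrankAlong Qb β = p := by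
    have h := finrankAlong_beta hp hp (p := p) (l := p)
    rw [dedekindPsi_prime_sq hp] at h
    exact Nat.eq_of_mul_eq_mul_left (Nat.succ_pos p) h
  have hfa : finrankAlong Qb α = p := by
    have h := finrankAlong_alpha' hp (p := p) (l := p)
    rw [dedekindPsi_prime_sq hp] at h
    exact Nat.eq_of_mul_eq_mul_left (Nat.succ_pos p) h
  have eab : α (ModFun.jNBar p) = β (ModFun.jBar p) := Subtype.ext (by
    rw [coe_heckeAlphaBar, coe_heckeBetaBar]; exact (qExpand_coeffEmb p jq).symm)
  set W₁ := cuspInf (p * p)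
  have ej : α (ModFun.jBar p) = ModFun.jBar (p * p) := Subtype.ext (coe_heckeAlphaBar p p _)
  have ej2 : β (ModFun.jNBar p) = ModFun.jNBar (p * p) := Subtype.ext (by
    rw [coe_heckeBetaBar]
    show qExpand Qb p (coeffEmb Qb (qExpand ℚ p jq)) = coeffEmb Qb (qExpand ℚ (p * p) jq)
    rw [qExpand_coeffEmb, qExpand_qExpand])
  have o1 : W₁.ord (α (ModFun.jBar p)) = -1 := by rw [ej]; exact ord_jBar_cuspInf _
  have o3 : W₁.ord (β (ModFun.jNBar p)) = -(p : ℤ) * p := by
    rw [ej2, ord_jNBar_cuspInf]; push_cast; ring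
  obtain ⟨-, -, ra⟩ := cusp_ratio hp α hα W₁ (Or.inl (by omega))
  obtain ⟨ha1, hea1⟩ : W₁.restrictAlong α hα = cuspInf p ∧
      W₁.ord (α (ModFun.jNBar p)) = -(p : ℤ) := by
    rcases ra with ⟨h, he⟩ | ⟨h, he⟩
    · exact ⟨h, by rw [he, o1]; ring⟩
    · exfalso
      rw [o1] at he
      have : (p : ℤ) = 1 := Int.eq_one_of_dvd_one (by omega)
        ⟨-W₁.ord (α (ModFun.jNBar p)), by linear_combination -he⟩
      omega
  have o2 : W₁.ord (β (ModFun.jBar p)) = -(p : ℤ) := by rw [← eab]; exact hea1
  obtain ⟨-, -, rb⟩ := cusp_ratio hp β hβ W₁ (Or.inl (by omega))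
  have hb1 : W₁.restrictAlong β hβ = cuspInf p := by
    rcases rb with ⟨h, -⟩ | ⟨h, he⟩
    · exact h
    · exfalso
      rw [o2, o3] at he
      have : (2 : ℤ) ≤ p := by exact_mod_cast hp2
      nlinarith [mul_le_mul this this (by norm_num) (by linarith)]
  have heb1 : (Place.ramificationIndexAlong β W₁ : ℤ) = p := by
    have h := Place.ord_restrictAlong β hβ W₁ (ModFun.jBar p)
    rw [hb1, ord_jBar_cuspInf, o2] at h
    linarith
  have hea : (Place.ramificationIndexAlong α W₁ : ℤ) = 1 := by
    have h := Place.ord_restrictAlong α hα W₁ (ModFun.jBar p)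
    rw [ha1, ord_jBar_cuspInf, o1] at h
    linarith
  set DI := Divisor.pullbackAlong β hβ (Finsupp.single (cuspInf p) 1) with hDI
  set D0 := Divisor.pullbackAlong β hβ (Finsupp.single (cuspZero p) 1) with hD0
  set DA := Divisor.pullbackAlong α hα (Finsupp.single (cuspInf p) 1) with hDA
  have hnn : ∀ v, 0 ≤ DI v := fun v => by
    rw [hDI, Divisor.pullbackAlong_apply, Finsupp.single_apply]; split_ifs <;> simp
  have hDIdeg : Divisor.degree DI = p := by
    rw [hDI, Divisor.degree_pullbackAlong _ hβ (HeckeJ.fundamentalIdentityAlong _ hβ),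
      Divisor.degree_single, RR.deg_eq_one, hfb]
    simp
  have hDAdeg : Divisor.degree DA = p := by
    rw [hDA, Divisor.degree_pullbackAlong _ hα (HeckeJ.fundamentalIdentityAlong _ hα),
      Divisor.degree_single, RR.deg_eq_one, hfa]
    simp
  have hD0deg : Divisor.degree D0 = p := by
    rw [hD0, Divisor.degree_pullbackAlong _ hβ (HeckeJ.fundamentalIdentityAlong _ hβ),
      Divisor.degree_single, RR.deg_eq_one, hfb]
    simp
  have hDI1 : DI = Finsupp.single W₁ (p : ℤ) := eq_single_of_le_degree hnn (by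
    rw [hDI, Divisor.pullbackAlong_apply, hb1, Finsupp.single_eq_same, heb1, mul_one]) hDIdeg
  set E := DA - Finsupp.single W₁ (1 : ℤ) with hE
  have key : ∀ W : PB (p * p),
      (W.restrictAlong α hα = cuspInf p → D0 W = E W) ∧
      (W.restrictAlong α hα ≠ cuspInf p → E W = 0 ∧
        (D0 W ≠ 0 → W.restrictAlong α hα = cuspZero p)) := by
    intro W
    refine ⟨fun hW => ?_, fun hW => ⟨?_, fun h0 => ?_⟩⟩
    · by_cases hW1 : W = W₁
      · subst hW1
        rw [hE, hD0, hDA, Finsupp.sub_apply, Finsupp.single_eq_same, Divisor.pullbackAlong_apply,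
          Divisor.pullbackAlong_apply, hb1, hW, Finsupp.single_eq_same, hea,
          Finsupp.single_eq_of_ne (cuspZero_ne hp).symm]
        ring
      have hpos : (0 : ℤ) < Place.ramificationIndexAlong α W := by
        letI := algebraAlong α
        haveI := isScalarTower_along α
        haveI := isIntegral_along α hα
        exact_mod_cast W.ramificationIndex_pos (F := FB p)
      have hb : W.ord (β (ModFun.jBar p)) = -(p : ℤ) * Place.ramificationIndexAlong α W := by
        rw [← eab, Place.ord_restrictAlong α hα, hW, ord_jNBar_cuspInf]; ring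
      have hneg : W.ord (β (ModFun.jBar p)) < 0 := by
        have : (2 : ℤ) ≤ p := by exact_mod_cast hp2
        nlinarith
      obtain ⟨-, -, r⟩ := cusp_ratio hp β hβ W (Or.inl hneg)
      have hWI : W.restrictAlong β hβ ≠ cuspInf p := by
        intro h
        have h1 : DI W = Place.ramificationIndexAlong β W := by
          rw [hDI, Divisor.pullbackAlong_apply, h, Finsupp.single_eq_same, mul_one]
        rw [hDI1, Finsupp.single_eq_of_ne hW1] at h1
        rw [Place.ord_restrictAlong β hβ, ← h1] at hneg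
        simp at hneg
      have h0 : W.restrictAlong β hβ = cuspZero p := (r.resolve_left fun h => hWI h.1).1
      rw [hE, hD0, hDA, Finsupp.sub_apply, Finsupp.single_eq_of_ne hW1, sub_zero,
        Divisor.pullbackAlong_apply, Divisor.pullbackAlong_apply, h0, hW, Finsupp.single_eq_same,
        Finsupp.single_eq_same, mul_one, mul_one]
      rw [Place.ord_restrictAlong β hβ, h0, ord_jBar_cuspZero hp] at hb
      have : (p : ℤ) ≠ 0 := by exact_mod_cast hp.ne_zero
      exact mul_left_cancel₀ this (by linarith)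
    · rw [hE, hDA, Finsupp.sub_apply, Divisor.pullbackAlong_apply,
        Finsupp.single_eq_of_ne hW, mul_zero,
        Finsupp.single_eq_of_ne (fun h => by subst h; exact hW ha1), sub_zero]
    · rw [hD0, Divisor.pullbackAlong_apply, Finsupp.single_apply] at h0
      have hW0 : cuspZero p = W.restrictAlong β hβ := by
        by_contra hne; simp [hne] at h0
      have hneg : W.ord (α (ModFun.jNBar p)) < 0 := by
        rw [eab, Place.ord_restrictAlong β hβ, ← hW0, ord_jBar_cuspZero hp]
        have hpos : (0 : ℤ) < Place.ramificationIndexAlong β W := by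
          rcases Nat.eq_zero_or_pos (Place.ramificationIndexAlong β W) with h | h
          · simp [h] at h0
          · exact_mod_cast h
        nlinarith
      obtain ⟨-, -, r⟩ := cusp_ratio hp α hα W (Or.inr hneg)
      exact (r.resolve_left fun h => hW h.1).1
  have hEs : ∀ W ∈ E.support, W.restrictAlong α hα = cuspInf p := fun W hW => by
    by_contra h; exact Finsupp.mem_support_iff.mp hW ((key W).2 h).1
  have hRs : ∀ W ∈ (D0 - E).support, W.restrictAlong α hα = cuspZero p := fun W hW => by
    rw [Finsupp.mem_support_iff, Finsupp.sub_apply] at hW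
    by_cases h : W.restrictAlong α hα = cuspInf p
    · rw [(key W).1 h, sub_self] at hW; exact absurd rfl hW
    · obtain ⟨h1, h2⟩ := (key W).2 h
      rw [h1, sub_zero] at hW
      exact h2 hW
  have hEdeg : Divisor.degree E = (p : ℤ) - 1 := by
    rw [hE, map_sub, hDAdeg, Divisor.degree_single, RR.deg_eq_one]; simp
  have hD0' : Divisor.pushforwardAlong α hα D0 =
      Finsupp.single (cuspInf p) ((p : ℤ) - 1) + Finsupp.single (cuspZero p) 1 := by
    rw [show D0 = E + (D0 - E) by abel, map_add, pushforwardAlong_eq_single α hα E hEs,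
      pushforwardAlong_eq_single α hα (D0 - E) hRs, map_sub Divisor.degree D0 E, hEdeg, hD0deg,
      sub_sub_cancel]
  have hDI' : Divisor.pushforwardAlong α hα DI = Finsupp.single (cuspInf p) (p : ℤ) := by
    rw [hDI1, pushforwardAlong_eq_single (P := cuspInf p) α hα, Divisor.degree_single,
      RR.deg_eq_one, Nat.cast_one, mul_one]
    intro W hW
    rw [Finsupp.support_single_ne_zero _ (by exact_mod_cast hp.ne_zero),
      Finset.mem_singleton] at hW
    rw [hW, ha1]
  rw [coe_cuspDiv, map_sub, Divisor.correspondence_apply, Divisor.correspondence_apply, ← hD0,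
    ← hDI, hD0', hDI', show Finsupp.single (cuspInf p) (p : ℤ) =
      Finsupp.single (cuspInf p) ((p : ℤ) - 1) + Finsupp.single (cuspInf p) 1 by
        rw [← Finsupp.single_add, sub_add_cancel]]
  abel

/-- all Hecke operators act on the cusp class by the Eisenstein system -/
theorem hecke_cuspClass (hp : p.Prime) (ℓ : Nat.Primes) :
    heckeOperatorBar p ℓ (cuspClass p) = eisensteinSystem p ℓ • cuspClass p := by
  classical
  obtain ⟨l, hl⟩ := ℓ
  haveI : NeZero l := ⟨hl.ne_zero⟩
  haveI : HasPrincipalDivisors Qb (FB (p * l)) := HeckeJ.hasPrincipalDivisors_bar (p * l)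
  have hα : (heckeAlphaBar Qb p l).toRingHom.IsIntegral := HeckeJ.heckeAlphaBarIntegral p l
  have hβ : (heckeBetaBar Qb p l).toRingHom.IsIntegral := HeckeJ.heckeBetaBarIntegral p l
  have hFI : FundamentalIdentityAlong Qb (heckeBetaBar Qb p l) hβ :=
    HeckeJ.fundamentalIdentityAlong _ _
  have hfin : FiniteAlong Qb (heckeAlphaBar Qb p l) := HeckeJ.finiteAlong _
  have hN : NormFormulaAlong Qb (heckeAlphaBar Qb p l) hfin := HeckeJ.normFormulaAlong _ _
  have e : heckeOperatorBar p ⟨l, hl⟩ (cuspClass p) =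
      Pic0.mk (Pic0.degZeroCorrespondence (heckeBetaBar Qb p l) (heckeAlphaBar Qb p l) hβ hα hFI
        (cuspDiv p)) := by
    show heckeOperatorAlong Qb p l (Pic0.mk _) = _
    rw [heckeOperatorAlong_eq hα hβ hFI hfin hN]
    rfl
  rw [e, cuspClass]
  by_cases hd : l ∣ p
  · obtain rfl : l = p := (Nat.prime_dvd_prime_iff_eq hl hp).mp hd
    rw [eisensteinSystem_of_dvd (ℓ := ⟨l, hl⟩) hd, one_smul]
    exact congrArg Pic0.mk (Subtype.ext (correspondence_cusp_self hp hα hβ))
  · have hne : l ≠ p := fun h => hd (h ▸ dvd_rfl)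
    rw [eisensteinSystem_of_not_dvd (ℓ := ⟨l, hl⟩) hd]
    refine Eq.trans (congrArg Pic0.mk (Subtype.ext (a2 := (1 + (l : ℤ)) • cuspDiv p) ?_))
      (map_zsmul (QuotientAddGroup.mk' _) _ _)
    show Divisor.correspondence (heckeBetaBar Qb p l) (heckeAlphaBar Qb p l) hβ hα
      (cuspDiv p : Divisor Qb (FB p)) = _
    rw [AddSubgroupClass.coe_zsmul, coe_cuspDiv, map_sub,
      correspondence_cusp_of_ne hp hl hne hα hβ _ (Or.inl rfl),
      correspondence_cusp_of_ne hp hl hne hα hβ _ (Or.inr rfl), smul_sub, Finsupp.smul_single,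
      Finsupp.smul_single, smul_eq_mul, mul_one, add_comm (1 : ℤ)]

end FLTAgent.EIS
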