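import Fermat.Agent.EIS.CuspUnit
import Fermat.Agent.EIS.Defs
import Fermat.Agent.Attach.Interface
import Fermat.Agent.Attach.HeckeAction
import Fermat.Agent.Periods.Eis.Upper
import Fermat.Agent.RR.Dim

/-!
The order of the cusp class divides the numerator of `(p - 1)/12`; its Eisenstein conditions.
-/

set_option autoImplicit false
set_option linter.unusedSectionVars false
set_option synthInstance.maxHeartbeats 200000

noncomputable section

open ModularCurve AlgebraicCurve
open FLTAgent.Reduction (Qb)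
open FLTAgent.Periods.Eis (eisChar latticeEval)
open FLTAgent.Attach (HeckeLattice)

namespace FLTAgent.EIS

variable {p : ℕ} [NeZero p]

theorem tors_act_eigen (D : HeckeLattice p) {n : ℕ} (hn : 0 < n) {v : D.Lam} {z : JZero p}
    (hv : D.tors n v = z) (hz : ∀ ℓ : Nat.Primes, heckeOperatorBar p ℓ z = eisensteinSystem p ℓ • z)
    (P : HeckeAlg) : D.tors n (D.act (CuspForm.heckeEvalForms p 2 P) v) = eisChar p P • z := by
  induction P using MvPolynomial.induction_on with
  | C a =>
    rw [CuspForm.heckeEvalForms_C, Periods.Eis.eisChar_C, eq_intCast, map_intCast,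
      Module.End.intCast_apply, map_zsmul, hv]
  | add P Q hP hQ =>
    rw [map_add, map_add, map_add, LinearMap.add_apply, map_add, hP, hQ]
    exact (add_smul _ _ _).symm
  | mul_X P ℓ hP =>
    rw [mul_comm P, map_mul, map_mul, map_mul, Module.End.mul_apply,
      show (MvPolynomial.X ℓ : HeckeAlg) = heckeGen ℓ from rfl, CuspForm.heckeEvalForms_heckeGen,
      D.act_gen, D.tors_T n hn, hP, map_zsmul, hz, Periods.Eis.eisChar_gen, smul_smul,
      mul_comm (eisensteinSystem p ℓ)]

theorem exists_numerator_relation (hp : p.Prime) :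
    ∃ P : HeckeAlg, CuspForm.heckeEvalForms p 2 P = 0 ∧
      eisChar p P = (eisensteinNumerator p : ℤ) := by
  haveI : Fact p.Prime := ⟨hp⟩
  obtain ⟨m, hm⟩ : ∃ m : ℕ,
      (RingHom.ker (latticeEval p)).map (eisChar p) = Ideal.span {(m : ℤ)} := by
    obtain ⟨z, hz⟩ := Submodule.IsPrincipal.principal
      ((RingHom.ker (latticeEval p)).map (eisChar p))
    exact ⟨z.natAbs, by rw [hz, Int.span_natAbs]⟩
  have hmem : (eisensteinNumerator p : ℤ) ∈ (RingHom.ker (latticeEval p)).map (eisChar p) := by
    rw [hm, Ideal.mem_span_singleton]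
    exact Int.natCast_dvd_natCast.mpr (Periods.Eis.dvd_numerator_of_map_ker_eq p hm)
  obtain ⟨P, hP, hPe⟩ :=
    (Ideal.mem_map_iff_of_surjective _ (Periods.Eis.eisChar_surjective p)).mp hmem
  exact ⟨P, (CuspForm.latticeRestrictHom_bijective p ∅ (ModFun.hasIntegralStructure p 2)).1
    ((RingHom.mem_ker.mp hP).trans (map_zero _).symm), hPe⟩

/-- the numerator of `(p - 1)/12` kills the cusp class -/
theorem numerator_nsmul_cuspClass (hp : p.Prime) :
    eisensteinNumerator p • cuspClass p = 0 := by
  obtain ⟨D⟩ := Attach.exists_heckeLattice p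
  have hn : 0 < p - 1 := Nat.sub_pos_of_lt hp.one_lt
  obtain ⟨v, hv⟩ := (D.nsmul_eq_zero_iff _ hn _).mp (sub_one_nsmul_cuspClass p hp)
  obtain ⟨P, hP, hPe⟩ := exists_numerator_relation hp
  have h := tors_act_eigen D hn hv (hecke_cuspClass hp) P
  rw [hP, map_zero, LinearMap.zero_apply, map_zero, hPe, natCast_zsmul] at h
  exact h.symm

theorem addOrderOf_cuspClass_pos (hp : p.Prime) : 0 < addOrderOf (cuspClass p) :=
  addOrderOf_pos_iff.mpr (isOfFinAddOrder_iff_nsmul_eq_zero.mpr
    ⟨p - 1, Nat.sub_pos_of_lt hp.one_lt, sub_one_nsmul_cuspClass p hp⟩)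

theorem addOrderOf_cuspClass_dvd (hp : p.Prime) :
    addOrderOf (cuspClass p) ∣ eisensteinNumerator p :=
  addOrderOf_dvd_of_nsmul_eq_zero (numerator_nsmul_cuspClass hp)

/-- multiples of the cusp class of `r`-power order are Eisenstein -/
theorem eisTors_nsmul_cuspClass (hp : p.Prime) {r k n : ℕ}
    (h : r ^ k • (n • cuspClass p) = 0) : EisTors p r (n • cuspClass p) := by
  refine ⟨⟨k, h⟩, fun ℓ hℓp _ => ⟨1, ?_⟩⟩
  have hd : ¬ (ℓ : ℕ) ∣ p := fun hd => hℓp ((Nat.prime_dvd_prime_iff_eq ℓ.2 hp).mp hd)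
  rw [Function.iterate_one, map_nsmul, hecke_cuspClass hp, eisensteinSystem_of_not_dvd hd,
    show (1 : ℤ) + ((ℓ : ℕ) : ℤ) = (((ℓ : ℕ) + 1 : ℕ) : ℤ) by push_cast; ring, natCast_zsmul,
    sub_eq_zero]
  exact smul_comm _ _ _

/-! ### positive genus -/

theorem cuspCount_prime (hp : p.Prime) : cuspCount p = 2 := by
  rw [cuspCount, hp.sum_divisors]
  simp [Nat.div_self hp.pos]

theorem card_roots_le_two [Fact p.Prime] (a : ZMod p) :
    Nat.card {x : ZMod p // x ^ 2 + a * x + 1 = 0} ≤ 2 := by
  classical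
  set P : Polynomial (ZMod p) :=
    Polynomial.X ^ 2 + Polynomial.C a * Polynomial.X + Polynomial.C 1 with hP
  have hdeg : P.natDegree = 2 := by rw [hP]; compute_degree!
  rw [Nat.card_eq_fintype_card]
  refine le_trans ?_ (le_of_le_of_eq (Polynomial.card_roots' P) hdeg)
  refine le_trans (le_of_eq ?_) (Multiset.toFinset_card_le _)
  rw [Fintype.card_subtype]
  congr 1
  ext x
  have h0 : P ≠ 0 := fun h => by simp [h] at hdeg
  rw [Finset.mem_filter, Multiset.mem_toFinset, Polynomial.mem_roots h0]
  simp [hP]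

theorem genusFormula_pos (hp : p.Prime) (hp' : p ∉ ({2, 3, 5, 7, 13} : Finset ℕ)) :
    0 < genusFormula p := by
  haveI : Fact p.Prime := ⟨hp⟩
  rw [genusFormula, Reduction.dedekindPsi_prime hp, cuspCount_prime hp]
  simp only [Finset.mem_insert, Finset.mem_singleton, not_or] at hp'
  obtain ⟨h2, h3, h5, h7, h13⟩ := hp'
  by_cases hbig : 14 < p + 1
  · have a : nuTwo p ≤ 2 := by
      have := card_roots_le_two (p := p) 0
      simpa [nuTwo] using this
    have b : nuThree p ≤ 2 := by
      have := card_roots_le_two (p := p) 1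
      simpa [nuThree] using this
    have a' : (nuTwo p : ℚ) ≤ 2 := by exact_mod_cast a
    have b' : (nuThree p : ℚ) ≤ 2 := by exact_mod_cast b
    have c' : (14 : ℚ) < ((p + 1 : ℕ) : ℚ) := by exact_mod_cast hbig
    push_cast at c' ⊢
    linarith
  · obtain rfl : p = 11 := by
      have := hp.two_le
      have hle : p ≤ 13 := by omega
      interval_cases p <;> first | rfl | omega | norm_num at hp
    have a : nuTwo 11 = 0 := by rw [nuTwo, Nat.card_eq_fintype_card]; rfl
    have b : nuThree 11 = 0 := by rw [nuThree, Nat.card_eq_fintype_card]; rfl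
    rw [a, b]
    norm_num

/-- nonzero torsion at every prime -/
theorem exists_torsion_ne_zero (hg : 0 < genusFormula p) {q : ℕ} (hq : q.Prime) :
    ∃ z : JZero p, z ≠ 0 ∧ q • z = 0 := by
  obtain ⟨D⟩ := Attach.exists_heckeLattice p
  have hdim := RR.genusFormula_le_finrank_cuspForm p
  haveI : Nontrivial D.Lam := by
    by_contra hc
    rw [not_nontrivial_iff_subsingleton] at hc
    have hs : Subsingleton (CuspForm (CongruenceSubgroup.Gamma0 p) 2) := by
      refine ⟨fun f g => ?_⟩
      haveI : Subsingleton (TensorProduct ℤ ℂ D.Lam) := by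
        refine ⟨fun x y => ?_⟩
        have h0 : ∀ z : TensorProduct ℤ ℂ D.Lam, z = 0 := fun z => by
          induction z using TensorProduct.induction_on with
          | zero => rfl
          | tmul c x => rw [Subsingleton.elim x 0, TensorProduct.tmul_zero]
          | add a b ha hb => rw [ha, hb, add_zero]
        rw [h0 x, h0 y]
      have := congrArg D.periods (Subsingleton.elim (D.periods.symm (f, 0)) (D.periods.symm (g, 0)))
      simpa using this
    rw [Module.finrank_zero_of_subsingleton] at hdim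
    have : genusFormula p ≤ 0 := by exact_mod_cast hdim
    linarith
  set b := Module.Free.chooseBasis ℤ D.Lam
  obtain ⟨i⟩ : Nonempty (Module.Free.ChooseBasisIndex ℤ D.Lam) := b.index_nonempty
  refine ⟨D.tors q (b i), fun h => ?_, (D.nsmul_eq_zero_iff q hq.pos _).mpr ⟨_, rfl⟩⟩
  obtain ⟨w, hw⟩ := (D.tors_eq_zero_iff q hq.pos _).mp h
  have h1 := congrArg (fun x => b.repr x i) hw
  simp only [Module.Basis.repr_self, Finsupp.single_eq_same, map_zsmul, Finsupp.smul_apply,
    smul_eq_mul] at h1
  have := Int.eq_one_of_dvd_one (Int.natCast_nonneg q) ⟨_, h1⟩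
  exact hq.ne_one (by exact_mod_cast this)

end FLTAgent.EIS
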