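import Fermat.Agent.Reduction.Atkin
import Fermat.Agent.Genus.Fibre
import Fermat.Agent.Reduction.Setup
import Fermat.Agent.HeckeJ.API
import Fermat.Agent.SS.Frame

/-!
The `q`-adic place and the two cusps of `X₀(p)`, defined by orders of `j` and `j(pτ)`.
-/

set_option autoImplicit false
set_option linter.unusedSectionVars false

noncomputable section

open ModularCurve AlgebraicCurve
open FLTAgent.Reduction (FB PB Qb)
open scoped WithZero

namespace FLTAgent.EIS

/-! ### the place of the Laurent order -/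

section OrderPlace

variable {K : Type*} [Field K] (L : IntermediateField K (LaurentSeries K))

theorem order_eq_of {f : LaurentSeries K} {m : ℤ} (h : f.coeff m ≠ 0)
    (hlt : ∀ k < m, f.coeff k = 0) : f.order = m := by
  refine le_antisymm (HahnSeries.order_le_of_coeff_ne_zero h) ?_
  by_contra hc
  rw [not_le] at hc
  have := hlt _ hc
  rw [HahnSeries.coeff_order_eq_zero] at this
  simp [this] at h

open scoped Classical in
/-- the valuation of the order -/
def orderVal : Valuation L ℤᵐ⁰ where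
  toFun f := if f = 0 then 0 else WithZero.exp (-(f : LaurentSeries K).order)
  map_zero' := by simp
  map_one' := by simp
  map_mul' x y := by
    rcases eq_or_ne x 0 with rfl | hx
    · simp
    rcases eq_or_ne y 0 with rfl | hy
    · simp
    rw [if_neg hx, if_neg hy, if_neg (mul_ne_zero hx hy), MulMemClass.coe_mul,
      HahnSeries.order_mul (by simpa using hx) (by simpa using hy), ← WithZero.exp_add, neg_add]
  map_add_le_max' x y := by
    rcases eq_or_ne x 0 with rfl | hx
    · simp
    rcases eq_or_ne y 0 with rfl | hy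
    · simp
    rcases eq_or_ne (x + y) 0 with h | h
    · simp [h]
    simp only [if_neg hx, if_neg hy, if_neg h]
    have h' : (x : LaurentSeries K) + (y : LaurentSeries K) ≠ 0 := fun e => h (Subtype.ext e)
    have := HahnSeries.min_order_le_order_add h'
    rw [le_max_iff, WithZero.exp_le_exp, WithZero.exp_le_exp, AddMemClass.coe_add]
    omega

theorem vlog_orderVal {f : L} (hf : f ≠ 0) :
    Genus.vlog (orderVal L) f = (f : LaurentSeries K).order := by
  show -(WithZero.log (orderVal L f)) = _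
  rw [show orderVal L f = WithZero.exp (-(f : LaurentSeries K).order) from if_neg hf,
    WithZero.log_exp, neg_neg]

theorem exists_orderPlace (h : ∃ x : L, (x : LaurentSeries K).order = -1) :
    ∃ w : Place K L, ∀ f : L, f ≠ 0 → w.ord f = (f : LaurentSeries K).order := by
  obtain ⟨x, hx⟩ := h
  have hx0 : x ≠ 0 := by rintro rfl; simp at hx
  have hK : ∀ c : K, orderVal L (algebraMap K L c) ≤ 1 := fun c => by
    rcases eq_or_ne c 0 with rfl | hc
    · simp
    rw [Genus.val_le_one_iff, vlog_orderVal L ((_root_.map_ne_zero _).mpr hc)]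
    refine Or.inr (le_of_eq ?_)
    show 0 = (algebraMap K (LaurentSeries K) c).order
    rw [algebraMap_laurentSeries_eq_single, HahnSeries.order_single hc]
  have hbig : 1 < orderVal L x := by
    rw [← not_le, Genus.val_le_one_iff, vlog_orderVal L hx0, hx]
    simp [hx0]
  obtain ⟨w, g, hg, hw⟩ := Genus.exists_place_of_valuation (orderVal L) hK hbig
  have h1 := hw x hx0
  rw [vlog_orderVal L hx0, hx] at h1
  have hg1 : (g : ℤ) = 1 :=
    Int.eq_one_of_dvd_one (by omega) ⟨-w.ord x, by rw [mul_neg, ← h1]; rfl⟩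
  refine ⟨w, fun f hf => ?_⟩
  have h2 := hw f hf
  rw [vlog_orderVal L hf, hg1, one_mul] at h2
  exact h2.symm

end OrderPlace

theorem order_coeffEmb {f : LaurentSeries ℚ} {m : ℤ} (h : f.coeff m ≠ 0)
    (hlt : ∀ k < m, f.coeff k = 0) : (coeffEmb Qb f).order = m :=
  order_eq_of (by rw [coeffEmb_coeff]; exact (_root_.map_ne_zero _).mpr h)
    fun k hk => by rw [coeffEmb_coeff, hlt k hk, map_zero]

variable (N : ℕ) [NeZero N]

theorem order_jBar : ((ModFun.jBar N : FB N) : LaurentSeries Qb).order = -1 :=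
  order_coeffEmb (m := -1) (by rw [coeff_jq_neg_one]; exact one_ne_zero) fun _ hk => coeff_jq_of_lt hk

theorem order_jNBar : ((ModFun.jNBar N : FB N) : LaurentSeries Qb).order = -(N : ℤ) := by
  refine order_coeffEmb (f := qExpand ℚ N jq) (m := -(N : ℤ)) ?_ fun k hk => ?_
  · rw [show -(N : ℤ) = (N : ℤ) * (-1) by ring, qExpand_coeff_mul, coeff_jq_neg_one]
    exact one_ne_zero
  · by_cases hd : (N : ℤ) ∣ k
    · obtain ⟨j, rfl⟩ := hd
      rw [qExpand_coeff_mul]
      have hN : (0 : ℤ) < N := by exact_mod_cast Nat.pos_of_ne_zero (NeZero.ne N)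
      exact coeff_jq_of_lt (by nlinarith)
    · exact qExpand_coeff_of_not_dvd N _ hd

/-- the cusp `∞` -/
def cuspInf : PB N := (exists_orderPlace (modularFunctionFieldBar N) ⟨_, order_jBar N⟩).choose

theorem ord_cuspInf {f : FB N} (hf : f ≠ 0) :
    (cuspInf N).ord f = (f : LaurentSeries Qb).order :=
  (exists_orderPlace (modularFunctionFieldBar N) ⟨_, order_jBar N⟩).choose_spec f hf

theorem jBar_ne_zero : (ModFun.jBar N : FB N) ≠ 0 :=
  Reduction.ne_zero_of_transc (ModFun.transcendental_jBar N)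

theorem jNBar_ne_zero : (ModFun.jNBar N : FB N) ≠ 0 := fun h => by
  have := order_jNBar N
  rw [h, ZeroMemClass.coe_zero, HahnSeries.order_zero] at this
  have := NeZero.ne N
  omega

theorem ord_jBar_cuspInf : (cuspInf N).ord (ModFun.jBar N) = -1 := by
  rw [ord_cuspInf N (jBar_ne_zero N), order_jBar]

theorem ord_jNBar_cuspInf : (cuspInf N).ord (ModFun.jNBar N) = -(N : ℤ) := by
  rw [ord_cuspInf N (jNBar_ne_zero N), order_jNBar]

theorem transcendental_jNBar : Transcendental Qb (ModFun.jNBar N : FB N) := fun hal => by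
  obtain ⟨c, hc⟩ : ∃ c, algebraMap Qb (FB N) c = ModFun.jNBar N := by
    obtain ⟨P, hP0, hP⟩ := hal
    obtain ⟨x, hx⟩ := RingHom.mem_range.mp
      ((IsAlgClosed.splits P).mem_range_of_isRoot (i := algebraMap Qb (FB N)) hP0
        (by rwa [Polynomial.IsRoot.def, Polynomial.eval_map_algebraMap]))
    exact ⟨x, hx⟩
  have h := ord_jNBar_cuspInf N
  rw [← hc, RR.ord_algebraMap] at h
  have := NeZero.ne N
  omega

/-! ### the two cusps of `X₀(p)` -/

variable (p : ℕ) [NeZero p]

theorem exists_swap (hp : p.Prime) {M : ℕ} [NeZero M] (hM : M = 1 * p) :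
    ∃ W : FB M →ₐ[Qb] FB M, W (ModFun.jBar M) = ModFun.jNBar M ∧
      W (ModFun.jNBar M) = ModFun.jBar M := by
  subst hM
  obtain ⟨W, h1, h2⟩ := Reduction.exists_atkin (N := 1) hp hp.not_dvd_one
  have ea : heckeAlphaBar Qb 1 p (ModFun.jBar 1) = ModFun.jBar (1 * p) :=
    Subtype.ext (coe_heckeAlphaBar 1 p _)
  have eb : heckeBetaBar Qb 1 p (ModFun.jBar 1) = ModFun.jNBar (1 * p) := Subtype.ext (by
    rw [coe_heckeBetaBar]
    show qExpand Qb p (coeffEmb Qb jq) = coeffEmb Qb (qExpand ℚ (1 * p) jq)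
    rw [coeffEmb, ← ModularCurve.coeffMap_qExpand, qExpand_congr (one_mul p)])
  exact ⟨W, by rw [← ea, h1, eb], by rw [← eb, h2, ea]⟩

theorem ndeg_jBar_prime (hp : p.Prime) : RR.ndeg Qb (ModFun.jBar p) = p + 1 := by
  rw [Reduction.ndeg_jBar_eq, Reduction.dedekindPsi_prime hp]

theorem ndeg_jNBar_prime (hp : p.Prime) : RR.ndeg Qb (ModFun.jNBar p) = p + 1 := by
  obtain ⟨W, h1, h2⟩ := exists_swap p hp (one_mul p).symm
  have e1 := SS.ndeg_algHom W (ModFun.jBar p)
  have e2 := SS.ndeg_algHom W (ModFun.jNBar p)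
  rw [h1] at e1
  rw [h2] at e2
  rw [ndeg_jBar_prime p hp] at e1 e2
  rw [e1] at e2 ⊢
  rw [mul_assoc] at e2
  have : finrankAlong Qb W * finrankAlong Qb W = 1 :=
    (Nat.eq_of_mul_eq_mul_left (Nat.succ_pos p) (by rw [mul_one]; exact e2)).symm
  rw [Nat.eq_one_of_mul_eq_one_right this, mul_one]

theorem exists_cuspZero (hp : p.Prime) :
    ∃ w : PB p, w.ord (ModFun.jBar p) = -(p : ℤ) ∧ w.ord (ModFun.jNBar p) = -1 := by
  obtain ⟨W, h1, h2⟩ := exists_swap p hp (one_mul p).symm
  have hW : W.toRingHom.IsIntegral := HeckeJ.isIntegralAlong W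
  refine ⟨(cuspInf p).restrictAlong W hW, ?_⟩
  have e1 := Place.ord_restrictAlong W hW (cuspInf p) (ModFun.jBar p)
  have e2 := Place.ord_restrictAlong W hW (cuspInf p) (ModFun.jNBar p)
  rw [h1, ord_jNBar_cuspInf] at e1
  rw [h2, ord_jBar_cuspInf] at e2
  set e : ℤ := (Place.ramificationIndexAlong W (cuspInf p) : ℤ)
  have he : e = 1 := Int.eq_one_of_dvd_one (Int.natCast_nonneg _)
    ⟨-((cuspInf p).restrictAlong W hW).ord (ModFun.jNBar p), by rw [mul_neg, ← e2]; rfl⟩
  rw [he, one_mul] at e1 e2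
  exact ⟨e1.symm, e2.symm⟩

open scoped Classical in
/-- the cusp `0` of `X₀(p)` -/
def cuspZero : PB p := if hp : p.Prime then (exists_cuspZero p hp).choose else cuspInf p

variable {p} (hp : p.Prime)
include hp

theorem ord_jBar_cuspZero : (cuspZero p).ord (ModFun.jBar p) = -(p : ℤ) := by
  rw [cuspZero, dif_pos hp]; exact (exists_cuspZero p hp).choose_spec.1

theorem ord_jNBar_cuspZero : (cuspZero p).ord (ModFun.jNBar p) = -1 := by
  rw [cuspZero, dif_pos hp]; exact (exists_cuspZero p hp).choose_spec.2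

theorem cuspZero_ne : cuspZero p ≠ cuspInf p := fun h => by
  have h1 := ord_jBar_cuspZero hp
  rw [h, ord_jBar_cuspInf] at h1
  have := hp.two_le
  omega

theorem eq_cusp_of_ord {x : FB p} (hx : Transcendental Qb x) (hdeg : RR.ndeg Qb x = p + 1)
    (h : -(cuspInf p).ord x + -(cuspZero p).ord x = (p : ℤ) + 1)
    (hi : (cuspInf p).ord x < 0) (h0 : (cuspZero p).ord x < 0) {w : PB p} (hw : w.ord x < 0) :
    w = cuspInf p ∨ w = cuspZero p := by
  classical
  have hfin : {v : PB p | v.ord x < 0}.Finite :=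
    (RR.finite_ord_ne_zero (K := Qb) (Reduction.ne_zero_of_transc hx)).subset
      fun v (hv : v.ord x < 0) => ne_of_lt hv
  have hs := RR.sum_ord_poles (K := Qb) hx hfin.toFinset fun v => by simp
  by_contra hc
  push Not at hc
  have hsub : ({cuspInf p, cuspZero p} : Finset (PB p)) ⊆ hfin.toFinset := by
    intro v hv
    simp only [Finset.mem_insert, Finset.mem_singleton] at hv
    rcases hv with rfl | rfl <;> simpa
  have hlt := Finset.sum_lt_sum_of_subset (f := fun v : PB p => -v.ord x) hsub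
    (i := w) (by simpa using hw) (by simp [hc.1, hc.2]) (by omega)
    fun v hv _ => by
      simp only [Set.Finite.mem_toFinset, Set.mem_setOf_eq] at hv
      omega
  rw [Finset.sum_pair (cuspZero_ne hp).symm, hs, hdeg, h] at hlt
  omega

/-- the places over `j = ∞` -/
theorem cusp_cases {w : PB p} (hw : w.ord (ModFun.jBar p) < 0) :
    w = cuspInf p ∨ w = cuspZero p := by
  have := hp.two_le
  have e1 := ord_jBar_cuspInf p
  have e2 := ord_jBar_cuspZero hp
  refine eq_cusp_of_ord hp (ModFun.transcendental_jBar p) (ndeg_jBar_prime p hp) ?_ ?_ ?_ hw <;>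
    omega

theorem cusp_cases' {w : PB p} (hw : w.ord (ModFun.jNBar p) < 0) :
    w = cuspInf p ∨ w = cuspZero p := by
  have := hp.two_le
  have e1 := ord_jNBar_cuspInf p
  have e2 := ord_jNBar_cuspZero hp
  refine eq_cusp_of_ord hp (transcendental_jNBar p) (ndeg_jNBar_prime p hp) ?_ ?_ ?_ hw <;>
    omega

theorem smul_cuspInf (σ : Qb ≃ₐ[ℚ] Qb) :
    arithmeticGalois (modularFunctionFieldFull p) σ • cuspInf p = cuspInf p := by
  set g := arithmeticGalois (modularFunctionFieldFull p) σ
  have hfix : g • (ModFun.jBar p : FB p) = ModFun.jBar p := Subtype.ext (by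
    rw [coe_arithmeticGalois_smul]
    show coeffMap _ (coeffEmb Qb jq) = coeffEmb Qb jq
    rw [coeffEmb, coeffMap_coeffMap]
    exact coeffMap_congr (RingHom.ext fun a => σ.commutes a) jq)
  have h := SemilinearAut.ord_smul g (cuspInf p) (ModFun.jBar p)
  rw [hfix, ord_jBar_cuspInf] at h
  rcases cusp_cases hp (w := g • cuspInf p) (by omega) with e | e
  · exact e
  · rw [e, ord_jBar_cuspZero hp] at h
    have := hp.two_le
    omega

theorem smul_cuspZero (σ : Qb ≃ₐ[ℚ] Qb) :
    arithmeticGalois (modularFunctionFieldFull p) σ • cuspZero p = cuspZero p := by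
  set g := arithmeticGalois (modularFunctionFieldFull p) σ with hg
  have hfix : g • (ModFun.jBar p : FB p) = ModFun.jBar p := Subtype.ext (by
    rw [coe_arithmeticGalois_smul]
    show coeffMap _ (coeffEmb Qb jq) = coeffEmb Qb jq
    rw [coeffEmb, coeffMap_coeffMap]
    exact coeffMap_congr (RingHom.ext fun a => σ.commutes a) jq)
  have h := SemilinearAut.ord_smul g (cuspZero p) (ModFun.jBar p)
  rw [hfix, ord_jBar_cuspZero hp] at h
  rcases cusp_cases hp (w := g • cuspZero p) (by have := hp.two_le; omega) with e | e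
  · exact absurd (MulAction.injective g (e.trans (smul_cuspInf hp σ).symm)) (cuspZero_ne hp)
  · exact e

end FLTAgent.EIS
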