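import Fermat.Agent.EIS.CuspHecke
import Fermat.Agent.ModFun.Generation
import Fermat.Agent.JTors.Places
import Fermat.Agent.Reduction.Compat
import Fermat.Prelude.Def_ModularCurve_ModularUnit

/-!
The function `Δ(τ)/Δ(pτ)` on `X₀(p)`: its divisor is `(p - 1)([0] - [∞])`.
-/

set_option autoImplicit false
set_option linter.unusedSectionVars false
set_option synthInstance.maxHeartbeats 200000

noncomputable section

open ModularCurve AlgebraicCurve UpperHalfPlane
open scoped MatrixGroups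
open FLTAgent.Reduction (FB PB Qb)
open FLTAgent.ModFun (lx M1 jdM gN)

namespace FLTAgent.EIS

variable {N : ℕ} [NeZero N]

/-- a rational series inside `ℂ(j, j(Nτ))` is in the function field over `ℚ` -/
theorem mem_full_of_complex {Y : LaurentSeries ℚ}
    (hY : coeffEmb ℂ Y ∈ IntermediateField.adjoin ℂ (ModFun.genC N)) :
    Y ∈ modularFunctionFieldFull N := by
  obtain ⟨r, hr, d, hd, hrd⟩ := IntermediateField.mem_adjoin_iff_div.mp hY
  rcases eq_or_ne Y 0 with rfl | hY0
  · exact zero_mem _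
  have hd0 : d ≠ 0 := by
    rintro rfl
    rw [div_zero, ← map_zero (coeffEmb ℂ)] at hrd
    exact hY0 ((coeffEmb ℂ).injective hrd)
  have e : r = d * coeffEmb ℂ Y := by rw [hrd, mul_div_cancel₀ _ hd0]
  obtain ⟨φ, hφ⟩ := ModFun.exists_proj
  obtain ⟨n₀, hn₀⟩ : ∃ n, d.coeff n ≠ 0 := by
    by_contra hc
    push Not at hc
    exact hd0 (HahnSeries.ext (funext hc))
  set ψ : ℂ →ₗ[ℚ] ℚ := φ.comp (LinearMap.mulLeft ℚ (d.coeff n₀)⁻¹) with hψ
  obtain ⟨ZD, hZD, eD⟩ := ModFun.polyC_descent (N := N) hd ψ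
  obtain ⟨ZR, hZR, eR⟩ := ModFun.polyC_descent (N := N) hr ψ
  have e1 := eD 1
  rw [map_one, mul_one, mul_one] at e1
  have hZD0 : ZD ≠ 0 := by
    intro h
    have h1 : (ModFun.phiL ψ d).coeff n₀ = 0 := by rw [e1, h, HahnSeries.coeff_zero]
    rw [ModFun.phiL_coeff, hψ, LinearMap.comp_apply, LinearMap.mulLeft_apply,
      inv_mul_cancel₀ hn₀, hφ] at h1
    exact one_ne_zero h1
  have e2 := eR 1
  rw [map_one, mul_one, mul_one, e, eD] at e2
  have hle : ∀ Z ∈ ModFun.polyQ N, Z ∈ modularFunctionFieldFull N := fun Z hZ =>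
    modularFunctionField_le_full N (IntermediateField.algebra_adjoin_le_adjoin ℚ _ hZ)
  have e3 : Y = ZR / ZD := by rw [eq_div_iff hZD0, mul_comm]; exact e2
  rw [e3]
  exact div_mem (hle _ hZR) (hle _ hZD)

theorem qx_delta_series :
    HahnSeries.ofPowerSeries ℤ ℂ (ModFun.qx ModularForm.discriminant) =
      coeffEmb ℂ deltaSeries := by
  rw [ModFun.qx_discriminant, map_mul, HahnSeries.ofPowerSeries_X, deltaSeries, map_mul]
  congr 1
  · rw [coeffEmb, coeffMap_single, (algebraMap ℚ ℂ).map_one]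
  · rw [dedekindEtaUnitQ, coeffEmb, ModFun.coeffMap_ofPowerSeries]
    congr 1

theorem qx_gN_series (p : ℕ) [NeZero p] :
    HahnSeries.ofPowerSeries ℤ ℂ (ModFun.qx (gN p)) = coeffEmb ℂ (deltaSeriesN p) := by
  have hD := ModFun.isMF_delta.good
  rw [← ModFun.lx_good (ModFun.isMF_gN p).good]
  have : (⟨gN p, (ModFun.isMF_gN p).good.mod1⟩ : M1) =
      ⟨ModFun.dil p (((⟨_, hD.mod1⟩ : M1)) : ℍ → ℂ), ModFun.mod1_dil hD.mod1 p⟩ := rfl
  rw [this, ModFun.lx_dil, ModFun.lx_good hD, qx_delta_series, deltaSeriesN, coeffEmb,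
    ModularCurve.coeffMap_qExpand]

theorem lx_delta :
    lx ⟨ModularForm.discriminant, ModFun.isMF_delta.good.mod1⟩ = coeffEmb ℂ deltaSeries := by
  rw [ModFun.lx_good ModFun.isMF_delta.good, qx_delta_series]

theorem lx_gN (p : ℕ) [NeZero p] :
    lx ⟨gN p, (ModFun.isMF_gN p).good.mod1⟩ = coeffEmb ℂ (deltaSeriesN p) := by
  rw [ModFun.lx_good (ModFun.isMF_gN p).good, qx_gN_series]

theorem modularUnitSeries_mem (p : ℕ) [NeZero p] :
    modularUnitSeries p ∈ modularFunctionFieldFull p := by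
  refine mem_full_of_complex (N := p) ?_
  have h := ModFun.quot_mem_adjoin (N := p) ModFun.isMF_delta.levelOne (ModFun.isMF_gN p)
  rw [qx_delta_series, qx_gN_series] at h
  rw [modularUnitSeries, map_mul, map_inv₀, ← div_eq_mul_inv]
  exact h

/-- `Δ(τ)/Δ(pτ)` -/
def uBar (p : ℕ) [NeZero p] : FB p :=
  ⟨coeffEmb Qb (modularUnitSeries p),
    coeffEmb_mem_laurentBaseChange _ (modularUnitSeries_mem p)⟩

variable (p : ℕ) [NeZero p]

theorem coe_uBar : (uBar p : LaurentSeries Qb) = coeffEmb Qb (modularUnitSeries p) := rfl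

theorem uBar_ne_zero : uBar p ≠ 0 := fun h => modularUnitSeries_ne_zero p
  ((coeffEmb Qb).injective ((congrArg Subtype.val h).trans (map_zero (coeffEmb Qb)).symm))

theorem lx_aeval_jdM (P : MvPolynomial p.divisors Qb) :
    lx (MvPolynomial.aeval (fun d : p.divisors => jdM (d : ℕ)) (MvPolynomial.map Genus.embC P)) =
      coeffMap Genus.embC (MvPolynomial.aeval (Genus.jgen p) P) := by
  induction P using MvPolynomial.induction_on with
  | C a =>
    simp only [MvPolynomial.map_C, MvPolynomial.aeval_C, AlgHom.commutes,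
      algebraMap_laurentSeries_eq_single, coeffMap_single]
  | add P Q hP hQ => simp [map_add, hP, hQ]
  | mul_X P d hP =>
    simp only [map_mul, MvPolynomial.map_X, MvPolynomial.aeval_X, hP, ModFun.lx_jdM, Genus.jgen,
      ModFun.coeffMap_coeffEmb_comp]

theorem evH_uBar :
    JTors.evH p (uBar p) * JTors.ofH ⟨gN p, (ModFun.isMF_gN p).holo⟩ =
      JTors.ofH ⟨ModularForm.discriminant, ModFun.isMF_delta.holo⟩ := by
  obtain ⟨P, Q, hQ, hx⟩ := Genus.exists_repr p (uBar p)
  have hser : coeffEmb Qb (modularUnitSeries p) * MvPolynomial.aeval (Genus.jgen p) Q =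
      MvPolynomial.aeval (Genus.jgen p) P := by
    have h1 : uBar p * MvPolynomial.aeval (Genus.gen p) Q = MvPolynomial.aeval (Genus.gen p) P := by
      rw [hx, div_mul_cancel₀ _ hQ]
    have h2 := congrArg Subtype.val h1
    rwa [MulMemClass.coe_mul, Genus.coe_aeval_gen, Genus.coe_aeval_gen] at h2
  set g : p.divisors → M1 := fun d => jdM (d : ℕ)
  have hfun : (⟨_, ModFun.isMF_delta.good.mod1⟩ : M1) *
      MvPolynomial.aeval g (MvPolynomial.map Genus.embC Q) =
      (⟨_, (ModFun.isMF_gN p).good.mod1⟩ : M1) *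
        MvPolynomial.aeval g (MvPolynomial.map Genus.embC P) := by
    apply ModFun.lx_injective
    rw [map_mul, map_mul, lx_delta, lx_gN, lx_aeval_jdM, lx_aeval_jdM, ← hser, map_mul,
      ModFun.coeffMap_coeffEmb_comp, ← mul_assoc, ← map_mul, mul_comm (deltaSeriesN p),
      modularUnitSeries_mul_deltaSeriesN]
  have hH : ∀ R : MvPolynomial p.divisors ℂ,
      ((MvPolynomial.aeval (JTors.jdH p) R : JTors.HolH) : ℍ → ℂ) =
        ((MvPolynomial.aeval g R : M1) : ℍ → ℂ) := fun R => by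
    rw [← Subalgebra.coe_val, ← Subalgebra.coe_val, MvPolynomial.comp_aeval_apply,
      MvPolynomial.comp_aeval_apply]
    rfl
  rw [hx, map_div₀, JTors.evH_aeval, JTors.evH_aeval]
  have hQ0 : JTors.ofH (MvPolynomial.aeval (JTors.jdH p) (MvPolynomial.map Genus.embC Q)) ≠ 0 := by
    rw [← JTors.evH_aeval]; exact (_root_.map_ne_zero _).mpr hQ
  rw [div_mul_eq_mul_div, div_eq_iff hQ0, ← map_mul, ← map_mul]
  refine congrArg JTors.ofH (Subtype.ext ?_)
  rw [MulMemClass.coe_mul, MulMemClass.coe_mul, hH, hH, mul_comm]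
  exact (congrArg Subtype.val hfun).symm

theorem ord_uBar_finite {w : PB p} (hw : 0 ≤ w.ord (ModFun.jBar p)) : w.ord (uBar p) = 0 := by
  obtain ⟨c, hc⟩ := RR.exists_const_ord_pos (K := Qb) hw
  have hc' : 0 < w.ord (ModFun.jBar p - algebraMap Qb (FB p) c) := by
    rcases hc with hc | hc
    · exact absurd (hc ▸ isAlgebraic_algebraMap c) (ModFun.transcendental_jBar p)
    · exact hc
  obtain ⟨τ, hτ⟩ := ModFun.jFun_surjective (Genus.embC c)
  obtain ⟨δ, g, hg, h⟩ := (JTors.interior_exact p τ c hτ.symm).2 w hc'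
  have h1 := h _ (uBar_ne_zero p)
  set D : JTors.HolH := ⟨ModularForm.discriminant, ModFun.isMF_delta.holo⟩
  set G : JTors.HolH := ⟨gN p, (ModFun.isMF_gN p).holo⟩
  have hG : (G : ℍ → ℂ) (δ • τ) ≠ 0 := ModularForm.discriminant_ne_zero _
  have hG0 : G ≠ 0 := fun h0 => hG (by rw [h0]; rfl)
  have e := evH_uBar p
  have h2 : JTors.ordAt (δ • τ) (JTors.evH p (uBar p)) + JTors.ordAt (δ • τ) (JTors.ofH G) =
      JTors.ordAt (δ • τ) (JTors.ofH D) := by
    rw [← JTors.ordAt_mul _ ((_root_.map_ne_zero _).mpr (uBar_ne_zero p))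
      (JTors.ofH_ne_zero hG0), e]
  rw [JTors.ordAt_ofH_eq_zero _ hG, JTors.ordAt_ofH_eq_zero _ (ModularForm.discriminant_ne_zero _),
    h1] at h2
  rcases mul_eq_zero.mp (by simpa using h2 : g * w.ord (uBar p) = 0) with h | h
  · omega
  · exact h

theorem ord_uBar_cuspInf : (cuspInf p).ord (uBar p) = 1 - (p : ℤ) := by
  rw [ord_cuspInf p (uBar_ne_zero p), coe_uBar]
  exact order_coeffEmb (by rw [coeff_modularUnitSeries_self]; exact one_ne_zero)
    fun _ hk => coeff_modularUnitSeries_of_lt p hk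

theorem ord_uBar_cuspZero (hp : p.Prime) : (cuspZero p).ord (uBar p) = (p : ℤ) - 1 := by
  classical
  obtain ⟨D, hD⟩ := RR.exists_divisor (K := Qb) (uBar_ne_zero p)
  have hdeg := RR.degree_divisor (uBar_ne_zero p) hD
  have e : D = Finsupp.single (cuspInf p) ((cuspInf p).ord (uBar p)) +
      Finsupp.single (cuspZero p) ((cuspZero p).ord (uBar p)) := by
    ext w
    rw [hD, Finsupp.add_apply, Finsupp.single_apply, Finsupp.single_apply]
    have hne := cuspZero_ne hp
    by_cases hw : 0 ≤ w.ord (ModFun.jBar p)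
    · rw [ord_uBar_finite p hw]
      have := hp.two_le
      rw [if_neg (fun h => by rw [← h, ord_jBar_cuspInf] at hw; omega),
        if_neg (fun h => by rw [← h, ord_jBar_cuspZero hp] at hw; omega), add_zero]
    · rcases cusp_cases hp (not_le.mp hw) with rfl | rfl
      · rw [if_pos rfl, if_neg hne, add_zero]
      · rw [if_pos rfl, if_neg hne.symm, zero_add]
  rw [e, map_add, Divisor.degree_single, Divisor.degree_single, RR.deg_eq_one, RR.deg_eq_one,
    ord_uBar_cuspInf] at hdeg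
  push_cast at hdeg
  linarith

theorem dv_uBar (hp : p.Prime) :
    Reduction.dv (uBar p) = ((p : ℤ) - 1) • (cuspDiv p : Divisor Qb (FB p)) := by
  classical
  ext w
  rw [Reduction.dv_apply, Finsupp.smul_apply, coe_cuspDiv, Finsupp.sub_apply, Finsupp.single_apply,
    Finsupp.single_apply, smul_eq_mul]
  have hne := cuspZero_ne hp
  by_cases hw : 0 ≤ w.ord (ModFun.jBar p)
  · rw [ord_uBar_finite p hw]
    have := hp.two_le
    rw [if_neg (fun h => by rw [← h, ord_jBar_cuspZero hp] at hw; omega),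
      if_neg (fun h => by rw [← h, ord_jBar_cuspInf] at hw; omega), sub_zero, mul_zero]
  · rcases cusp_cases hp (not_le.mp hw) with rfl | rfl
    · rw [ord_uBar_cuspInf, if_neg hne, if_pos rfl]; ring
    · rw [ord_uBar_cuspZero p hp, if_pos rfl, if_neg hne.symm]; ring

theorem sub_one_nsmul_cuspClass (hp : p.Prime) : (p - 1) • cuspClass p = 0 := by
  rw [cuspClass]
  refine Eq.trans (map_nsmul (QuotientAddGroup.mk' _) (p - 1) (cuspDiv p)).symm ?_
  refine (QuotientAddGroup.eq_zero_iff _).mpr ?_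
  rw [AddSubgroup.mem_addSubgroupOf, AddSubgroupClass.coe_nsmul, ← natCast_zsmul,
    Nat.cast_sub hp.one_le, Nat.cast_one, ← dv_uBar p hp]
  exact ⟨uBar p, uBar_ne_zero p, fun v => Reduction.dv_apply _ v⟩

end FLTAgent.EIS
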