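import Fermat.Agent.EIS.Comparison
import Fermat.Agent.Alg.Frobenius

/-!
Area EIS: Mazur's step three for a stable line, in the two forms needed by the assembly.
-/

set_option autoImplicit false
set_option linter.unusedSectionVars false
set_option linter.style.haveILetI false

noncomputable section

open ModularCurve AlgebraicCurve
open scoped WeierstrassCurve.Affine

namespace FLTAgent.EIS

open Reduction (FB PB rP Ctx kA)
open SS2 (galFn)

variable {p : ℕ}

/-- the prime for the descent: the cusp class separates at a place over it -/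
theorem exists_residual_prime [NeZero p] (hp : p.Prime) (hp' : p ∉ ({2, 3, 5, 7, 13} : Finset ℕ)) :
    ∃ r : ℕ, r.Prime ∧ r ≠ p ∧ ∀ A : ValuationSubring Qb, A.LiesOverPrime r →
      ∀ n : ℕ, reductionModL A p (n • cuspClass p) = 0 → r ∣ n := by
  have hg := genusFormula_pos hp hp'
  set o := addOrderOf (cuspClass p) with ho
  have hne : ∀ r : ℕ, r ∣ o → r ≠ p := fun r hr h => by
    have h2 := Nat.le_of_dvd (Nat.sub_pos_of_lt hp.one_lt)
      (hr.trans ((addOrderOf_cuspClass_dvd hp).trans (eisensteinNumerator_dvd p)))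
    have := hp.pos
    omega
  by_cases hodd : ∃ r : ℕ, r.Prime ∧ r ∣ o ∧ r ≠ 2
  · obtain ⟨r, hr, hro, hr2⟩ := hodd
    refine ⟨r, hr, hne r hro, fun A hA n h => ?_⟩
    simpa using pow_dvd_of_reductionModL_nsmul_eq_zero hp hr hr2 A hA (v := 1) (by simpa using hro) h
  · have h2 : p ≠ 2 := fun h => hp' (by simp [h])
    refine ⟨2, Nat.prime_two, Ne.symm h2, fun A hA n h => ?_⟩
    by_contra hn
    refine reductionModL_cuspClass_ne_zero hp hg Nat.prime_two (Ne.symm h2) A hA ?_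
    rw [map_nsmul] at h
    have ho' : o • reductionModL A p (cuspClass p) = 0 := by
      rw [← map_nsmul, ho, addOrderOf_nsmul_eq_zero, map_zero]
    have hco : Nat.Coprime n o := Nat.coprime_of_dvd' fun k hk hkn hko => by
      rcases eq_or_ne k 2 with rfl | hk2
      · exact absurd hkn hn
      · exact absurd ⟨k, hk, hko, hk2⟩ hodd
    have hd : addOrderOf (reductionModL A p (cuspClass p)) ∣ Nat.gcd n o :=
      Nat.dvd_gcd (addOrderOf_dvd_of_nsmul_eq_zero h) (addOrderOf_dvd_of_nsmul_eq_zero ho')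
    rw [hco.gcd_eq_one, Nat.dvd_one, AddMonoid.addOrderOf_eq_one_iff] at hd
    exact hd

/-- a rational class vanishing in reduction at `2` and `3` never reduces to the cusp class -/
theorem red_ne_cuspClass [NeZero p] (hp : p.Prime) (hp' : p ∉ ({2, 3, 5, 7, 13} : Finset ℕ))
    {x : JZero p} (hx : ∀ g : GalQ, g • x = x)
    (h2 : ∀ B : ValuationSubring Qb, B.LiesOverPrime 2 → reductionModL B p x = 0)
    (h3 : ∀ B : ValuationSubring Qb, B.LiesOverPrime 3 → reductionModL B p x = 0)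
    {ℓ : ℕ} {B : ValuationSubring Qb} (C : Ctx B p ℓ) :
    reductionModL B p x ≠ reductionModL B p (cuspClass p) := by
  intro heq
  obtain ⟨r, hr, hrp, hsep⟩ := exists_residual_prime hp hp'
  obtain ⟨A, hA, hB⟩ : ∃ A : ValuationSubring Qb, A.LiesOverPrime r ∧ (ℓ ≠ r ∨ B = A) := by
    rcases eq_or_ne ℓ r with rfl | h
    · exact ⟨B, C.lies, Or.inr rfl⟩
    · obtain ⟨A, -, hA, -⟩ := Alg.exists_place_frobenius r hr
      exact ⟨A, hA, Or.inl h⟩
  have hrP : ¬ r ∣ p := fun h => hrp ((Nat.prime_dvd_prime_iff_eq hr hp).mp h)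
  have H : Cond p r A := ⟨hp, hr, hrp, hA, redStable hp ⟨hr, hrP, hA⟩⟩
  obtain ⟨q, hq, hqp, hqr, hx0⟩ : ∃ q : ℕ, q.Prime ∧ ¬ q ∣ p ∧ q ≠ r ∧
      ∀ B : ValuationSubring Qb, B.LiesOverPrime q → reductionModL B p x = 0 := by
    have hp2 : p ≠ 2 := fun h => hp' (by simp [h])
    have hp3 : p ≠ 3 := fun h => hp' (by simp [h])
    rcases eq_or_ne r 3 with rfl | h
    · exact ⟨2, Nat.prime_two, fun h => hp2 ((Nat.prime_dvd_prime_iff_eq Nat.prime_two hp).mp h).symm,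
        by norm_num, h2⟩
    · exact ⟨3, Nat.prime_three,
        fun h => hp3 ((Nat.prime_dvd_prime_iff_eq Nat.prime_three hp).mp h).symm, Ne.symm h, h3⟩
  obtain ⟨B₀, -, hB₀, -⟩ := Alg.exists_place_frobenius q hq
  obtain ⟨k, hk, z, hz, he⟩ := exists_red_mem H ⟨hq, hqp, hB₀⟩ hqr hx (hx0 B₀ hB₀) C
  exact cusp_not_red_mem H (hsep A hA) C hB hk hz (by rw [← heq]; exact he)

/-- A rational place reducing at `2` and at `3` to one of the two cusps never reduces to the other. -/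
theorem rP_ne_other_cusp [Fact p.Prime] (hp' : p ∉ ({2, 3, 5, 7, 13} : Finset ℕ)) {X P P' : PB p}
    (hX : ∀ σ : GalQ, galFn p σ • X = X)
    (hP : (P = Poo p ∧ P' = P0 p) ∨ (P = P0 p ∧ P' = Poo p))
    (h2 : ∀ (B : ValuationSubring Qb) (C : Ctx B p 2), rP C X = rP C P)
    (h3 : ∀ (B : ValuationSubring Qb) (C : Ctx B p 3), rP C X = rP C P)
    {ℓ : ℕ} {B : ValuationSubring Qb} (C : Ctx B p ℓ) : rP C X ≠ rP C P' := by
  intro h
  have hp : p.Prime := Fact.out
  have hp2 : ¬ 2 ∣ p := fun h => hp' (by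
    simp [((Nat.prime_dvd_prime_iff_eq Nat.prime_two hp).mp h).symm])
  have hp3 : ¬ 3 ∣ p := fun h => hp' (by
    simp [((Nat.prime_dvd_prime_iff_eq Nat.prime_three hp).mp h).symm])
  have hfix : ∀ σ : GalQ, galFn p σ • P = P := fun σ => by
    rcases hP with ⟨rfl, -⟩ | ⟨rfl, -⟩
    · exact galFn_smul_Poo p σ
    · exact galFn_smul_P0 p σ
  have hxx : ∀ σ : GalQ, σ • pairClass X P = pairClass X P := fun σ =>
    smul_pairClass σ (hX σ) (hfix σ)
  have hz : ∀ {q : ℕ} {B : ValuationSubring Qb} (C : Ctx B p q), rP C X = rP C P →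
      reductionModL B p (pairClass X P) = 0 := fun {q B} C h => by
    rw [reduction_pairClass_congr C h (rfl : rP C P = rP C P), pairClass_self, map_zero]
  have h20 : ∀ B : ValuationSubring Qb, B.LiesOverPrime 2 →
      reductionModL B p (pairClass X P) = 0 :=
    fun B hB => hz ⟨Nat.prime_two, hp2, hB⟩ (h2 B _)
  have h30 : ∀ B : ValuationSubring Qb, B.LiesOverPrime 3 →
      reductionModL B p (pairClass X P) = 0 :=
    fun B hB => hz ⟨Nat.prime_three, hp3, hB⟩ (h3 B _)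
  have he := reduction_pairClass_congr C (X' := P') (Y' := P) h rfl
  rcases hP with ⟨rfl, rfl⟩ | ⟨rfl, rfl⟩
  · rw [pairClass_P0_Poo] at he
    exact red_ne_cuspClass hp hp' hxx h20 h30 C he
  · rw [pairClass_swap (P0 p) (Poo p), pairClass_P0_Poo, map_neg] at he
    refine red_ne_cuspClass hp hp' (x := -pairClass X (P0 p)) (fun g => ?_) (fun B hB => ?_)
      (fun B hB => ?_) C ?_
    · rw [smul_neg, hxx g]
    · rw [map_neg, h20 B hB, neg_zero]
    · rw [map_neg, h30 B hB, neg_zero]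
    · rw [map_neg, he, neg_neg]

theorem five_le_of_not_mem (hp : p.Prime) (hp' : p ∉ ({2, 3, 5, 7, 13} : Finset ℕ)) : 5 ≤ p := by
  simp only [Finset.mem_insert, Finset.mem_singleton, not_or] at hp'
  have := hp.two_le
  rcases (show p = 2 ∨ p = 3 ∨ p = 4 ∨ 5 ≤ p by omega) with h | h | h | h
  · exact absurd h hp'.1
  · exact absurd h hp'.2.1
  · exact absurd (h ▸ hp) (by norm_num)
  · exact h

/-- the statement needed for the Frey curves -/
theorem coreProp : CoreProp := by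
  intro p _ hp' W hΔ Q hQ hline h2Δ h2c h2 h3Δ h3c h3
  obtain ⟨h4, h6⟩ := c4_c6_ne_zero Nat.prime_two h2Δ h2c
  obtain ⟨X, hX, hj, hred⟩ :=
    exists_place_point (five_le_of_not_mem Fact.out hp') W hΔ h4 h6 Q hQ hline
  refine ⟨X, hX, hj, fun ℓ hd hc A C => ?_⟩
  by_cases hin : W.InZeroComponentAt A Q
  · exact (hred ℓ hd hc A C).1 hin
  · exact absurd ((hred ℓ hd hc A C).2 hin) (rP_ne_other_cusp hp' hX (Or.inl ⟨rfl, rfl⟩)
      (fun B D => (hred 2 h2Δ h2c B D).1 (h2 B D.lies))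
      (fun B D => (hred 3 h3Δ h3c B D).1 (h3 B D.lies)) C)

/-- step three for a rational point -/
theorem not_inZeroComponentAt (hp : p.Prime) (hp' : p ∉ ({2, 3, 5, 7, 13} : Finset ℕ))
    (W : WeierstrassCurve ℤ) (hΔ : W.Δ ≠ 0)
    (Q : ((W.map (Int.castRingHom ℚ))⁄(AlgebraicClosure ℚ)).Point)
    (hline : ∀ σ : GalQ, σ • Q ∈ AddSubgroup.zmultiples Q) (hQ : addOrderOf Q = p)
    (h2Δ : (2 : ℤ) ∣ W.Δ) (h2c : ¬ (2 : ℤ) ∣ W.c₄)
    (h2 : ∀ A : ValuationSubring Qb, A.LiesOverPrime 2 → ¬ W.InZeroComponentAt A Q)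
    (h3Δ : (3 : ℤ) ∣ W.Δ) (h3c : ¬ (3 : ℤ) ∣ W.c₄)
    (h3 : ∀ A : ValuationSubring Qb, A.LiesOverPrime 3 → ¬ W.InZeroComponentAt A Q)
    {ℓ : ℕ} (hℓ : ℓ.Prime) (hℓp : ℓ ≠ p) (hℓΔ : (ℓ : ℤ) ∣ W.Δ) (hℓc : ¬ (ℓ : ℤ) ∣ W.c₄)
    (A : ValuationSubring Qb) (hA : A.LiesOverPrime ℓ) : ¬ W.InZeroComponentAt A Q := by
  haveI : Fact p.Prime := ⟨hp⟩
  obtain ⟨h4, h6⟩ := c4_c6_ne_zero Nat.prime_two h2Δ h2c
  obtain ⟨X, hX, -, hred⟩ :=
    exists_place_point (five_le_of_not_mem hp hp') W hΔ h4 h6 Q hQ hline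
  intro hin
  have C : Ctx A p ℓ := ⟨hℓ, fun h => hℓp ((Nat.prime_dvd_prime_iff_eq hℓ hp).mp h), hA⟩
  exact rP_ne_other_cusp hp' hX (Or.inr ⟨rfl, rfl⟩)
    (fun B D => (hred 2 h2Δ h2c B D).2 (h2 B D.lies))
    (fun B D => (hred 3 h3Δ h3c B D).2 (h3 B D.lies)) C ((hred ℓ hℓΔ hℓc A C).1 hin)

end FLTAgent.EIS

end
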