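import Fermat.Agent.EIS.Cyclo
import Fermat.Agent.Torsion.Reducible

/-!
Area EIS, parcel H: at a prime `q` with `2q + 1 < p`, a cofixed line of `W[p]` forces multiplicative
reduction and lies in the identity component.
-/

set_option autoImplicit false

noncomputable section

namespace FLTAgent.EIS

open WeierstrassCurve IsLocalRing Local FLTAgent.Torsion WeierstrassCurve.Affine.Point
open scoped WeierstrassCurve.Affine Pointwise

variable {A : ValuationSubring Qb} {W : WeierstrassCurve ℤ} {q p : ℕ}

/-- the identity component is stable under the decomposition group -/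
theorem smul_mem_zeroComp {σ : GalQ} (hσ : σ ∈ A.decompositionSubgroup ℚ) {P : QPoint W}
    (hP : P ∈ zeroComp W A) : σ • P ∈ zeroComp W A := by
  rcases P with _ | ⟨x, y, h⟩
  · exact (zeroComp W A).zero_mem
  rcases hP with h0 | ⟨x', y', h', hxy, hh⟩
  · exact absurd h0 (Affine.Point.some_ne_zero _)
  obtain ⟨rfl, rfl⟩ := Affine.Point.some.inj hxy
  refine Or.inr ⟨σ x, σ y, _, Affine.Point.map_some σ.toAlgHom h, ?_⟩
  rcases hh with hx | ⟨hx, hy, hn⟩
  · refine Or.inl fun hx' => hx ?_
    rwa [← A.valuation_le_one_iff, val_aut hσ, A.valuation_le_one_iff] at hx'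
  · have hx' : σ x ∈ A := by rwa [← A.valuation_le_one_iff, val_aut hσ, A.valuation_le_one_iff]
    have hy' : σ y ∈ A := by rwa [← A.valuation_le_one_iff, val_aut hσ, A.valuation_le_one_iff]
    refine Or.inr ⟨hx', hy', ?_⟩
    let e : ResidueField A →+* ResidueField A :=
      MulSemiringAction.toRingHom (A.decompositionSubgroup ℚ) (ResidueField A) ⟨σ, hσ⟩
    have hn2 := (Affine.map_nonsingular
      (W.map (Int.castRingHom (ResidueField A))).toAffine (f := e) e.injective _ _).mpr hn
    have eW : (W.map (Int.castRingHom (ResidueField A))).map e =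
        W.map (Int.castRingHom (ResidueField A)) := by
      rw [WeierstrassCurve.map_map, RingHom.ext_int (e.comp _) (Int.castRingHom _)]
    rw [show (W.map (Int.castRingHom (ResidueField A))).toAffine.map e =
      (W.map (Int.castRingHom (ResidueField A))).toAffine from eW] at hn2
    exact hn2

/-- a point of order `p > 2q + 1` of the identity component cannot be fixed by Frobenius -/
theorem eq_zero_of_frob_fixed (hA : A.LiesOverPrime q) (hq : q.Prime) {σ : GalQ}
    (hσ : A.IsFrobeniusAt σ q) (hp : p.Prime) (hqp : 2 * q + 1 < p) {P : QPoint W}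
    (hP : p • P = 0) (hP0 : P ∈ zeroComp W A) (hfix : σ • P = P) : P = 0 := by
  classical
  by_contra hne
  set T := toLoc A W P with hT
  have hT0 : InE0 T := (inE0_toLoc A W).2 hP0
  have hTp : p • T = 0 := by rw [hT, ← map_nsmul, hP, _root_.map_zero]
  have hpq : ¬ q ∣ p := fun h => by
    have := (Nat.prime_dvd_prime_iff_eq hq hp).1 h; omega
  have hord : ∀ m : ℕ, ¬ p ∣ m → m • red T ≠ 0 := by
    intro m hm e
    rw [← red_nsmul hT0] at e
    have h1 := inE1_of_red_eq_zero ((compZero _).nsmul_mem hT0 m) e
    have h3 : m • P = 0 := redKernel_torsion_eq_zero hA hq hpq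
      ((inE1_toLoc W A).1 (by rw [map_nsmul]; exact h1)) (by rw [← mul_nsmul, mul_comm, mul_nsmul, hP, nsmul_zero])
    refine hne (AddMonoid.addOrderOf_eq_one_iff.1 (Nat.eq_one_of_dvd_one ?_))
    rw [← ((hp.coprime_iff_not_dvd).2 hm).gcd_eq_one]
    exact Nat.dvd_gcd (addOrderOf_dvd_of_nsmul_eq_zero hP) (addOrderOf_dvd_of_nsmul_eq_zero h3)
  set enc : (specFib (locModel A W)).toAffine.Point → Option (ResidueField A × ResidueField A) :=
    fun R => match R with
      | .zero => none
      | .some u v _ => some (u, v)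
  have henc : Function.Injective enc := by
    rintro (_ | ⟨u, v, h⟩) (_ | ⟨u', v', h'⟩) e <;> simp [enc] at e <;> simp [e]
  let E := specFib (locModel A W)
  let R : Finset (ResidueField A) :=
    (Polynomial.X ^ q - Polynomial.X : Polynomial (ResidueField A)).roots.toFinset
  let g : ResidueField A → Polynomial (ResidueField A) := fun u =>
    Polynomial.X ^ 2 + Polynomial.C (E.a₁ * u + E.a₃) * Polynomial.X -
      Polynomial.C (u ^ 3 + E.a₂ * u ^ 2 + E.a₄ * u + E.a₆)
  let S : Finset (ResidueField A × ResidueField A) :=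
    R.biUnion fun u => (g u).roots.toFinset.image fun v => (u, v)
  have hq0 : (Polynomial.X ^ q - Polynomial.X : Polynomial (ResidueField A)).natDegree = q :=
    FiniteField.X_pow_card_sub_X_natDegree_eq _ hq.one_lt
  have hS : S.card ≤ q * 2 := by
    refine Finset.card_biUnion_le.trans ((Finset.sum_le_card_nsmul _ _ 2 fun u _ => ?_).trans ?_)
    · refine Finset.card_image_le.trans ((Multiset.toFinset_card_le _).trans
        ((Polynomial.card_roots' _).trans ?_))
      simp only [g]
      compute_degree
    · rw [smul_eq_mul]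
      refine Nat.mul_le_mul_right _ ((Multiset.toFinset_card_le _).trans
        ((Polynomial.card_roots' _).trans hq0.le))
  have hmaps : ∀ m ∈ Finset.range p, enc (m • red T) ∈ Finset.insertNone S := by
    intro m _
    rw [← red_nsmul hT0]
    have hm0 : InE0 (m • T) := (compZero _).nsmul_mem hT0 m
    rcases inE0_cases hm0 with h1 | ⟨x, y, hns, e, hr⟩
    · rw [h1.red_eq]
      exact Finset.mem_insertNone.2 (by
        intro a ha; exact absurd ha (by simp [enc, Affine.Point.zero_def]))
    · rw [e, red_some x.2 y.2 hr, Finset.mem_insertNone]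
      intro w hw
      simp only [enc, Option.mem_def, Option.some.injEq] at hw
      subst hw
      have hfm : σ • (m • P) = m • P := by
        rw [Affine.Point.algEquiv_smul_def, map_nsmul, ← Affine.Point.algEquiv_smul_def, hfix]
      rcases hmP : m • P with _ | ⟨x', y', h'⟩
      · rw [hT, ← map_nsmul, hmP] at e
        exact absurd e.symm (Affine.Point.some_ne_zero _)
      obtain ⟨h'', e''⟩ := toLoc_some A W h'
      rw [hT, ← map_nsmul, hmP, e''] at e
      obtain ⟨rfl, rfl⟩ := Affine.Point.some.inj e
      rw [hmP, Affine.Point.algEquiv_smul_def] at hfm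
      obtain ⟨e1, -⟩ := Affine.Point.some.inj hfm
      have hu : residue A ⟨(x : Qb), x.2⟩ ^ q = residue A ⟨(x : Qb), x.2⟩ := by
        rw [← hσ.smul_residue_eq, ← IsLocalRing.ResidueField.residue_smul]
        exact congrArg (residue A) (Subtype.ext e1)
      have heq : E.toAffine.Equation (residue A ⟨(x : Qb), x.2⟩) (residue A ⟨(y : Qb), y.2⟩) := hr.1
      rw [Affine.equation_iff] at heq
      refine Finset.mem_biUnion.2 ⟨_, Multiset.mem_toFinset.2 ((Polynomial.mem_roots ?_).2 ?_),
        Finset.mem_image.2 ⟨_, Multiset.mem_toFinset.2 ((Polynomial.mem_roots ?_).2 ?_), rfl⟩⟩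
      · intro h0; rw [h0, Polynomial.natDegree_zero] at hq0; exact hq.ne_zero hq0.symm
      · simp [hu]
      · intro h0
        have := congrArg (fun f : Polynomial (ResidueField A) => f.coeff 2) h0
        simp only [g, Polynomial.coeff_sub, Polynomial.coeff_add, Polynomial.coeff_X_pow,
          Polynomial.coeff_C_mul, Polynomial.coeff_X, Polynomial.coeff_C,
          Polynomial.coeff_zero] at this
        norm_num at this
      · simp only [g, Polynomial.IsRoot.def, Polynomial.eval_sub, Polynomial.eval_add,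
          Polynomial.eval_mul, Polynomial.eval_pow, Polynomial.eval_X, Polynomial.eval_C]
        linear_combination heq
  have hinj : ∀ m ∈ Finset.range p, ∀ m' ∈ Finset.range p,
      enc (m • red T) = enc (m' • red T) → m = m' := by
    intro m hm m' hm' e
    have e' := henc e
    simp only [Finset.mem_range] at hm hm'
    by_contra hmm
    rcases lt_or_gt_of_ne hmm with h | h
    · refine hord (m' - m) (fun hd => ?_) ?_
      · have := Nat.le_of_dvd (by omega) hd; omega
      · rw [← add_left_inj (m • red T), zero_add, ← add_nsmul, Nat.sub_add_cancel h.le, e']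
    · refine hord (m - m') (fun hd => ?_) ?_
      · have := Nat.le_of_dvd (by omega) hd; omega
      · rw [← add_left_inj (m' • red T), zero_add, ← add_nsmul, Nat.sub_add_cancel h.le, e']
  have := Finset.card_le_card_of_injOn (fun m => enc (m • red T)) hmaps
    (fun m hm m' hm' e => hinj m hm m' hm' e)
  rw [Finset.card_range, Finset.card_insertNone] at this
  omega

/-- at a small prime, a cofixed line forces multiplicative reduction and lies in the identity
component -/
theorem small_prime (hΔ : W.Δ ≠ 0) (hp : p.Prime) (hq : q.Prime) (hqp : 2 * q + 1 < p)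
    (hss : SemistableAt W q) (N : Submodule (ZMod p) (Tors W p))
    (hN : IsGaloisStable ℚ N) (hNb : N ≠ ⊥) (hNt : N ≠ ⊤)
    (hco : ∀ σ : GalQ, ∀ x : Tors W p, σ • x - x ∈ N)
    (hA : A.LiesOverPrime q) :
    (q : ℤ) ∣ W.Δ ∧ ∀ x ∈ N, (x : QPoint W) ∈ zeroComp W A := by
  classical
  have : Fact p.Prime := ⟨hp⟩
  have := isElliptic_curveBar hΔ
  have hp2 : p ≠ 2 := by have := hq.two_le; omega
  obtain ⟨hfin, hrank⟩ := finrank_tors hΔ p
  have hN1 : Module.finrank (ZMod p) N < 2 := hrank ▸ Submodule.finrank_lt hNt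
  obtain ⟨σ, hσ⟩ := exists_frobenius_at hq hA
  let f : Tors W p →ₗ[ZMod p] Tors W p :=
    { toFun := fun x => σ • x - x
      map_add' := fun x y => by rw [smul_add]; abel
      map_smul' := fun c x => by rw [smul_zmod_smul, RingHom.id_apply, smul_sub] }
  have hker : LinearMap.ker f ≠ ⊥ := by
    intro h
    have h1 := LinearMap.finrank_range_add_finrank_ker f
    rw [h, finrank_bot, add_zero, hrank] at h1
    have h2 : Module.finrank (ZMod p) (LinearMap.range f) ≤ Module.finrank (ZMod p) N :=
      Submodule.finrank_mono (LinearMap.range_le_iff_comap.mpr (top_unique fun x _ => hco σ x))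
    omega
  obtain ⟨v, hv, hv0⟩ := Submodule.exists_mem_ne_zero_of_ne_bot hker
  have hcore : ∀ y : Tors W p, (y : QPoint W) ∈ zeroComp W A → σ • y = y → y = 0 :=
    fun y hy hfix => Subtype.ext (eq_zero_of_frob_fixed hA hq hσ hp hqp (nsmul_tors y) hy
      (congrArg Subtype.val hfix))
  have hd : (q : ℤ) ∣ W.Δ := by
    by_contra hd
    exact hv0 (hcore v (mem_zeroComp_of_good hA hq hd _) (sub_eq_zero.mp hv))
  refine ⟨hd, ?_⟩
  obtain ⟨P₀, hP₀N, hP₀⟩ := N.exists_mem_ne_zero_of_ne_bot hNb
  have hN1' : Module.finrank (ZMod p) N = 1 := by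
    have : 0 < Module.finrank (ZMod p) N := by
      rw [Module.finrank_pos_iff]; exact Submodule.nontrivial_iff_ne_bot.mpr hNb
    omega
  have hspan : ∀ y ∈ N, ∃ c : ZMod p, c • P₀ = y := fun y hy => by
    obtain ⟨c, hc⟩ := exists_smul_eq_of_finrank_eq_one hN1'
      (show (⟨P₀, hP₀N⟩ : N) ≠ 0 from fun e => hP₀ (congrArg Subtype.val e)) ⟨y, hy⟩
    exact ⟨c, congrArg Subtype.val hc⟩
  let ι : Tors W p →+ QPoint W := (Submodule.subtype _).toAddMonoidHom
  let E0 : Submodule (ZMod p) (Tors W p) :=
    AddSubgroup.toZModSubmodule p ((zeroComp W A).comap ι)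
  have h0 : P₀ ∈ E0 := by
    by_contra h0
    refine hNt (top_unique fun x _ => ?_)
    obtain ⟨m, hm⟩ := exists_nsmul_sub_mem_zeroComp hA hq hss hΔ hp hp2
      (nsmul_tors P₀) (nsmul_tors x) h0
    have hy : x - m • P₀ ∈ E0 := by
      show ι (x - m • P₀) ∈ zeroComp W A
      rw [map_sub, map_nsmul]; exact hm
    have hσy : σ • (x - m • P₀) ∈ E0 := by
      show ((σ • (x - m • P₀) : Tors W p) : QPoint W) ∈ zeroComp W A
      rw [Torsion.coe_smul]
      exact smul_mem_zeroComp hσ.mem_decompositionSubgroup hy
    obtain ⟨c, hc⟩ := hspan _ (hco σ (x - m • P₀))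
    have hc' : c • P₀ ∈ E0 := hc ▸ E0.sub_mem hσy hy
    have hc0 : c = 0 := by
      by_contra hc0
      have := E0.smul_mem c⁻¹ hc'
      rw [smul_smul, inv_mul_cancel₀ hc0, one_smul] at this
      exact h0 this
    rw [hc0, zero_smul, eq_comm, sub_eq_zero] at hc
    have := hcore (x - m • P₀) hy hc
    rw [sub_eq_zero] at this
    rw [this]
    exact N.nsmul_mem hP₀N m
  intro x hx
  obtain ⟨c, rfl⟩ := hspan x hx
  exact E0.smul_mem c h0

end FLTAgent.EIS

end
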