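import Fermat.Agent.EIS.UnitFn
import Mathlib.NumberTheory.Modular

/-!
Area EIS, parcel H: the archimedean bound `|Δ(pτ)/Δ(τ)| ≤ exp(5p) · C · (|j(τ)| + 1)`.
-/

set_option autoImplicit false

noncomputable section

open UpperHalfPlane Filter ModularCurve
open scoped MatrixGroups Topology Real Modular

namespace FLTAgent.EIS

open ModFun (qp etaP etaFn jFun)

local notation "Δf" => ModularForm.discriminant

theorem one_sub_sum_le_prod_one_sub {ι : Type*} (s : Finset ι) (a : ι → ℝ) (h0 : ∀ i ∈ s, 0 ≤ a i)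
    (h1 : ∀ i ∈ s, a i ≤ 1) : 1 - ∑ i ∈ s, a i ≤ ∏ i ∈ s, (1 - a i) := by
  classical
  induction s using Finset.induction_on with
  | empty => simp
  | insert x s hx ih =>
    rw [Finset.sum_insert hx, Finset.prod_insert hx]
    have hax := h0 x (Finset.mem_insert_self x s)
    have hax' := h1 x (Finset.mem_insert_self x s)
    have hs : ∀ i ∈ s, 0 ≤ a i := fun i hi => h0 i (Finset.mem_insert_of_mem hi)
    have hs' : ∀ i ∈ s, a i ≤ 1 := fun i hi => h1 i (Finset.mem_insert_of_mem hi)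
    have h3 := ih hs hs'
    have h4 : 0 ≤ ∑ i ∈ s, a i := Finset.sum_nonneg hs
    nlinarith [mul_le_mul_of_nonneg_left h3 (sub_nonneg.mpr hax')]

theorem geom_le {r : ℝ} (h0 : 0 ≤ r) (h1 : r < 1) (n : ℕ) :
    ∑ i ∈ Finset.range n, r ^ (i + 1) ≤ r / (1 - r) := by
  rw [le_div_iff₀ (by linarith)]
  induction n with
  | zero => simpa using h0
  | succ n ih =>
    have key : (∑ i ∈ Finset.range (n + 1), r ^ (i + 1)) * (1 - r) = r - r ^ (n + 2) := by
      clear ih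
      induction n with
      | zero => simp; ring
      | succ n ih => rw [Finset.sum_range_succ, add_mul, ih]; ring
    rw [key]
    linarith [pow_nonneg h0 (n + 2)]

theorem tendsto_norm_etaPartial {q : ℂ} (hq : ‖q‖ < 1) :
    Tendsto (fun M => ∏ i ∈ Finset.range M, ‖1 - q ^ (i + 1)‖) atTop (𝓝 ‖etaP q‖) := by
  refine ((ModFun.tendsto_etaPartial.tendsto_at (show q ∈ Metric.ball (0 : ℂ) 1 by simpa using hq)).norm).congr
    fun M => ?_
  simp [ModFun.etaPartial, Polynomial.eval_prod]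

theorem norm_etaP_le {q : ℂ} (hq : ‖q‖ < 1) : ‖etaP q‖ ≤ Real.exp (‖q‖ / (1 - ‖q‖)) := by
  refine le_of_tendsto' (tendsto_norm_etaPartial hq) fun M => ?_
  refine le_trans ?_ (Real.exp_le_exp.mpr (geom_le (norm_nonneg q) hq M))
  rw [Real.exp_sum]
  refine Finset.prod_le_prod (fun i _ => norm_nonneg _) fun i _ => ?_
  refine le_trans ?_ (Real.add_one_le_exp _)
  refine (norm_sub_le _ _).trans ?_
  rw [norm_one, norm_pow, add_comm]

theorem le_norm_etaP {q : ℂ} (hq : ‖q‖ < 1) : 1 - ‖q‖ / (1 - ‖q‖) ≤ ‖etaP q‖ := by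
  refine ge_of_tendsto' (tendsto_norm_etaPartial hq) fun M => ?_
  have h1 : ∀ i ∈ Finset.range M, ‖q‖ ^ (i + 1) ≤ 1 := fun i _ =>
    pow_le_one₀ (norm_nonneg q) hq.le
  refine le_trans (le_trans ?_ (one_sub_sum_le_prod_one_sub _ _ (fun i _ => pow_nonneg (norm_nonneg q) _) h1))
    (Finset.prod_le_prod (fun i hi => sub_nonneg.mpr (h1 i hi)) fun i _ => ?_)
  · linarith [geom_le (norm_nonneg q) hq M]
  · have := norm_sub_norm_le (1 : ℂ) (q ^ (i + 1))
    rwa [norm_one, norm_pow] at this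

theorem exp_ratio_le {x : ℝ} (hx : 0 < x) : Real.exp (-x) / (1 - Real.exp (-x)) ≤ 1 / x := by
  have h := Real.add_one_le_exp x
  have h1 : Real.exp (-x) < 1 := Real.exp_lt_one_iff.mpr (by linarith)
  rw [div_le_div_iff₀ (by linarith) hx]
  have h2 : Real.exp (-x) * Real.exp x = 1 := by rw [← Real.exp_add]; simp
  nlinarith [Real.exp_pos (-x)]

theorem norm_delta_eq (τ : ℍ) : ‖Δf τ‖ = ‖qp τ‖ * ‖etaP (qp τ)‖ ^ 24 := by
  rw [ModFun.discriminant_eq]
  simp [etaFn]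

/-- `j` is large where `q` is small -/
theorem jFun_large {τ : ℍ} (h : ‖qp τ‖ ≤ 1 / 1000) : 1 / ‖qp τ‖ ≤ 5 * ‖jFun τ‖ := by
  have hq0 : 0 < ‖qp τ‖ := norm_pos_iff.mpr (ModFun.qp_ne_zero τ)
  set r := ‖qp τ‖ with hr
  have hE : ‖ModularForm.E₄ τ - 1‖ ≤ 240 * r / (1 - 16 * r) := by
    have hs := (hasSum_nat_add_iff' 1).mpr (ModFun.isMF_E4.good.hasSum τ)
    rw [Finset.sum_range_one, pow_zero, mul_one, ModFun.qx_E4, PowerSeries.coeff_map,
      PowerSeries.coeff_zero_eq_constantCoeff, constantCoeff_eisenstein4, map_one] at hs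
    rw [← hs.tsum_eq]
    have hg : HasSum (fun n : ℕ => 240 * r * (16 * r) ^ n) (240 * r / (1 - 16 * r)) := by
      rw [div_eq_mul_inv]
      exact (hasSum_geometric_of_lt_one (by positivity) (by linarith)).mul_left _
    refine tsum_of_norm_bounded hg fun n => ?_
    rw [norm_mul, norm_pow, PowerSeries.coeff_map, eq_intCast, Complex.norm_intCast, eisenstein4, PowerSeries.coeff_mk,
      if_neg (Nat.succ_ne_zero n)]
    have hb : ((∑ d ∈ (n + 1).divisors, (d : ℤ) ^ 3 : ℤ) : ℝ) ≤ 16 ^ n := by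
      have h1 : (∑ d ∈ (n + 1).divisors, d ^ 3 : ℕ) ≤ 16 ^ n := by
        calc (∑ d ∈ (n + 1).divisors, d ^ 3 : ℕ) ≤ ∑ d ∈ (n + 1).divisors, (n + 1) ^ 3 :=
              Finset.sum_le_sum fun d hd => Nat.pow_le_pow_left (Nat.divisor_le hd) 3
          _ ≤ (n + 1) * (n + 1) ^ 3 := by
              rw [Finset.sum_const, smul_eq_mul]
              exact Nat.mul_le_mul_right _ (Nat.card_divisors_le_self _)
          _ = (n + 1) ^ 4 := by ring
          _ ≤ (2 ^ n) ^ 4 := Nat.pow_le_pow_left Nat.lt_two_pow_self 4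
          _ = 16 ^ n := by rw [← pow_mul, mul_comm, pow_mul]; norm_num
      exact_mod_cast h1
    have h0 : (0 : ℝ) ≤ ((∑ d ∈ (n + 1).divisors, (d : ℤ) ^ 3 : ℤ) : ℝ) := by
      push_cast; positivity
    rw [Int.cast_mul, abs_mul, abs_of_nonneg h0, mul_pow, pow_succ]
    norm_num
    have := mul_le_mul_of_nonneg_right hb (by positivity : (0 : ℝ) ≤ r ^ n * r)
    push_cast at this
    nlinarith
  have hd : 240 * r / (1 - 16 * r) ≤ 1 / 4 := by
    rw [div_le_iff₀ (by linarith)]; linarith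
  have hE4 : 3 / 4 ≤ ‖ModularForm.E₄ τ‖ := by
    have := norm_sub_norm_le (1 : ℂ) (1 - ModularForm.E₄ τ)
    rw [sub_sub_cancel, norm_one, norm_sub_rev] at this
    linarith
  have hP : ‖etaP (qp τ)‖ ^ 24 ≤ 2 := by
    have h1 := pow_le_pow_left₀ (norm_nonneg _) (norm_etaP_le (ModFun.norm_qp_lt_one τ)) 24
    rw [← Real.exp_nat_mul] at h1
    refine h1.trans ?_
    have h2 : (24 : ℝ) * (r / (1 - r)) ≤ 1 / 40 := by
      rw [mul_div_assoc', div_le_iff₀ (by linarith)]; linarith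
    calc Real.exp _ ≤ Real.exp (1 / 40) := Real.exp_le_exp.mpr (by exact_mod_cast h2)
      _ ≤ 1 / (1 - 1 / 40) := Real.exp_bound_div_one_sub_of_interval (by norm_num) (by norm_num)
      _ ≤ 2 := by norm_num
  have hj : ‖jFun τ‖ * (r * ‖etaP (qp τ)‖ ^ 24) = ‖ModularForm.E₄ τ‖ ^ 3 := by
    rw [hr, ← norm_delta_eq, ← norm_mul, ← norm_pow]
    exact congrArg norm (congrFun ModFun.jFun_mul_delta τ)
  have h34 := pow_le_pow_left₀ (by norm_num) hE4 3
  rw [div_le_iff₀ hq0]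
  have := mul_le_mul_of_nonneg_left hP (mul_nonneg (norm_nonneg (jFun τ)) hq0.le)
  nlinarith

variable (p : ℕ) [NeZero p]

/-- the archimedean estimate -/
theorem norm_uFn_le (τ : ℍ) :
    ‖uFn p τ‖ ≤ Real.exp (5 * p) * 256000 * (‖jFun τ‖ + 1) := by
  obtain ⟨g, hg⟩ := ModularGroup.exists_smul_mem_fd τ
  set z := g • τ with hz
  obtain ⟨A, B, D, hA, hD, hAD, hu⟩ := exists_uFn_eq p g⁻¹
  have eu := hu z
  rw [hz, inv_smul_smul, ← hz] at eu
  have hj : jFun z = jFun τ := by rw [hz, ModFun.jFun_smul]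
  rw [eu, ← hj]
  have him : (4 : ℝ) / 5 ≤ z.im := by
    have h3 := ModularGroup.three_le_four_mul_im_sq_of_mem_fd hg
    have := z.im_pos
    nlinarith
  set w := ModFun.aff A B D z with hw
  have hA1 : (1 : ℝ) ≤ A := by exact_mod_cast Nat.one_le_iff_ne_zero.mpr hA.ne
  have hD1 : (1 : ℝ) ≤ D := by exact_mod_cast Nat.one_le_iff_ne_zero.mpr hD.ne
  have hp : (p : ℝ) = A * D := by rw [← hAD]; push_cast; ring
  have hpi := Real.pi_gt_three
  have hp0 : (0 : ℝ) < p := by rw [hp]; positivity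
  -- the numerator
  have hwim : 4 / 5 / (p : ℝ) ≤ w.im := by
    rw [hw, ModFun.im_aff, hp, div_le_div_iff₀ (by positivity) (by positivity)]
    have : (1 : ℝ) ≤ A * A := one_le_mul_of_one_le_of_one_le hA1 hA1
    nlinarith [mul_le_mul_of_nonneg_right (mul_le_mul_of_nonneg_right this z.im_pos.le)
      (by linarith : (0 : ℝ) ≤ D), mul_le_mul_of_nonneg_right him (by linarith : (0 : ℝ) ≤ D)]
  have hup : ‖Δf w‖ ≤ Real.exp (5 * p) := by
    rw [norm_delta_eq]
    have hx : 0 < 2 * π * w.im := by have := w.im_pos; positivity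
    have hq : ‖qp w‖ = Real.exp (-(2 * π * w.im)) := by rw [ModFun.norm_qp]; ring_nf
    refine le_trans (mul_le_of_le_one_left (by positivity) (ModFun.norm_qp_lt_one w).le) ?_
    refine (pow_le_pow_left₀ (norm_nonneg _) (norm_etaP_le (ModFun.norm_qp_lt_one w)) 24).trans ?_
    rw [← Real.exp_nat_mul, Real.exp_le_exp]
    have h1 := exp_ratio_le hx
    rw [← hq] at h1
    refine le_trans (mul_le_mul_of_nonneg_left h1 (by norm_num)) ?_
    rw [mul_one_div, div_le_iff₀ hx]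
    have h2 : 4 / 5 ≤ (p : ℝ) * w.im := by
      rw [div_le_iff₀ hp0] at hwim; linarith
    push_cast
    nlinarith
  -- the denominator
  have hqz : ‖qp z‖ ≤ 1 / 5 := by
    rw [ModFun.norm_qp]
    have h1 : (4 : ℝ) ≤ 2 * π * z.im := by nlinarith
    have h2 := Real.add_one_le_exp (2 * π * z.im)
    rw [show -2 * π * z.im = -(2 * π * z.im) by ring, Real.exp_neg,
      inv_le_comm₀ (Real.exp_pos _) (by norm_num)]
    linarith
  have hlow : ‖qp z‖ * (1 / 256000) * 1000 ≤ ‖Δf z‖ := by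
    rw [norm_delta_eq, mul_assoc]
    refine mul_le_mul_of_nonneg_left ?_ (norm_nonneg _)
    have h1 := le_norm_etaP (ModFun.norm_qp_lt_one z)
    have h2 : ‖qp z‖ / (1 - ‖qp z‖) ≤ 1 / 5 + 1 / 20 := by
      rw [div_le_iff₀ (by linarith)]; linarith
    have h3 : (3 / 4 : ℝ) ≤ ‖etaP (qp z)‖ := by linarith
    by_cases hsmall : ‖qp z‖ ≤ 1 / 6
    · have h4 : ‖qp z‖ / (1 - ‖qp z‖) ≤ 1 / 5 := by
        rw [div_le_iff₀ (by linarith)]; linarith
      have h5 : (4 / 5 : ℝ) ≤ ‖etaP (qp z)‖ := by linarith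
      exact le_trans (by norm_num) (pow_le_pow_left₀ (by norm_num) h5 24)
    · exfalso
      rw [ModFun.norm_qp] at hsmall
      apply hsmall
      have h1' : (24 / 5 : ℝ) ≤ 2 * π * z.im := by nlinarith
      have h2' := Real.add_one_le_exp (2 * π * z.im)
      have h6 := Real.sum_le_exp_of_nonneg (by linarith : (0 : ℝ) ≤ 2 * π * z.im) 3
      rw [show -2 * π * z.im = -(2 * π * z.im) by ring, Real.exp_neg,
        inv_le_comm₀ (Real.exp_pos _) (by norm_num)]
      simp [Finset.sum_range_succ] at h6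
      nlinarith
  have hinv : 1 / ‖qp z‖ ≤ 1000 * (‖jFun z‖ + 1) := by
    have hj0 := norm_nonneg (jFun z)
    by_cases hs : ‖qp z‖ ≤ 1 / 1000
    · exact (jFun_large hs).trans (by linarith)
    · rw [not_le] at hs
      calc 1 / ‖qp z‖ ≤ 1 / (1 / 1000) := one_div_le_one_div_of_le (by norm_num) hs.le
        _ ≤ _ := by rw [one_div_one_div]; linarith
  have hqz0 : 0 < ‖qp z‖ := norm_pos_iff.mpr (ModFun.qp_ne_zero z)
  have hΔ0 : 0 < ‖Δf z‖ := norm_pos_iff.mpr (ModularForm.discriminant_ne_zero z)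
  have hDle : ‖(D : ℂ) ^ (-12 : ℤ)‖ ≤ 1 := by
    rw [norm_zpow, Complex.norm_natCast]
    exact zpow_le_one_of_nonpos₀ hD1 (by norm_num)
  rw [norm_div, norm_mul, div_le_iff₀ hΔ0]
  calc ‖(D : ℂ) ^ (-12 : ℤ)‖ * ‖Δf w‖ ≤ 1 * Real.exp (5 * p) :=
        mul_le_mul hDle hup (norm_nonneg _) zero_le_one
    _ = Real.exp (5 * p) * 256000 * (1 / ‖qp z‖) * (‖qp z‖ * (1 / 256000)) := by field_simp
    _ ≤ Real.exp (5 * p) * 256000 * (1000 * (‖jFun z‖ + 1)) * (‖qp z‖ * (1 / 256000)) := by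
        gcongr
    _ = Real.exp (5 * p) * 256000 * (‖jFun z‖ + 1) * (‖qp z‖ * (1 / 256000) * 1000) := by ring
    _ ≤ _ := by gcongr

end FLTAgent.EIS

end
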