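import Fermat.Agent.EIS.UnitFn
import Fermat.Agent.EIS.CuspPlaces
import Fermat.Agent.Local.Degree
import Fermat.Agent.Reduction.PlaceMap
import Fermat.Prelude.Def_ModularCurve_ModularUnit

/-!
Area EIS, parcel H: the modular unit in `ℚ̄(X₀(p))` and its values at places.
-/

set_option autoImplicit false
set_option synthInstance.maxHeartbeats 100000

noncomputable section

open UpperHalfPlane ModularCurve AlgebraicCurve Filter
open scoped MatrixGroups Manifold Topology Real ModularForm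

namespace FLTAgent.EIS

open Reduction (FB Val Ctx tB BT rP phiA kA)
open SS2 (galFn)
open ModFun (embC jFun jBar lx M1 Mod1 qp)

local notation "Δf" => ModularForm.discriminant

theorem coeffMap_inj {R S : Type*} [CommRing R] [CommRing S] {f : R →+* S}
    (hf : Function.Injective f) : Function.Injective (coeffMap f) := fun x y h =>
  HahnSeries.ext (funext fun n => hf (by
    rw [← coeffMap_coeff, ← coeffMap_coeff, h]))

section Level

variable (p : ℕ) [NeZero p]

theorem mod1_uFn : Mod1 (uFn p) := by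
  refine ⟨?_, mdiff_uFn p, 1, ?_⟩
  · exact (ModFun.isMF_gN p).good.per.div ModFun.isMF_delta.good.per
  · have h := vConj_bdd p (ModFun.q₁ p)
    rw [vConj_q₁] at h
    refine ((ModFun.Good.const (((p : ℂ) ^ 12)⁻¹)).bdd.mul h).congr_left fun τ => ?_
    simp only [Pi.mul_apply, vFn, pow_one]
    have : (p : ℂ) ≠ 0 := Nat.cast_ne_zero.mpr (NeZero.ne p)
    field_simp

/-- `Δ(pτ)/Δ(τ)` as a periodic function -/
def uM : M1 := ⟨uFn p, mod1_uFn p⟩

theorem lx_discForm : lx ⟨Δf, ModFun.isMF_delta.good.mod1⟩ = coeffEmb ℂ deltaSeries := by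
  rw [ModFun.lx_good ModFun.isMF_delta.good, ModFun.qx_discriminant, deltaSeries, map_mul, map_mul,
    HahnSeries.ofPowerSeries_X]
  congr 1
  · simp [coeffEmb, coeffMap_single]
  · rw [coeffEmb, ModFun.coeffMap_ofPowerSeries, dedekindEtaUnitQ]
    congr 1

theorem lx_uM : lx (uM p) = coeffEmb ℂ (modularUnitSeries p)⁻¹ := by
  have hd := lx_discForm
  have hdN : lx ⟨ModFun.dil p Δf, ModFun.mod1_dil ModFun.isMF_delta.good.mod1 p⟩ =
      coeffEmb ℂ (deltaSeriesN p) := by
    rw [ModFun.lx_dil ⟨Δf, ModFun.isMF_delta.good.mod1⟩ p, hd, deltaSeriesN]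
    exact (ModFun.coeffMap_qExpand _ p _).symm
  have key : lx (uM p) * coeffEmb ℂ deltaSeries = coeffEmb ℂ (deltaSeriesN p) := by
    rw [← hd, ← map_mul, ← hdN]
    refine congrArg lx (Subtype.ext (funext fun τ => ?_))
    show uFn p τ * Δf τ = Δf (ModFun.scale p τ)
    rw [uFn, div_mul_cancel₀ _ (ModularForm.discriminant_ne_zero τ)]
  rw [modularUnitSeries, mul_inv, inv_inv, map_mul, map_inv₀, ← key, mul_comm (lx (uM p)),
    inv_mul_cancel_left₀ ((_root_.map_ne_zero _).mpr deltaSeries_ne_zero)]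

theorem modularUnit_inv_mem : (modularUnitSeries p)⁻¹ ∈ modularFunctionFieldFull p := by
  refine modularFunctionField_le_full p ?_
  have hinv : ∀ γ ∈ CongruenceSubgroup.Gamma0 p, uFn p ∣[(0 : ℤ)] γ = uFn p := fun γ hγ => by
    rw [ModFun.slash_zero_eq]; exact funext (uFn_inv p hγ)
  obtain ⟨D, hD, hD0, hR⟩ := ModFun.exists_mul_polyC (N := p) (mdiff_uFn p) hinv (M := 1)
    (fun γ => by
      have h := vConj_bdd p (QuotientGroup.mk γ⁻¹ : ModFun.Cosets p)
      rw [vConj, ModFun.conjF_mk (vFn_inv p), inv_inv, ModFun.slash_zero_eq] at h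
      rw [ModFun.slash_zero_eq]
      refine ((ModFun.Good.const (((p : ℂ) ^ 12)⁻¹)).bdd.mul h).congr_left fun τ => ?_
      simp only [Pi.mul_apply, vFn, pow_one]
      have : (p : ℂ) ≠ 0 := Nat.cast_ne_zero.mpr (NeZero.ne p)
      field_simp)
    (mod1_uFn p)
  rw [show lx ⟨uFn p, mod1_uFn p⟩ = coeffEmb ℂ (modularUnitSeries p)⁻¹ from lx_uM p] at hR
  obtain ⟨φ, hφ⟩ := ModFun.exists_proj
  obtain ⟨n₀, hn₀⟩ : ∃ n, D.coeff n ≠ 0 := by
    by_contra hc
    push Not at hc
    exact hD0 (HahnSeries.ext (funext hc))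
  set ψ : ℂ →ₗ[ℚ] ℚ := φ.comp (LinearMap.mulLeft ℚ (D.coeff n₀)⁻¹) with hψ
  obtain ⟨ZD, hZD, eD⟩ := ModFun.polyC_descent hD ψ
  obtain ⟨ZR, hZR, eR⟩ := ModFun.polyC_descent hR ψ
  have e1 := eD 1
  rw [map_one, mul_one, mul_one] at e1
  have hZD0 : ZD ≠ 0 := by
    intro h
    have h1 : (ModFun.phiL ψ D).coeff n₀ = 0 := by rw [e1, h, HahnSeries.coeff_zero]
    rw [ModFun.phiL_coeff, hψ, LinearMap.comp_apply, LinearMap.mulLeft_apply,
      inv_mul_cancel₀ hn₀, hφ] at h1
    exact one_ne_zero h1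
  have e2 := eR 1
  rw [map_one, mul_one, mul_one, mul_comm, eD] at e2
  have hle : ∀ Z ∈ ModFun.polyQ p, Z ∈ IntermediateField.adjoin ℚ {jq, qExpand ℚ p jq} :=
    fun Z hZ => IntermediateField.algebra_adjoin_le_adjoin ℚ _ hZ
  have e3 : (modularUnitSeries p)⁻¹ = ZR / ZD := by
    rw [eq_div_iff hZD0, mul_comm]; exact e2
  rw [e3]
  exact div_mem (hle _ hZR) (hle _ hZD)

/-- `Δ(pτ)/Δ(τ)` in `ℚ̄(X₀(p))` -/
def uB : FB p :=
  ⟨coeffEmb Qb (modularUnitSeries p)⁻¹, coeffEmb_mem_laurentBaseChange _ (modularUnit_inv_mem p)⟩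

theorem coeffMap_uB : coeffMap embC ((uB p : FB p) : LaurentSeries Qb) = lx (uM p) :=
  (ModFun.coeffMap_coeffEmb_comp embC _).trans (lx_uM p).symm

theorem uB_ne_zero : uB p ≠ 0 := fun h => by
  have h2 : coeffEmb Qb (modularUnitSeries p)⁻¹ = 0 := congrArg Subtype.val h
  exact modularUnitSeries_ne_zero p (inv_eq_zero.mp ((map_eq_zero _).mp h2))

theorem galFn_smul_uB (σ : GalQ) : galFn p σ • uB p = uB p := by
  refine Subtype.ext (HahnSeries.ext (funext fun n => ?_))
  rw [show ((galFn p σ • uB p : FB p) : LaurentSeries Qb).coeff n =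
    σ (((uB p : FB p) : LaurentSeries Qb).coeff n) from rfl,
    show ((uB p : FB p) : LaurentSeries Qb).coeff n =
      algebraMap ℚ Qb ((modularUnitSeries p)⁻¹.coeff n) from rfl]
  exact σ.commutes _

/-- `p¹² Δ(pτ)/Δ(τ)` in `ℚ̄(X₀(p))` -/
def vB : FB p := algebraMap Qb (FB p) ((p : Qb) ^ 12) * uB p

theorem coeffMap_vB : coeffMap embC ((vB p : FB p) : LaurentSeries Qb) =
    lx (algebraMap ℂ M1 ((p : ℂ) ^ 12) * uM p) := by
  rw [vB, MulMemClass.coe_mul, map_mul, coeffMap_uB, map_mul lx, lx.commutes]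
  congr 1
  show coeffMap embC (algebraMap Qb (LaurentSeries Qb) ((p : Qb) ^ 12)) = _
  rw [algebraMap_laurentSeries_eq_single, algebraMap_laurentSeries_eq_single, coeffMap_single,
    map_pow, map_natCast]

theorem vB_ne_zero : vB p ≠ 0 :=
  mul_ne_zero ((_root_.map_ne_zero _).mpr (pow_ne_zero _ (Nat.cast_ne_zero.mpr (NeZero.ne p))))
    (uB_ne_zero p)

/-- the data of `exists_uPoly` -/
structure UPoly where
  P : ℕ → Polynomial Qb
  P_zero : P 0 = 1
  integral : ∀ m i, IsIntegral ℤ ((P m).coeff i)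
  degree : ∀ m, p * (P m).natDegree ≤ m * (p - 1)
  norm : ∃ C b : Qb, P (ModFun.idx p) = Polynomial.C C ∧ IsIntegral ℤ C ∧ IsIntegral ℤ b ∧
    C * b = (p : Qb) ^ (12 * ModFun.idx p)
  prod_eq : ∀ (τ : ℍ) (x : ℂ), ∏ q : ModFun.Cosets p, (x - vConj p q τ) =
    ∑ m ∈ Finset.range (ModFun.idx p + 1),
      ((P m).map embC).eval (jFun τ) * x ^ (ModFun.idx p - m)

theorem nonempty_uPoly : Nonempty (UPoly p) := by
  obtain ⟨P, h1, h2, h3, h4, h5⟩ := exists_uPoly p
  exact ⟨⟨P, h1, h2, h3, h4, h5⟩⟩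

variable {p}

namespace UPoly

variable (U : UPoly p)
include U

theorem degree_le (m : ℕ) : (U.P m).natDegree ≤ m := by
  have h1 : p * (U.P m).natDegree ≤ p * m :=
    (U.degree m).trans (by rw [mul_comm p m]; exact Nat.mul_le_mul_left m (Nat.sub_le p 1))
  exact Nat.le_of_mul_le_mul_left h1 (Nat.pos_of_ne_zero (NeZero.ne p))

/-- the relation in the function field -/
theorem rel : ∑ m ∈ Finset.range (ModFun.idx p + 1),
    Polynomial.aeval (jBar p) (U.P m) * vB p ^ (ModFun.idx p - m) = 0 := by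
  have hM : ∑ m ∈ Finset.range (ModFun.idx p + 1), Polynomial.aeval ModFun.jM ((U.P m).map embC) *
      (algebraMap ℂ M1 ((p : ℂ) ^ 12) * uM p) ^ (ModFun.idx p - m) = 0 := by
    refine Subtype.ext (funext fun τ => ?_)
    rw [← ModFun.evalM_apply, ← ModFun.evalM_apply, map_zero, map_sum]
    refine Eq.trans (Finset.sum_congr rfl fun m _ => ?_)
      ((U.prod_eq τ ((p : ℂ) ^ 12 * uFn p τ)).symm.trans
        (Finset.prod_eq_zero (Finset.mem_univ (ModFun.q₁ p)) (by rw [vConj_q₁, vFn, sub_self])))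
    rw [map_mul, map_pow, map_mul (ModFun.evalM τ), AlgHom.commutes, ModFun.evalM_apply,
      ModFun.aeval_jM_apply, ModFun.evalM_apply]
    rfl
  have hL := congrArg lx hM
  rw [map_sum, map_zero] at hL
  apply Subtype.ext
  rw [ZeroMemClass.coe_zero, AddSubmonoidClass.coe_finsetSum]
  apply coeffMap_inj embC.injective
  rw [map_zero]
  rw [map_sum]
  refine Eq.trans (Finset.sum_congr rfl fun m _ => ?_) hL
  rw [MulMemClass.coe_mul, SubmonoidClass.coe_pow, map_mul, map_pow, coeffMap_vB,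
    map_mul lx (Polynomial.aeval ModFun.jM _), map_pow lx, ModFun.coe_aeval_bar, ModFun.coeffMap_aeval, ModFun.lx_aeval_jM]
  rw [ModFun.coeffMap_coeffEmb_comp embC jq]

theorem regular_uB {X : Place Qb (FB p)} (h : RR.Bd X (jBar p) 0) : RR.Bd X (uB p) 0 := by
  have hv : vB p ∈ Reduction.regOn Qb (jBar p) := by
    refine Reduction.mem_regOn_of_isIntegral
      (Polynomial.aeval (R := Qb) (jBar p)).toRingHom (fun r => ?_) ?_
    · exact Algebra.adjoin_le (Set.singleton_subset_iff.mpr (Reduction.self_mem_regOn _))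
        (Polynomial.aeval_mem_adjoin_singleton Qb _)
    · refine ⟨Polynomial.X ^ ModFun.idx p + ∑ m ∈ Finset.range (ModFun.idx p),
        Polynomial.C (U.P (m + 1)) * Polynomial.X ^ (ModFun.idx p - (m + 1)), ?_, ?_⟩
      · refine Polynomial.monic_X_pow_add ((Polynomial.degree_sum_le _ _).trans_lt
          ((Finset.sup_lt_iff (WithBot.bot_lt_coe _)).mpr fun m hm => ?_))
        refine (Polynomial.degree_C_mul_X_pow_le _ _).trans_lt ?_
        rw [Finset.mem_range] at hm
        exact Nat.cast_lt.mpr (show ModFun.idx p - (m + 1) < ModFun.idx p by omega)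
      · have h := U.rel
        rw [Finset.sum_range_succ', Nat.sub_zero, U.P_zero, map_one, one_mul, add_comm] at h
        rw [Polynomial.eval₂_add, Polynomial.eval₂_X_pow, Polynomial.eval₂_finsetSum]
        refine Eq.trans ?_ h
        congr 1
        refine Finset.sum_congr rfl fun m _ => ?_
        rw [Polynomial.eval₂_mul, Polynomial.eval₂_C, Polynomial.eval₂_X_pow]
        rfl
  have h2 := (RR.Bd.of_algebraMap (v := X) (((p : Qb) ^ 12)⁻¹)).mul (hv X h)
  rwa [vB, ← mul_assoc, ← map_mul, inv_mul_cancel₀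
    (pow_ne_zero _ (Nat.cast_ne_zero.mpr (NeZero.ne p))), map_one, one_mul, add_zero] at h2

variable {X : Place Qb (FB p)} {d c : Qb}

omit U in
theorem val_vB (hc : Val X (uB p) c) : Val X (vB p) ((p : Qb) ^ 12 * c) :=
  (Val.const _).mul hc

theorem root (hd : Val X (jBar p) d) (hc : Val X (uB p) c) :
    ∑ m ∈ Finset.range (ModFun.idx p + 1),
      (U.P m).eval d * ((p : Qb) ^ 12 * c) ^ (ModFun.idx p - m) = 0 := by
  have hs : ∀ n : ℕ, Val X (∑ m ∈ Finset.range n,
      Polynomial.aeval (jBar p) (U.P m) * vB p ^ (ModFun.idx p - m))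
      (∑ m ∈ Finset.range n, (U.P m).eval d * ((p : Qb) ^ 12 * c) ^ (ModFun.idx p - m)) := by
    intro n
    induction n with
    | zero => simpa using Val.zero
    | succ n ih =>
      rw [Finset.sum_range_succ, Finset.sum_range_succ]
      exact ih.add ((hd.aeval _).mul ((val_vB hc).pow _))
  have h := hs (ModFun.idx p + 1)
  rw [U.rel] at h
  exact h.unique Val.zero

/-- the value is one of the values `u(γτ)` -/
theorem exists_smul_eq (hd : Val X (jBar p) d) (hc : Val X (uB p) c) {τ : ℍ}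
    (hτ : embC d = jFun τ) : ∃ γ : SL(2, ℤ), embC c = uFn p (γ • τ) := by
  have h := congrArg embC (U.root hd hc)
  simp only [map_sum, map_mul, map_pow, map_natCast, map_zero] at h
  rw [Finset.sum_congr rfl fun m _ => by rw [← Polynomial.eval₂_at_apply, ← Polynomial.eval_map, hτ],
    ← U.prod_eq τ ((p : ℂ) ^ 12 * embC c), Finset.prod_eq_zero_iff] at h
  obtain ⟨q, -, hq⟩ := h
  rw [vConj_apply, vFn, sub_eq_zero] at hq
  exact ⟨q.out⁻¹, mul_left_cancel₀ (pow_ne_zero _ (Nat.cast_ne_zero.mpr (NeZero.ne p))) hq⟩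

theorem value_ne_zero (hd : Val X (jBar p) d) (hc : Val X (uB p) c) : c ≠ 0 := by
  obtain ⟨τ, hτ⟩ := ModFun.jFun_surjective (embC d)
  obtain ⟨γ, hγ⟩ := U.exists_smul_eq hd hc hτ.symm
  intro h0
  rw [h0, map_zero] at hγ
  exact uFn_ne_zero p _ hγ.symm

/-- denominators -/
theorem isIntegral_value (hd : Val X (jBar p) d) (hc : Val X (uB p) c) {N D : Qb}
    (hN : IsIntegral ℤ N) (hD : IsIntegral ℤ D) (hND : D * d = N) :
    IsIntegral ℤ (D * ((p : Qb) ^ 12 * c)) := by
  let O := integralClosure ℤ Qb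
  have hy : ∀ m, IsIntegral ℤ (D ^ m * (U.P m).eval d) := fun m => by
    rw [Polynomial.eval_eq_sum_range' (Nat.lt_succ_of_le (U.degree_le m)), Finset.mul_sum]
    refine IsIntegral.sum _ fun i hi => ?_
    rw [Finset.mem_range, Nat.lt_succ_iff] at hi
    rw [show D ^ m * ((U.P m).coeff i * d ^ i) = (U.P m).coeff i * (D ^ (m - i) * N ^ i) by
      rw [← hND, mul_pow, show D ^ m = D ^ (m - i) * D ^ i by rw [← pow_add, Nat.sub_add_cancel hi]]
      ring]
    exact (U.integral m i).mul ((hD.pow _).mul (hN.pow _))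
  set y := D * ((p : Qb) ^ 12 * c) with hydef
  have h0 : ∑ m ∈ Finset.range (ModFun.idx p + 1),
      (D ^ m * (U.P m).eval d) * y ^ (ModFun.idx p - m) = 0 := by
    have h := congrArg (fun z => D ^ ModFun.idx p * z) (U.root hd hc)
    simp only [Finset.mul_sum, mul_zero] at h
    refine Eq.trans (Finset.sum_congr rfl fun m hm => ?_) h
    rw [Finset.mem_range, Nat.lt_succ_iff] at hm
    rw [hydef, mul_pow, show D ^ ModFun.idx p = D ^ (ModFun.idx p - m) * D ^ m by
      rw [← pow_add, Nat.sub_add_cancel hm]]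
    ring
  refine isIntegral_trans (R := ℤ) (A := O) y ⟨Polynomial.X ^ ModFun.idx p +
    ∑ m ∈ Finset.range (ModFun.idx p),
      Polynomial.C (⟨_, hy (m + 1)⟩ : O) * Polynomial.X ^ (ModFun.idx p - (m + 1)), ?_, ?_⟩
  · refine Polynomial.monic_X_pow_add ((Polynomial.degree_sum_le _ _).trans_lt
      ((Finset.sup_lt_iff (WithBot.bot_lt_coe _)).mpr fun m hm => ?_))
    refine (Polynomial.degree_C_mul_X_pow_le _ _).trans_lt ?_
    rw [Finset.mem_range] at hm
    exact Nat.cast_lt.mpr (show ModFun.idx p - (m + 1) < ModFun.idx p by omega)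
  · rw [Finset.sum_range_succ', Nat.sub_zero, U.P_zero, Polynomial.eval_one, pow_zero, one_mul,
      one_mul, add_comm] at h0
    rw [Polynomial.eval₂_add, Polynomial.eval₂_X_pow, Polynomial.eval₂_finsetSum]
    refine Eq.trans ?_ h0
    congr 1
    refine Finset.sum_congr rfl fun m _ => ?_
    rw [Polynomial.eval₂_mul, Polynomial.eval₂_C, Polynomial.eval₂_X_pow]
    rfl

end UPoly

theorem fixed_value {X : Place Qb (FB p)} {c : Qb} {σ : GalQ} (hX : galFn p σ • X = X)
    (hc : Val X (uB p) c) : σ c = c := by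
  refine (Val.unique hc ?_).symm
  have hb : galFn p σ • algebraMap Qb (FB p) c = algebraMap Qb (FB p) (σ c) :=
    (SemilinearAut.smul_algebraMap _ c).trans rfl
  have e : uB p - algebraMap Qb (FB p) (σ c) =
      galFn p σ • (uB p - algebraMap Qb (FB p) c) := by
    rw [smul_sub, hb, galFn_smul_uB]
  rw [Val, e]
  rcases RR.bd_iff.mp hc with h | h
  · rw [h, smul_zero]; exact RR.Bd.zero
  · refine RR.bd_iff.mpr (Or.inr ?_)
    conv_rhs => rw [← hX]
    rwa [SemilinearAut.ord_smul]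

end Level

/-! ### at a prime of the cusp `∞` -/

section Chart

variable {p : ℕ} [Fact p.Prime] {A : ValuationSubring Qb} {ℓ : ℕ}

theorem idx_eq : ModFun.idx p = p + 1 := by
  rw [ModFun.idx, ← Nat.card_eq_fintype_card, Genus.card_cosetSpace,
    show p = p ^ 1 from (pow_one p).symm, Genus.dedekindPsi_prime_pow Fact.out one_pos]
  simp

theorem mem_A_of_isIntegralInt {x : Qb} (hx : IsIntegral ℤ x) : x ∈ A :=
  Reduction.mem_A_of_isIntegral A hx.tower_top

theorem valuation_p (C : Ctx A p ℓ) : A.valuation (p : Qb) = 1 :=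
  Local.valuation_natCast_of_not_dvd C.lies C.prime C.not_dvd

/-- `t^(p-1) / (p¹² u)` with `t = 1/j` -/
def zB (p : ℕ) [NeZero p] : FB p := tB p true ^ (p - 1) * (vB p)⁻¹

theorem BT_zB (U : UPoly p) (C : Ctx A p ℓ) : BT A p true (zB p) := by
  have hn : ModFun.idx p = p + 1 := idx_eq
  obtain ⟨Cc, b, hPC, hCi, hbi, hCb⟩ := U.norm
  have hC0 : Cc ≠ 0 := fun h => by
    rw [h, zero_mul] at hCb
    exact pow_ne_zero _ (Nat.cast_ne_zero.mpr (NeZero.ne p)) hCb.symm
  have hinv : Cc⁻¹ ∈ A := by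
    have hb : b ∈ A := mem_A_of_isIntegralInt hbi
    have hp : ((p : Qb) ^ (12 * ModFun.idx p))⁻¹ ∈ A := by
      rw [← ValuationSubring.valuation_le_one_iff, map_inv₀, map_pow, valuation_p C, one_pow,
        inv_one]
    have : Cc⁻¹ = b * ((p : Qb) ^ (12 * ModFun.idx p))⁻¹ := by
      rw [← hCb, mul_inv]
      field_simp
      rw [div_self (fun h => by
        rw [h, mul_zero] at hCb
        exact pow_ne_zero _ (Nat.cast_ne_zero.mpr (NeZero.ne p)) hCb.symm)]
    rw [this]; exact mul_mem hb hp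
  have hmem : ∀ m i, (Cc⁻¹ * (U.P m).coeff i) ∈ A := fun m i =>
    mul_mem hinv (mem_A_of_isIntegralInt (U.integral m i))
  let e : ℕ → ℕ := fun m => (p - 1) * (ModFun.idx p - m)
  have hdeg : ∀ m < ModFun.idx p, (U.P m).natDegree ≤ e m := by
    intro m hm
    have h1 : p * (U.P m).natDegree ≤ p * (p - 1) :=
      (U.degree m).trans (Nat.mul_le_mul_right _ (by omega))
    exact (Nat.le_of_mul_le_mul_left h1 (Fact.out : p.Prime).pos).trans
      (Nat.le_mul_of_pos_right _ (by omega))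
  let coef : ℕ → Polynomial A := fun m => ∑ i ∈ Finset.range (e m + 1),
    Polynomial.C ⟨_, hmem m i⟩ * Polynomial.X ^ (e m - i)
  have hj : (jBar p : FB p) ≠ 0 := Reduction.ne_zero_of_transc (ModFun.transcendental_jBar p)
  have hcoef : ∀ m < ModFun.idx p, phiA A p true (coef m) =
      algebraMap Qb (FB p) Cc⁻¹ * (Polynomial.aeval (jBar p) (U.P m) * tB p true ^ e m) := by
    intro m hm
    rw [map_sum, Polynomial.aeval_eq_sum_range' (Nat.lt_succ_of_le (hdeg m hm)), Finset.sum_mul,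
      Finset.mul_sum]
    refine Finset.sum_congr rfl fun i hi => ?_
    rw [Finset.mem_range, Nat.lt_succ_iff] at hi
    have hpow : (jBar p : FB p) ^ i * tB p true ^ e m = tB p true ^ (e m - i) := by
      rw [show tB p true ^ e m = tB p true ^ (e m - i) * tB p true ^ i by
        rw [← pow_add, Nat.sub_add_cancel hi], mul_left_comm, ← mul_pow,
        show (jBar p : FB p) * tB p true = 1 from mul_inv_cancel₀ hj, one_pow, mul_one]
    simp only [phiA, map_mul, map_pow, Polynomial.coe_eval₂RingHom, Polynomial.eval₂_C,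
      Polynomial.eval₂_X, RingHom.comp_apply, ValuationSubring.coe_subtype]
    rw [Algebra.smul_def, ← hpow]
    ring
  refine ⟨Polynomial.X ^ ModFun.idx p + ∑ m ∈ Finset.range (ModFun.idx p),
    Polynomial.C (coef m) * Polynomial.X ^ m, ?_, ?_⟩
  · refine Polynomial.monic_X_pow_add ((Polynomial.degree_sum_le _ _).trans_lt
      ((Finset.sup_lt_iff (WithBot.bot_lt_coe _)).mpr fun m hm => ?_))
    refine (Polynomial.degree_C_mul_X_pow_le _ _).trans_lt ?_
    exact Nat.cast_lt.mpr (Finset.mem_range.mp hm)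
  · rw [Polynomial.eval₂_add, Polynomial.eval₂_X_pow, Polynomial.eval₂_finsetSum]
    have h := congrArg (fun x => algebraMap Qb (FB p) Cc⁻¹ *
      (tB p true ^ ((p - 1) * ModFun.idx p) * ((vB p)⁻¹) ^ ModFun.idx p * x)) U.rel
    simp only [Finset.mul_sum, mul_zero] at h
    rw [Finset.sum_range_succ, add_comm] at h
    refine Eq.trans ?_ h
    congr 1
    · rw [hPC, Polynomial.aeval_C, Nat.sub_self, pow_zero, mul_one, zB, mul_pow, pow_mul,
        mul_left_comm, ← map_mul, inv_mul_cancel₀ hC0, map_one, mul_one]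
    · refine Finset.sum_congr rfl fun m hm => ?_
      rw [Finset.mem_range] at hm
      rw [Polynomial.eval₂_mul, Polynomial.eval₂_C, Polynomial.eval₂_X_pow, hcoef m hm, zB,
        mul_pow, show ((p - 1) * ModFun.idx p) = e m + (p - 1) * m by
          show _ = (p - 1) * (ModFun.idx p - m) + (p - 1) * m
          rw [← mul_add, Nat.sub_add_cancel hm.le], pow_add, pow_mul,
        show ((vB p)⁻¹) ^ ModFun.idx p = ((vB p)⁻¹) ^ (ModFun.idx p - m) * ((vB p)⁻¹) ^ m by
          rw [← pow_add, Nat.sub_add_cancel hm.le]]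
      have hv : ((vB p)⁻¹) ^ (ModFun.idx p - m) * vB p ^ (ModFun.idx p - m) = 1 := by
        rw [← mul_pow, inv_mul_cancel₀ (vB_ne_zero p), one_pow]
      linear_combination (-(algebraMap Qb (FB p) Cc⁻¹ * Polynomial.aeval (jBar p) (U.P m) *
        tB p true ^ e m * (tB p true ^ (p - 1)) ^ m * ((vB p)⁻¹) ^ m)) * hv

theorem val_zB_Poo : Val (Poo p) (zB p) (((p : Qb) ^ 12)⁻¹) := by
  set f : LaurentSeries ℚ := (jq ^ (p - 1))⁻¹ * modularUnitSeries p with hf
  have hp12 : ((p : Qb) ^ 12) ≠ 0 := pow_ne_zero _ (Nat.cast_ne_zero.mpr (NeZero.ne p))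
  have hmono : IsMonicOfOrder f 0 := by
    have hj : IsMonicOfOrder jq (-1) := by
      have hne : jq.coeff (-1) ≠ 0 := by rw [coeff_jq_neg_one]; exact one_ne_zero
      have ho : jq.order = -1 := le_antisymm (HahnSeries.order_le_of_coeff_ne_zero hne)
        ((HahnSeries.le_order_iff_forall (HahnSeries.ne_zero_of_coeff_ne_zero hne)).mpr
          fun n hn => coeff_jq_of_lt hn)
      exact ⟨ho, by rw [HahnSeries.leadingCoeff_eq, ho, coeff_jq_neg_one]⟩
    have hjp : ∀ n : ℕ, IsMonicOfOrder (jq ^ n) (-(n : ℤ)) := by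
      intro n
      induction n with
      | zero => simpa using IsMonicOfOrder.single (0 : ℤ)
      | succ n ih =>
        rw [pow_succ, show -((n + 1 : ℕ) : ℤ) = -(n : ℤ) + -1 by push_cast; ring]
        exact ih.mul hj
    have h := (hjp (p - 1))
    have hfm : IsMonicOfOrder (f * jq ^ (p - 1)) (1 - p) := by
      rw [hf, mul_comm, mul_inv_cancel_left₀ (pow_ne_zero _ jq_ne_zero)]
      exact isMonicOfOrder_modularUnitSeries p
    have h2 := hfm.of_mul_right h
    rwa [show (1 - (p : ℤ)) - -((p - 1 : ℕ) : ℤ) = 0 by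
      have := (Fact.out : p.Prime).pos
      omega] at h2
  have hval : ((zB p : FB p) : LaurentSeries Qb) =
      algebraMap Qb (LaurentSeries Qb) ((p : Qb) ^ 12)⁻¹ * coeffEmb Qb f := by
    show ((tB p true ^ (p - 1) : FB p) : LaurentSeries Qb) * (((vB p)⁻¹ : FB p) : LaurentSeries Qb) = _
    rw [SubmonoidClass.coe_pow, show ((tB p true : FB p) : LaurentSeries Qb) = (coeffEmb Qb jq)⁻¹
      from rfl, show (((vB p)⁻¹ : FB p) : LaurentSeries Qb) =
        (algebraMap Qb (LaurentSeries Qb) ((p : Qb) ^ 12) *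
          coeffEmb Qb (modularUnitSeries p)⁻¹)⁻¹ from rfl,
      hf]
    simp only [map_mul, map_inv₀, map_pow, mul_inv, inv_inv, inv_pow]
    ring
  rw [Val]
  by_cases h0 : zB p - algebraMap Qb (FB p) (((p : Qb) ^ 12)⁻¹) = 0
  · rw [h0]; exact RR.Bd.zero
  refine RR.bd_iff.mpr (Or.inr ?_)
  rw [ord_Poo p h0]
  have hne : ((zB p - algebraMap Qb (FB p) (((p : Qb) ^ 12)⁻¹) : FB p) : LaurentSeries Qb) ≠ 0 :=
    fun h => h0 (Subtype.ext h)
  refine (HahnSeries.le_order_iff_forall hne).mpr fun n hn => ?_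
  rw [show ((zB p - algebraMap Qb (FB p) (((p : Qb) ^ 12)⁻¹) : FB p) : LaurentSeries Qb) =
      algebraMap Qb (LaurentSeries Qb) (((p : Qb) ^ 12)⁻¹) * (coeffEmb Qb f - 1) by
    show ((zB p : FB p) : LaurentSeries Qb) - algebraMap Qb (LaurentSeries Qb) _ = _
    rw [hval, mul_sub, mul_one], ModFun.algebraMap_mul_coeff, HahnSeries.coeff_sub, coeffEmb_coeff,
    HahnSeries.coeff_one]
  rcases eq_or_lt_of_le (show n ≤ 0 by omega) with rfl | hlt
  · rw [hmono.coeff_self, map_one, if_pos rfl, sub_self, mul_zero]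
  · rw [hmono.coeff_of_lt hlt, map_zero, if_neg hlt.ne, sub_self, mul_zero]

/-- at a prime where `X` reduces to `∞`, `u` and `j^(1-p)` have the same absolute value -/
theorem valuation_value (U : UPoly p) (C : Ctx A p ℓ) {X : Place Qb (FB p)}
    (hX : rP C X = rP C (Poo p)) {d c : Qb} (hd : Val X (jBar p) d) (hd0 : d ≠ 0)
    (hdA : d⁻¹ ∈ A) (hc : Val X (uB p) c) :
    A.valuation (d⁻¹ ^ (p - 1)) = A.valuation c := by
  have hc0 := U.value_ne_zero hd hc
  have hp12 : ((p : Qb) ^ 12) ≠ 0 := pow_ne_zero _ (Nat.cast_ne_zero.mpr (NeZero.ne p))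
  have ht : Val X (tB p true) d⁻¹ := hd.inv hd0
  have hz : Val X (zB p) (d⁻¹ ^ (p - 1) * ((p : Qb) ^ 12 * c)⁻¹) :=
    (ht.pow _).mul ((UPoly.val_vB hc).inv (mul_ne_zero hp12 hc0))
  have hBT := BT_zB U C
  have ht0 : Val (Poo p) (tB p true) 0 := Reduction.val_zero_of_ord_pos (by
    show 0 < (Poo p).ord ((jBar p : FB p)⁻¹)
    rw [Place.ord_inv, ord_Poo_jBar]; omega)
  obtain ⟨ha, h1⟩ := Reduction.val_rP C hBT ht hdA hz
  obtain ⟨hb, h2⟩ := Reduction.val_rP C hBT ht0 A.zero_mem val_zB_Poo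
  rw [hX] at h1
  have hres := h1.unique h2
  have hu : A.valuation (((p : Qb) ^ 12)⁻¹) = 1 := by
    rw [map_inv₀, map_pow, valuation_p C, one_pow, inv_one]
  have hne : IsLocalRing.residue A ⟨_, ha⟩ ≠ 0 := by
    rw [hres]
    exact (Reduction.res_ne_zero_iff A _).mpr hu
  have := (Reduction.res_ne_zero_iff A _).mp hne
  rw [map_mul, map_inv₀, map_mul, map_pow A.valuation (p : Qb), valuation_p C, one_pow, one_mul,
    ← div_eq_mul_inv] at this
  exact eq_of_div_eq_one this

end Chart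

end FLTAgent.EIS

end
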