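import Fermat.Agent.EIS.FreyDefs
import Fermat.Agent.EIS.FreyLocal
import Fermat.Agent.EIS.UnitBound
import Fermat.Agent.EIS.UnitValue
import Fermat.Agent.Local.Frey
import Mathlib.Analysis.Complex.ExponentialBounds

/-!
Area EIS, parcel H: no cofixed line on the Frey curve for `p ≥ 17`, from the core statement.
-/

set_option autoImplicit false

noncomputable section

open ModularCurve AlgebraicCurve WeierstrassCurve WeierstrassCurve.Affine.Point
open scoped WeierstrassCurve.Affine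

namespace FLTAgent.EIS

open Reduction (FB Val Ctx)
open Local (QPoint SemistableAt)
open FLTAgent.Torsion (Tors finrank_tors nsmul_tors zmod_smul_eq)

/-! ### elementary bounds -/

theorem nat_fermat_bounds {X Y Z p : ℕ} (hp : 1 < p) (hX : X ≠ 0) (hY : Y ≠ 0)
    (h : X ^ p + Y ^ p = Z ^ p) :
    p < Z ∧ X < Z ∧ Y < Z ∧ Z ≤ 2 * max X Y := by
  have hXp : 0 < X ^ p := pow_pos (Nat.pos_of_ne_zero hX) p
  have hYp : 0 < Y ^ p := pow_pos (Nat.pos_of_ne_zero hY) p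
  have hXZ : X < Z := lt_of_pow_lt_pow_left' p (by omega)
  have hYZ : Y < Z := lt_of_pow_lt_pow_left' p (by omega)
  refine ⟨?_, hXZ, hYZ, ?_⟩
  · have key : ∀ {U V : ℕ}, 0 < V → U ≤ V → V < Z → U ^ p + V ^ p = Z ^ p → p < Z := by
      intro U V hV0 hUV hVZ hUVZ
      have h1 : V ^ p + p * V ^ (p - 1) ≤ (V + 1) ^ p := by
        have := pow_add_mul_le_add_pow (R := ℕ) V.zero_le (b := 1) (by omega) p
        simpa [mul_comm] using this
      have h2 : (V + 1) ^ p ≤ Z ^ p := Nat.pow_le_pow_left hVZ p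
      have h3 : U ^ p ≤ V ^ p := Nat.pow_le_pow_left hUV p
      have h4 : V ^ p = V * V ^ (p - 1) := by
        rw [← pow_succ', Nat.sub_add_cancel (by omega)]
      have h5 : p * V ^ (p - 1) ≤ V * V ^ (p - 1) := by omega
      have := Nat.le_of_mul_le_mul_right h5 (pow_pos hV0 _)
      omega
    rcases le_total X Y with hle | hle
    · exact key (Nat.pos_of_ne_zero hY) hle hYZ h
    · exact key (Nat.pos_of_ne_zero hX) hle hXZ (by omega)
  · by_contra hc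
    have h1 : (2 * max X Y) ^ p < Z ^ p := Nat.pow_lt_pow_left (by omega) (by omega)
    have h2 : X ^ p ≤ max X Y ^ p := Nat.pow_le_pow_left (le_max_left _ _) p
    have h3 : Y ^ p ≤ max X Y ^ p := Nat.pow_le_pow_left (le_max_right _ _) p
    have h4 : 2 * max X Y ^ p ≤ (2 * max X Y) ^ p := by
      rw [mul_pow]
      exact Nat.mul_le_mul_right _ (Nat.le_self_pow (by omega) 2)
    omega

theorem natAbs_fermat {a b c : ℤ} {p : ℕ} (hodd : Odd p) (h : a ^ p + b ^ p = c ^ p) :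
    a.natAbs ^ p + b.natAbs ^ p = c.natAbs ^ p ∨ a.natAbs ^ p + c.natAbs ^ p = b.natAbs ^ p ∨
      b.natAbs ^ p + c.natAbs ^ p = a.natAbs ^ p := by
  have key : ∀ x : ℤ, x ^ p = (x.natAbs ^ p : ℕ) ∨ x ^ p = -((x.natAbs ^ p : ℕ) : ℤ) := by
    intro x
    rcases Int.natAbs_eq x with e | e
    · left; conv_lhs => rw [e]
      push_cast; rfl
    · right; conv_lhs => rw [e, hodd.neg_pow]
      push_cast; rfl
  have ha := key a
  have hb := key b
  have hc := key c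
  generalize a ^ p = A at *
  generalize b ^ p = B at *
  generalize c ^ p = C at *
  generalize a.natAbs ^ p = A' at *
  generalize b.natAbs ^ p = B' at *
  generalize c.natAbs ^ p = C' at *
  omega

theorem exp_five_le (p : ℕ) : Real.exp (5 * (p : ℝ)) ≤ 2 ^ (8 * p) := by
  rw [mul_comm, Real.exp_nat_mul, pow_mul]
  refine pow_le_pow_left₀ (Real.exp_pos _).le ?_ p
  rw [show (5 : ℝ) = ((5 : ℕ) : ℝ) * 1 by norm_num, Real.exp_nat_mul]
  calc Real.exp 1 ^ 5 ≤ (2.7182818286 : ℝ) ^ 5 :=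
        pow_le_pow_left₀ (Real.exp_pos _).le Real.exp_one_lt_d9.le 5
    _ ≤ _ := by norm_num

theorem pow_twelve_le {p : ℕ} (hp : 17 ≤ p) : p ^ 12 ≤ 2 ^ (5 * p) := by
  induction p, hp using Nat.le_induction with
  | base => norm_num
  | succ n hn ih =>
    have h1 : ((n + 1) * 17) ^ 12 ≤ (18 * n) ^ 12 := Nat.pow_le_pow_left (by omega) 12
    have h2 : (18 : ℕ) ^ 12 ≤ 32 * 17 ^ 12 := by norm_num
    rw [mul_pow, mul_pow] at h1
    have h3 : (n + 1) ^ 12 * 17 ^ 12 ≤ 32 * n ^ 12 * 17 ^ 12 :=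
      h1.trans (by nlinarith [Nat.mul_le_mul_right (n ^ 12) h2])
    have h4 := Nat.le_of_mul_le_mul_right h3 (by positivity)
    rw [show 5 * (n + 1) = 5 * n + 5 by ring, pow_add]
    omega

/-- the final contradiction -/
theorem size_contradiction {p M t D D' K : ℕ} (hp : 17 ≤ p) (hM : p < M) (hK : K ≠ 0)
    (hMt : M ≤ 2 * t) (ht : t ^ (2 * p) ∣ 256 * D') (hD' : D' ≠ 0) (hdvd : D' ^ p ∣ K)
    (hKle : K ≤ p ^ 12 * 2 ^ (8 * p) * 256000 * ((3 * M ^ (2 * p)) ^ 3 + D))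
    (hD : D ≤ M ^ (6 * p)) : False := by
  have h1 : M ^ (2 * p) ≤ 2 ^ (2 * p + 8) * D' :=
    calc M ^ (2 * p) ≤ (2 * t) ^ (2 * p) := Nat.pow_le_pow_left hMt _
      _ ≤ 2 ^ (2 * p) * (256 * D') := by
        rw [mul_pow]; exact Nat.mul_le_mul_left _ (Nat.le_of_dvd (by omega) ht)
      _ = _ := by rw [pow_add]; ring
  have h2 : (3 * M ^ (2 * p)) ^ 3 + D ≤ 2 ^ 5 * M ^ (6 * p) := by
    rw [mul_pow, ← pow_mul, show 2 * p * 3 = 6 * p by ring]
    omega
  have h3 : K ≤ 2 ^ (5 * p) * 2 ^ (8 * p) * 2 ^ 18 * (2 ^ 5 * M ^ (6 * p)) :=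
    hKle.trans (Nat.mul_le_mul (Nat.mul_le_mul (Nat.mul_le_mul_right _ (pow_twelve_le hp))
      (by norm_num)) h2)
  have h4 : M ^ (2 * p * p) ≤ 2 ^ (2 * p * p + 21 * p + 23) * M ^ (6 * p) :=
    calc M ^ (2 * p * p) = (M ^ (2 * p)) ^ p := by rw [← pow_mul]
      _ ≤ (2 ^ (2 * p + 8) * D') ^ p := Nat.pow_le_pow_left h1 p
      _ = 2 ^ ((2 * p + 8) * p) * D' ^ p := by rw [mul_pow, ← pow_mul]
      _ ≤ 2 ^ ((2 * p + 8) * p) * (2 ^ (5 * p) * 2 ^ (8 * p) * 2 ^ 18 * (2 ^ 5 * M ^ (6 * p))) :=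
        Nat.mul_le_mul_left _ ((Nat.le_of_dvd (Nat.pos_of_ne_zero hK) hdvd).trans h3)
      _ = _ := by simp only [← mul_assoc, ← pow_add]; ring_nf
  obtain ⟨e, he⟩ : ∃ e, 2 * p * p = e + 6 * p := Nat.exists_eq_add_of_le' (by nlinarith)
  rw [he, pow_add, ← he] at h4
  have h5 := Nat.le_of_mul_le_mul_right h4 (pow_pos (by omega) _)
  have h6 : 2 ^ (4 * e) ≤ M ^ e := by
    rw [pow_mul]; exact Nat.pow_le_pow_left (by omega) e
  have h7 := (Nat.pow_le_pow_iff_right Nat.one_lt_two).1 (h6.trans h5)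
  nlinarith

/-! ### the curve -/

theorem intCast_valuation_eq {A : ValuationSubring Qb} {ℓ : ℕ} (hA : A.LiesOverPrime ℓ)
    (hℓ : ℓ.Prime) {z w : ℤ} (hz : z ≠ 0) (hw : w ≠ 0) {n : ℕ}
    (h : A.valuation (z : Qb) = A.valuation (w : Qb) ^ n) :
    padicValInt ℓ z = padicValInt ℓ w * n := by
  rw [Local.val_int_padic hA hℓ hz, Local.val_int_padic hA hℓ hw, ← pow_mul] at h
  exact pow_right_injective₀
    (zero_lt_iff.2 ((_root_.map_ne_zero _).2 (Nat.cast_ne_zero.2 hℓ.ne_zero))) (ne_of_lt hA) h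

/-- the value of the unit at the point given by the core statement -/
theorem exists_divisible_value (p : ℕ) [Fact p.Prime] (W : WeierstrassCurve ℤ) (hΔ : W.Δ ≠ 0)
    (hss : ∀ q : ℕ, q.Prime → SemistableAt W q) (hc4 : W.c₄ ≠ 0)
    (X : Place Qb (FB p)) (hX : ∀ σ : GalQ, SS2.galFn p σ • X = X)
    (hj : Val X (ModFun.jBar p) ((W.c₄ : Qb) ^ 3 / (W.Δ : Qb)))
    (hred : ∀ (ℓ : ℕ), (ℓ : ℤ) ∣ W.Δ → ¬ (ℓ : ℤ) ∣ W.c₄ →
      ∀ (A : ValuationSubring Qb) (C : Ctx A p ℓ), Reduction.rP C X = Reduction.rP C (Poo p)) :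
    ∃ K : ℕ, K ≠ 0 ∧
      (∀ ℓ : ℕ, ℓ.Prime → ℓ ≠ p → ℓ ∣ W.Δ.natAbs →
        K.factorization ℓ = W.Δ.natAbs.factorization ℓ * p) ∧
      (K : ℝ) ≤ (p : ℝ) ^ 12 * Real.exp (5 * p) * 256000 *
        ((W.c₄.natAbs : ℝ) ^ 3 + W.Δ.natAbs) := by
  obtain ⟨U⟩ := nonempty_uPoly p
  set d : Qb := (W.c₄ : Qb) ^ 3 / (W.Δ : Qb) with hd
  have hΔQ : (W.Δ : Qb) ≠ 0 := Int.cast_ne_zero.2 hΔ
  have hcQ : (W.c₄ : Qb) ≠ 0 := Int.cast_ne_zero.2 hc4
  have hd0 : d ≠ 0 := div_ne_zero (pow_ne_zero _ hcQ) hΔQ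
  obtain ⟨c, hc⟩ := Reduction.val_exists_B (U.regular_uB hj.bd)
  have hc0 := U.value_ne_zero hj hc
  have hcfix : ∀ σ : GalQ, σ c = c := fun σ => fixed_value (hX σ) hc
  set y : Qb := (W.Δ : Qb) * ((p : Qb) ^ 12 * c) with hy
  have hyint : IsIntegral ℤ y := U.isIntegral_value hj hc (N := (W.c₄ : Qb) ^ 3)
    ((by rw [← eq_intCast (algebraMap ℤ Qb)]; exact isIntegral_algebraMap :
      IsIntegral ℤ ((W.c₄ : ℤ) : Qb)).pow 3)
    (by rw [← eq_intCast (algebraMap ℤ Qb)]; exact isIntegral_algebraMap)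
    (mul_div_cancel₀ _ hΔQ)
  obtain ⟨r, hr⟩ := Local.exists_rat_of_fixed (x := y) fun σ => by
    rw [hy, map_mul, map_mul, map_pow, map_natCast, map_intCast, hcfix]
  rw [← hr] at hyint
  have hrint : IsIntegral ℤ r :=
    (isIntegral_algebraMap_iff (B := Qb) (algebraMap ℚ Qb).injective).1 (by
      rwa [eq_ratCast])
  obtain ⟨k, hk⟩ := IsIntegrallyClosed.isIntegral_iff.1 hrint
  have hky : (k : Qb) = y := by
    rw [← hr, ← hk]; simp
  have hp0 : (p : Qb) ^ 12 ≠ 0 := pow_ne_zero _ (Nat.cast_ne_zero.2 (Fact.out : p.Prime).ne_zero)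
  have hk0 : k ≠ 0 := by
    intro h0
    rw [h0, Int.cast_zero, hy] at hky
    exact mul_ne_zero hΔQ (mul_ne_zero hp0 hc0) hky.symm
  refine ⟨k.natAbs, Int.natAbs_ne_zero.2 hk0, fun ℓ hℓ hℓp hℓΔ => ?_, ?_⟩
  · have hℓd : (ℓ : ℤ) ∣ W.Δ := Int.natCast_dvd.2 hℓΔ
    have hℓc := hss ℓ hℓ hℓd
    obtain ⟨A, -, hA, -⟩ := FLTAgent.Alg.exists_place_frobenius ℓ hℓ
    have C : Ctx A p ℓ :=
      ⟨hℓ, fun h => hℓp ((Nat.prime_dvd_prime_iff_eq hℓ (Fact.out : p.Prime)).1 h), hA⟩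
    have hc1 : A.valuation (W.c₄ : Qb) = 1 := Local.val_int_eq_one hA hℓ hℓc
    have hdA : d⁻¹ ∈ A := by
      rw [← A.valuation_le_one_iff, hd, inv_div, map_div₀, map_pow, hc1, one_pow, div_one]
      exact ((Local.val_int_lt_one_iff hA hℓ _).2 hℓd).le
    have hv := valuation_value U C (hred ℓ hℓd hℓc A C) hj hd0 hdA hc
    rw [map_pow, hd, inv_div, map_div₀, map_pow, hc1, one_pow, div_one] at hv
    have hk' : A.valuation (k : Qb) = A.valuation (W.Δ : Qb) ^ p := by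
      rw [hky, hy, map_mul, map_mul, map_pow, valuation_p C, one_pow, one_mul, ← hv, ← pow_succ',
        Nat.sub_add_cancel (Fact.out : p.Prime).one_le]
    have := intCast_valuation_eq hA hℓ hk0 hΔ hk'
    rw [padicValInt, padicValInt] at this
    rw [Nat.factorization_def _ hℓ, Nat.factorization_def _ hℓ]
    exact this
  · obtain ⟨τ, hτ⟩ := ModFun.jFun_surjective (ModFun.embC d)
    obtain ⟨γ, hγ⟩ := U.exists_smul_eq hj hc hτ.symm
    have hkC : ((k : ℤ) : ℂ) = (W.Δ : ℂ) * ((p : ℂ) ^ 12 * uFn p (γ • τ)) := by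
      rw [← hγ, ← map_intCast ModFun.embC k, hky, hy, map_mul, map_mul, map_pow, map_natCast,
        map_intCast]
    have hjn : ‖ModFun.jFun (γ • τ)‖ = (W.c₄.natAbs : ℝ) ^ 3 / W.Δ.natAbs := by
      rw [ModFun.jFun_smul, hτ, hd, map_div₀, map_pow, map_intCast, map_intCast, norm_div, norm_pow,
        Complex.norm_intCast, Complex.norm_intCast, Nat.cast_natAbs, Nat.cast_natAbs, Int.cast_abs,
        Int.cast_abs]
    have hb := norm_uFn_le p (γ • τ)
    rw [hjn] at hb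
    have hkn := congrArg norm hkC
    rw [norm_mul, norm_mul, norm_pow, Complex.norm_natCast, Complex.norm_intCast,
      Complex.norm_intCast, ← Int.cast_abs, ← Int.cast_abs, ← Nat.cast_natAbs,
      ← Nat.cast_natAbs] at hkn
    rw [hkn]
    have hΔn : (0 : ℝ) < W.Δ.natAbs := by exact_mod_cast Int.natAbs_pos.2 hΔ
    refine le_trans (mul_le_mul_of_nonneg_left (mul_le_mul_of_nonneg_left hb (by positivity))
      hΔn.le) (le_of_eq ?_)
    field_simp

theorem not_both_dvd {p : ℕ} (hp : p.Prime) {x y : ℤ} (h : gcd x y = 1) :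
    ¬ (p ∣ x.natAbs ∧ p ∣ y.natAbs) := fun ⟨h1, h2⟩ => by
  have h3 := dvd_gcd (Int.natCast_dvd.2 h1) (Int.natCast_dvd.2 h2)
  rw [h] at h3
  exact (Nat.prime_iff_prime_int.1 hp).not_dvd_one h3

/-- no cofixed line on the Frey curve for `p ≥ 17`, given the core statement -/
theorem frey_large (h : CoreProp) (P : FreyPackage) (hp : 17 ≤ P.p) :
    ¬ HasGaloisStableCofixedLine (K := AlgebraicClosure ℚ) ℚ P.freyCurve P.p := by
  classical
  rw [Local.freyCurve_eq P]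
  set p := P.p with hpdef
  have hpp : p.Prime := P.pp
  haveI : Fact p.Prime := ⟨hpp⟩
  set W := P.freyCurveInt with hW
  have hΔ : W.Δ ≠ 0 := Local.freyCurveInt_Δ_ne_zero P
  have hss : ∀ q : ℕ, q.Prime → SemistableAt W q := fun q hq => Local.freyCurveInt_semistable P hq
  have hmem : p ∉ ({2, 3, 5, 7, 13} : Finset ℕ) := by
    simp only [Finset.mem_insert, Finset.mem_singleton]; omega
  rintro ⟨N, hN, hNb, hNt, hco⟩
  obtain ⟨x, hxN, hx⟩ := N.exists_mem_ne_zero_of_ne_bot hNb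
  have hord : addOrderOf (x : QPoint W) = p :=
    addOrderOf_eq_prime (nsmul_tors x) fun e => hx (Subtype.ext e)
  have hstable : ∀ σ : GalQ, σ • (x : QPoint W) ∈ AddSubgroup.zmultiples (x : QPoint W) := by
    intro σ
    obtain ⟨hfinT, hrankT⟩ := finrank_tors hΔ p
    have h1 : Module.finrank (ZMod p) N = 1 := by
      have h2 : Module.finrank (ZMod p) N < 2 := hrankT ▸ Submodule.finrank_lt hNt
      have h3 : 0 < Module.finrank (ZMod p) N := by
        rw [Module.finrank_pos_iff]; exact Submodule.nontrivial_iff_ne_bot.mpr hNb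
      omega
    obtain ⟨c, hc⟩ := exists_smul_eq_of_finrank_eq_one h1
      (show (⟨x, hxN⟩ : N) ≠ 0 from fun e => hx (congrArg Subtype.val e)) ⟨_, hN σ x hxN⟩
    have hc' : c • x = σ • x := congrArg Subtype.val hc
    rw [zmod_smul_eq] at hc'
    rw [← FLTAgent.Torsion.coe_smul, ← hc', AddSubgroupClass.coe_nsmul]
    exact AddSubgroup.nsmul_mem _ (AddSubgroup.mem_zmultiples _) _
  have hsmall : ∀ q : ℕ, q.Prime → q ≤ 3 → ∀ A : ValuationSubring Qb, A.LiesOverPrime q →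
      (q : ℤ) ∣ W.Δ ∧ W.InZeroComponentAt A (x : QPoint W) := fun q hq hq3 A hA =>
    ⟨(small_prime hΔ hpp hq (by omega) (hss q hq) N hN hNb hNt hco hA).1,
      (small_prime hΔ hpp hq (by omega) (hss q hq) N hN hNb hNt hco hA).2 x hxN⟩
  obtain ⟨A₂, -, hA₂, -⟩ := FLTAgent.Alg.exists_place_frobenius 2 Nat.prime_two
  obtain ⟨A₃, -, hA₃, -⟩ := FLTAgent.Alg.exists_place_frobenius 3 Nat.prime_three
  have h2 := (hsmall 2 Nat.prime_two (by norm_num) A₂ hA₂).1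
  have h3 := (hsmall 3 Nat.prime_three le_rfl A₃ hA₃).1
  have h2c := hss 2 Nat.prime_two h2
  obtain ⟨X, hX, hj, hred⟩ := h p hmem W hΔ (x : QPoint W) hord hstable h2 h2c
    (fun A hA => (hsmall 2 Nat.prime_two (by norm_num) A hA).2) h3 (hss 3 Nat.prime_three h3)
    (fun A hA => (hsmall 3 Nat.prime_three le_rfl A hA).2)
  have hc4 : W.c₄ ≠ 0 := fun e => h2c (by rw [e]; exact dvd_zero _)
  obtain ⟨K, hK0, hKfac, hKle⟩ := exists_divisible_value p W hΔ hss hc4 X hX hj hred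
  -- sizes
  set a := P.a.natAbs
  set b := P.b.natAbs
  set c := P.c.natAbs
  have ha : a ≠ 0 := Int.natAbs_ne_zero.2 P.ha0
  have hb : b ≠ 0 := Int.natAbs_ne_zero.2 P.hb0
  have hc : c ≠ 0 := Int.natAbs_ne_zero.2 P.hc0
  obtain ⟨M, hpM, haM, hbM, hcM, hab, hac, hbc⟩ : ∃ M, p < M ∧ a ≤ M ∧ b ≤ M ∧ c ≤ M ∧
      M ≤ 2 * max a b ∧ M ≤ 2 * max a c ∧ M ≤ 2 * max b c := by
    rcases natAbs_fermat P.hp_odd P.hFLT with e | e | e
    · obtain ⟨h1, h2, h3, h4⟩ := nat_fermat_bounds hpp.one_lt ha hb e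
      exact ⟨c, h1, h2.le, h3.le, le_rfl, h4, by omega, by omega⟩
    · obtain ⟨h1, h2, h3, h4⟩ := nat_fermat_bounds hpp.one_lt ha hc e
      exact ⟨b, h1, h2.le, le_rfl, h3.le, by omega, h4, by omega⟩
    · obtain ⟨h1, h2, h3, h4⟩ := nat_fermat_bounds hpp.one_lt hb hc e
      exact ⟨a, h1, le_rfl, h2.le, h3.le, by omega, by omega, h4⟩
  set D := W.Δ.natAbs with hDdef
  have hD0 : D ≠ 0 := Int.natAbs_ne_zero.2 hΔ
  have hDeq : D * 256 = (a * b * c) ^ (2 * p) := by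
    have := congrArg Int.natAbs (Local.freyCurveInt_Δ P)
    rwa [Int.natAbs_mul, Int.natAbs_pow, Int.natAbs_pow, Int.natAbs_mul, Int.natAbs_mul] at this
  have habc : a * b * c ≤ M ^ 3 := by
    rw [show M ^ 3 = M * M * M by ring]; gcongr
  have hDle : D ≤ M ^ (6 * p) := by
    calc D ≤ D * 256 := Nat.le_mul_of_pos_right _ (by norm_num)
      _ = (a * b * c) ^ (2 * p) := hDeq
      _ ≤ (M ^ 3) ^ (2 * p) := Nat.pow_le_pow_left habc _
      _ = _ := by rw [← pow_mul]; ring_nf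
  have hc4le : W.c₄.natAbs ≤ 3 * M ^ (2 * p) := by
    rw [hW, Local.frey_c₄]
    refine (Int.natAbs_add_le _ _).trans ((Nat.add_le_add_right (Int.natAbs_add_le _ _) _).trans ?_)
    simp only [Int.natAbs_mul, Int.natAbs_pow]
    have h1 := Nat.pow_le_pow_left haM p
    have h2 := Nat.pow_le_pow_left hbM p
    rw [show M ^ (2 * p) = M ^ p * M ^ p by rw [two_mul, pow_add]]
    show (a ^ p) ^ 2 + a ^ p * b ^ p + (b ^ p) ^ 2 ≤ _
    nlinarith [Nat.mul_le_mul h1 h1, Nat.mul_le_mul h1 h2, Nat.mul_le_mul h2 h2]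
  obtain ⟨t, hMt, hpt, htdvd⟩ : ∃ t, M ≤ 2 * t ∧ ¬ p ∣ t ∧ t ∣ a * b * c := by
    have hA : a ∣ a * b * c := (dvd_mul_right a b).mul_right c
    have hB : b ∣ a * b * c := (dvd_mul_left b a).mul_right c
    have hC : c ∣ a * b * c := dvd_mul_left c _
    have pick : ∀ u v : ℕ, M ≤ 2 * max u v → ¬ p ∣ u → ¬ p ∣ v → u ∣ a * b * c → v ∣ a * b * c →
        ∃ t, M ≤ 2 * t ∧ ¬ p ∣ t ∧ t ∣ a * b * c := by
      intro u v hm hu hv hud hvd
      refine ⟨max u v, hm, ?_⟩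
      rcases max_choice u v with e | e <;> rw [e] <;> exact ⟨by assumption, by assumption⟩
    by_cases hpa : p ∣ a
    · exact pick b c hbc (fun h' => not_both_dvd hpp P.hgcdab ⟨hpa, h'⟩)
        (fun h' => not_both_dvd hpp P.hgcdac ⟨hpa, h'⟩) hB hC
    by_cases hpb : p ∣ b
    · exact pick a c hac hpa (fun h' => not_both_dvd hpp P.hgcdbc ⟨hpb, h'⟩) hA hC
    exact pick a b hab hpa hpb hA hB
  set D' := D / p ^ D.factorization p with hD'
  have hsplit : p ^ D.factorization p * D' = D := Nat.ordProj_mul_ordCompl_eq_self D p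
  have hD'0 : D' ≠ 0 := (Nat.ordCompl_pos p hD0).ne'
  have ht : t ^ (2 * p) ∣ 256 * D' := by
    refine Nat.Coprime.dvd_of_dvd_mul_left (k := t ^ (2 * p)) (m := p ^ D.factorization p) ?_ ?_
    · exact Nat.Coprime.pow _ _ ((hpp.coprime_iff_not_dvd.2 hpt).symm)
    · rw [show p ^ D.factorization p * (256 * D') = p ^ D.factorization p * D' * 256 by ring,
        hsplit, hDeq]
      exact pow_dvd_pow_of_dvd htdvd _
  have hdvd : D' ^ p ∣ K := by
    rw [← Nat.factorization_le_iff_dvd (pow_ne_zero _ hD'0) hK0, Nat.factorization_pow]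
    intro ℓ
    rw [Finsupp.smul_apply, hD', Nat.factorization_ordCompl, smul_eq_mul]
    by_cases hℓp : ℓ = p
    · simp [hℓp]
    rw [Finsupp.erase_ne hℓp]
    by_cases hℓ : ℓ.Prime ∧ ℓ ∣ D
    · rw [hKfac ℓ hℓ.1 hℓp hℓ.2, mul_comm]
    · rw [Nat.factorization_eq_zero_iff _ _ |>.2 (by tauto)]
      simp
  refine size_contradiction hp hpM hK0 hMt ht hD'0 hdvd ?_ hDle
  have hkey : (K : ℝ) ≤ ((p ^ 12 * 2 ^ (8 * p) * 256000 *
      ((3 * M ^ (2 * p)) ^ 3 + D) : ℕ) : ℝ) := by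
    refine hKle.trans ?_
    push_cast
    have h1 := exp_five_le p
    have h2 : (W.c₄.natAbs : ℝ) ≤ 3 * (M : ℝ) ^ (2 * p) := by exact_mod_cast hc4le
    gcongr
  exact_mod_cast hkey

end FLTAgent.EIS

end
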