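import Fermat.Agent.EIS.Cyclo
import Fermat.Agent.Local.Place
import Mathlib.Algebra.Category.Grp.Injective
import Mathlib.LinearAlgebra.LinearIndependent.Basic

/-!
Area EIS, parcel C: local theory at the residual prime.  Torsion classes and all classes with values
in the connected part give Kummer classes of units, up to a bounded power of `r`.
-/

set_option autoImplicit false
set_option linter.style.haveILetI false

noncomputable section

open scoped Pointwise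

namespace FLTAgent.EIS

variable {A : ValuationSubring Qb} {r : ℕ}

/-! ## Roots, extensions of homomorphisms -/

/-- homomorphisms into the multiplicative group of `ℚ̄` extend -/
theorem exists_extend {X Y : Type} [AddCommGroup X] [AddCommGroup Y] (i : X →+ Y)
    (hi : Function.Injective i) (g : X →+ Additive Qbˣ) :
    ∃ G : Y →+ Additive Qbˣ, G.comp i = g := by
  have hroot : ∀ {n : ℕ}, n ≠ 0 → ∀ b : Additive Qbˣ, ∃ c, n • c = b := by
    intro n hn b
    obtain ⟨z, hz⟩ := IsAlgClosed.exists_pow_nat_eq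
      ((Additive.toMul b : Qbˣ) : Qb) (Nat.pos_of_ne_zero hn)
    have hz0 : z ≠ 0 := by
      rintro rfl
      rw [zero_pow hn] at hz
      exact (Additive.toMul b).ne_zero hz.symm
    refine ⟨Additive.ofMul (Units.mk0 z hz0), ?_⟩
    apply Additive.toMul.injective
    rw [toMul_nsmul, toMul_ofMul]
    exact Units.ext (by rw [Units.val_pow_eq_pow_val, Units.val_mk0, hz])
  letI : DivisibleBy (Additive Qbˣ) ℤ := AddCommGroup.divisibleByIntOfSMulTopEqTop _
    (fun {n} hn => eq_top_iff.mpr fun b _ => by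
      obtain ⟨c, hc⟩ := hroot (Int.natAbs_ne_zero.mpr hn) b
      rw [← natCast_zsmul] at hc
      rcases Int.natAbs_eq n with e | e
      · exact AddSubgroup.mem_smul_pointwise_iff_exists _ _ _ |>.mpr ⟨c, trivial, e ▸ hc⟩
      · exact AddSubgroup.mem_smul_pointwise_iff_exists _ _ _ |>.mpr
          ⟨-c, trivial, by rw [e, neg_smul_neg, hc]⟩)
  exact (Module.Baer.of_divisible _).extension_property_addMonoidHom i hi g

/-! ## Classes of units -/

/-- the functions which on inertia are Kummer cocycles of units -/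
def UT (A : ValuationSubring Qb) : AddSubgroup (GalQ → Additive Qbˣ) where
  carrier := {ψ | ∃ u : Qbˣ, A.valuation (u : Qb) = 1 ∧ ∀ τ ∈ A.inertiaSubgroupIn ℚ,
    ((Additive.toMul (ψ τ) : Qbˣ) : Qb) = τ (u : Qb) / (u : Qb)}
  zero_mem' := ⟨1, by simp, fun τ _ => by simp⟩
  add_mem' := by
    rintro ψ χ ⟨u, hu, hψ⟩ ⟨v, hv, hχ⟩
    refine ⟨u * v, by rw [Units.val_mul, map_mul, hu, hv, mul_one], fun τ hτ => ?_⟩
    rw [Pi.add_apply, toMul_add, Units.val_mul, Units.val_mul, hψ τ hτ, hχ τ hτ, map_mul,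
      mul_div_mul_comm]
  neg_mem' := by
    rintro ψ ⟨u, hu, hψ⟩
    refine ⟨u⁻¹, by rw [Units.val_inv_eq_inv_val, map_inv₀, hu, inv_one], fun τ hτ => ?_⟩
    rw [Pi.neg_apply, toMul_neg, Units.val_inv_eq_inv_val, hψ τ hτ, Units.val_inv_eq_inv_val,
      map_inv₀, inv_div, inv_div_inv]

theorem UT_congr {ψ χ : GalQ → Additive Qbˣ} (h : ψ ∈ UT A)
    (he : ∀ τ ∈ A.inertiaSubgroupIn ℚ, ψ τ = χ τ) : χ ∈ UT A := by
  obtain ⟨u, hu, hψ⟩ := h
  exact ⟨u, hu, fun τ hτ => he τ hτ ▸ hψ τ hτ⟩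

theorem valuation_eq_one_iff_mem {u : Qbˣ} :
    A.valuation (u : Qb) = 1 ↔ (u : Qb) ∈ A ∧ ((u⁻¹ : Qbˣ) : Qb) ∈ A := by
  have hpos : 0 < A.valuation (u : Qb) :=
    zero_lt_iff.mpr ((_root_.map_ne_zero _).mpr u.ne_zero)
  rw [← A.valuation_le_one_iff, ← A.valuation_le_one_iff, Units.val_inv_eq_inv_val, map_inv₀,
    inv_le_one₀ hpos]
  exact ⟨fun h => ⟨h.le, h.ge⟩, fun h => le_antisymm h.1 h.2⟩

theorem inertia_conj {φ τ : GalQ} (hφ : φ ∈ A.decompositionSubgroup ℚ)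
    (hτ : τ ∈ A.inertiaSubgroupIn ℚ) : φ⁻¹ * τ * φ ∈ A.inertiaSubgroupIn ℚ := by
  obtain ⟨t, ht, rfl⟩ := Subgroup.mem_map.mp hτ
  haveI : (A.inertiaSubgroup ℚ).Normal := MonoidHom.normal_ker _
  have hn : (⟨φ, hφ⟩⁻¹ * t * ⟨φ, hφ⟩ : A.decompositionSubgroup ℚ) ∈ A.inertiaSubgroup ℚ := by
    simpa using Subgroup.Normal.conj_mem ‹_› t ht (⟨φ, hφ⟩⁻¹ : A.decompositionSubgroup ℚ)
  exact Subgroup.mem_map.mpr ⟨_, hn, rfl⟩

/-- Hilbert 90 over the inertia field -/
theorem exists_kummer {ψ : GalQ → Qbˣ} {L : IntermediateField ℚ Qb} [FiniteDimensional ℚ L]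
    (hco : ∀ σ ∈ A.inertiaSubgroupIn ℚ, ∀ τ ∈ A.inertiaSubgroupIn ℚ,
      (ψ (σ * τ) : Qb) = (ψ σ : Qb) * σ (ψ τ : Qb))
    (hsm : ∀ σ ∈ A.inertiaSubgroupIn ℚ, (∀ x ∈ L, σ x = x) → ψ σ = 1) :
    ∃ y : Qb, y ≠ 0 ∧ ∀ τ ∈ A.inertiaSubgroupIn ℚ, τ y = (ψ τ : Qb) * y := by
  classical
  let G : Subgroup GalQ := A.inertiaSubgroupIn ℚ
  let U : Subgroup G := L.fixingSubgroup.subgroupOf G
  have hU : ∀ σ : G, σ ∈ U → ∀ a ∈ L, (σ : GalQ) a = a := fun σ hσ =>
    (IntermediateField.mem_fixingSubgroup_iff L (σ : GalQ)).mp hσ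
  have hwell : ∀ σ τ : G, σ⁻¹ * τ ∈ U → (ψ σ : Qb) = (ψ τ : Qb) := by
    intro σ τ hστ
    have h := hco σ σ.2 (σ⁻¹ * τ : G) (σ⁻¹ * τ).2
    rw [hsm _ (σ⁻¹ * τ).2 (hU _ hστ), Units.val_one, map_one, mul_one] at h
    rw [← h, ← Subgroup.coe_mul, mul_inv_cancel_left]
  have hwellL : ∀ σ τ : G, σ⁻¹ * τ ∈ U → ∀ a : L, (σ : GalQ) (a : Qb) = (τ : GalQ) (a : Qb) := by
    intro σ τ hστ a
    have h := congrArg (σ : GalQ) (hU _ hστ a a.2)
    rw [← h, Subgroup.coe_mul, Subgroup.coe_inv, AlgEquiv.mul_apply]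
    exact ((σ : GalQ).apply_symm_apply _).trans rfl
  let res : G ⧸ U → (L →ₐ[ℚ] Qb) := fun x => ((x.out : GalQ) : Qb →ₐ[ℚ] Qb).comp L.val
  have hres : Function.Injective res := by
    intro x y hxy
    rw [← QuotientGroup.out_eq' x, ← QuotientGroup.out_eq' y, QuotientGroup.eq,
      Subgroup.mem_subgroupOf, IntermediateField.mem_fixingSubgroup_iff]
    intro a ha
    have h2 := DFunLike.congr_fun hxy (⟨a, ha⟩ : L)
    change (x.out : GalQ) a = (y.out : GalQ) a at h2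
    simp only [Subgroup.coe_mul, Subgroup.coe_inv, AlgEquiv.mul_apply, ← h2]
    exact (x.out : GalQ).symm_apply_apply a
  haveI : Finite (G ⧸ U) := Finite.of_injective res hres
  haveI : Fintype (G ⧸ U) := Fintype.ofFinite _
  let χ : G ⧸ U → (L →* Qb) := fun x => (res x).toRingHom.toMonoidHom
  have hχ : Function.Injective χ := fun x y hxy => hres (AlgHom.ext fun a => by
    exact DFunLike.congr_fun hxy a)
  obtain ⟨a, ha⟩ : ∃ a : L, ∑ x : G ⧸ U, (ψ x.out : Qb) * res x a ≠ 0 := by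
    by_contra hcon
    push Not at hcon
    have hsum : ∑ x : G ⧸ U, (ψ x.out : Qb) • ⇑(χ x) = 0 := by
      funext a
      rw [Finset.sum_apply]
      exact hcon a
    exact (ψ _).ne_zero (Fintype.linearIndependent_iff.mp
      ((linearIndependent_monoidHom L Qb).comp χ hχ) _ hsum (QuotientGroup.mk 1))
  set S := ∑ x : G ⧸ U, (ψ x.out : Qb) * res x a with hS
  refine ⟨S⁻¹, inv_ne_zero ha, fun τ hτ => ?_⟩
  have hact : (ψ τ : Qb) * τ S = S := by
    rw [hS, map_sum, Finset.mul_sum]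
    refine Fintype.sum_equiv (MulAction.toPerm (⟨τ, hτ⟩ : G)) _ _ fun x => ?_
    have hmem : ((⟨τ, hτ⟩ : G) * x.out)⁻¹ * ((⟨τ, hτ⟩ : G) • x).out ∈ U := by
      rw [← QuotientGroup.eq, QuotientGroup.out_eq', ← smul_eq_mul,
        ← MulAction.Quotient.smul_mk, QuotientGroup.out_eq']
    rw [MulAction.toPerm_apply, map_mul, ← mul_assoc, ← hco τ hτ x.out x.out.2,
      ← hwell _ _ hmem]
    exact congrArg _ (hwellL _ _ hmem a)
  have hψ : (ψ τ : Qb) ≠ 0 := (ψ τ).ne_zero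
  have hτS : τ S ≠ 0 := fun h => ha (by rw [← hact, h, mul_zero])
  rw [map_inv₀]
  conv_rhs => rw [← hact]
  field_simp

/-- conjugation by an element of the decomposition group changes a Kummer cocycle by a unit -/
theorem conj_sub_mem_UT {ψ : GalQ → Additive Qbˣ} {φ : GalQ}
    (hφ : φ ∈ A.decompositionSubgroup ℚ) {L : IntermediateField ℚ Qb} [FiniteDimensional ℚ L]
    (hco : ∀ σ ∈ A.inertiaSubgroupIn ℚ, ∀ τ ∈ A.inertiaSubgroupIn ℚ,
      ((Additive.toMul (ψ (σ * τ)) : Qbˣ) : Qb) =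
        ((Additive.toMul (ψ σ) : Qbˣ) : Qb) * σ ((Additive.toMul (ψ τ) : Qbˣ) : Qb))
    (hsm : ∀ σ ∈ A.inertiaSubgroupIn ℚ, (∀ x ∈ L, σ x = x) → ψ σ = 0)
    (hfix : ∀ τ ∈ A.inertiaSubgroupIn ℚ,
      φ ((Additive.toMul (ψ τ) : Qbˣ) : Qb) = ((Additive.toMul (ψ τ) : Qbˣ) : Qb)) :
    (fun τ => ψ (φ⁻¹ * τ * φ)) - ψ ∈ UT A := by
  obtain ⟨y, hy, hyψ⟩ := exists_kummer (A := A) (ψ := fun τ => Additive.toMul (ψ τ)) (L := L) hco
    (fun σ hσ h => by rw [hsm σ hσ h]; rfl)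
  have hφy : φ y ≠ 0 := (_root_.map_ne_zero _).mpr hy
  refine ⟨Units.mk0 (φ y / y) (div_ne_zero hφy hy), ?_, fun τ hτ => ?_⟩
  · rw [Units.val_mk0, map_div₀, Local.val_aut hφ, div_self ((_root_.map_ne_zero _).mpr hy)]
  · have hτ' := inertia_conj hφ hτ
    have h1 : τ (φ y) = φ ((φ⁻¹ * τ * φ) y) := by
      rw [AlgEquiv.mul_apply, AlgEquiv.mul_apply]
      exact (φ.apply_symm_apply _).symm
    rw [hyψ _ hτ', map_mul, hfix _ hτ'] at h1
    rw [Pi.sub_apply, toMul_sub, Units.val_div_eq_div_val, Units.val_mk0, map_div₀, h1, hyψ τ hτ]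
    field_simp

/-! ## Modules -/

section Modules

variable {W : Type} [AddCommGroup W] [DistribMulAction GalQ W]

/-- the image of a class in the roots of unity -/
def push (f : W →+ Additive Qbˣ) (c : GalQ → W) : GalQ → Additive Qbˣ := fun τ => f (c τ)

/-- a homomorphism precomposed with a group element -/
def homComp (f : W →+ Additive Qbˣ) (φ : GalQ) : W →+ Additive Qbˣ :=
  f.comp (DistribSMul.toAddMonoidHom W φ)

@[simp] theorem homComp_apply (f : W →+ Additive Qbˣ) (φ : GalQ) (w : W) :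
    homComp f φ w = f (φ • w) := rfl

theorem unitAt_iff {W0 : AddSubgroup W} {c : GalQ → W} :
    UnitAt A W0 c ↔
      (∀ τ ∈ A.inertiaSubgroupIn ℚ, c τ ∈ W0) ∧ ∀ f, push f c ∈ UT A := by
  refine and_congr_right fun _ => forall_congr' fun f => exists_congr fun u => ?_
  rw [valuation_eq_one_iff_mem, and_assoc]
  rfl

theorem IsCocycle.map_one {c : GalQ → W} (hc : IsCocycle c) : c 1 = 0 := by
  have := hc 1 1
  simpa using this

theorem isCocycle_bdry (w : W) : IsCocycle (bdry w) := fun σ τ => by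
  simp only [bdry, mul_smul, smul_sub]
  abel

theorem isSmooth_bdry (hW : IsContMod W) (w : W) : IsSmooth (bdry w) := by
  obtain ⟨L, hL, h⟩ := hW w
  exact ⟨L, hL, fun σ hσ => sub_eq_zero.mpr (h σ hσ)⟩

variable (W) in
/-- hypotheses of the local theory at the residual prime: `T` is the trace of Frobenius, `r ^ a`
bounds the invariants of the square of Frobenius on the connected part -/
structure LocalR (r : ℕ) (A : ValuationSubring Qb) (W0 : AddSubgroup W) (T : W →+ W) (a : ℕ) :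
    Prop where
  hr : r.Prime
  hA : A.LiesOverPrime r
  cont : IsContMod W
  div : ∀ w : W, ∃ w', r • w' = w
  T_comm : ∀ (σ : GalQ) (w : W), T (σ • w) = σ • T w
  T_mem : ∀ w ∈ W0, T w ∈ W0
  inertia : ∀ τ ∈ A.inertiaSubgroupIn ℚ, ∀ w : W, τ • w - w ∈ W0
  cyclo : ∀ (k : ℕ), ∀ τ ∈ A.inertiaSubgroupIn ℚ, ∀ n : ℕ,
    (∀ ζ : Qb, ζ ^ (r ^ k) = 1 → τ ζ = ζ ^ n) → ∀ x ∈ W0, r ^ k • x = 0 → τ • x = n • x
  frob : ∀ k : ℕ, ∃ φ : GalQ, φ ∈ A.decompositionSubgroup ℚ ∧
    (∀ ζ : Qb, ζ ^ (r ^ k) = 1 → φ ζ = ζ) ∧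
    (∀ w : W, r ^ k • w = 0 → φ • φ • w - T (φ • w) + r • w ∈ W0) ∧
    (∀ x ∈ W0, r ^ k • x = 0 → r • φ • φ • x - T (φ • x) + x = 0) ∧
    (∀ x ∈ W0, r ^ k • x = 0 → φ • φ • x = x → r ^ a • x = 0)

variable {W0 : AddSubgroup W} {T : W →+ W} {a : ℕ}

theorem root_of_nsmul (f : W →+ Additive Qbˣ) {x : W} {n : ℕ} (hx : n • x = 0) :
    ((Additive.toMul (f x) : Qbˣ) : Qb) ^ n = 1 := by
  rw [← Units.val_pow_eq_pow_val, ← toMul_nsmul, ← map_nsmul, hx, map_zero, toMul_zero,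
    Units.val_one]

/-- every element acts on the roots of unity of order `r ^ k` by a power -/
theorem exists_exponent (hr : r.Prime) (τ : GalQ) (k : ℕ) :
    ∃ n : ℕ, ∀ ζ : Qb, ζ ^ (r ^ k) = 1 → τ ζ = ζ ^ n := by
  haveI : NeZero (r ^ k) := ⟨(pow_pos hr.pos _).ne'⟩
  exact ⟨_, fun ζ hζ => Attach.cyc_spec τ hζ⟩

namespace LocalR

variable (H : LocalR W r A W0 T a)
include H

theorem push_bdry_mem_of_mem {k : ℕ} {x : W} (hx : x ∈ W0) (hk : r ^ k • x = 0)
    (f : W →+ Additive Qbˣ) : push f (bdry x) ∈ UT A := by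
  refine ⟨Additive.toMul (f x), valuation_root_of_unity (pow_pos H.hr.pos _) (root_of_nsmul f hk),
    fun τ hτ => ?_⟩
  obtain ⟨n, hn⟩ := exists_exponent H.hr τ k
  rw [hn _ (root_of_nsmul f hk)]
  simp only [push, bdry]
  rw [H.cyclo k τ hτ n hn x hx hk, map_sub, map_nsmul, toMul_sub, toMul_nsmul,
    Units.val_div_eq_div_val, Units.val_pow_eq_pow_val]

theorem conj_push {k : ℕ} {c : GalQ → W} (hc : IsCocycle c) (hsm : IsSmooth c)
    (h0 : ∀ τ ∈ A.inertiaSubgroupIn ℚ, c τ ∈ W0)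
    (hk : ∀ τ ∈ A.inertiaSubgroupIn ℚ, r ^ k • c τ = 0) {φ : GalQ}
    (hφ : φ ∈ A.decompositionSubgroup ℚ) (hφμ : ∀ ζ : Qb, ζ ^ (r ^ k) = 1 → φ ζ = ζ)
    (f : W →+ Additive Qbˣ) :
    push f c + push f (bdry (c φ)) - push (homComp f φ) c ∈ UT A := by
  obtain ⟨L, hL, hLc⟩ := hsm
  haveI := hL
  have hmem : (fun τ => push (homComp f φ) c (φ⁻¹ * τ * φ)) - push (homComp f φ) c ∈ UT A := by
    refine conj_sub_mem_UT hφ (L := L) (fun σ hσ τ hτ => ?_) (fun σ _ h => ?_) fun τ hτ =>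
      hφμ _ (root_of_nsmul _ (hk τ hτ))
    · obtain ⟨n, hn⟩ := exists_exponent H.hr σ k
      simp only [push]
      rw [hc σ τ, H.cyclo k σ hσ n hn _ (h0 τ hτ) (hk τ hτ), map_add, map_nsmul, toMul_add,
        toMul_nsmul, Units.val_mul, Units.val_pow_eq_pow_val, ← hn _ (root_of_nsmul _ (hk τ hτ))]
    · simp only [push]
      rw [hLc σ h, map_zero]
  refine UT_congr hmem fun τ _ => ?_
  simp only [Pi.sub_apply, Pi.add_apply, push, bdry, homComp_apply]
  have h1 : φ • c (φ⁻¹ * τ * φ) = c τ + (τ • c φ - c φ) := by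
    have h2 : c φ + φ • c (φ⁻¹ * τ * φ) = c τ + τ • c φ := by
      rw [← hc, ← hc, mul_assoc, mul_inv_cancel_left]
    rw [eq_sub_of_add_eq' h2]
    abel
  rw [h1, map_add]

theorem bdry_conj {k : ℕ} {e : W} (hk : r ^ k • e = 0) {φ : GalQ}
    (hφ : φ ∈ A.decompositionSubgroup ℚ) (hφμ : ∀ ζ : Qb, ζ ^ (r ^ k) = 1 → φ ζ = ζ)
    (f : W →+ Additive Qbˣ) :
    push f (bdry (φ • e)) - push (homComp f φ) (bdry e) ∈ UT A := by
  have h := H.conj_push (isCocycle_bdry e) (isSmooth_bdry H.cont e)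
    (fun τ hτ => H.inertia τ hτ e)
    (fun τ _ => by
      simp only [bdry]
      rw [smul_sub, smul_comm, hk, smul_zero, sub_zero]) hφ hφμ f
  refine UT_congr h fun τ _ => ?_
  simp only [Pi.sub_apply, Pi.add_apply, push, bdry, smul_sub, map_sub]
  abel

/-- the factorisation through the square of Frobenius minus one -/
theorem exists_factor {k : ℕ} {φ : GalQ}
    (hker : ∀ x ∈ W0, r ^ k • x = 0 → φ • φ • x = x → r ^ a • x = 0)
    (f : W →+ Additive Qbˣ) :
    ∃ g : W →+ Additive Qbˣ, ∀ x ∈ W0, r ^ k • x = 0 → g (φ • φ • x - x) = r ^ a • f x := by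
  let K : AddSubgroup W :=
    W0 ⊓ (DistribSMul.toAddMonoidHom W (r ^ k)).ker
  let D : K →+ W :=
    ((DistribSMul.toAddMonoidHom W φ).comp (DistribSMul.toAddMonoidHom W φ) -
      AddMonoidHom.id W).comp K.subtype
  let g0 : K →+ Additive Qbˣ := (r ^ a • f).comp K.subtype
  have hg0 : D.rangeRestrict.ker ≤ g0.ker := by
    rintro ⟨x, hx0, hxk⟩ hx
    rw [AddMonoidHom.ker_rangeRestrict, AddMonoidHom.mem_ker] at hx
    rw [AddMonoidHom.mem_ker]
    show r ^ a • f x = 0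
    rw [← map_nsmul, hker x hx0 hxk (sub_eq_zero.mp hx), map_zero]
  obtain ⟨g, hg⟩ := exists_extend D.range.subtype D.range.subtype_injective
    (D.rangeRestrict.liftOfSurjective D.rangeRestrict_surjective ⟨g0, hg0⟩)
  refine ⟨g, fun x hx0 hxk => ?_⟩
  have h1 := DFunLike.congr_fun hg (D.rangeRestrict ⟨x, hx0, hxk⟩)
  exact h1.trans (AddMonoidHom.liftOfRightInverse_comp_apply _ _ _ _ _)

theorem exists_pow_div (n : ℕ) (e : W) : ∃ e', r ^ n • e' = e := by
  induction n generalizing e with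
  | zero => exact ⟨e, by simp⟩
  | succ n ih =>
    obtain ⟨e₁, h₁⟩ := H.div e
    obtain ⟨e₂, h₂⟩ := ih e₁
    exact ⟨e₂, by rw [pow_succ', mul_smul, h₂, h₁]⟩

theorem push_pow_mem {k : ℕ} {φ : GalQ}
    (hker : ∀ x ∈ W0, r ^ k • x = 0 → φ • φ • x = x → r ^ a • x = 0) {c : GalQ → W}
    (h0 : ∀ τ ∈ A.inertiaSubgroupIn ℚ, c τ ∈ W0)
    (hk : ∀ τ ∈ A.inertiaSubgroupIn ℚ, r ^ k • c τ = 0)
    (hc : ∀ g : W →+ Additive Qbˣ, push (homComp (homComp g φ) φ) c - push g c ∈ UT A)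
    (f : W →+ Additive Qbˣ) : push f (r ^ a • c) ∈ UT A := by
  obtain ⟨g, hg⟩ := H.exists_factor hker f
  refine UT_congr (hc g) fun τ hτ => ?_
  simp only [Pi.sub_apply, push, homComp_apply, Pi.smul_apply, map_nsmul]
  rw [← map_sub, hg _ (h0 τ hτ) (hk τ hτ)]

/-- torsion points give unit classes (at their own level) -/
theorem push_bdry_mem {m : ℕ} {e : W} (he : r ^ m • e = 0) (f : W →+ Additive Qbˣ) :
    push f (bdry e) ∈ UT A := by
  obtain ⟨e', rfl⟩ := H.exists_pow_div a e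
  have hk : r ^ (m + a) • e' = 0 := by rw [pow_add, mul_smul, he]
  obtain ⟨φ, hφ, hμ, hE, hquad, hker⟩ := H.frob (m + a)
  have hkφ : r ^ (m + a) • φ • e' = 0 := by rw [smul_comm, hk, smul_zero]
  have hkτ : ∀ τ : GalQ, r ^ (m + a) • bdry e' τ = 0 := fun τ => by
    simp only [bdry]
    rw [smul_sub, smul_comm, hk, smul_zero, sub_zero]
  have h0 : ∀ τ ∈ A.inertiaSubgroupIn ℚ, bdry e' τ ∈ W0 := fun τ hτ => H.inertia τ hτ e'
  set k := m + a
  have hsq : ∀ g : W →+ Additive Qbˣ,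
      push (homComp (homComp g φ) φ) (bdry e') - push g (bdry e') ∈ UT A := by
    intro g
    have hx : φ • φ • e' - T (φ • e') + r • e' ∈ W0 := hE e' hk
    have hxk : r ^ k • (φ • φ • e' - T (φ • e') + r • e') = 0 := by
      rw [smul_add, smul_sub, smul_comm _ φ, hkφ, smul_zero, ← map_nsmul, hkφ, map_zero,
        smul_comm _ r, hk, smul_zero, sub_zero, add_zero]
    have h1 := H.push_bdry_mem_of_mem hx hxk g
    have h2 := H.bdry_conj hkφ hφ hμ g
    have h3 := H.bdry_conj hk hφ hμ (homComp g φ)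
    have h4 := H.bdry_conj hk hφ hμ (g.comp T)
    have hω : (((1 : ℤ) - r)) • (push (homComp (homComp g φ) φ) (bdry e') - push g (bdry e')) ∈
        UT A := by
      refine UT_congr (sub_mem (sub_mem h1 (add_mem h2 h3)) (neg_mem h4)) fun τ hτ => ?_
      have hq := congrArg g (hquad _ (h0 τ hτ) (hkτ τ))
      rw [map_add, map_sub, map_nsmul, map_zero] at hq
      have hT : g (T (φ • bdry e' τ)) = r • g (φ • φ • bdry e' τ) + g (bdry e' τ) :=
        (sub_eq_zero.mp ((by abel : r • g (φ • φ • bdry e' τ) + g (bdry e' τ) -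
          g (T (φ • bdry e' τ)) = r • g (φ • φ • bdry e' τ) - g (T (φ • bdry e' τ)) +
            g (bdry e' τ)).trans hq)).symm
      have hlin : bdry (φ • φ • e' - T (φ • e') + r • e') τ =
          bdry (φ • φ • e') τ - T (bdry (φ • e') τ) + r • bdry e' τ := by
        simp only [bdry, smul_add, smul_sub, map_sub, H.T_comm, smul_comm _ τ]
        abel
      simp only [Pi.sub_apply, Pi.add_apply, Pi.neg_apply, Pi.smul_apply, push, hlin, map_add,
        map_sub, map_nsmul, homComp_apply, AddMonoidHom.coe_comp, Function.comp_apply, hT,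
        sub_smul, one_smul, natCast_zsmul, smul_sub]
      abel
    obtain ⟨u, v, huv⟩ : IsCoprime ((1 : ℤ) - r) ((r : ℤ) ^ k) :=
      IsCoprime.pow_right ⟨1, 1, by ring⟩
    have hzero : ∀ τ ∈ A.inertiaSubgroupIn ℚ, (r ^ k : ℕ) •
        (push (homComp (homComp g φ) φ) (bdry e') - push g (bdry e')) τ = 0 := by
      intro τ _
      simp only [Pi.sub_apply, push, homComp_apply]
      rw [nsmul_sub, ← map_nsmul, ← map_nsmul, smul_comm _ φ, smul_comm _ φ, hkτ, smul_zero,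
        smul_zero, sub_self]
    refine UT_congr (AddSubgroup.zsmul_mem _ hω u) fun τ hτ => ?_
    rw [Pi.smul_apply, Pi.smul_apply, smul_smul]
    set X := (push (homComp (homComp g φ) φ) (bdry e') - push g (bdry e')) τ with hX
    have h5 : (v * (r : ℤ) ^ k) • X = 0 := by
      rw [← Nat.cast_pow, ← smul_smul, natCast_zsmul, hzero τ hτ, smul_zero]
    conv_rhs => rw [← one_zsmul X, ← huv, add_zsmul, h5, add_zero]
  have hmain := H.push_pow_mem hker h0 (fun τ _ => hkτ τ) hsq f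
  refine UT_congr hmain fun τ _ => ?_
  simp only [push, bdry, Pi.smul_apply, smul_sub, smul_comm _ τ]

/-- classes with values in the connected part give unit classes after multiplication by `r ^ a` -/
theorem push_cocycle_mem {m : ℕ} {c : GalQ → W} (hc : IsCocycle c) (hsm : IsSmooth c)
    (h0 : ∀ τ ∈ A.inertiaSubgroupIn ℚ, c τ ∈ W0) (hm : ∀ σ : GalQ, r ^ m • c σ = 0)
    (f : W →+ Additive Qbˣ) : push f (r ^ a • c) ∈ UT A := by
  obtain ⟨φ, hφ, hμ, -, -, hker⟩ := H.frob m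
  refine H.push_pow_mem hker h0 (fun τ _ => hm τ) (fun g => ?_) f
  have h1 : ∀ g : W →+ Additive Qbˣ, push g c - push (homComp g φ) c ∈ UT A := fun g => by
    refine UT_congr (sub_mem (H.conj_push hc hsm h0 (fun τ _ => hm τ) hφ hμ g)
      (H.push_bdry_mem (hm φ) g)) fun τ _ => ?_
    simp only [Pi.sub_apply, Pi.add_apply]
    abel
  refine UT_congr (neg_mem (add_mem (h1 g) (h1 (homComp g φ)))) fun τ _ => ?_
  simp only [Pi.neg_apply, Pi.add_apply, Pi.sub_apply]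
  abel

/-! ## The statements at finite level -/

section Level

variable {M : Type} [AddCommGroup M] [DistribMulAction GalQ M] (i : M →+ W)

/-- torsion elements give unit classes -/
theorem unitAt_bdry (hi : Function.Injective i) (hσ : ∀ (σ : GalQ) (x : M), i (σ • x) = σ • i x)
    {m : ℕ} {x : M} (hx : r ^ m • x = 0) : UnitAt A (W0.comap i) (bdry x) := by
  have hb : ∀ σ, i (bdry x σ) = bdry (i x) σ := fun σ => by simp only [bdry, map_sub, hσ]
  refine unitAt_iff.mpr ⟨fun τ hτ => ?_, fun f => ?_⟩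
  · rw [AddSubgroup.mem_comap, hb]
    exact H.inertia τ hτ _
  · obtain ⟨F, rfl⟩ := exists_extend i hi f
    refine UT_congr (H.push_bdry_mem (m := m) (by rw [← map_nsmul i, hx, map_zero]) F) fun τ _ => ?_
    simp only [push, AddMonoidHom.coe_comp, Function.comp_apply, hb]

/-- classes with values in the connected part -/
theorem unitAt_pow_smul (hi : Function.Injective i)
    (hσ : ∀ (σ : GalQ) (x : M), i (σ • x) = σ • i x)
    {m : ℕ} (hm : ∀ x : M, r ^ m • x = 0) {c : GalQ → M} (hc : IsCocycle c) (hsm : IsSmooth c)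
    (h0 : ∀ τ ∈ A.inertiaSubgroupIn ℚ, i (c τ) ∈ W0) :
    UnitAt A (W0.comap i) (r ^ a • c) := by
  refine unitAt_iff.mpr ⟨fun τ hτ => nsmul_mem (show c τ ∈ W0.comap i from h0 τ hτ) _,
    fun f => ?_⟩
  obtain ⟨F, rfl⟩ := exists_extend i hi f
  have hc' : IsCocycle (fun σ => i (c σ)) := fun σ τ => by simp only [hc σ τ, map_add, hσ]
  have hsm' : IsSmooth (fun σ => i (c σ)) := by
    obtain ⟨L, hL, h⟩ := hsm
    exact ⟨L, hL, fun σ hσ => by simp only [h σ hσ, map_zero]⟩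
  refine UT_congr (H.push_cocycle_mem (m := m) hc' hsm' h0
    (fun σ => by rw [← map_nsmul i, hm, map_zero]) F) fun τ _ => ?_
  simp only [push, AddMonoidHom.coe_comp, Function.comp_apply, Pi.smul_apply, map_nsmul]

end Level

end LocalR

end Modules

end FLTAgent.EIS
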