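import Fermat.Agent.EIS.PointGal
import Fermat.Agent.Reduction.PlaceMap
import Fermat.Agent.Reduction.Compat
import Fermat.Agent.Local.Degree

/-!
Area EIS, parcel F: a function on `X₀(p)` separating the two cusps in every good characteristic.
-/

set_option autoImplicit false
set_option synthInstance.maxHeartbeats 100000

noncomputable section

open ModularCurve AlgebraicCurve UpperHalfPlane IsLocalRing ModularForm
open scoped MatrixGroups Manifold

namespace FLTAgent.EIS

open Good (Lbl lblAct coeffRing ζC)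
open Reduction (FB Ctx Val BT GR rP red tB tS up dn)
open JTors (HolH ofH evH ordAt)
open SS2 (galFn)
open Genus (embC)
open ModFun (qx IsMF dil)

variable {p : ℕ} [Fact p.Prime]

theorem val_Poo_zero {F : FB p} (h : ∀ n : ℤ, n ≤ 0 → (F : LaurentSeries Qb).coeff n = 0) :
    Val (Poo p) F 0 := by
  rw [Val.zero_iff]
  rcases eq_or_ne F 0 with hF | hF
  · exact Or.inl hF
  · refine Or.inr ?_
    rw [ord_Poo p hF]
    exact (HahnSeries.le_order_iff_forall fun h0 => hF (Subtype.ext h0)).mpr fun n hn =>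
      h n (by omega)

theorem coeff_series_quot {K : Type*} [Field K] {x : LaurentSeries K} {R S : PowerSeries K}
    (hS : PowerSeries.constantCoeff (R := K) S = 1)
    (h : x * HahnSeries.ofPowerSeries ℤ K S = HahnSeries.ofPowerSeries ℤ K R) :
    (∀ n : ℤ, n < 0 → x.coeff n = 0) ∧ x.coeff 0 = R.coeff 0 := by
  have hu : S * PowerSeries.invOfUnit S 1 = 1 := PowerSeries.mul_invOfUnit S 1 (by simpa using hS)
  have hx : x = HahnSeries.ofPowerSeries ℤ K (R * PowerSeries.invOfUnit S 1) := by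
    rw [map_mul, ← h, mul_assoc, ← map_mul, hu, map_one, mul_one]
  refine ⟨fun n hn => by rw [hx, ofPowerSeries_coeff_of_neg _ hn], ?_⟩
  rw [hx, show (0 : ℤ) = ((0 : ℕ) : ℤ) from rfl, HahnSeries.ofPowerSeries_apply_coeff,
    PowerSeries.coeff_zero_eq_constantCoeff, map_mul, PowerSeries.constantCoeff_invOfUnit]
  simp

theorem val_Poo_quot {F : FB p} {R S : PowerSeries Qb}
    (hS : PowerSeries.constantCoeff (R := Qb) S = 1)
    (h : (F : LaurentSeries Qb) * HahnSeries.ofPowerSeries ℤ Qb S =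
      HahnSeries.ofPowerSeries ℤ Qb R) : Val (Poo p) F (R.coeff 0) := by
  obtain ⟨h1, h2⟩ := coeff_series_quot hS h
  suffices h0 : Val (Poo p) (F - algebraMap Qb (FB p) (R.coeff 0)) 0 by
    have := h0.add (Val.const (v := Poo p) (R.coeff 0))
    rwa [sub_add_cancel, zero_add] at this
  refine val_Poo_zero fun n hn => ?_
  rw [show ((F - algebraMap Qb (FB p) (R.coeff 0) : FB p) : LaurentSeries Qb) =
    (F : LaurentSeries Qb) - algebraMap Qb (LaurentSeries Qb) (R.coeff 0) from rfl,
    algebraMap_laurentSeries_eq_single, HahnSeries.coeff_sub]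
  rcases lt_or_eq_of_le hn with hn | rfl
  · rw [h1 n hn, HahnSeries.coeff_single_of_ne hn.ne, sub_zero]
  · rw [h2, HahnSeries.coeff_single_same, sub_self]

theorem val_P0_zero {F : FB p}
    (h : ∀ n : ℤ, n ≤ 0 → (atkinP p F : LaurentSeries Qb).coeff n = 0) : Val (P0 p) F 0 := by
  rw [Val.zero_iff]
  rcases eq_or_ne F 0 with hF | hF
  · exact Or.inl hF
  · refine Or.inr ?_
    rw [ord_P0 p hF]
    exact (HahnSeries.le_order_iff_forall fun h0 =>
      (_root_.map_ne_zero (atkinP p)).mpr hF (Subtype.ext h0)).mpr fun n hn => h n (by omega)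

/-- for a quotient of forms of weight `w`, the values near the cusp `0` -/
theorem atkinP_rel {w : ℕ} {F : FB p} {f f' g g' : ℍ → ℂ} (hf : MDiff f) (hg : MDiff g)
    (hf' : ModFun.Good (dil p f')) (hg' : ModFun.Good (dil p g'))
    (hrel : evH p F * ofH ⟨g, hg⟩ = ofH ⟨f, hf⟩)
    (hsf : SlRule w f f' ModularGroup.S) (hsg : SlRule w g g' ModularGroup.S)
    (hg0 : g' ≠ 0) :
    serC (atkinP p F) * HahnSeries.ofPowerSeries ℤ ℂ (qx (dil p g')) =
      HahnSeries.ofPowerSeries ℤ ℂ (qx (dil p f')) := by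
  rw [serC_mul_eq_iff _ hf' hg', evH_atkinP]
  have h1 := congrArg (atkinMero p) hrel
  rw [map_mul, atkinMero_ofH, atkinMero_ofH] at h1
  have key : atkinHol p ⟨g, hg⟩ * ⟨dil p f', hf'.holo⟩ =
      atkinHol p ⟨f, hf⟩ * ⟨dil p g', hg'.holo⟩ := by
    refine Subtype.ext (funext fun τ => ?_)
    show g (ModularGroup.S • ModFun.scale p τ) * f' (ModFun.scale p τ) =
      f (ModularGroup.S • ModFun.scale p τ) * g' (ModFun.scale p τ)
    rw [hsf, hsg]
    ring
  have hne : ofH (atkinHol p ⟨g, hg⟩) ≠ 0 := by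
    refine JTors.ofH_ne_zero ((map_ne_zero_iff _ (atkinHol_injective p)).mpr fun h => hg0 ?_)
    funext τ
    have h' := hsg τ
    rw [show g (ModularGroup.S • τ) = 0 from congrFun (congrArg Subtype.val h) _, eq_comm,
      mul_eq_zero] at h'
    refine h'.resolve_left (pow_ne_zero _ ?_)
    rw [← ModFun.denom_SL]; exact denom_ne_zero _ τ
  refine mul_left_cancel₀ hne ?_
  rw [← mul_assoc, mul_comm (ofH (atkinHol p ⟨g, hg⟩)), h1, ← map_mul, ← map_mul, key]

/-- the image of `A` in `ℂ` -/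
def imA (A : ValuationSubring Qb) : Subring ℂ := A.toSubring.map embC

theorem coeffRing_le_imA {A : ValuationSubring Qb} {ℓ : ℕ} (hℓ : ℓ.Prime) (hℓp : ¬ ℓ ∣ p)
    (hA : A.LiesOverPrime ℓ) {x : ℂ} (hx : x ∈ coeffRing p) : x ∈ imA A := by
  have hp := (Fact.out : p.Prime)
  suffices h : coeffRing p ≤ subalgebraOfSubring (imA A) from h hx
  refine Algebra.adjoin_le fun y hy => ?_
  simp only [SetLike.mem_coe, mem_subalgebraOfSubring]
  rcases hy with rfl | hy
  · haveI : NeZero (p : Qb) := ⟨Nat.cast_ne_zero.mpr hp.ne_zero⟩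
    obtain ⟨z, hz⟩ := HasEnoughRootsOfUnity.exists_primitiveRoot Qb p
    obtain ⟨i, -, hi⟩ := (hz.map_of_injective embC.injective).eq_pow_of_pow_eq_one
      (Good.ζC_prim p).pow_eq_one
    rw [← Good.ζC, ← hi, ← map_pow]
    refine Subring.mem_map.mpr ⟨_, pow_mem ?_ i, rfl⟩
    show z ∈ A
    rcases A.mem_or_inv_mem z with h | h
    · exact h
    · have e : z = z⁻¹ ^ (p - 1) := by
        rw [inv_pow]
        refine eq_inv_of_mul_eq_one_left ?_
        rw [← pow_succ', Nat.sub_add_cancel hp.one_le, hz.pow_eq_one]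
      rw [e]
      exact pow_mem h _
  · rw [Set.mem_singleton_iff] at hy
    subst hy
    refine Subring.mem_map.mpr ⟨(p : Qb)⁻¹, ?_, by simp⟩
    show (p : Qb)⁻¹ ∈ A
    rw [← A.valuation_le_one_iff, map_inv₀, Local.valuation_natCast_of_not_dvd hA hℓ hℓp, inv_one]

/-- the weight `4` comparison form -/
def Eden (p : ℕ) [Fact p.Prime] : ℍ → ℂ := (E₄ : ℍ → ℂ) ^ (pmPairs p).card

theorem qx_Eden_zero : (qx (Eden p)).coeff 0 = 1 := by
  rw [Eden, ModFun.Good.qx_pow ModFun.isMF_E4.good, PowerSeries.coeff_zero_eq_constantCoeff,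
    map_pow, ← PowerSeries.coeff_zero_eq_constantCoeff,
    show (qx (E₄ : ℍ → ℂ)).coeff 0 = 1 from EisensteinSeries.E_qExpansion_coeff_zero _ ⟨2, rfl⟩,
    one_pow]

theorem Eden_ne_zero : Eden p ≠ 0 := fun h => by
  have := qx_Eden_zero (p := p)
  rw [h, show qx (0 : ℍ → ℂ) = 0 from UpperHalfPlane.qExpansion_zero 1, map_zero] at this
  exact zero_ne_one this

/-- the separating function -/
theorem exists_Hfun (hp5 : 5 ≤ p) :
    ∃ H : FB p,
      (∃ h1 h2, evH p H * ofH ⟨Eden p, h1⟩ = ofH ⟨Pform p (0, 1) ^ 2, h2⟩) ∧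
      H ∈ Reduction.regOn Qb (tB p true) ∧ Val (P0 p) H 0 ∧
      ∃ c0 : Qb, Val (Poo p) H c0 ∧ ∀ (A : ValuationSubring Qb) (ℓ : ℕ), Ctx A p ℓ →
        H ∈ GR A p ∧ c0 ∈ A ∧ c0⁻¹ ∈ A ∧ c0 ≠ 0 := by
  obtain ⟨Zf, hZf⟩ := exists_rat_qx_Pform (p := p)
  obtain ⟨Z4, hZ4⟩ := ModFun.intQ_E4
  set n := (pmPairs p).card with hn
  have hP : IsMF p (((n * 2 * 2 : ℕ)) : ℤ) (Pform p (0, 1) ^ 2) :=
    ((isMF_Pform (p := p)).pow 2).cast (by push_cast [hn]; ring)
  have hG : IsMF p (((n * 2 * 2 : ℕ)) : ℤ) (Eden p) :=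
    ((ModFun.isMF_E4.pow n).levelOne).cast (by push_cast; ring)
  have hPq : qx (Pform p (0, 1) ^ 2) = (Zf ^ 2).map (algebraMap ℚ ℂ) := by
    rw [ModFun.Good.qx_pow isMF_Pform.good, hZf, map_pow]
  have hGq : qx (Eden p) = ((Z4.map (Int.castRingHom ℚ)) ^ n).map (algebraMap ℚ ℂ) := by
    rw [Eden, ModFun.Good.qx_pow ModFun.isMF_E4.good, hZ4, map_pow]
    congr 1
  obtain ⟨H, -, hser, hrel⟩ := exists_fun hP hG Eden_ne_zero hPq hGq
  -- the series over `ℚ̄`
  set R : PowerSeries Qb := (Zf ^ 2).map (algebraMap ℚ Qb) with hR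
  set S : PowerSeries Qb := ((Z4.map (Int.castRingHom ℚ)) ^ n).map (algebraMap ℚ Qb) with hS
  have hser' : (H : LaurentSeries Qb) * HahnSeries.ofPowerSeries ℤ Qb S =
      HahnSeries.ofPowerSeries ℤ Qb R := by
    rw [hR, hS, ← ModFun.coeffMap_ofPowerSeries, ← ModFun.coeffMap_ofPowerSeries]
    exact hser
  have he : ∀ q : ℚ, embC (algebraMap ℚ Qb q) = algebraMap ℚ ℂ q := fun q => by simp
  have hRC : ∀ m, embC (R.coeff m) = (qx (Pform p (0, 1) ^ 2)).coeff m := fun m => by
    rw [hR, PowerSeries.coeff_map, he, hPq, PowerSeries.coeff_map]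
  have hS0 : PowerSeries.constantCoeff (R := Qb) S = 1 := by
    apply embC.injective
    rw [hS, ← PowerSeries.coeff_zero_eq_constantCoeff, PowerSeries.coeff_map, he, map_one,
      ← qx_Eden_zero (p := p), hGq, PowerSeries.coeff_map]
  refine ⟨H, ⟨_, _, hrel⟩, ?_, ?_, R.coeff 0, val_Poo_quot hS0 hser', fun A ℓ C => ?_⟩
  rotate_left 2
  · -- integrality at `A`
    obtain ⟨hco, c, hc⟩ := qx_Pform_coeff (p := p)
    have hmem : ∀ m, ∃ a : A, embC (a : Qb) = (qx (Pform p (0, 1))).coeff m := fun m => by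
      obtain ⟨a, ha, hae⟩ := Subring.mem_map.mp
        (coeffRing_le_imA C.prime C.not_dvd C.lies (hco m))
      exact ⟨⟨a, ha⟩, hae⟩
    choose a ha using hmem
    set RA : PowerSeries A := (PowerSeries.mk a) ^ 2 with hRA
    have hRA' : RA.map A.subtype = R := by
      ext m
      apply embC.injective
      rw [hRC, ModFun.Good.qx_pow isMF_Pform.good, PowerSeries.coeff_map]
      have : qx (Pform p (0, 1)) = (PowerSeries.mk a).map (embC.comp A.subtype) := by
        ext k; simp [ha k]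
      rw [this, ← map_pow, ← hRA, PowerSeries.coeff_map]
      rfl
    set SA : PowerSeries A := (Z4.map (Int.castRingHom A)) ^ n with hSA
    have hSA' : SA.map A.subtype = S := by
      rw [hSA, hS, map_pow, map_pow]
      congr 1
    have hdn : dn A (HahnSeries.ofPowerSeries ℤ A SA) ≠ 0 := by
      intro h
      have h1 := congrArg (fun x : LaurentSeries (Reduction.kA A) => x.coeff ((0 : ℕ) : ℤ)) h
      simp only [coeffMap_coeff, HahnSeries.ofPowerSeries_apply_coeff, HahnSeries.coeff_zero] at h1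
      have h2 : SA.coeff 0 = 1 := by
        apply Subtype.ext
        have := congrArg (PowerSeries.coeff 0) hSA'
        simp only [PowerSeries.coeff_map, PowerSeries.coeff_zero_eq_constantCoeff] at this ⊢
        rw [hS0] at this
        exact this
      rw [h2, map_one] at h1
      exact one_ne_zero h1
    refine ⟨⟨HahnSeries.ofPowerSeries ℤ A RA, HahnSeries.ofPowerSeries ℤ A SA, hdn, ?_⟩, ?_⟩
    · show _ * coeffMap A.subtype _ = coeffMap A.subtype _
      rw [ModFun.coeffMap_ofPowerSeries, ModFun.coeffMap_ofPowerSeries, hRA', hSA', hser']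
    · have e0 : R.coeff 0 = (a 0 : Qb) ^ 2 := by
        rw [← hRA', PowerSeries.coeff_map, hRA, PowerSeries.coeff_zero_eq_constantCoeff, map_pow,
          ← PowerSeries.coeff_zero_eq_constantCoeff, PowerSeries.coeff_mk]
        rfl
      obtain ⟨b, hb, hbe⟩ := Subring.mem_map.mp
        (coeffRing_le_imA C.prime C.not_dvd C.lies ((c⁻¹ : (coeffRing p)ˣ) : coeffRing p).2)
      have hmul : (a 0 : Qb) * b = 1 := by
        apply embC.injective
        rw [map_mul, map_one, ha, hbe, hc]
        exact_mod_cast congrArg Subtype.val c.mul_inv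
      have hne : (a 0 : Qb) ≠ 0 := left_ne_zero_of_mul_eq_one hmul
      refine ⟨e0 ▸ pow_mem (a 0).2 2, ?_, e0 ▸ pow_ne_zero 2 hne⟩
      rw [e0, ← inv_pow, inv_eq_of_mul_eq_one_right hmul]
      exact pow_mem hb 2
  · -- regular away from `j = 0`
    rw [Reduction.mem_regOn]
    intro v hv
    rcases lt_trichotomy (v.ord (ModFun.jBar p)) 0 with hlt | heq | hgt
    · rcases eq_Poo_or_P0 p hlt with rfl | rfl
      · exact (val_Poo_quot hS0 hser').bd
      · refine (val_P0_zero fun m hm => ?_).bd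
        have hh := atkinP_rel (w := n * 2 * 2) (f' := Pform p (lblAct p (0, 1) ModularGroup.S) ^ 2)
          (g' := Eden p) hP.holo hG.holo ?_ (ModFun.good_dil hG.good p) hrel ?_ ?_ Eden_ne_zero
        rotate_left
        · exact (hasTSer_Pform (lblAct_ne_zero p (by simp [Prod.ext_iff]) _)).1.pow 2
        · have := (slRule_Pform (p := p) (u := (0, 1)) (by simp [Prod.ext_iff]) ModularGroup.S).pow 2
          rwa [show 2 * ((pmPairs p).card * 2) = n * 2 * 2 by rw [hn]; ring] at this
        · have := (slRule_E4 ModularGroup.S).pow n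
          rwa [show n * 4 = n * 2 * 2 by ring] at this
        obtain ⟨g1, g2⟩ := coeff_series_quot (by
          rw [← PowerSeries.coeff_zero_eq_constantCoeff, ModFun.qx_dil' hG.good,
            PowerSeries.coeff_mk, if_pos (dvd_zero p), Nat.zero_div, qx_Eden_zero]) hh
        apply embC.injective
        rw [map_zero, ← coeffMap_coeff]
        rcases lt_or_eq_of_le hm with hm | rfl
        · exact g1 m hm
        · rw [g2, show dil p (Pform p (lblAct p (0, 1) ModularGroup.S) ^ 2) =
            dil p (Pform p (lblAct p (0, 1) ModularGroup.S)) ^ 2 from rfl,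
            ModFun.Good.qx_pow (hasTSer_Pform (lblAct_ne_zero p (by simp [Prod.ext_iff]) _)).1,
            PowerSeries.coeff_zero_eq_constantCoeff, map_pow,
            ← PowerSeries.coeff_zero_eq_constantCoeff, qx_dil_Pform_S hp5, zero_pow two_ne_zero]
    · -- `j(v)` is finite and nonzero
      have hj : (ModFun.jBar p : FB p) ≠ 0 :=
        Reduction.ne_zero_of_transc (ModFun.transcendental_jBar p)
      obtain ⟨c, hc⟩ := Reduction.val_exists_B (P := v) (x := ModFun.jBar p)
        (RR.bd_iff.mpr (Or.inr (by omega)))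
      have hc0 : c ≠ 0 := by
        rintro rfl
        have := hc.ord_pos hj
        omega
      obtain ⟨τ₀, hτ₀⟩ := ModFun.jFun_surjective (embC c)
      have hpos : 0 < v.ord (ModFun.jBar p - algebraMap Qb (FB p) c) := by
        have h2 := hc.sub (Val.const (v := v) c)
        rw [sub_self] at h2
        have := h2.ord_pos fun h => ModFun.transcendental_jBar p
          (sub_eq_zero.mp h ▸ isAlgebraic_algebraMap c)
        omega
      obtain ⟨δ, g, hg, hord⟩ := (JTors.interior_exact p τ₀ c hτ₀.symm).2 v hpos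
      have hE : Eden p (δ • τ₀) ≠ 0 := by
        refine pow_ne_zero _ fun h0 => hc0 (embC.injective ?_)
        rw [map_zero, ← hτ₀, ← ModFun.jFun_smul δ τ₀, ModFun.jFun, h0]
        simp
      obtain ⟨b, hb⟩ : ∃ b : ℂ, (Pform p (0, 1) ^ 2) (δ • τ₀) = b := ⟨_, rfl⟩
      by_cases hH : H = 0
      · rw [hH]; exact RR.Bd.zero
      rw [RR.bd_iff_ord hH]
      by_cases hb0 : b = 0
      · have := ord_pos_of_eval hg hord hP.holo hG.holo hrel hE (hb.trans hb0) hH
        omega
      · have := (ord_eq_zero_of_eval hg hord hP.holo hG.holo hrel hE (hb ▸ hb0)).2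
        omega
    · exfalso
      have hj : (ModFun.jBar p : FB p) ≠ 0 :=
        Reduction.ne_zero_of_transc (ModFun.transcendental_jBar p)
      rcases RR.bd_iff.mp hv with h | h
      · exact inv_ne_zero hj h
      · simp only [Reduction.tB, Place.ord_inv] at h
        omega
  · -- the cusp `0`
    refine val_P0_zero fun m hm => ?_
    have hh := atkinP_rel (w := n * 2 * 2) (f' := Pform p (lblAct p (0, 1) ModularGroup.S) ^ 2)
      (g' := Eden p) hP.holo hG.holo ?_ (ModFun.good_dil hG.good p) hrel ?_ ?_ Eden_ne_zero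
    rotate_left
    · exact (hasTSer_Pform (lblAct_ne_zero p (by simp [Prod.ext_iff]) _)).1.pow 2
    · have := (slRule_Pform (p := p) (u := (0, 1)) (by simp [Prod.ext_iff]) ModularGroup.S).pow 2
      rwa [show 2 * ((pmPairs p).card * 2) = n * 2 * 2 by rw [hn]; ring] at this
    · have := (slRule_E4 ModularGroup.S).pow n
      rwa [show n * 4 = n * 2 * 2 by ring] at this
    obtain ⟨g1, g2⟩ := coeff_series_quot (by
      rw [← PowerSeries.coeff_zero_eq_constantCoeff, ModFun.qx_dil' hG.good,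
        PowerSeries.coeff_mk, if_pos (dvd_zero p), Nat.zero_div, qx_Eden_zero]) hh
    apply embC.injective
    rw [map_zero, ← coeffMap_coeff]
    rcases lt_or_eq_of_le hm with hm | rfl
    · exact g1 m hm
    · rw [g2, show dil p (Pform p (lblAct p (0, 1) ModularGroup.S) ^ 2) =
        dil p (Pform p (lblAct p (0, 1) ModularGroup.S)) ^ 2 from rfl,
        ModFun.Good.qx_pow (hasTSer_Pform (lblAct_ne_zero p (by simp [Prod.ext_iff]) _)).1,
        PowerSeries.coeff_zero_eq_constantCoeff, map_pow,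
        ← PowerSeries.coeff_zero_eq_constantCoeff, qx_dil_Pform_S hp5, zero_pow two_ne_zero]

/-- every zero of `1/j` on the special fibre is the reduction of a cusp -/
theorem eq_rP_cusp {A : ValuationSubring Qb} {ℓ : ℕ} (C : Ctx A p ℓ)
    {Q : Place (Reduction.kA A) (Reduction.FS A p)} (hQ : Val Q (tS A p true) 0) :
    Q = rP C (Poo p) ∨ Q = rP C (P0 p) := by
  classical
  have h1 := hQ.ord_pos (Reduction.tS_ne_zero A p true)
  have hd := Reduction.defect_tB C true Q
  rw [Reduction.defect, Reduction.red_tB C] at hd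
  obtain ⟨P, hPQ, hP⟩ : ∃ P, rP C P = Q ∧ 0 < P.ord (tB p true) := by
    by_contra hc
    push Not at hc
    rw [Reduction.mapDomain_apply_eq_sum (rP C) (Reduction.dv (tB p true)) Q
      (Reduction.dv (tB p true)).support le_rfl] at hd
    have : ∑ P ∈ (Reduction.dv (tB p true)).support.filter (fun P => rP C P = Q),
        (Reduction.dv (tB p true)) P ≤ 0 :=
      Finset.sum_nonpos fun P hP => by
        rw [Reduction.dv_apply]; exact hc P (Finset.mem_filter.mp hP).2
    omega
  have hneg : P.ord (ModFun.jBar p) < 0 := by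
    rw [show tB p true = (ModFun.jBar p)⁻¹ from rfl, Place.ord_inv] at hP
    omega
  rcases eq_Poo_or_P0 p hneg with rfl | rfl
  · exact Or.inl hPQ.symm
  · exact Or.inr hPQ.symm

/-- values of an integral function at the two reduced cusps separate them -/
theorem rP_eq_of_residue {A : ValuationSubring Qb} {ℓ : ℕ} (C : Ctx A p ℓ) {H : FB p}
    (hreg : H ∈ Reduction.regOn Qb (tB p true)) (hGR : H ∈ GR A p) {c0 : Qb} (hc0 : c0 ∈ A)
    (hc0' : c0⁻¹ ∈ A) (hc00 : c0 ≠ 0) (hoo : Val (Poo p) H c0) (h0 : Val (P0 p) H 0)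
    {X : Place Qb (FB p)} {d : Qb} (hd : Val X (tB p true) d) (hdA : d ∈ A)
    (hdres : residue A ⟨d, hdA⟩ = 0) {h : Qb} (hh : Val X H h) :
    ∃ hA : h ∈ A, (residue A ⟨h, hA⟩ ≠ 0 → rP C X = rP C (Poo p)) ∧
      (residue A ⟨h, hA⟩ = 0 → rP C X = rP C (P0 p)) := by
  have hBT := Reduction.BT_of_mem C hreg hGR
  obtain ⟨hA, hX⟩ := Reduction.val_rP C hBT hd hdA hh
  have hj : (ModFun.jBar p : FB p) ≠ 0 :=
    Reduction.ne_zero_of_transc (ModFun.transcendental_jBar p)
  have hcusp : ∀ P : Place Qb (FB p), P.ord (ModFun.jBar p) < 0 → Val P (tB p true) 0 := fun P hP =>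
    Reduction.val_zero_of_ord_pos (by
      show 0 < P.ord ((ModFun.jBar p)⁻¹); rw [Place.ord_inv]; omega)
  obtain ⟨_, hP0⟩ := Reduction.val_rP C hBT
    (hcusp (P0 p) (by rw [ord_P0_jBar]; have := (Fact.out : p.Prime).pos; omega)) A.zero_mem h0
  obtain ⟨_, hPo⟩ := Reduction.val_rP C hBT (hcusp (Poo p) (by rw [ord_Poo_jBar]; omega))
    A.zero_mem hoo
  obtain ⟨_, ht⟩ := Reduction.val_rP C (Reduction.BT_tB true) hd hdA hd
  rw [Reduction.red_tB C, hdres] at ht
  have hu : residue A ⟨c0, hc0⟩ ≠ 0 := by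
    intro h
    have e : (⟨c0, hc0⟩ : A) * ⟨c0⁻¹, hc0'⟩ = 1 := Subtype.ext (mul_inv_cancel₀ hc00)
    have := congrArg (residue A) e
    rw [map_mul, h, zero_mul, map_one] at this
    exact zero_ne_one this
  refine ⟨hA, fun hne => ?_, fun heq => ?_⟩
  · rcases eq_rP_cusp C ht with e | e
    · exact e
    · exfalso
      rw [e] at hX
      exact hne (hX.unique hP0)
  · rcases eq_rP_cusp C ht with e | e
    · exfalso
      rw [e, heq] at hX
      exact hu (hPo.unique hX)
    · exact e

end FLTAgent.EIS
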