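import Fermat.Agent.EIS.CuspPlaces
import Fermat.Agent.JTors.MeroH

/-!
Area EIS, parcel F: dictionary between `q`-series and meromorphic functions on `ℍ` for elements of
`ℚ̄(X₀(N))`, and rational quotients of modular forms as elements fixed by Galois.
-/

set_option autoImplicit false

noncomputable section

open ModularCurve AlgebraicCurve UpperHalfPlane
open scoped MatrixGroups Manifold

namespace FLTAgent.EIS

open Reduction (FB)
open ModFun (qx Good IsMF lx M1 jdM)
open JTors (HolH MeroH ofH evH)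
open SS2 (galFn)
open Genus (embC)
open scoped Genus

variable {N : ℕ} [NeZero N]

/-- `coeffMap embC` of an element -/
abbrev serC (F : FB N) : LaurentSeries ℂ := coeffMap embC (F : LaurentSeries Qb)

theorem serC_aeval_gen (P : MvPolynomial N.divisors Qb) :
    ∃ Φ : M1, lx Φ = serC (MvPolynomial.aeval (Genus.gen N) P) ∧
      ∀ h : MDiff (Φ : ℍ → ℂ),
        evH N (MvPolynomial.aeval (Genus.gen N) P) = ofH ⟨(Φ : ℍ → ℂ), h⟩ := by
  haveI : ∀ d : N.divisors, NeZero ((d : ℕ)) := fun d => ⟨(Nat.pos_of_mem_divisors d.2).ne'⟩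
  refine ⟨MvPolynomial.aeval (fun d : N.divisors => jdM (d : ℕ)) (MvPolynomial.map embC P),
    ?_, fun h => ?_⟩
  · show _ = coeffMap embC _
    rw [MvPolynomial.comp_aeval_apply, Genus.coe_aeval_gen]
    induction P using MvPolynomial.induction_on with
    | C a =>
      rw [MvPolynomial.map_C, MvPolynomial.aeval_C, MvPolynomial.aeval_C,
        algebraMap_laurentSeries_eq_single, algebraMap_laurentSeries_eq_single, coeffMap_single]
    | add p q hp hq => simp only [map_add, hp, hq]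
    | mul_X p d hp =>
      simp only [map_mul, MvPolynomial.map_X, MvPolynomial.aeval_X]
      rw [hp]
      simp only [Genus.jgen, ModFun.lx_jdM, ModFun.coeffMap_coeffEmb_comp]
  · rw [JTors.evH_aeval]
    congr 1
    refine Subtype.ext ?_
    show ((MvPolynomial.aeval (JTors.jdH N) (MvPolynomial.map embC P) : HolH) : ℍ → ℂ) =
      ((MvPolynomial.aeval (fun d : N.divisors => jdM (d : ℕ)) (MvPolynomial.map embC P) : M1) :
        ℍ → ℂ)
    rw [← Subalgebra.coe_val, ← Subalgebra.coe_val, MvPolynomial.comp_aeval_apply,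
      MvPolynomial.comp_aeval_apply]
    rfl

/-- an identity of `q`-series is the same as an identity of functions -/
theorem serC_mul_eq_iff (F : FB N) {f g : ℍ → ℂ} (hf : Good f) (hg : Good g) :
    serC F * HahnSeries.ofPowerSeries ℤ ℂ (qx g) = HahnSeries.ofPowerSeries ℤ ℂ (qx f) ↔
      evH N F * ofH ⟨g, hg.holo⟩ = ofH ⟨f, hf.holo⟩ := by
  obtain ⟨P, Q, hQ, rfl⟩ := Genus.exists_repr N F
  obtain ⟨ΦP, hP1, hP2⟩ := serC_aeval_gen P
  obtain ⟨ΦQ, hQ1, hQ2⟩ := serC_aeval_gen Q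
  have hQs : serC (MvPolynomial.aeval (Genus.gen N) Q) ≠ 0 := by
    intro h
    refine hQ (Subtype.ext (HahnSeries.ext (funext fun n => embC.injective ?_)))
    have := congrArg (fun x : LaurentSeries ℂ => x.coeff n) h
    simpa using this
  have hQh : evH N (MvPolynomial.aeval (Genus.gen N) Q) ≠ 0 := (_root_.map_ne_zero _).mpr hQ
  have e1 : serC (MvPolynomial.aeval (Genus.gen N) P / MvPolynomial.aeval (Genus.gen N) Q) =
      serC (MvPolynomial.aeval (Genus.gen N) P) / serC (MvPolynomial.aeval (Genus.gen N) Q) := by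
    simp only [serC]
    rw [← map_div₀ (coeffMap embC)]
    congr 1
  rw [e1, map_div₀, div_mul_eq_mul_div, div_eq_iff hQs, div_mul_eq_mul_div, div_eq_iff hQh,
    ← hP1, ← hQ1, hP2 ΦP.2.holo, hQ2 ΦQ.2.holo, ← ModFun.lx_good hf, ← ModFun.lx_good hg,
    ← map_mul, ← map_mul, ← map_mul, ← map_mul, ModFun.lx_injective.eq_iff,
    JTors.ofH_injective.eq_iff, Subtype.ext_iff, Subtype.ext_iff]
  rfl

theorem qx_ne_zero {g : ℍ → ℂ} (hg : Good g) (hg0 : g ≠ 0) : qx g ≠ 0 := fun h =>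
  hg0 (ModFun.Good.qx_inj hg ModFun.Good.zero
    (h.trans (UpperHalfPlane.qExpansion_zero 1).symm))

theorem polyQ_le : ∀ Z ∈ ModFun.polyQ N, Z ∈ modularFunctionFieldFull N := fun _ hZ =>
  modularFunctionField_le_full N (IntermediateField.algebra_adjoin_le_adjoin ℚ _ hZ)

/-- a quotient of forms of one weight with rational coefficients is an element fixed by Galois -/
theorem exists_fun {w : ℤ} {f g : ℍ → ℂ} (hf : IsMF N w f) (hg : IsMF N w g) (hg0 : g ≠ 0)
    {Zf Zg : PowerSeries ℚ} (hfq : qx f = Zf.map (algebraMap ℚ ℂ))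
    (hgq : qx g = Zg.map (algebraMap ℚ ℂ)) :
    ∃ F : FB N, (∀ σ : GalQ, galFn N σ • F = F) ∧
      (F : LaurentSeries Qb) * coeffEmb Qb (HahnSeries.ofPowerSeries ℤ ℚ Zg) =
        coeffEmb Qb (HahnSeries.ofPowerSeries ℤ ℚ Zf) ∧
      evH N F * ofH ⟨g, hg.holo⟩ = ofH ⟨f, hf.holo⟩ := by
  have e : ∀ Z : PowerSeries ℚ, HahnSeries.ofPowerSeries ℤ ℂ (Z.map (algebraMap ℚ ℂ)) =
      coeffEmb ℂ (HahnSeries.ofPowerSeries ℤ ℚ Z) := fun Z =>
    (ModFun.coeffMap_ofPowerSeries _ Z).symm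
  have hZg : HahnSeries.ofPowerSeries ℤ ℚ Zg ≠ 0 := by
    refine (map_ne_zero_iff _ HahnSeries.ofPowerSeries_injective).mpr fun h => qx_ne_zero hg.good hg0 ?_
    rw [hgq, h, map_zero]
  set r : LaurentSeries ℚ :=
    HahnSeries.ofPowerSeries ℤ ℚ Zf / HahnSeries.ofPowerSeries ℤ ℚ Zg with hr
  have hmem : r ∈ modularFunctionFieldFull N := by
    have h1 := ModFun.quot_mem_adjoin hf hg
    rw [hfq, hgq, e, e, ← map_div₀, ← hr] at h1
    obtain ⟨a, ha, b, hb, hab⟩ :
        ∃ a ∈ ModFun.polyC N, ∃ b ∈ ModFun.polyC N, coeffEmb ℂ r = a / b := by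
      obtain ⟨a, ha, b, hb, hab⟩ := IntermediateField.mem_adjoin_iff_div.mp h1
      exact ⟨a, ha, b, hb, hab⟩
    by_cases hb0 : b = 0
    · rw [hb0, div_zero] at hab
      rw [(map_eq_zero _).mp hab]
      exact zero_mem _
    have hab' : b * coeffEmb ℂ r = a := by rw [hab, mul_div_cancel₀ a hb0]
    obtain ⟨φ, hφ⟩ := ModFun.exists_proj
    obtain ⟨n₀, hn₀⟩ : ∃ n, b.coeff n ≠ 0 := by
      by_contra hc
      push Not at hc
      exact hb0 (HahnSeries.ext (funext hc))
    set ψ : ℂ →ₗ[ℚ] ℚ := φ.comp (LinearMap.mulLeft ℚ (b.coeff n₀)⁻¹) with hψ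
    obtain ⟨ZA, hZA, eA⟩ := ModFun.polyC_descent ha ψ
    obtain ⟨ZB, hZB, eB⟩ := ModFun.polyC_descent hb ψ
    have e1 := eA 1
    rw [map_one, mul_one, mul_one] at e1
    have e2 := eB 1
    rw [map_one, mul_one, mul_one] at e2
    have e3 := eB r
    rw [hab', e1] at e3
    have hZB0 : ZB ≠ 0 := by
      intro h
      have h1 : (ModFun.phiL ψ b).coeff n₀ = 0 := by rw [e2, h, HahnSeries.coeff_zero]
      rw [ModFun.phiL_coeff, hψ, LinearMap.comp_apply, LinearMap.mulLeft_apply,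
        inv_mul_cancel₀ hn₀, hφ] at h1
      exact one_ne_zero h1
    have e4 : r = ZA / ZB := by rw [e3, mul_div_cancel_left₀ _ hZB0]
    rw [e4]
    exact div_mem (polyQ_le _ hZA) (polyQ_le _ hZB)
  let F : FB N := ⟨coeffEmb Qb r, coeffEmb_mem_laurentBaseChange Qb hmem⟩
  have hser : (F : LaurentSeries Qb) * coeffEmb Qb (HahnSeries.ofPowerSeries ℤ ℚ Zg) =
      coeffEmb Qb (HahnSeries.ofPowerSeries ℤ ℚ Zf) := by
    show coeffEmb Qb r * _ = _
    rw [← map_mul, hr, div_mul_cancel₀ _ hZg]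
  refine ⟨F, fun σ => Subtype.ext (HahnSeries.ext (funext fun n => ?_)), hser,
    (serC_mul_eq_iff F hf.good hg.good).mp ?_⟩
  · show (coeffMap (σ : Qb →+* Qb) (coeffEmb Qb r)).coeff n = (coeffEmb Qb r).coeff n
    rw [coeffMap_coeff, coeffEmb_coeff]
    exact σ.commutes _
  · rw [hfq, hgq, e, e, ← ModFun.coeffMap_coeffEmb_comp embC, ← ModFun.coeffMap_coeffEmb_comp embC,
      ← map_mul, hser]

section Atkin

variable (p : ℕ) [Fact p.Prime]

theorem atkinPt_atkinPt (τ : ℍ) : atkinPt p (atkinPt p τ) = τ := by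
  have hp : (p : ℂ) ≠ 0 := Nat.cast_ne_zero.mpr (Fact.out : p.Prime).ne_zero
  have hτ := τ.ne_zero
  refine UpperHalfPlane.ext ?_
  rw [atkinPt, UpperHalfPlane.modular_S_smul]
  show (-(ModFun.scale p (atkinPt p τ) : ℂ))⁻¹ = _
  rw [ModFun.coe_scale, atkinPt, UpperHalfPlane.modular_S_smul]
  show (-((p : ℂ) * (-(ModFun.scale p τ : ℂ))⁻¹))⁻¹ = _
  rw [ModFun.coe_scale]
  field_simp

theorem mdiff_atkinPt {f : ℍ → ℂ} (hf : MDiff f) : MDiff fun τ => f (atkinPt p τ) :=
  ModFun.mdiff_dil (F := fun τ => f (ModularGroup.S • τ)) (JTors.mdiff_smul_SL _ hf) p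

/-- composition with `τ ↦ -1/(pτ)` -/
def atkinHol : HolH →ₐ[ℂ] HolH where
  toFun f := ⟨fun τ => (f : ℍ → ℂ) (atkinPt p τ), mdiff_atkinPt p f.2⟩
  map_one' := rfl
  map_mul' _ _ := rfl
  map_zero' := rfl
  map_add' _ _ := rfl
  commutes' _ := rfl

theorem atkinHol_injective : Function.Injective (atkinHol p) := fun a b h =>
  Subtype.ext (funext fun τ => by
    have := congrFun (congrArg Subtype.val h) (atkinPt p τ)
    simpa [atkinHol, atkinPt_atkinPt] using this)

/-- pull back along `τ ↦ -1/(pτ)` -/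
def atkinMero : MeroH →ₐ[ℂ] MeroH :=
  IsFractionRing.liftAlgHom (g := (ofH.comp (atkinHol p)))
    (JTors.ofH_injective.comp (atkinHol_injective p))

theorem atkinMero_ofH (f : HolH) : atkinMero p (ofH f) = ofH (atkinHol p f) :=
  IsFractionRing.lift_algebraMap (A := HolH) (K := MeroH)
    (g := (ofH.comp (atkinHol p)).toRingHom)
    (JTors.ofH_injective.comp (atkinHol_injective p)) f

theorem evH_atkinP (F : FB p) : evH p (atkinP p F) = atkinMero p (evH p F) := by
  have h : (evH p).comp (atkinP p) = ((atkinMero p).restrictScalars Qb).comp (evH p) := by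
    refine Genus.algHom_ext fun d => ?_
    haveI : NeZero ((d : ℕ)) := ⟨(Nat.pos_of_mem_divisors d.2).ne'⟩
    haveI : NeZero (((swapP p d : p.divisors) : ℕ)) :=
      ⟨(Nat.pos_of_mem_divisors (swapP p d).2).ne'⟩
    show evH p (atkinP p (Genus.gen p d)) = atkinMero p (evH p (Genus.gen p d))
    rw [atkinP_gen, JTors.evH_gen, JTors.evH_gen, atkinMero_ofH]
    congr 1
    exact Subtype.ext (funext fun τ => (jFun_atkinPt p d τ).symm)
  exact DFunLike.congr_fun h F

end Atkin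

end FLTAgent.EIS
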