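import Fermat.Agent.EIS.PointDict
import Fermat.Agent.Good.LevelAPI
import Fermat.Agent.Good.Units
import Fermat.Agent.Good.Series
import Fermat.Agent.ModFun.Rat
import Fermat.Agent.ModFun.Descent

/-!
Area EIS, parcel F: the modular forms built from differences of `℘` at `p`-torsion points which
separate the points of a fibre of `X₀(p)` over `j` and the two cusps.
-/

set_option autoImplicit false

noncomputable section

open UpperHalfPlane CongruenceSubgroup ModularForm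
open scoped MatrixGroups Manifold Topology

namespace FLTAgent.EIS

open Good (Lbl lblAct pDiff lblSeries coeffRing cst zp ζC tq)
open ModFun (qx dil scale qp IsMF)

section Labels

variable (p : ℕ)

/-- multiple of a label -/
def sc (i : ZMod p) (u : Lbl p) : Lbl p := (i * u.1, i * u.2)

/-- twist of a label by `a` -/
def tw (a : ZMod p) (u : Lbl p) : Lbl p := (u.1, a * u.2)

theorem lblAct_sc (i : ZMod p) (u : Lbl p) (γ : SL(2, ℤ)) :
    lblAct p (sc p i u) γ = sc p i (lblAct p u γ) := by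
  simp only [lblAct, sc]; ext <;> simp <;> ring

theorem sc_sc (i k : ZMod p) (u : Lbl p) : sc p i (sc p k u) = sc p (i * k) u := by
  simp only [sc, mul_assoc]

theorem sc_one (u : Lbl p) : sc p 1 u = u := by simp [sc]

theorem tw_sc (a i : ZMod p) (u : Lbl p) : tw p a (sc p i u) = sc p i (tw p a u) := by
  simp only [tw, sc]; ext <;> simp; ring

theorem sc_neg (i : ZMod p) (u : Lbl p) : sc p (-i) u = -sc p i u := by
  ext <;> simp [sc]

variable [Fact p.Prime]

theorem sc_injective {u : Lbl p} (hu : u ≠ 0) : Function.Injective fun i => sc p i u := by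
  intro i k h
  simp only [sc, Prod.mk.injEq] at h
  by_cases h1 : u.1 = 0
  · exact mul_right_cancel₀ (fun h2 => hu (Prod.ext h1 h2)) h.2
  · exact mul_right_cancel₀ h1 h.1

theorem sc_ne_zero {i : ZMod p} (hi : i ≠ 0) {u : Lbl p} (hu : u ≠ 0) : sc p i u ≠ 0 := fun h =>
  hi (sc_injective p hu (h.trans (by simp [sc]; rfl)))

theorem lblAct_ne_zero {u : Lbl p} (hu : u ≠ 0) (γ : SL(2, ℤ)) : lblAct p u γ ≠ 0 := fun h =>
  hu (Good.lblAct_injective p γ (h.trans (Good.lblAct_zero p γ).symm))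

theorem lblAct_gamma0_line {γ : SL(2, ℤ)} (hγ : γ ∈ Gamma0 p) :
    lblAct p (0, 1) γ = sc p ((γ.1 1 1 : ℤ) : ZMod p) (0, 1) := by
  rw [Gamma0_mem] at hγ
  simp [lblAct, sc, hγ]

theorem gamma0_unit {γ : SL(2, ℤ)} (hγ : γ ∈ Gamma0 p) : ((γ.1 1 1 : ℤ) : ZMod p) ≠ 0 := fun h => by
  have := lblAct_ne_zero p (u := (0, 1)) (by simp [Prod.ext_iff]) γ
  rw [lblAct_gamma0_line p hγ, h] at this
  exact this (by simp [sc])

/-- nonzero labels -/
def nzLbl : Finset (Lbl p) := Finset.univ.erase 0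

/-- nonzero scalars -/
def nzSc : Finset (ZMod p) := Finset.univ.erase 0

/-- ordered pairs of nonzero scalars, distinct up to sign -/
def pmPairs : Finset (ZMod p × ZMod p) :=
  (nzSc p ×ˢ nzSc p).filter fun q => q.1 ≠ q.2 ∧ q.1 ≠ -q.2

theorem mem_nzLbl {u : Lbl p} : u ∈ nzLbl p ↔ u ≠ 0 := by simp [nzLbl]

theorem mem_nzSc {i : ZMod p} : i ∈ nzSc p ↔ i ≠ 0 := by simp [nzSc]

theorem mem_pmPairs {q : ZMod p × ZMod p} :
    q ∈ pmPairs p ↔ q.1 ≠ 0 ∧ q.2 ≠ 0 ∧ q.1 ≠ q.2 ∧ q.1 ≠ -q.2 := by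
  simp [pmPairs, mem_nzSc, and_assoc]

theorem card_nzSc : (nzSc p).card = p - 1 := by
  simp [nzSc]

theorem pmPairs_nonempty (hp : 5 ≤ p) : (pmPairs p).Nonempty := by
  refine ⟨(1, 2), (mem_pmPairs p).mpr ⟨one_ne_zero, ?_, ?_, ?_⟩⟩
  · exact Good.two_ne_zero' (by omega)
  · intro h
    exact one_ne_zero (α := ZMod p) (by linear_combination -h)
  · intro h
    have h3 : ((3 : ℕ) : ZMod p) = 0 := by push_cast; linear_combination h
    rw [ZMod.natCast_eq_zero_iff] at h3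
    have := Nat.le_of_dvd (by norm_num) h3
    omega

theorem prod_nzSc_mul {d : ZMod p} (hd : d ≠ 0) {α : Type*} [CommMonoid α] (F : ZMod p → α) :
    ∏ i ∈ nzSc p, F (i * d) = ∏ i ∈ nzSc p, F i := by
  refine Finset.prod_equiv (Equiv.mulRight₀ d hd) (fun i => ?_) (fun i _ => rfl)
  simp [mem_nzSc, hd]

theorem prod_pmPairs_mul {d : ZMod p} (hd : d ≠ 0) {α : Type*} [CommMonoid α]
    (F : ZMod p × ZMod p → α) :
    ∏ q ∈ pmPairs p, F (q.1 * d, q.2 * d) = ∏ q ∈ pmPairs p, F q := by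
  refine Finset.prod_equiv ((Equiv.mulRight₀ d hd).prodCongr (Equiv.mulRight₀ d hd)) (fun q => ?_)
    (fun q _ => rfl)
  simp only [mem_pmPairs, Equiv.prodCongr_apply, Prod.map_fst, Prod.map_snd,
    Equiv.mulRight₀_apply, ne_eq, mul_eq_zero, hd, or_false, mul_left_inj' hd, ← neg_mul]

end Labels

section Slash

/-- the transformation rule `f(γτ) = (cτ + d)^w g(τ)` -/
def SlRule (w : ℕ) (f g : ℍ → ℂ) (γ : SL(2, ℤ)) : Prop :=
  ∀ τ : ℍ, f (γ • τ) = (((γ.1 1 0 : ℤ) : ℂ) * (τ : ℂ) + ((γ.1 1 1 : ℤ) : ℂ)) ^ w * g τ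

variable {γ : SL(2, ℤ)} {w w' : ℕ} {f g f' g' : ℍ → ℂ}

theorem SlRule.mul (h : SlRule w f g γ) (h' : SlRule w' f' g' γ) :
    SlRule (w + w') (f * f') (g * g') γ := fun τ => by
  simp only [Pi.mul_apply, h τ, h' τ, pow_add]; ring

theorem SlRule.add (h : SlRule w f g γ) (h' : SlRule w f' g' γ) :
    SlRule w (f + f') (g + g') γ := fun τ => by
  simp only [Pi.add_apply, h τ, h' τ]; ring

theorem SlRule.smul (c : ℂ) (h : SlRule w f g γ) : SlRule w (c • f) (c • g) γ := fun τ => by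
  simp only [Pi.smul_apply, smul_eq_mul, h τ]; ring

theorem SlRule.sub (h : SlRule w f g γ) (h' : SlRule w f' g' γ) :
    SlRule w (f - f') (g - g') γ := fun τ => by
  simp only [Pi.sub_apply, h τ, h' τ]; ring

theorem SlRule.pow (h : SlRule w f g γ) (n : ℕ) : SlRule (n * w) (f ^ n) (g ^ n) γ := fun τ => by
  simp only [Pi.pow_apply, h τ, mul_pow, ← pow_mul, mul_comm w n]

theorem SlRule.sum {ι : Type*} (s : Finset ι) {F G : ι → ℍ → ℂ}
    (h : ∀ i ∈ s, SlRule w (F i) (G i) γ) : SlRule w (∑ i ∈ s, F i) (∑ i ∈ s, G i) γ := fun τ => by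
  simp only [Finset.sum_apply, Finset.mul_sum]
  exact Finset.sum_congr rfl fun i hi => h i hi τ

theorem SlRule.prod {ι : Type*} (s : Finset ι) {F G : ι → ℍ → ℂ}
    (h : ∀ i ∈ s, SlRule w (F i) (G i) γ) :
    SlRule (s.card * w) (∏ i ∈ s, F i) (∏ i ∈ s, G i) γ := fun τ => by
  simp only [Finset.prod_apply, mul_comm s.card w, pow_mul, ← Finset.prod_const,
    ← Finset.prod_mul_distrib]
  exact Finset.prod_congr rfl fun i hi => h i hi τ

theorem SlRule.slash (h : SlRule w f g γ) : f ∣[(w : ℤ)] γ = g := by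
  funext τ
  rw [SL_slash_apply, h τ, ← ModFun.denom_SL, zpow_neg, zpow_natCast]
  have := denom_ne_zero (γ : GL (Fin 2) ℝ) τ
  field_simp

theorem slRule_levelOne {f : ℍ → ℂ} (hf : IsMF 1 (w : ℤ) f) (γ : SL(2, ℤ)) : SlRule w f f γ :=
  fun τ => by rw [ModFun.apply_smul_of_levelOne hf, ModFun.denom_SL, zpow_natCast]

theorem slRule_E4 (γ : SL(2, ℤ)) : SlRule 4 (E₄ : ℍ → ℂ) E₄ γ :=
  slRule_levelOne ModFun.isMF_E4 γ

theorem slRule_E6 (γ : SL(2, ℤ)) : SlRule 6 (E₆ : ℍ → ℂ) E₆ γ :=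
  slRule_levelOne (ModFun.isMF_levelOne E₆) γ

end Slash

section Series

variable (p : ℕ) [NeZero p]

/-- the inclusion of the coefficient ring -/
abbrev cval : coeffRing p →+* ℂ := (coeffRing p).val.toRingHom

/-- `f(pτ)` has the given expansion in `q` -/
def HasTSer (f : ℍ → ℂ) (P : PowerSeries (coeffRing p)) : Prop :=
  ModFun.Good (dil p f) ∧ qx (dil p f) = P.map (cval p)

variable {p} {f g : ℍ → ℂ} {P Q : PowerSeries (coeffRing p)}

theorem HasTSer.add (hf : HasTSer p f P) (hg : HasTSer p g Q) : HasTSer p (f + g) (P + Q) :=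
  ⟨hf.1.add hg.1, by
    rw [show dil p (f + g) = dil p f + dil p g from rfl, ModFun.Good.qx_add hf.1 hg.1, hf.2, hg.2,
      map_add]⟩

theorem HasTSer.sub (hf : HasTSer p f P) (hg : HasTSer p g Q) : HasTSer p (f - g) (P - Q) :=
  ⟨hf.1.sub hg.1, by
    rw [show dil p (f - g) = dil p f - dil p g from rfl, ModFun.Good.qx_sub hf.1 hg.1, hf.2, hg.2,
      map_sub]⟩

theorem HasTSer.mul (hf : HasTSer p f P) (hg : HasTSer p g Q) : HasTSer p (f * g) (P * Q) :=
  ⟨hf.1.mul hg.1, by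
    rw [show dil p (f * g) = dil p f * dil p g from rfl, ModFun.Good.qx_mul hf.1 hg.1, hf.2, hg.2,
      map_mul]⟩

theorem HasTSer.one : HasTSer p 1 1 :=
  ⟨ModFun.Good.one, by
    rw [map_one]; exact UpperHalfPlane.qExpansion_one 1⟩

theorem HasTSer.zero : HasTSer p 0 0 :=
  ⟨ModFun.Good.zero, by
    rw [map_zero]; exact UpperHalfPlane.qExpansion_zero 1⟩

theorem HasTSer.pow (hf : HasTSer p f P) : ∀ n : ℕ, HasTSer p (f ^ n) (P ^ n)
  | 0 => by simpa using HasTSer.one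
  | n + 1 => by rw [pow_succ, pow_succ]; exact (HasTSer.pow hf n).mul hf

theorem HasTSer.prod {ι : Type*} (s : Finset ι) {F : ι → ℍ → ℂ}
    {R : ι → PowerSeries (coeffRing p)} (h : ∀ i ∈ s, HasTSer p (F i) (R i)) :
    HasTSer p (∏ i ∈ s, F i) (∏ i ∈ s, R i) := by
  classical
  induction s using Finset.induction with
  | empty => simpa using HasTSer.one
  | insert a s ha ih =>
    rw [Finset.prod_insert ha, Finset.prod_insert ha]
    exact (h a (Finset.mem_insert_self a s)).mul (ih fun i hi => h i (Finset.mem_insert_of_mem hi))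

theorem HasTSer.sum {ι : Type*} (s : Finset ι) {F : ι → ℍ → ℂ}
    {R : ι → PowerSeries (coeffRing p)} (h : ∀ i ∈ s, HasTSer p (F i) (R i)) :
    HasTSer p (∑ i ∈ s, F i) (∑ i ∈ s, R i) := by
  classical
  induction s using Finset.induction with
  | empty => simpa using HasTSer.zero
  | insert a s ha ih =>
    rw [Finset.sum_insert ha, Finset.sum_insert ha]
    exact (h a (Finset.mem_insert_self a s)).add (ih fun i hi => h i (Finset.mem_insert_of_mem hi))

theorem HasTSer.natCast_smul (k : ℕ) (hf : HasTSer p f P) :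
    HasTSer p ((k : ℂ) • f) ((k : PowerSeries (coeffRing p)) * P) :=
  ⟨hf.1.smul _, by
    rw [show dil p ((k : ℂ) • f) = (k : ℂ) • dil p f from rfl, ModFun.Good.qx_smul _ hf.1, hf.2,
      map_mul, map_natCast, PowerSeries.smul_eq_C_mul, map_natCast]⟩

/-- a level one form with integral expansion -/
theorem hasTSer_intQ {f : ℍ → ℂ} (hf : ModFun.Good f) {Z : PowerSeries ℤ}
    (hZ : qx f = Z.map (Int.castRingHom ℂ)) :
    HasTSer p f ((PowerSeries.mk fun m => if p ∣ m then Z.coeff (m / p) else 0).map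
      (Int.castRingHom (coeffRing p))) := by
  refine ⟨ModFun.good_dil hf p, PowerSeries.ext fun m => ?_⟩
  rw [ModFun.qx_dil' hf, hZ]
  simp only [PowerSeries.coeff_mk, PowerSeries.coeff_map]
  split_ifs <;> simp

theorem tq_scale (τ : ℍ) : tq p (scale p τ) = qp τ := by
  simp only [tq, qp, Function.Periodic.qParam, ModFun.coe_scale]
  congr 1
  have : (p : ℂ) ≠ 0 := Nat.cast_ne_zero.mpr (NeZero.ne p)
  push_cast
  field_simp

theorem hasTSer_pDiff {v w : Lbl p} (hv : v ≠ 0) (hw : w ≠ 0) :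
    HasTSer p (pDiff p v w) (lblSeries p v - lblSeries p w) := by
  have hm := ModFun.mdiff_dil (Good.mdiff_pDiff p hv hw) p
  have hs : ∀ τ : ℍ, HasSum (fun n => ((PowerSeries.coeff n (lblSeries p v - lblSeries p w) :
      coeffRing p) : ℂ) * qp τ ^ n) (dil p (pDiff p v w) τ) := fun τ => by
    have := Good.hasSum_pDiff p hv hw (scale p τ)
    rwa [tq_scale] at this
  refine ⟨Good.good_of_hasSum hm hs, ?_⟩
  rw [Good.qx_of_hasSum hm hs]
  ext n
  simp [PowerSeries.coeff_mk, PowerSeries.coeff_map]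

theorem HasTSer.bdd (hf : HasTSer p f P) : IsBoundedAtImInfty f := by
  have h : f = fun τ => dil p f (ModFun.aff 1 0 p τ) := by
    funext τ
    simp only [dil]
    congr 1
    refine UpperHalfPlane.ext ?_
    rw [ModFun.coe_scale, ModFun.coe_aff]
    have : (p : ℂ) ≠ 0 := Nat.cast_ne_zero.mpr (NeZero.ne p)
    push_cast
    field_simp
    ring
  rw [h]
  exact hf.1.bdd.comp_tendsto (ModFun.tendsto_aff 1 0 p)

theorem HasTSer.qx_coeff (hf : HasTSer p f P) (hgood : ModFun.Good f) (n : ℕ) :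
    (qx f).coeff n = ((P.coeff (p * n) : coeffRing p) : ℂ) := by
  have h := congrArg (PowerSeries.coeff (p * n)) hf.2
  rw [ModFun.qx_dil' hgood, PowerSeries.coeff_mk, if_pos (dvd_mul_right p n),
    Nat.mul_div_cancel_left _ (Nat.pos_of_ne_zero (NeZero.ne p)), PowerSeries.coeff_map] at h
  exact h

/-- coefficients fixed by all automorphisms of `ℂ` -/
def SigFix (P : PowerSeries (coeffRing p)) : Prop :=
  ∀ σ : ℂ →+* ℂ, P.map (σ.comp (cval p)) = P.map (cval p)

theorem exists_rat_qx (hf : HasTSer p f P) (hgood : ModFun.Good f) (hP : SigFix P) :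
    ∃ Z : PowerSeries ℚ, qx f = Z.map (algebraMap ℚ ℂ) := by
  have h : ∀ n, ∃ r : ℚ, (qx f).coeff n = r := fun n => ModFun.fixed_eq_rat fun σ => by
    rw [hf.qx_coeff hgood]
    have := congrArg (PowerSeries.coeff (p * n)) (hP σ)
    simpa [PowerSeries.coeff_map] using this
  choose r hr using h
  refine ⟨PowerSeries.mk r, PowerSeries.ext fun n => ?_⟩
  rw [hr, PowerSeries.coeff_map, PowerSeries.coeff_mk, eq_ratCast]

end Series

section Twist

variable {p : ℕ} [Fact p.Prime] {σ : ℂ →+* ℂ} {a : ZMod p}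

theorem exists_twist_scalar (σ : ℂ →+* ℂ) :
    ∃ a : ZMod p, a ≠ 0 ∧ σ (ζC p) = ζC p ^ a.val := by
  have hζ := Good.ζC_prim p
  have h1 : IsPrimitiveRoot (σ (ζC p)) p := hζ.map_of_injective σ.injective
  obtain ⟨i, hi, he⟩ := hζ.eq_pow_of_pow_eq_one h1.pow_eq_one
  refine ⟨(i : ZMod p), fun h0 => ?_, by rw [ZMod.val_natCast_of_lt hi, he]⟩
  have hi0 : i = 0 := by
    have := ZMod.val_natCast_of_lt hi
    rw [h0, ZMod.val_zero] at this
    exact this.symm
  rw [hi0, pow_zero] at he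
  exact h1.ne_one (Fact.out : p.Prime).one_lt he.symm

variable (hσ : σ (ζC p) = ζC p ^ a.val)
include hσ

theorem map_zp (b : ZMod p) : σ (zp p b : ℂ) = (zp p (a * b) : ℂ) := by
  show σ (ζC p ^ b.val) = ζC p ^ (a * b).val
  rw [map_pow, hσ, ← pow_mul, ZMod.val_mul, Good.ζC_pow_mod]

omit hσ in
theorem coe_inverse_one_sub (b : ZMod p) :
    ((Ring.inverse (1 - zp p b) : coeffRing p) : ℂ) = (1 - (zp p b : ℂ))⁻¹ := by
  by_cases hb : b = 0
  · subst hb
    rw [Good.zp_zero]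
    simp
  · obtain ⟨u, hu⟩ := Good.isUnit_one_sub_zp p hb
    rw [← hu, Ring.inverse_unit]
    refine eq_inv_of_mul_eq_one_left ?_
    have := congrArg Subtype.val u.inv_mul
    rw [hu] at this
    simpa using this

theorem map_cst (v : Lbl p) : σ (cst p v : ℂ) = (cst p (tw p a v) : ℂ) := by
  simp only [cst, tw]
  split_ifs with h
  · push_cast
    rw [coe_inverse_one_sub, coe_inverse_one_sub, map_mul, map_pow, map_inv₀, map_sub, map_one,
      map_zp hσ]
  · exact map_zero σ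

theorem rowLbl_tw (v : Lbl p) (m : ℤ) :
    Good.rowLbl p (tw p a v) m = a * Good.rowLbl p v m := by
  have e : Good.eIdx p (tw p a v) m = Good.eIdx p v m := rfl
  simp only [Good.rowLbl, e]
  split_ifs <;> simp [tw]

theorem map_lblSeries (v : Lbl p) :
    (lblSeries p v).map (σ.comp (cval p)) = (lblSeries p (tw p a v)).map (cval p) := by
  ext n
  simp only [PowerSeries.coeff_map, lblSeries, PowerSeries.coeff_mk, RingHom.comp_apply, map_add]
  congr 1
  · split_ifs with h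
    · exact map_cst hσ v
    · simp
  · simp only [map_sum]
    refine Fintype.sum_equiv (Equiv.refl _) _ _ fun q => ?_
    show σ ((Good.termC p v q.1 : coeffRing p) : ℂ) = _
    simp only [Good.termC]
    push_cast
    rw [map_mul, map_natCast, map_pow, map_zp hσ, ← rowLbl_tw hσ]
    rfl

end Twist

section Forms

variable (p : ℕ) [Fact p.Prime]

/-- `∑_{w ≠ 0} (℘_v - ℘_w)` -/
def psiF (v : Lbl p) : ℍ → ℂ := ∑ w ∈ nzLbl p, pDiff p v w

/-- the series of `psiF` -/
def psiS (v : Lbl p) : PowerSeries (coeffRing p) := ∑ w ∈ nzLbl p, (lblSeries p v - lblSeries p w)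

/-- product of the differences on a line -/
def Pform (u : Lbl p) : ℍ → ℂ := ∏ q ∈ pmPairs p, pDiff p (sc p q.1 u) (sc p q.2 u)

/-- the series of `Pform` -/
def PformS (u : Lbl p) : PowerSeries (coeffRing p) :=
  ∏ q ∈ pmPairs p, (lblSeries p (sc p q.1 u) - lblSeries p (sc p q.2 u))

/-- separates the points over one value of `j` -/
def Kform (k : ℕ) (u : Lbl p) : ℍ → ℂ :=
  ∏ i ∈ nzSc p, (psiF p (sc p i u) * (E₄ : ℍ → ℂ) - (k : ℂ) • (E₆ : ℍ → ℂ))

variable {p} {u v : Lbl p}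

theorem mdiff_psiF (hv : v ≠ 0) : MDiff (psiF p v) := by
  rw [psiF]
  exact ModFun.mdiff_sum _ fun w hw => Good.mdiff_pDiff p hv ((mem_nzLbl p).mp hw)

theorem slRule_pDiff {w : Lbl p} (hv : v ≠ 0) (hw : w ≠ 0) (γ : SL(2, ℤ)) :
    SlRule 2 (pDiff p v w) (pDiff p (lblAct p v γ) (lblAct p w γ)) γ :=
  fun τ => Good.pDiff_smul p hv hw γ τ

theorem slRule_psiF (hv : v ≠ 0) (γ : SL(2, ℤ)) :
    SlRule 2 (psiF p v) (psiF p (lblAct p v γ)) γ := by
  have e : psiF p (lblAct p v γ) = ∑ w ∈ nzLbl p, pDiff p (lblAct p v γ) (lblAct p w γ) := by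
    rw [psiF]
    symm
    refine Finset.sum_equiv (Equiv.ofBijective _ ⟨Good.lblAct_injective p γ,
      (Finite.injective_iff_surjective).mp (Good.lblAct_injective p γ)⟩) (fun w => ?_) (fun w _ => rfl)
    simp only [mem_nzLbl]
    exact ⟨fun h => lblAct_ne_zero p h γ,
      fun h h0 => h (by show lblAct p w γ = 0; rw [h0, Good.lblAct_zero p])⟩
  rw [psiF, e]
  exact SlRule.sum _ fun w hw => slRule_pDiff hv ((mem_nzLbl p).mp hw) γ

theorem hasTSer_psiF (hv : v ≠ 0) : HasTSer p (psiF p v) (psiS p v) :=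
  HasTSer.sum _ fun _ hw => hasTSer_pDiff hv ((mem_nzLbl p).mp hw)

theorem mdiff_Pform (hu : u ≠ 0) : MDiff (Pform p u) := by
  rw [Pform]
  exact ModFun.mdiff_prod _ fun q hq => Good.mdiff_pDiff p
    (sc_ne_zero p ((mem_pmPairs p).mp hq).1 hu) (sc_ne_zero p ((mem_pmPairs p).mp hq).2.1 hu)

theorem slRule_Pform (hu : u ≠ 0) (γ : SL(2, ℤ)) :
    SlRule ((pmPairs p).card * 2) (Pform p u) (Pform p (lblAct p u γ)) γ := by
  refine SlRule.prod _ fun q hq => ?_
  rw [← lblAct_sc, ← lblAct_sc]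
  exact slRule_pDiff (sc_ne_zero p ((mem_pmPairs p).mp hq).1 hu)
    (sc_ne_zero p ((mem_pmPairs p).mp hq).2.1 hu) γ

theorem Pform_sc {d : ZMod p} (hd : d ≠ 0) : Pform p (sc p d u) = Pform p u := by
  simp only [Pform, sc_sc]
  exact prod_pmPairs_mul p hd fun q => pDiff p (sc p q.1 u) (sc p q.2 u)

theorem hasTSer_Pform (hu : u ≠ 0) : HasTSer p (Pform p u) (PformS p u) :=
  HasTSer.prod _ fun _ hq => hasTSer_pDiff (sc_ne_zero p ((mem_pmPairs p).mp hq).1 hu)
    (sc_ne_zero p ((mem_pmPairs p).mp hq).2.1 hu)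

theorem mdiff_Kform (k : ℕ) (hu : u ≠ 0) : MDiff (Kform p k u) := by
  rw [Kform]
  exact ModFun.mdiff_prod _ fun i hi =>
    ((mdiff_psiF (sc_ne_zero p ((mem_nzSc p).mp hi) hu)).mul ModFun.isMF_E4.holo).sub
      ((ModFun.isMF_levelOne E₆).holo.const_smul _)

theorem slRule_Kform (k : ℕ) (hu : u ≠ 0) (γ : SL(2, ℤ)) :
    SlRule ((nzSc p).card * 6) (Kform p k u) (Kform p k (lblAct p u γ)) γ := by
  refine SlRule.prod _ fun i hi => ?_
  rw [← lblAct_sc]
  exact ((slRule_psiF (sc_ne_zero p ((mem_nzSc p).mp hi) hu) γ).mul (slRule_E4 γ)).sub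
    ((slRule_E6 γ).smul _)

theorem Kform_sc (k : ℕ) {d : ZMod p} (hd : d ≠ 0) : Kform p k (sc p d u) = Kform p k u := by
  simp only [Kform, sc_sc]
  exact prod_nzSc_mul p hd fun i => psiF p (sc p i u) * (E₄ : ℍ → ℂ) - (k : ℂ) • (E₆ : ℍ → ℂ)

theorem exists_hasTSer_E (F : ℍ → ℂ) (hF : ModFun.Good F) (hI : ModFun.IntQ F) :
    ∃ R : PowerSeries ℤ, HasTSer p F (R.map (Int.castRingHom (coeffRing p))) ∧
      (R.coeff 0 : ℂ) = (qx F).coeff 0 := by
  obtain ⟨Z, hZ⟩ := hI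
  refine ⟨_, hasTSer_intQ hF hZ, ?_⟩
  simp [hZ, PowerSeries.coeff_map]

theorem exists_hasTSer_Kform (k : ℕ) (hu : u ≠ 0) :
    ∃ R, HasTSer p (Kform p k u) R := by
  obtain ⟨R4, h4, -⟩ := exists_hasTSer_E (p := p) _ ModFun.isMF_E4.good ModFun.intQ_E4
  obtain ⟨R6, h6, -⟩ := exists_hasTSer_E (p := p) _ (ModFun.isMF_levelOne E₆).good ModFun.intQ_E6
  exact ⟨_, HasTSer.prod _ fun i hi =>
    ((hasTSer_psiF (sc_ne_zero p ((mem_nzSc p).mp hi) hu)).mul h4).sub (h6.natCast_smul k)⟩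

/-- a family of weight `w` forms indexed by labels gives a form for `Γ₀(p)` -/
theorem isMF_of_line {w : ℕ} {G : Lbl p → ℍ → ℂ} (hm : ∀ u, u ≠ 0 → MDiff (G u))
    (hsl : ∀ u, u ≠ 0 → ∀ γ, SlRule w (G u) (G (lblAct p u γ)) γ)
    (hsc : ∀ u (d : ZMod p), d ≠ 0 → G (sc p d u) = G u)
    (hser : ∀ u, u ≠ 0 → ∃ R, HasTSer p (G u) R) : IsMF p (w : ℤ) (G (0, 1)) where
  holo := hm _ (by simp [Prod.ext_iff])
  inv γ hγ := by
    rw [(hsl _ (by simp [Prod.ext_iff]) γ).slash, lblAct_gamma0_line p hγ,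
      hsc _ _ (gamma0_unit p hγ)]
  bdd γ := by
    rw [(hsl _ (by simp [Prod.ext_iff]) γ).slash]
    obtain ⟨R, hR⟩ := hser _ (lblAct_ne_zero p (u := (0, 1)) (by simp [Prod.ext_iff]) γ)
    exact hR.bdd

theorem isMF_Pform : IsMF p ((((pmPairs p).card * 2 : ℕ)) : ℤ) (Pform p (0, 1)) :=
  isMF_of_line (G := Pform p) (fun _ => mdiff_Pform) (fun _ => slRule_Pform)
    (fun _ _ hd => Pform_sc hd) (fun _ hu => ⟨_, hasTSer_Pform hu⟩)

theorem isMF_Kform (k : ℕ) : IsMF p ((((nzSc p).card * 6 : ℕ)) : ℤ) (Kform p k (0, 1)) :=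
  isMF_of_line (G := Kform p k) (fun _ => mdiff_Kform k) (fun _ => slRule_Kform k)
    (fun _ _ hd => Kform_sc k hd) (fun _ hu => exists_hasTSer_Kform k hu)

theorem map_psiS {σ : ℂ →+* ℂ} {a : ZMod p} (ha : a ≠ 0) (hσ : σ (ζC p) = ζC p ^ a.val)
    (v : Lbl p) : (psiS p v).map (σ.comp (cval p)) = (psiS p (tw p a v)).map (cval p) := by
  simp only [psiS, map_sum, map_sub, map_lblSeries hσ]
  refine Finset.sum_equiv ((Equiv.refl _).prodCongr (Equiv.mulLeft₀ a ha)) (fun w => ?_)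
    (fun w _ => rfl)
  simp only [mem_nzLbl, Equiv.prodCongr_apply, Equiv.coe_refl, Equiv.mulLeft₀_apply, ne_eq,
    Prod.ext_iff, Prod.map_fst, Prod.map_snd, Prod.fst_zero, Prod.snd_zero, id_eq, mul_eq_zero,
    ha, false_or]

theorem sigFix_PformS : SigFix (PformS p (0, 1)) := by
  intro σ
  obtain ⟨a, ha, hσ⟩ := exists_twist_scalar (p := p) σ
  simp only [PformS, map_prod, map_sub, map_lblSeries hσ, tw_sc]
  have e : tw p a (0, 1) = sc p a (0, 1) := by simp [tw, sc]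
  simp only [e, sc_sc]
  exact prod_pmPairs_mul p ha fun q => (lblSeries p (sc p q.1 (0, 1))).map (cval p) -
    (lblSeries p (sc p q.2 (0, 1))).map (cval p)

theorem sigFix_intMap (R : PowerSeries ℤ) :
    SigFix (p := p) (R.map (Int.castRingHom (coeffRing p))) := fun σ => by
  ext n
  simp

theorem exists_rat_qx_Kform (k : ℕ) :
    ∃ Z : PowerSeries ℚ, qx (Kform p k (0, 1)) = Z.map (algebraMap ℚ ℂ) := by
  obtain ⟨R4, h4, -⟩ := exists_hasTSer_E (p := p) _ ModFun.isMF_E4.good ModFun.intQ_E4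
  obtain ⟨R6, h6, -⟩ := exists_hasTSer_E (p := p) _ (ModFun.isMF_levelOne E₆).good ModFun.intQ_E6
  have hser : HasTSer p (Kform p k (0, 1))
      (∏ i ∈ nzSc p, (psiS p (sc p i (0, 1)) * R4.map (Int.castRingHom (coeffRing p)) -
        (k : PowerSeries (coeffRing p)) * R6.map (Int.castRingHom (coeffRing p)))) :=
    HasTSer.prod _ fun i hi => ((hasTSer_psiF (sc_ne_zero p ((mem_nzSc p).mp hi)
      (by simp [Prod.ext_iff]))).mul h4).sub (h6.natCast_smul k)
  refine exists_rat_qx hser (isMF_Kform k).good fun σ => ?_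
  obtain ⟨a, ha, hσ⟩ := exists_twist_scalar (p := p) σ
  have e : tw p a (0, 1) = sc p a (0, 1) := by simp [tw, sc]
  simp only [map_prod, map_sub, map_mul, map_natCast, map_psiS ha hσ, tw_sc, e, sc_sc,
    sigFix_intMap R4 σ, sigFix_intMap R6 σ]
  exact prod_nzSc_mul p ha fun i =>
    (psiS p (sc p i (0, 1))).map (cval p) * (R4.map (Int.castRingHom (coeffRing p))).map (cval p) -
      (k : PowerSeries ℂ) * (R6.map (Int.castRingHom (coeffRing p))).map (cval p)

theorem exists_rat_qx_Pform :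
    ∃ Z : PowerSeries ℚ, qx (Pform p (0, 1)) = Z.map (algebraMap ℚ ℂ) :=
  exists_rat_qx (hasTSer_Pform (by simp [Prod.ext_iff])) isMF_Pform.good sigFix_PformS

/-- the coefficients of `Pform` are `p`-integral, the constant one a unit -/
theorem qx_Pform_coeff :
    (∀ n, (qx (Pform p (0, 1))).coeff n ∈ coeffRing p) ∧
      ∃ c : (coeffRing p)ˣ, (qx (Pform p (0, 1))).coeff 0 = ((c : coeffRing p) : ℂ) := by
  have h : HasTSer p (Pform p (0, 1)) (PformS p (0, 1)) :=
    hasTSer_Pform (by simp [Prod.ext_iff])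
  refine ⟨fun n => by rw [h.qx_coeff isMF_Pform.good]; exact Subtype.mem _, ?_⟩
  suffices hu : IsUnit ((PformS p (0, 1)).coeff 0) by
    obtain ⟨c, hc⟩ := hu
    exact ⟨c, by rw [h.qx_coeff isMF_Pform.good, mul_zero, hc]⟩
  rw [PformS, PowerSeries.coeff_zero_eq_constantCoeff, map_prod, IsUnit.prod_iff]
  intro q hq
  obtain ⟨h1, h2, h3, h4⟩ := (mem_pmPairs p).mp hq
  rw [map_sub, ← PowerSeries.coeff_zero_eq_constantCoeff, Good.coeff_lblSeries_zero,
    Good.coeff_lblSeries_zero]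
  have hne : (0, 1) ≠ (0 : Lbl p) := by simp [Prod.ext_iff]
  refine Good.isUnit_cst_sub p (sc_ne_zero p h1 hne) (sc_ne_zero p h2 hne) ?_ ?_ (by simp [sc])
    (by simp [sc])
  · exact fun e => h3 (sc_injective p hne e).symm
  · intro e
    rw [← sc_neg] at e
    exact h4 (by rw [sc_injective p hne e, neg_neg])

/-- at the other cusp the constant term vanishes -/
theorem qx_dil_Pform_S (hp : 5 ≤ p) :
    (qx (dil p (Pform p (lblAct p (0, 1) ModularGroup.S)))).coeff 0 = 0 := by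
  have hS : lblAct p (0, 1) ModularGroup.S = (1, 0) := by
    simp [lblAct, ModularGroup.coe_S]
  have h : HasTSer p (Pform p (1, 0)) (PformS p (1, 0)) :=
    hasTSer_Pform (by simp [Prod.ext_iff])
  rw [hS, h.2, PowerSeries.coeff_map, PformS, PowerSeries.coeff_zero_eq_constantCoeff, map_prod]
  obtain ⟨q, hq⟩ := pmPairs_nonempty p hp
  rw [Finset.prod_eq_zero hq, map_zero]
  obtain ⟨h1, h2, -, -⟩ := (mem_pmPairs p).mp hq
  rw [map_sub, ← PowerSeries.coeff_zero_eq_constantCoeff, Good.coeff_lblSeries_zero,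
    Good.coeff_lblSeries_zero, cst, cst, if_neg (by simp [sc, h1]), if_neg (by simp [sc, h2]),
    sub_zero]

end Forms

end FLTAgent.EIS
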