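import Fermat.Agent.EIS.Uniform
import Fermat.Agent.EIS.PointForms
import Fermat.Agent.JTors.Places
import Fermat.Agent.Reduction.Val
import Fermat.Agent.Torsion.StableLine

/-!
Area EIS, parcel F: the place of `X₀(p)` attached to a curve with a Galois stable line of order
`p`, and the proof that it is fixed by Galois.
-/

set_option autoImplicit false

noncomputable section

open ModularCurve AlgebraicCurve UpperHalfPlane WeierstrassCurve ModularForm CongruenceSubgroup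
open scoped MatrixGroups Manifold WeierstrassCurve.Affine

namespace FLTAgent.EIS

open Good (Lbl lblAct pDiff)
open Reduction (FB Val)
open JTors (HolH ofH evH ordAt)
open SS2 (galFn)
open Genus (embC)

section Val

variable {N : ℕ} [NeZero N]

theorem ord_eq_zero_of_eval {τ : ℍ} {F : FB N} {w : Place Qb (FB N)} {g : ℤ} (hg : 0 < g)
    (hord : ∀ f : FB N, f ≠ 0 → ordAt τ (evH N f) = g * w.ord f) {P G : ℍ → ℂ} (hP : MDiff P)
    (hG : MDiff G) (hrel : evH N F * ofH ⟨G, hG⟩ = ofH ⟨P, hP⟩) (hG0 : G τ ≠ 0) (hP0 : P τ ≠ 0) :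
    F ≠ 0 ∧ w.ord F = 0 := by
  have hF : F ≠ 0 := by
    rintro rfl
    rw [map_zero, zero_mul, eq_comm, map_eq_zero_iff _ JTors.ofH_injective] at hrel
    exact hP0 (congrFun (congrArg Subtype.val hrel) τ)
  refine ⟨hF, ?_⟩
  have hGne : ofH (⟨G, hG⟩ : HolH) ≠ 0 :=
    JTors.ofH_ne_zero fun h => hG0 (congrFun (congrArg Subtype.val h) τ)
  have h1 := congrArg (ordAt τ) hrel
  rw [JTors.ordAt_mul τ ((_root_.map_ne_zero _).mpr hF) hGne, hord F hF,
    JTors.ordAt_ofH_eq_zero τ (f := ⟨G, hG⟩) hG0,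
    JTors.ordAt_ofH_eq_zero τ (f := ⟨P, hP⟩) hP0, add_zero] at h1
  exact (mul_eq_zero.mp h1).resolve_left hg.ne'

theorem ord_pos_of_eval {τ : ℍ} {F : FB N} {w : Place Qb (FB N)} {g : ℤ} (hg : 0 < g)
    (hord : ∀ f : FB N, f ≠ 0 → ordAt τ (evH N f) = g * w.ord f) {P G : ℍ → ℂ} (hP : MDiff P)
    (hG : MDiff G) (hrel : evH N F * ofH ⟨G, hG⟩ = ofH ⟨P, hP⟩) (hG0 : G τ ≠ 0) (hP0 : P τ = 0)
    (hF : F ≠ 0) : 0 < w.ord F := by
  have hGne : ofH (⟨G, hG⟩ : HolH) ≠ 0 :=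
    JTors.ofH_ne_zero fun h => hG0 (congrFun (congrArg Subtype.val h) τ)
  have hPne : (⟨P, hP⟩ : HolH) ≠ 0 := fun h => by
    rw [h, map_zero, mul_eq_zero] at hrel
    exact hrel.elim ((_root_.map_ne_zero _).mpr hF) hGne
  obtain ⟨m, hm, he⟩ := JTors.ordAt_ofH τ hPne
  have hm0 : m ≠ 0 := by
    rintro rfl
    rw [Nat.cast_zero, analyticOrderAt_eq_zero] at hm
    rcases hm with hm | hm
    · exact hm ((Genus.analyticOnNhd_ofComplex hP) _ τ.im_pos)
    · exact hm (by simpa using hP0)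
  have h1 := congrArg (ordAt τ) hrel
  rw [JTors.ordAt_mul τ ((_root_.map_ne_zero _).mpr hF) hGne, hord F hF,
    JTors.ordAt_ofH_eq_zero τ (f := ⟨G, hG⟩) hG0, he, add_zero] at h1
  exact pos_of_mul_pos_right (show 0 < g * w.ord F by omega) hg.le

/-- the value at a place over a point of `ℍ` is the value at the point -/
theorem val_iff_eval {τ : ℍ} {F : FB N} {w : Place Qb (FB N)} {g : ℤ} (hg : 0 < g)
    (hord : ∀ f : FB N, f ≠ 0 → ordAt τ (evH N f) = g * w.ord f) {P G : ℍ → ℂ} (hP : MDiff P)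
    (hG : MDiff G) (hrel : evH N F * ofH ⟨G, hG⟩ = ofH ⟨P, hP⟩) (hG0 : G τ ≠ 0) (c : Qb) :
    Val w F c ↔ P τ = embC c * G τ := by
  have hP' : MDiff (P - embC c • G) := hP.sub (hG.const_smul _)
  have hrel' : evH N (F - algebraMap Qb (FB N) c) * ofH ⟨G, hG⟩ =
      ofH ⟨P - embC c • G, hP'⟩ := by
    rw [map_sub, JTors.evH_algebraMap, sub_mul, hrel, ← ofH.commutes, ← map_mul, ← map_sub]
    rfl
  have hev : (P - embC c • G) τ = P τ - embC c * G τ := rfl
  constructor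
  · intro hv
    by_contra hne
    obtain ⟨hF, hord0⟩ := ord_eq_zero_of_eval hg hord hP' hG hrel' hG0
      (by rw [hev]; exact sub_ne_zero.mpr hne)
    have h2 := hv.sub (Val.const (v := w) c)
    rw [sub_self] at h2
    have := h2.ord_pos hF
    omega
  · intro heq
    suffices h0 : Val w (F - algebraMap Qb (FB N) c) 0 by
      have := h0.add (Val.const (v := w) c)
      rwa [sub_add_cancel, zero_add] at this
    by_cases hF : F - algebraMap Qb (FB N) c = 0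
    · rw [hF]; exact Val.zero
    · exact Reduction.val_zero_of_ord_pos (ord_pos_of_eval hg hord hP' hG hrel' hG0
        (by rw [hev, heq, sub_self]) hF)

theorem galFn_smul_algebraMap (σ : GalQ) (c : Qb) :
    galFn N σ • algebraMap Qb (FB N) c = algebraMap Qb (FB N) (σ c) := by
  rw [SemilinearAut.smul_algebraMap]
  rfl

theorem val_smul_iff {σ : GalQ} {F : FB N} (hF : galFn N σ • F = F) {c : Qb} (hc : σ c = c)
    (v : Place Qb (FB N)) : Val (galFn N σ • v) F c ↔ Val v F c := by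
  have key : galFn N σ • (F - algebraMap Qb (FB N) c) = F - algebraMap Qb (FB N) c := by
    rw [smul_sub, hF, galFn_smul_algebraMap, hc]
  rw [Val, Val, RR.bd_iff, RR.bd_iff]
  refine or_congr_right ?_
  conv_lhs => rw [← key, SemilinearAut.ord_smul]

theorem evH_jBar_rel :
    evH N (ModFun.jBar N) * ofH ⟨1, mdifferentiable_const⟩ =
      ofH ⟨ModFun.jFun, ModFun.mdiff_jFun⟩ := by
  rw [show (⟨1, mdifferentiable_const⟩ : HolH) = 1 from rfl, map_one, mul_one, JTors.evH_jBar]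

end Val

/-- `embC` as a `ℚ`-algebra map -/
def iotaC : Qb →ₐ[ℚ] ℂ := embC.toRatAlgHom

theorem iotaC_apply (x : Qb) : iotaC x = embC x := rfl

variable {W : WeierstrassCurve ℤ} {p : ℕ} [Fact p.Prime]

/-- complex points from algebraic points -/
abbrev toC : Local.QPoint W →+ CPt W :=
  Affine.Point.map (W' := W.map (Int.castRingHom ℚ)) iotaC

/-- a uniformisation with algebraic torsion labels adapted to the line of `Q` -/
structure PointData (W : WeierstrassCurve ℤ) (p : ℕ) [Fact p.Prime] (Q : Local.QPoint W) where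
  U : Unif W
  L : Lbl p →+ Local.QPoint W
  inj : Function.Injective L
  map_eq : ∀ v, toC (L v) = U.lbl p v
  base : L (0, 1) = Q

theorem exists_pointData (hΔ : W.Δ ≠ 0) (h4 : W.c₄ ≠ 0) (h6 : W.c₆ ≠ 0) {Q : Local.QPoint W}
    (hQ : addOrderOf Q = p) : Nonempty (PointData W p Q) := by
  classical
  have hp := (Fact.out : p.Prime)
  have hpQ : p • Q = 0 := by rw [← hQ]; exact addOrderOf_nsmul_eq_zero Q
  have hQ0 : Q ≠ 0 := fun h => hp.ne_one (by rw [← hQ, h, addOrderOf_zero])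
  have hinj : Function.Injective (toC (W := W)) := Affine.Point.map_injective iotaC
  obtain ⟨U, hU⟩ := exists_unif_point (p := p) W hΔ h4 h6 (P := toC Q)
    (by rw [← map_nsmul, hpQ, map_zero]) (fun h => hQ0 (hinj (h.trans (map_zero _).symm)))
  haveI := Torsion.isElliptic_curveBar hΔ
  haveI : (curveC W).IsElliptic := ⟨(curveC_Δ_ne W hΔ).isUnit⟩
  haveI := Torsion.finite_torsionBy (curveC W) p hp.ne_zero
  let f : Submodule.torsionBy ℤ (Local.QPoint W) (p : ℤ) →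
      Submodule.torsionBy ℤ (CPt W) (p : ℤ) := fun P => ⟨toC P.1, by
    have h := P.2
    rw [Submodule.mem_torsionBy_iff, natCast_zsmul] at h ⊢
    rw [← map_nsmul, h, map_zero]⟩
  have hf : Function.Injective f := fun P R h => Subtype.ext (hinj (congrArg Subtype.val h))
  have hb := (Nat.bijective_iff_injective_and_card f).mpr ⟨hf, by
    rw [Torsion.natCard_torsionBy (curveC W) p hp.ne_zero,
      Torsion.natCard_torsionBy (Torsion.curveBar W) p hp.ne_zero]⟩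
  have hsurj : ∀ v, ∃ P : Local.QPoint W, toC P = U.lbl p v := fun v => by
    obtain ⟨P, hP⟩ := hb.2 ⟨U.lbl p v, by
      rw [Submodule.mem_torsionBy_iff, natCast_zsmul]; exact U.nsmul_lbl p v⟩
    exact ⟨P.1, congrArg Subtype.val hP⟩
  choose L hL using hsurj
  exact ⟨⟨U, AddMonoidHom.mk' L fun v w => hinj (by rw [map_add, hL, hL, hL, U.lbl_add]),
    fun v w h => U.lbl_injective p (by rw [← hL, ← hL]; exact congrArg toC h), hL,
    hinj (by rw [AddMonoidHom.mk'_apply, hL, hU])⟩⟩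

namespace PointData

variable {Q : Local.QPoint W} (D : PointData W p Q)

/-- the abscissa -/
def xQ (v : Lbl p) : Qb := Torsion.xcoord (D.L v)

theorem L_ne_zero {v : Lbl p} (hv : v ≠ 0) : D.L v ≠ 0 := fun h =>
  hv (D.inj (h.trans (map_zero D.L).symm))

theorem exists_L_eq {v : Lbl p} (hv : v ≠ 0) : ∃ y h, D.L v = .some (D.xQ v) y h := by
  obtain ⟨P, hP⟩ : ∃ P, D.L v = P := ⟨_, rfl⟩
  rcases P with _ | ⟨x, y, h⟩
  · exact absurd hP (D.L_ne_zero hv)
  · have hx : D.xQ v = x := by rw [xQ, hP]; rfl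
    subst hx
    exact ⟨y, h, hP⟩

theorem embC_xQ {v : Lbl p} (hv : v ≠ 0) : embC (D.xQ v) = D.U.xlbl p v := by
  obtain ⟨y', h', e'⟩ := D.U.exists_lbl_eq p hv
  obtain ⟨y, h, e⟩ := D.exists_L_eq hv
  have := D.map_eq v
  rw [e, e', Affine.Point.map_some] at this
  exact (Affine.Point.some.inj this).1

theorem pDiff_eq {v w : Lbl p} (hv : v ≠ 0) (hw : w ≠ 0) :
    pDiff p v w D.U.τ = D.U.kap * embC (D.xQ v - D.xQ w) := by
  rw [D.U.xlbl_sub_xlbl p v w, map_sub, D.embC_xQ hv, D.embC_xQ hw]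

/-- the normalised abscissa -/
def yQ (v : Lbl p) : Qb := ∑ w ∈ nzLbl p, (D.xQ v - D.xQ w)

theorem psiF_eq {v : Lbl p} (hv : v ≠ 0) : psiF p v D.U.τ = D.U.kap * embC (D.yQ v) := by
  rw [psiF, yQ, Finset.sum_apply, map_sum, Finset.mul_sum]
  exact Finset.sum_congr rfl fun w hw => D.pDiff_eq hv ((mem_nzLbl p).mp hw)

theorem exists_perm (σ : GalQ) :
    ∃ π : Lbl p ≃+ Lbl p, ∀ v, σ • D.L v = D.L (π v) := by
  classical
  have hsurj : ∀ v, ∃ u, σ • D.L v = D.L u := fun v => by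
    have hp0 : p • (σ • D.L v) = 0 := Local.smul_torsion (by
      rw [← map_nsmul, show p • v = 0 by simp [Prod.ext_iff, nsmul_eq_mul], map_zero])
    obtain ⟨u, hu⟩ := D.U.exists_lbl p (P := toC (σ • D.L v))
      (by rw [← map_nsmul, hp0, map_zero])
    exact ⟨u, Affine.Point.map_injective iotaC (hu.symm.trans (D.map_eq u).symm)⟩
  choose π hπ using hsurj
  have hadd : ∀ v w, π (v + w) = π v + π w := fun v w => D.inj (by
    rw [map_add D.L, ← hπ, ← hπ, ← hπ, map_add]; exact map_add _ _ _)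
  have hinj : Function.Injective π := fun v w h => D.inj (by
    have := (hπ v).trans ((congrArg D.L h).trans (hπ w).symm)
    exact smul_left_cancel σ this)
  exact ⟨AddEquiv.ofBijective (AddMonoidHom.mk' π hadd)
    (Finite.injective_iff_bijective.mp hinj), hπ⟩

theorem smul_xQ (σ : GalQ) {π : Lbl p ≃+ Lbl p} (hπ : ∀ v, σ • D.L v = D.L (π v)) (v : Lbl p) :
    σ (D.xQ v) = D.xQ (π v) := by
  rw [xQ, xQ, ← hπ, (Torsion.xcoord_smul σ _).1]

theorem smul_yQ (σ : GalQ) {π : Lbl p ≃+ Lbl p} (hπ : ∀ v, σ • D.L v = D.L (π v)) (v : Lbl p) :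
    σ (D.yQ v) = D.yQ (π v) := by
  rw [yQ, map_sum]
  refine Finset.sum_equiv π.toEquiv (fun w => ?_) (fun w _ => ?_)
  · simp [mem_nzLbl]
  · rw [map_sub, D.smul_xQ σ hπ, D.smul_xQ σ hπ]; rfl

theorem sc_eq_zsmul (i : ZMod p) :
    sc p i (0, 1) = (i.val : ℤ) • ((0, 1) : Lbl p) := by
  simp [sc]

theorem L_line (i : ZMod p) : D.L (sc p i (0, 1)) = i.val • Q := by
  rw [sc_eq_zsmul, map_zsmul, D.base, natCast_zsmul]

theorem exists_line_scalar (σ : GalQ) (hline : σ • Q ∈ AddSubgroup.zmultiples Q)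
    {π : Lbl p ≃+ Lbl p} (hπ : ∀ v, σ • D.L v = D.L (π v)) :
    ∃ m : ZMod p, m ≠ 0 ∧ ∀ i, π (sc p i (0, 1)) = sc p (m * i) (0, 1) := by
  obtain ⟨m, hm⟩ := AddSubgroup.mem_zmultiples_iff.mp hline
  have h1 : π (0, 1) = sc p (m : ZMod p) (0, 1) := D.inj (by
    rw [← hπ, D.base, ← hm, show sc p (m : ZMod p) (0, 1) = m • ((0, 1) : Lbl p) by simp [sc],
      map_zsmul, D.base])
  refine ⟨m, fun h0 => ?_, fun i => ?_⟩
  · have hz : sc p (0 : ZMod p) (0, 1) = 0 := by simp [sc]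
    rw [h0, hz] at h1
    have := π.injective (h1.trans (map_zero π).symm)
    simp [Prod.ext_iff] at this
  · rw [sc_eq_zsmul i, map_zsmul, h1]
    simp [sc, mul_comm]

/-- the value of the `k`th separating function at a line -/
def KQ (k : ℕ) (u : Lbl p) : Qb :=
  (∏ i ∈ nzSc p, ((W.c₄ : Qb) * D.yQ (sc p i u) + (k : Qb) * (W.c₆ : Qb))) /
    (W.c₆ : Qb) ^ (nzSc p).card

theorem Kform_eq (hp2 : p ≠ 2) (k : ℕ) {u : Lbl p} (hu : u ≠ 0) (h6 : W.c₆ ≠ 0) :
    Kform p k u D.U.τ = embC (D.KQ k u) * (ModularForm.E₆ D.U.τ) ^ (nzSc p).card := by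
  have heven : Even (nzSc p).card := by
    rw [card_nzSc]
    exact (Fact.out : p.Prime).even_sub_one hp2
  have h6' : (W.c₆ : ℂ) ≠ 0 := by exact_mod_cast h6
  have h1 : ∀ i ∈ nzSc p, (psiF p (sc p i u) * (E₄ : ℍ → ℂ) - (k : ℂ) • (E₆ : ℍ → ℂ)) D.U.τ =
      D.U.kap ^ 3 * embC ((W.c₄ : Qb) * D.yQ (sc p i u) + (k : Qb) * (W.c₆ : Qb)) := by
    intro i hi
    simp only [Pi.sub_apply, Pi.mul_apply, Pi.smul_apply, smul_eq_mul,
      D.psiF_eq (sc_ne_zero p ((mem_nzSc p).mp hi) hu), D.U.E4_eq, D.U.E6_eq, map_add, map_mul,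
      map_intCast, map_natCast]
    ring
  rw [Kform, Finset.prod_apply, Finset.prod_congr rfl h1, Finset.prod_mul_distrib,
    Finset.prod_const, D.U.E6_eq, heven.neg_pow, mul_pow, KQ, map_div₀, map_prod, map_pow,
    map_intCast]
  field_simp

theorem smul_KQ_line (σ : GalQ) (hline : σ • Q ∈ AddSubgroup.zmultiples Q) (k : ℕ) :
    σ (D.KQ k (0, 1)) = D.KQ k (0, 1) := by
  obtain ⟨π, hπ⟩ := D.exists_perm σ
  obtain ⟨m, hm, hπm⟩ := D.exists_line_scalar σ hline hπ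
  simp only [KQ, map_div₀, map_prod, map_add, map_mul, map_pow, map_intCast, map_natCast,
    D.smul_yQ σ hπ, hπm, mul_comm m]
  rw [prod_nzSc_mul p hm fun i => (W.c₄ : Qb) * D.yQ (sc p i (0, 1)) + (k : Qb) * (W.c₆ : Qb)]

theorem line_of_KQ_eq (h4 : W.c₄ ≠ 0) (h6 : W.c₆ ≠ 0) {u : Lbl p} (hu : u ≠ 0)
    (h : ∀ k : ℕ, D.KQ k u = D.KQ k (0, 1)) : u.1 = 0 := by
  classical
  have h6' : (W.c₆ : Qb) ≠ 0 := by exact_mod_cast h6
  have h4' : (W.c₄ : Qb) ≠ 0 := by exact_mod_cast h4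
  let R : Lbl p → Polynomial Qb := fun v => ∏ i ∈ nzSc p,
    (Polynomial.C ((W.c₄ : Qb) * D.yQ (sc p i v)) + Polynomial.X * Polynomial.C (W.c₆ : Qb))
  have hR : R u = R (0, 1) := by
    refine Polynomial.eq_of_infinite_eval_eq _ _
      ((Set.infinite_range_of_injective (Nat.cast_injective (R := Qb))).mono ?_)
    rintro _ ⟨k, rfl⟩
    have := h k
    rw [KQ, KQ, div_left_inj' (pow_ne_zero _ h6')] at this
    simpa [R, Polynomial.eval_prod] using this
  have hz := congrArg (Polynomial.eval (-((W.c₄ : Qb) * D.yQ u) / (W.c₆ : Qb))) hR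
  simp only [R, Polynomial.eval_prod, Polynomial.eval_add, Polynomial.eval_mul, Polynomial.eval_C,
    Polynomial.eval_X, div_mul_cancel₀ _ h6'] at hz
  rw [Finset.prod_eq_zero ((mem_nzSc p).mpr (one_ne_zero (α := ZMod p)))
    (by rw [sc_one, add_neg_cancel]), eq_comm, Finset.prod_eq_zero_iff] at hz
  obtain ⟨i, hi, hi0⟩ := hz
  rw [← sub_eq_add_neg, sub_eq_zero] at hi0
  have hy := mul_left_cancel₀ h4' hi0
  simp only [yQ, Finset.sum_sub_distrib, sub_left_inj, Finset.sum_const, nsmul_eq_mul] at hy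
  have hcard : ((nzLbl p).card : Qb) ≠ 0 := by
    exact Nat.cast_ne_zero.mpr (Finset.card_ne_zero.mpr ⟨u, (mem_nzLbl p).mpr hu⟩)
  have hx := mul_left_cancel₀ hcard hy
  have hv : sc p i ((0, 1) : Lbl p) ≠ 0 :=
    sc_ne_zero p ((mem_nzSc p).mp hi) (by simp [Prod.ext_iff])
  obtain ⟨y1, g1, e1⟩ := D.exists_L_eq hu
  obtain ⟨y2, g2, e2⟩ := D.exists_L_eq hv
  rcases (Affine.Point.X_eq_iff (h₁ := g2) (h₂ := g1)).mp hx with e | e
  · rw [← e1, ← e2] at e
    rw [← D.inj e]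
    simp [sc]
  · rw [← e1, ← e2, ← map_neg] at e
    have := D.inj e
    rw [eq_neg_iff_add_eq_zero, add_eq_zero_iff_eq_neg'] at this
    rw [this]
    simp [sc]

/-- the rational separating functions -/
theorem exists_Kfun (k : ℕ) :
    ∃ F : FB p, (∀ σ : GalQ, galFn p σ • F = F) ∧
      ∃ h1 h2, evH p F * ofH ⟨(E₆ : ℍ → ℂ) ^ (nzSc p).card, h1⟩ =
        ofH ⟨Kform p k (0, 1), h2⟩ := by
  obtain ⟨Zf, hZf⟩ := exists_rat_qx_Kform (p := p) k
  obtain ⟨Z6, hZ6⟩ := ModFun.intQ_E6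
  have h6 : ModFun.IsMF 1 6 (E₆ : ℍ → ℂ) := ModFun.isMF_levelOne E₆
  have hG : ModFun.IsMF p ((((nzSc p).card * 6 : ℕ)) : ℤ) ((E₆ : ℍ → ℂ) ^ (nzSc p).card) :=
    ((h6.pow _).levelOne).cast (by push_cast; ring)
  have hGq : ModFun.qx ((E₆ : ℍ → ℂ) ^ (nzSc p).card) =
      ((Z6.map (Int.castRingHom ℚ)) ^ (nzSc p).card).map (algebraMap ℚ ℂ) := by
    rw [ModFun.Good.qx_pow h6.good, hZ6, map_pow]
    congr 1
  have hG0 : (E₆ : ℍ → ℂ) ^ (nzSc p).card ≠ 0 := fun h => by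
    have := congrArg (fun f => (ModFun.qx f).coeff 0) h
    rw [ModFun.Good.qx_pow h6.good, PowerSeries.coeff_zero_eq_constantCoeff, map_pow,
      ← PowerSeries.coeff_zero_eq_constantCoeff, show (ModFun.qx (E₆ : ℍ → ℂ)).coeff 0 = 1 from
        EisensteinSeries.E_qExpansion_coeff_zero _ ⟨3, rfl⟩, one_pow,
      show ModFun.qx (0 : ℍ → ℂ) = 0 from UpperHalfPlane.qExpansion_zero 1, map_zero] at this
    exact one_ne_zero this
  obtain ⟨F, hfix, -, hrel⟩ := exists_fun (isMF_Kform k) hG hG0 hZf hGq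
  exact ⟨F, hfix, _, _, hrel⟩

include D in
/-- the place attached to `(W, Q)` is fixed by Galois -/
theorem exists_fixed_place (hp2 : p ≠ 2) (h4 : W.c₄ ≠ 0) (h6 : W.c₆ ≠ 0)
    (hline : ∀ σ : GalQ, σ • Q ∈ AddSubgroup.zmultiples Q) :
    ∃ X : Place Qb (FB p), ∃ g : ℤ, 0 < g ∧
      (∀ f : FB p, f ≠ 0 → ordAt D.U.τ (evH p f) = g * X.ord f) ∧
      Val X (ModFun.jBar p) ((W.c₄ : Qb) ^ 3 / (W.Δ : Qb)) ∧
      ∀ σ : GalQ, galFn p σ • X = X := by
  set τ := D.U.τ with hτ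
  set c : Qb := (W.c₄ : Qb) ^ 3 / (W.Δ : Qb) with hcdef
  have hc : embC c = ModFun.jFun τ := by
    rw [hcdef, D.U.jFun_eq, map_div₀, map_pow, map_intCast, map_intCast]
  obtain ⟨⟨X, hXc, hX⟩, hall⟩ := JTors.interior_exact p τ c hc
  obtain ⟨g, hg, hgX⟩ : ∃ g : ℤ, 0 < g ∧
      ∀ f : FB p, f ≠ 0 → ordAt τ (evH p f) = g * X.ord f := by
    rcases hX with h | ⟨γ, k, hk, -, h⟩
    · exact ⟨1, one_pos, fun f hf => by rw [h f hf, one_mul]⟩
    · refine ⟨k, ?_, h⟩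
      rcases hk with ⟨_, -, -, rfl⟩ | ⟨_, -, -, rfl⟩ <;> norm_num
  have hjv : Val X (ModFun.jBar p) c :=
    (val_iff_eval hg hgX (P := ModFun.jFun) (G := 1) ModFun.mdiff_jFun mdifferentiable_const
      evH_jBar_rel one_ne_zero c).mpr (by simp [hc])
  refine ⟨X, g, hg, hgX, hjv, fun σ => ?_⟩
  have hcσ : σ c = c := by simp [hcdef]
  have hjc : 0 < (galFn p σ • X).ord (ModFun.jBar p - algebraMap Qb (FB p) c) := by
    have e : galFn p σ • (ModFun.jBar p - algebraMap Qb (FB p) c) =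
        ModFun.jBar p - algebraMap Qb (FB p) c := by
      rw [smul_sub, galFn_smul_jBar, galFn_smul_algebraMap, hcσ]
    rw [← e, SemilinearAut.ord_smul]
    exact hXc
  obtain ⟨δ, g', hg', hw⟩ := hall _ hjc
  have hu : lblAct p (0, 1) δ ≠ 0 := lblAct_ne_zero p (by simp [Prod.ext_iff]) δ
  have hE6 : ModularForm.E₆ τ ≠ 0 := by
    rw [D.U.E6_eq]
    exact neg_ne_zero.mpr (mul_ne_zero (pow_ne_zero _ D.U.kap_ne) (by exact_mod_cast h6))
  have hKQ : ∀ k, D.KQ k (lblAct p (0, 1) δ) = D.KQ k (0, 1) := by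
    intro k
    obtain ⟨F, hfix, h1, h2, hrel⟩ := exists_Kfun (p := p) k
    have hv : Val X F (D.KQ k (0, 1)) := (val_iff_eval hg hgX h2 h1 hrel
      (pow_ne_zero _ hE6) _).mpr (D.Kform_eq hp2 k (by simp [Prod.ext_iff]) h6)
    rw [← val_smul_iff (hfix σ) (D.smul_KQ_line σ (hline σ) k) X] at hv
    have hr : ((E₆ : ℍ → ℂ) ^ (nzSc p).card) (δ • τ) = _ := (slRule_E6 δ).pow (nzSc p).card τ
    have hne : ((E₆ : ℍ → ℂ) ^ (nzSc p).card) (δ • τ) ≠ 0 := by
      have h := slRule_E6 δ τ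
      simp only [Pi.pow_apply]
      refine pow_ne_zero _ ?_
      rw [h, ← ModFun.denom_SL]
      exact mul_ne_zero (pow_ne_zero _ (denom_ne_zero _ τ)) hE6
    have h3 := (val_iff_eval hg' hw h2 h1 hrel hne _).mp hv
    rw [slRule_Kform k (by simp [Prod.ext_iff]) δ τ, hr, D.Kform_eq hp2 k hu h6,
      mul_left_comm] at h3
    have hden : (((δ.1 1 0 : ℤ) : ℂ) * (τ : ℂ) + ((δ.1 1 1 : ℤ) : ℂ)) ≠ 0 := by
      rw [← ModFun.denom_SL]; exact denom_ne_zero _ τ
    simp only [Pi.pow_apply] at h3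
    exact embC.injective (mul_right_cancel₀
      (mul_ne_zero (pow_ne_zero _ hden) (pow_ne_zero _ hE6)) h3)
  have hδ : δ ∈ Gamma0 p := by
    rw [Gamma0_mem]
    have := D.line_of_KQ_eq h4 h6 hu hKQ
    simpa [lblAct] using this
  refine Genus.place_ext_of_vlog (g := g'.toNat) (g' := g.toNat) (by omega) (by omega) fun f hf => ?_
  rw [Int.toNat_of_nonneg hg'.le, Int.toNat_of_nonneg hg.le, ← hw f hf, ← hgX f hf,
    ← JTors.ordAt_pullSL δ τ ((_root_.map_ne_zero _).mpr hf), JTors.evH_invariant hδ]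

end PointData

end FLTAgent.EIS
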