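import Fermat.Agent.EIS.Defs

/-!
Area EIS: the Eisenstein projection on torsion.  A family of commuting endomorphisms cuts out of
every finite torsion group the part on which all of them are nilpotent.
-/

set_option autoImplicit false

noncomputable section

namespace FLTAgent.EIS

section Projection

variable {J ι : Type} [AddCommGroup J] (X : ι → AddMonoid.End J) (r : ℕ)

/-- `r`-power torsion on which every member of the family is nilpotent -/
def nilPart (hX : ∀ i j, X i * X j = X j * X i) : AddSubgroup J where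
  carrier := {z | (∃ m, r ^ m • z = 0) ∧ ∀ i, ∃ k, (X i ^ k) z = 0}
  zero_mem' := ⟨⟨0, smul_zero _⟩, fun _ => ⟨0, map_zero _⟩⟩
  add_mem' := fun {a b} ha hb => by
    obtain ⟨⟨ma, hma⟩, ha⟩ := ha
    obtain ⟨⟨mb, hmb⟩, hb⟩ := hb
    refine ⟨⟨ma + mb, ?_⟩, fun i => ?_⟩
    · rw [smul_add]
      nth_rewrite 1 [pow_add, mul_comm, mul_smul, hma]
      nth_rewrite 1 [pow_add, mul_smul, hmb]
      simp
    · obtain ⟨ka, hka⟩ := ha i
      obtain ⟨kb, hkb⟩ := hb i
      refine ⟨ka + kb, ?_⟩
      have e1 : (X i ^ (ka + kb)) a = 0 := by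
        rw [add_comm ka, pow_add]
        show (X i ^ kb) ((X i ^ ka) a) = 0
        rw [hka, map_zero]
      have e2 : (X i ^ (ka + kb)) b = 0 := by
        rw [pow_add]
        show (X i ^ ka) ((X i ^ kb) b) = 0
        rw [hkb, map_zero]
      rw [map_add, e1, e2, add_zero]
  neg_mem' := fun {a} ha => ⟨ha.1.imp fun m hm => by rw [smul_neg, hm, neg_zero],
    fun i => (ha.2 i).imp fun k hk => by rw [map_neg, hk, neg_zero]⟩

theorem mem_nilPart {hX : ∀ i j, X i * X j = X j * X i} {z : J} :
    z ∈ nilPart X r hX ↔ (∃ m, r ^ m • z = 0) ∧ ∀ i, ∃ k, (X i ^ k) z = 0 := Iff.rfl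

variable (hfin : ∀ m : ℕ, {z : J | r ^ m • z = 0}.Finite) (hX : ∀ i j, X i * X j = X j * X i)

theorem exists_idem_pow (Y : AddMonoid.End J) (s : Set J) (hs : s.Finite)
    (hY : ∀ z ∈ s, Y z ∈ s) : ∃ k, 0 < k ∧ ∀ z ∈ s, (Y ^ (k + k)) z = (Y ^ k) z := by
  haveI := hs.to_subtype
  have hpow : ∀ k, ∀ z ∈ s, (Y ^ k) z ∈ s := fun k => by
    induction k with
    | zero => exact fun z hz => hz
    | succ k ih => intro z hz; rw [pow_succ']; exact hY _ (ih z hz)
  obtain ⟨i, j, hij, h⟩ := Finite.exists_ne_map_eq_of_infinite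
    fun k : ℕ => fun z : s => (⟨(Y ^ k) z.1, hpow k z.1 z.2⟩ : s)
  wlog hlt : i < j generalizing i j
  · exact this j i hij.symm h.symm (by omega)
  have hper : ∀ z ∈ s, (Y ^ j) z = (Y ^ i) z := fun z hz =>
    (congrArg Subtype.val (congrFun h ⟨z, hz⟩)).symm
  set d := j - i with hd
  have step : ∀ a, i ≤ a → ∀ z ∈ s, (Y ^ (a + d)) z = (Y ^ a) z := fun a ha z hz => by
    rw [show a + d = (a - i) + j by omega, show (Y ^ ((a - i) + j)) z = (Y ^ (a - i)) ((Y ^ j) z)
      from by rw [pow_add]; rfl, hper z hz]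
    show (Y ^ (a - i) * Y ^ i) z = _
    rw [← pow_add, Nat.sub_add_cancel ha]
  have steps : ∀ n a, i ≤ a → ∀ z ∈ s, (Y ^ (a + n * d)) z = (Y ^ a) z := fun n => by
    induction n with
    | zero => intro a _ z _; rw [zero_mul, add_zero]
    | succ n ih =>
      intro a ha z hz
      rw [add_mul, one_mul, ← add_assoc, step _ (by omega) z hz, ih a ha z hz]
  have hd0 : 1 ≤ d := by omega
  refine ⟨(i + 1) * d, Nat.mul_pos i.succ_pos hd0, fun z hz => steps (i + 1) _ ?_ z hz⟩
  calc i ≤ (i + 1) * 1 := by omega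
    _ ≤ (i + 1) * d := Nat.mul_le_mul_left _ hd0

include hfin hX in
/-- the projection at one level, an element of the ring generated by the family -/
theorem exists_proj (m : ℕ) : ∃ e ∈ Subring.closure (Set.range X),
    (∀ z : J, r ^ m • z = 0 → e z ∈ nilPart X r hX) ∧
      ∀ z ∈ nilPart X r hX, r ^ m • z = 0 → e z = z := by
  classical
  let s : Set J := {z | r ^ m • z = 0}
  haveI : Finite s := (hfin m).to_subtype
  let res : ι → (s → J) := fun i z => X i z.1
  have hR : (Set.range res).Finite := by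
    have hmem : ∀ i (z : s), X i z.1 ∈ s := fun i z => by
      show r ^ m • X i z.1 = 0
      rw [← map_nsmul, z.2, map_zero]
    refine (Set.finite_range fun f : s → s => fun z => (f z : J)).subset ?_
    rintro _ ⟨i, rfl⟩
    exact ⟨fun z => ⟨X i z.1, hmem i z⟩, rfl⟩
  haveI : Fintype (Set.range res) := hR.fintype
  have hmems : ∀ i, ∀ z ∈ s, X i z ∈ s := fun i z hz => by
    show r ^ m • X i z = 0
    rw [← map_nsmul, show r ^ m • z = 0 from hz, map_zero]
  choose rep hrep using fun x : Set.range res => x.2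
  choose k hk0 hk using fun x : Set.range res => exists_idem_pow (X (rep x)) s (hfin m) (hmems _)
  let S := Subring.closure (Set.range X)
  have hXS : ∀ i, X i ∈ S := fun i => Subring.subset_closure ⟨i, rfl⟩
  have hcomm : ∀ a ∈ S, ∀ i, a * X i = X i * a := fun a ha i => by
    have hle : S ≤ Subring.centralizer {X i} := by
      refine Subring.closure_le.mpr ?_
      rintro _ ⟨j, rfl⟩ y hy
      rw [Set.mem_singleton_iff] at hy
      rw [hy]; exact hX i j
    exact ((Subring.mem_centralizer_iff.mp (hle ha)) (X i) rfl).symm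
  let u : Set.range res → AddMonoid.End J := fun x => 1 - X (rep x) ^ k x
  have hu : ∀ x, u x ∈ S := fun x => sub_mem (one_mem S) (pow_mem (hXS _) _)
  let l := (Finset.univ : Finset (Set.range res)).toList
  have hprodS : ∀ l : List (Set.range res), (l.map u).prod ∈ S := fun l =>
    list_prod_mem fun a ha => by
      obtain ⟨x, -, rfl⟩ := List.mem_map.mp ha
      exact hu x
  have hs : ∀ a ∈ S, ∀ z ∈ s, a z ∈ s := fun a _ z hz => by
    show r ^ m • a z = 0
    rw [← map_nsmul, show r ^ m • z = 0 from hz, map_zero]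
  refine ⟨(l.map u).prod, hprodS l, fun z hz => ⟨⟨m, hs _ (hprodS l) z hz⟩, fun i => ?_⟩,
    fun z hz hzm => ?_⟩
  · let x : Set.range res := ⟨res i, i, rfl⟩
    obtain ⟨l₁, l₂, hl⟩ := List.append_of_mem (Finset.mem_toList.mpr (Finset.mem_univ x))
    refine ⟨k x, ?_⟩
    rw [show l = l₁ ++ x :: l₂ from hl, List.map_append, List.map_cons, List.prod_append,
      List.prod_cons]
    set w := (l₂.map u).prod z
    have hw : w ∈ s := hs _ (hprodS l₂) z hz
    show (X i ^ k x) ((l₁.map u).prod (u x w)) = 0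
    have hagree : ∀ y ∈ s, X i y = X (rep x) y := fun y hy =>
      (congrFun (hrep x) ⟨y, hy⟩).symm
    have hpows : ∀ n, ∀ y ∈ s, (X i ^ n) y = (X (rep x) ^ n) y := fun n => by
      induction n with
      | zero => exact fun y _ => rfl
      | succ n ih =>
        intro y hy
        rw [pow_succ, pow_succ]
        show (X i ^ n) (X i y) = (X (rep x) ^ n) (X (rep x) y)
        rw [hagree y hy, ih _ (hmems _ _ hy)]
    rw [hpows _ _ (hs _ (hprodS l₁) _ (hs _ (hu x) _ hw))]
    have hc : Commute (l₁.map u).prod (X (rep x) ^ k x) :=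
      (show Commute (l₁.map u).prod (X (rep x)) from hcomm _ (hprodS l₁) _).pow_right _
    show (X (rep x) ^ k x * (l₁.map u).prod) (u x w) = 0
    rw [← hc.eq]
    show (l₁.map u).prod ((X (rep x) ^ k x) (w - (X (rep x) ^ k x) w)) = 0
    rw [map_sub, show (X (rep x) ^ k x) ((X (rep x) ^ k x) w) = (X (rep x) ^ (k x + k x)) w from by
      rw [pow_add]; rfl, hk x w hw, sub_self, map_zero]
  · have : ∀ x, u x z = z := fun x => by
      obtain ⟨n, hn⟩ := hz.2 (rep x)
      have hmul : ∀ t : ℕ, (X (rep x) ^ (k x * (t + 1))) z = (X (rep x) ^ k x) z := fun t => by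
        induction t with
        | zero => rw [zero_add, mul_one]
        | succ t ih =>
          rw [mul_add, mul_one, pow_add, show (X (rep x) ^ (k x * (t + 1)) * X (rep x) ^ k x) =
            X (rep x) ^ k x * X (rep x) ^ (k x * (t + 1)) from (Commute.pow_pow_self _ _ _).eq]
          show (X (rep x) ^ k x) ((X (rep x) ^ (k x * (t + 1))) z) = _
          rw [ih]
          calc (X (rep x) ^ k x) ((X (rep x) ^ k x) z) = (X (rep x) ^ (k x + k x)) z := by
                rw [pow_add]; rfl
            _ = (X (rep x) ^ k x) z := hk x z hzm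
      show z - (X (rep x) ^ k x) z = z
      have hle : n ≤ k x * (n + 1) :=
        le_trans (Nat.le_succ n) (Nat.le_mul_of_pos_left _ (hk0 x))
      rw [← hmul n, ← Nat.sub_add_cancel hle, pow_add]
      show z - (X (rep x) ^ (k x * (n + 1) - n)) ((X (rep x) ^ n) z) = z
      rw [hn, map_zero, sub_zero]
    induction l with
    | nil => rfl
    | cons x l ih =>
      rw [List.map_cons, List.prod_cons]
      show u x ((l.map u).prod z) = z
      rw [ih, this]

/-- the projection of a torsion element -/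
def proj (m : ℕ) : AddMonoid.End J := (exists_proj X r hfin hX m).choose

theorem proj_mem (m : ℕ) : proj X r hfin hX m ∈ Subring.closure (Set.range X) :=
  (exists_proj X r hfin hX m).choose_spec.1

theorem proj_mem_nilPart {m : ℕ} {z : J} (hz : r ^ m • z = 0) :
    proj X r hfin hX m z ∈ nilPart X r hX :=
  (exists_proj X r hfin hX m).choose_spec.2.1 z hz

theorem proj_eq_self {m : ℕ} {z : J} (hz : z ∈ nilPart X r hX) (hzm : r ^ m • z = 0) :
    proj X r hfin hX m z = z :=
  (exists_proj X r hfin hX m).choose_spec.2.2 z hz hzm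

include hX in
theorem closure_comm {a b : AddMonoid.End J} (ha : a ∈ Subring.closure (Set.range X))
    (hb : b ∈ Subring.closure (Set.range X)) : a * b = b * a := by
  have h1 : Subring.closure (Set.range X) ≤ Subring.centralizer (Set.range X) :=
    Subring.closure_le.mpr (by rintro _ ⟨i, rfl⟩ _ ⟨j, rfl⟩; exact hX j i)
  have h2 : Subring.closure (Set.range X) ≤ Subring.centralizer {a} :=
    Subring.closure_le.mpr (by
      rintro _ ⟨i, rfl⟩ y hy
      rw [Set.mem_singleton_iff] at hy
      rw [hy]
      exact (Subring.mem_centralizer_iff.mp (h1 ha) _ ⟨i, rfl⟩).symm)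
  exact Subring.mem_centralizer_iff.mp (h2 hb) a rfl

/-- the projections are compatible -/
theorem proj_compat {m m' : ℕ} {z : J} (hz : r ^ m • z = 0) (h : m ≤ m') :
    proj X r hfin hX m' z = proj X r hfin hX m z := by
  have hz' : r ^ m' • z = 0 := by
    rw [← Nat.sub_add_cancel h, pow_add, mul_smul, hz, smul_zero]
  have hkill : ∀ a : AddMonoid.End J, r ^ m • a z = 0 := fun a => by rw [← map_nsmul, hz, map_zero]
  have hkill' : ∀ a : AddMonoid.End J, r ^ m' • a z = 0 := fun a => by rw [← map_nsmul, hz', map_zero]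
  have h1 := proj_eq_self X r hfin hX (proj_mem_nilPart X r hfin hX hz') (hkill (proj X r hfin hX m'))
  have h2 := proj_eq_self X r hfin hX (proj_mem_nilPart X r hfin hX hz) (hkill' (proj X r hfin hX m))
  have hc := closure_comm X hX (proj_mem X r hfin hX m) (proj_mem X r hfin hX m')
  calc proj X r hfin hX m' z = (proj X r hfin hX m * proj X r hfin hX m') z := h1.symm
    _ = (proj X r hfin hX m' * proj X r hfin hX m) z := by rw [hc]
    _ = proj X r hfin hX m z := h2

end Projection

end FLTAgent.EIS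

end
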