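import Fermat.Agent.EIS.Projection

/-!
Area EIS: the quotient of the group by the torsion elements whose Eisenstein projection has its
whole Galois orbit in the kernel of reduction, and its connected part.
-/

set_option autoImplicit false

noncomputable section

namespace FLTAgent.EIS

/-- the data entering the quotient -/
structure Raw (G J R ι : Type) [Group G] [AddCommGroup J] [DistribMulAction G J] [AddCommGroup R]
    where
  X : ι → AddMonoid.End J
  comm : ∀ i j, X i * X j = X j * X i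
  commG : ∀ (i : ι) (g : G) (z : J), g • X i z = X i (g • z)
  r : ℕ
  fin : ∀ m : ℕ, {z : J | r ^ m • z = 0}.Finite
  red : J →+ R
  redX : ∀ (i : ι) (z : J), red z = 0 → red (X i z) = 0
  div : ∀ (m : ℕ) (z : J), r ^ m • z = 0 → ∃ y, r • y = z

namespace Raw

variable {G J R ι : Type} [Group G] [AddCommGroup J] [DistribMulAction G J] [AddCommGroup R]
  (D : Raw G J R ι)

/-- the ring of the operators -/
def ring : Subring (AddMonoid.End J) := Subring.closure (Set.range D.X)

/-- the projection at level `m` -/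
def pr (m : ℕ) : AddMonoid.End J := proj D.X D.r D.fin D.comm m

theorem pr_mem (m : ℕ) : D.pr m ∈ D.ring := proj_mem _ _ _ _ m

theorem ring_commG {a : AddMonoid.End J} (ha : a ∈ D.ring) (g : G) (z : J) : g • a z = a (g • z) := by
  induction ha using Subring.closure_induction generalizing z with
  | mem a ha => obtain ⟨i, rfl⟩ := ha; exact D.commG i g z
  | zero => exact smul_zero g
  | one => rfl
  | add a b _ _ ha hb => show g • (a z + b z) = a (g • z) + b (g • z); rw [smul_add, ha, hb]
  | neg a _ ha => show g • -(a z) = -(a (g • z)); rw [smul_neg, ha]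
  | mul a b _ _ ha hb => show g • a (b z) = a (b (g • z)); rw [ha, hb]

theorem ring_red {a : AddMonoid.End J} (ha : a ∈ D.ring) (z : J) (hz : D.red z = 0) :
    D.red (a z) = 0 := by
  induction ha using Subring.closure_induction generalizing z with
  | mem a ha => obtain ⟨i, rfl⟩ := ha; exact D.redX i z hz
  | zero => exact map_zero _
  | one => exact hz
  | add a b _ _ ha hb => show D.red (a z + b z) = 0; rw [map_add, ha z hz, hb z hz, add_zero]
  | neg a _ ha => show D.red (-(a z)) = 0; rw [map_neg, ha z hz, neg_zero]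
  | mul a b _ _ ha hb => exact ha _ (hb z hz)

theorem pow_kill {m M : ℕ} (h : m ≤ M) {z : J} (hz : D.r ^ m • z = 0) : D.r ^ M • z = 0 := by
  rw [← Nat.sub_add_cancel h, pow_add, mul_smul, hz, smul_zero]

theorem pr_compat {m M : ℕ} (h : m ≤ M) {z : J} (hz : D.r ^ m • z = 0) :
    D.pr M z = D.pr m z :=
  proj_compat D.X D.r D.fin D.comm hz h

/-- the kernel of the quotient -/
def K : AddSubgroup J where
  carrier := {z | ∃ m, D.r ^ m • z = 0 ∧ ∀ g : G, D.red (g • D.pr m z) = 0}
  zero_mem' := ⟨0, smul_zero _, fun g => by rw [map_zero, smul_zero, map_zero]⟩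
  add_mem' := fun {a b} ⟨ma, ha, ha'⟩ ⟨mb, hb, hb'⟩ => by
    refine ⟨max ma mb, ?_, fun g => ?_⟩
    · rw [smul_add, D.pow_kill (le_max_left _ _) ha, D.pow_kill (le_max_right _ _) hb, add_zero]
    · rw [map_add, D.pr_compat (le_max_left _ _) ha, D.pr_compat (le_max_right _ _) hb, smul_add,
        map_add, ha', hb', add_zero]
  neg_mem' := fun {a} ⟨m, ha, ha'⟩ =>
    ⟨m, by rw [smul_neg, ha, neg_zero], fun g => by rw [map_neg, smul_neg, map_neg, ha', neg_zero]⟩

theorem red_of_mem_K {z : J} {M : ℕ} (hz : z ∈ D.K) (hM : D.r ^ M • z = 0) (g : G) :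
    D.red (g • D.pr M z) = 0 := by
  obtain ⟨m, hm, h⟩ := hz
  rw [← D.pr_compat (le_max_left M m) hM, D.pr_compat (le_max_right M m) hm]
  exact h g

theorem smul_mem_K (g : G) {z : J} (hz : z ∈ D.K) : g • z ∈ D.K := by
  obtain ⟨m, hm, h⟩ := hz
  refine ⟨m, ?_, fun g' => ?_⟩
  · rw [← show g • (D.r ^ m • z) = D.r ^ m • g • z from
      map_nsmul (DistribSMul.toAddMonoidHom J g) _ z, hm, smul_zero]
  · rw [← D.ring_commG (D.pr_mem m), ← mul_smul]
    exact h _

theorem ring_mem_K {a : AddMonoid.End J} (ha : a ∈ D.ring) {z : J} (hz : z ∈ D.K) : a z ∈ D.K := by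
  obtain ⟨m, hm, h⟩ := hz
  refine ⟨m, by rw [← map_nsmul, hm, map_zero], fun g => ?_⟩
  have hc : D.pr m * a = a * D.pr m := closure_comm D.X D.comm (D.pr_mem m) ha
  rw [show D.pr m (a z) = a (D.pr m z) from DFunLike.congr_fun hc z, D.ring_commG ha]
  exact D.ring_red ha _ (h g)

/-- the quotient -/
abbrev W : Type := J ⧸ D.K

/-- the quotient map -/
def qmk : J →+ D.W := QuotientAddGroup.mk' D.K

theorem qmk_surjective : Function.Surjective D.qmk := QuotientAddGroup.mk'_surjective _

theorem qmk_eq_zero {z : J} : D.qmk z = 0 ↔ z ∈ D.K := QuotientAddGroup.eq_zero_iff z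

instance instSMulW : SMul G D.W :=
  ⟨fun g => QuotientAddGroup.map D.K D.K (DistribSMul.toAddMonoidHom J g)
    fun _ hz => D.smul_mem_K g hz⟩

theorem smul_qmk (g : G) (z : J) : g • D.qmk z = D.qmk (g • z) := rfl

instance instActW : DistribMulAction G D.W where
  one_smul w := by
    obtain ⟨z, rfl⟩ := D.qmk_surjective w
    rw [smul_qmk, one_smul]
  mul_smul g h w := by
    obtain ⟨z, rfl⟩ := D.qmk_surjective w
    rw [smul_qmk, smul_qmk, smul_qmk, mul_smul]
  smul_zero g := by
    rw [← map_zero D.qmk, smul_qmk, smul_zero]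
  smul_add g a b := by
    obtain ⟨a, rfl⟩ := D.qmk_surjective a
    obtain ⟨b, rfl⟩ := D.qmk_surjective b
    rw [← map_add, smul_qmk, smul_qmk, smul_qmk, smul_add, map_add]

/-- the endomorphism of the quotient induced by an operator -/
def endW (a : AddMonoid.End J) (ha : a ∈ D.ring) : D.W →+ D.W :=
  QuotientAddGroup.map D.K D.K a fun _ hz => D.ring_mem_K ha hz

theorem endW_qmk (a : AddMonoid.End J) (ha : a ∈ D.ring) (z : J) :
    D.endW a ha (D.qmk z) = D.qmk (a z) := rfl

theorem endW_smul (a : AddMonoid.End J) (ha : a ∈ D.ring) (g : G) (w : D.W) :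
    D.endW a ha (g • w) = g • D.endW a ha w := by
  obtain ⟨z, rfl⟩ := D.qmk_surjective w
  rw [smul_qmk, endW_qmk, endW_qmk, smul_qmk, D.ring_commG ha]

theorem exists_lift {m : ℕ} {w : D.W} (hw : D.r ^ m • w = 0) :
    ∃ M z, D.r ^ M • z = 0 ∧ D.qmk z = w := by
  obtain ⟨z, rfl⟩ := D.qmk_surjective w
  rw [← map_nsmul, qmk_eq_zero] at hw
  obtain ⟨k, hk, -⟩ := hw
  exact ⟨k + m, z, by rw [pow_add, mul_smul, hk], rfl⟩

/-- the connected part -/
def W0 : AddSubgroup D.W where
  carrier := {w | ∃ m z, D.r ^ m • z = 0 ∧ D.qmk z = w ∧ D.red (D.pr m z) = 0}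
  zero_mem' := ⟨0, 0, smul_zero _, map_zero _, by rw [map_zero, map_zero]⟩
  add_mem' := fun {a b} ⟨ma, za, ha, hza, ha'⟩ ⟨mb, zb, hb, hzb, hb'⟩ =>
    ⟨max ma mb, za + zb,
      by rw [smul_add, D.pow_kill (le_max_left _ _) ha, D.pow_kill (le_max_right _ _) hb, add_zero],
      by rw [map_add, hza, hzb],
      by rw [map_add, D.pr_compat (le_max_left _ _) ha, D.pr_compat (le_max_right _ _) hb, map_add,
        ha', hb', add_zero]⟩
  neg_mem' := fun {a} ⟨m, z, hz, hza, h⟩ =>
    ⟨m, -z, by rw [smul_neg, hz, neg_zero], by rw [map_neg, hza],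
      by rw [map_neg, map_neg, h, neg_zero]⟩

theorem mem_W0_iff {M : ℕ} {z : J} (hz : D.r ^ M • z = 0) :
    D.qmk z ∈ D.W0 ↔ D.red (D.pr M z) = 0 := by
  refine ⟨fun ⟨m, z', hz', he, h⟩ => ?_, fun h => ⟨M, z, hz, rfl, h⟩⟩
  have hd : z - z' ∈ D.K := by rw [← qmk_eq_zero, map_sub, he, sub_self]
  have hk : D.r ^ (max M m) • (z - z') = 0 := by
    rw [smul_sub, D.pow_kill (le_max_left _ _) hz, D.pow_kill (le_max_right _ _) hz', sub_zero]
  have h0 := D.red_of_mem_K hd hk 1
  rw [one_smul, map_sub, map_sub, D.pr_compat (le_max_left _ _) hz,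
    D.pr_compat (le_max_right _ _) hz', h, sub_zero] at h0
  exact h0

theorem core {w : D.W} (hw : w ∈ D.W0) (h : ∀ g : G, g • w ∈ D.W0) : w = 0 := by
  obtain ⟨m, z, hz, rfl, -⟩ := hw
  rw [qmk_eq_zero]
  refine ⟨m, hz, fun g => ?_⟩
  have hg : D.r ^ m • g • z = 0 := by
    rw [← show g • (D.r ^ m • z) = D.r ^ m • g • z from
      map_nsmul (DistribSMul.toAddMonoidHom J g) _ z, hz, smul_zero]
  have := (D.mem_W0_iff hg).mp (h g)
  rwa [← D.ring_commG (D.pr_mem m)] at this

theorem endW_mem_W0 (a : AddMonoid.End J) (ha : a ∈ D.ring) {w : D.W} (hw : w ∈ D.W0) :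
    D.endW a ha w ∈ D.W0 := by
  obtain ⟨m, z, hz, rfl, h⟩ := hw
  refine ⟨m, a z, by rw [← map_nsmul, hz, map_zero], rfl, ?_⟩
  have hc : D.pr m * a = a * D.pr m := closure_comm D.X D.comm (D.pr_mem m) ha
  rw [show D.pr m (a z) = a (D.pr m z) from DFunLike.congr_fun hc z]
  exact D.ring_red ha _ h

theorem exists_div (hr : D.r ≠ 0) {m : ℕ} {w : D.W} (hw : D.r ^ m • w = 0) :
    ∃ v, D.r • v = w := by
  obtain ⟨M, z, hz, rfl⟩ := D.exists_lift hw
  obtain ⟨y, hy⟩ := D.div M z hz
  exact ⟨D.qmk y, by rw [← map_nsmul, hy]⟩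

/-- torsion of the quotient is bounded by torsion of the group -/
theorem card_torsion_le (a : ℕ) (s : Finset D.W) (hs : ∀ w ∈ s, D.r ^ a • w = 0) :
    s.card ≤ Nat.card {z : J // D.r ^ a • z = 0} := by
  classical
  choose M z hz hzw using fun w : s => D.exists_lift (hs w.1 w.2)
  let N := Finset.univ.sup M + a
  let T : AddSubgroup J := (nsmulAddMonoidHom (α := J) (D.r ^ N)).ker
  haveI : Finite T := (D.fin N).to_subtype
  haveI : Finite {z : J // D.r ^ a • z = 0} := (D.fin a).to_subtype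
  let S : AddSubgroup T := D.K.addSubgroupOf T
  have hzT : ∀ w : s, z w ∈ T := fun w =>
    D.pow_kill ((Finset.le_sup (Finset.mem_univ w)).trans (Nat.le_add_right _ _)) (hz w)
  let f : s → {x : T ⧸ S // D.r ^ a • x = 0} := fun w =>
    ⟨QuotientAddGroup.mk' S ⟨z w, hzT w⟩, by
      rw [← map_nsmul]
      refine (QuotientAddGroup.eq_zero_iff _).mpr ?_
      show ((D.r ^ a • (⟨z w, hzT w⟩ : T) : T) : J) ∈ D.K
      rw [AddSubgroupClass.coe_nsmul, ← qmk_eq_zero, map_nsmul, hzw]
      exact hs w.1 w.2⟩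
  have hf : Function.Injective f := fun v w h => by
    have h' := (QuotientAddGroup.eq_iff_sub_mem).mp (congrArg Subtype.val h :)
    have h'' : z v - z w ∈ D.K := h'
    rw [← qmk_eq_zero, map_sub, hzw, hzw, sub_eq_zero] at h''
    exact Subtype.ext h''
  have h1 : s.card ≤ Nat.card {x : T ⧸ S // D.r ^ a • x = 0} := by
    rw [← Fintype.card_coe, ← Nat.card_eq_fintype_card]
    exact Nat.card_le_card_of_injective f hf
  refine h1.trans ?_
  -- the counting lemma for quotients of finite groups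
  let g : (T ⧸ S) →+ (T ⧸ S) := nsmulAddMonoidHom (D.r ^ a)
  let g' : T →+ T := nsmulAddMonoidHom (D.r ^ a)
  have hle : Nat.card g.ker ≤ Nat.card g'.ker := by
    have e1 : Nat.card g.ker * Nat.card g.range = Nat.card (T ⧸ S) := by
      rw [← AddSubgroup.index_ker, mul_comm, AddSubgroup.index_mul_card]
    have e2 : Nat.card g'.ker * Nat.card g'.range = Nat.card T := by
      rw [← AddSubgroup.index_ker, mul_comm, AddSubgroup.index_mul_card]
    let π : g'.range →+ g.range :=
      ((QuotientAddGroup.mk' S).comp g'.range.subtype).codRestrict g.range fun y => by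
        obtain ⟨x, hx⟩ := y.2
        refine ⟨QuotientAddGroup.mk' S x, ?_⟩
        show g (QuotientAddGroup.mk' S x) = QuotientAddGroup.mk' S (y : T)
        rw [← show g' x = (y : T) from hx]
        rfl
    have hπ : Function.Surjective π := by
      rintro ⟨_, ⟨x, rfl⟩⟩
      obtain ⟨x, rfl⟩ := QuotientAddGroup.mk'_surjective S x
      exact ⟨⟨g' x, x, rfl⟩, Subtype.ext rfl⟩
    have hk : Nat.card π.ker ≤ Nat.card S := by
      refine Nat.card_le_card_of_injective (fun y => ⟨((y : g'.range) : T), ?_⟩) fun u v h => ?_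
      · have := congrArg Subtype.val y.2
        exact (QuotientAddGroup.eq_zero_iff _).mp this
      · exact Subtype.ext (Subtype.ext (congrArg Subtype.val h :))
    have hr' : Nat.card g'.range = Nat.card π.ker * Nat.card g.range := by
      rw [← AddSubgroup.index_mul_card π.ker, AddSubgroup.index_ker,
        AddMonoidHom.range_eq_top.mpr hπ, AddSubgroup.card_top, mul_comm]
    refine Nat.le_of_mul_le_mul_right ?_ (Nat.mul_pos (Nat.card_pos (α := S)) (Nat.card_pos (α := g.range)))
    calc Nat.card g.ker * (Nat.card S * Nat.card g.range)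
        = Nat.card g.ker * Nat.card g.range * Nat.card S := by ring
      _ = Nat.card g'.ker * Nat.card g'.range := by
          rw [e1, e2]; exact (AddSubgroup.card_eq_card_quotient_mul_card_addSubgroup S).symm
      _ ≤ _ := by rw [hr']; exact Nat.mul_le_mul_left _ (Nat.mul_le_mul_right _ hk)
  refine hle.trans (Nat.card_le_card_of_injective
    (fun x => (⟨((x : T) : J), congrArg Subtype.val x.2⟩ : {z : J // D.r ^ a • z = 0}))
    fun u v h => ?_)
  exact Subtype.ext (Subtype.ext (congrArg Subtype.val h :))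

/-- the torsion of a given level -/
def tor (m : ℕ) : AddSubgroup D.W := (nsmulAddMonoidHom (α := D.W) (D.r ^ m)).ker

theorem mem_tor {m : ℕ} {w : D.W} : w ∈ D.tor m ↔ D.r ^ m • w = 0 := Iff.rfl

theorem finite_tor (m : ℕ) : Finite (D.tor m) := by
  by_contra hinf
  rw [not_finite_iff_infinite] at hinf
  obtain ⟨s, hs⟩ := Infinite.exists_subset_card_eq (D.tor m)
    (Nat.card {z : J // D.r ^ m • z = 0} + 1)
  have := D.card_torsion_le m (s.map ⟨Subtype.val, Subtype.val_injective⟩) (fun w hw => by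
    obtain ⟨x, -, rfl⟩ := Finset.mem_map.mp hw
    exact x.2)
  rw [Finset.card_map, hs] at this
  omega

theorem card_tor_le (m : ℕ) : Nat.card (D.tor m) ≤ Nat.card {z : J // D.r ^ m • z = 0} := by
  classical
  haveI := D.finite_tor m
  haveI := Fintype.ofFinite (D.tor m)
  have := D.card_torsion_le m
    ((Finset.univ : Finset (D.tor m)).map ⟨Subtype.val, Subtype.val_injective⟩) (fun w hw => by
    obtain ⟨x, -, rfl⟩ := Finset.mem_map.mp hw
    exact x.2)
  rwa [Finset.card_map, Finset.card_univ, ← Nat.card_eq_fintype_card] at this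

instance instSMulTor (m : ℕ) : SMul G (D.tor m) :=
  ⟨fun g w => ⟨g • (w : D.W), by
    show D.r ^ m • g • (w : D.W) = 0
    rw [← show g • (D.r ^ m • (w : D.W)) = D.r ^ m • g • (w : D.W) from
      map_nsmul (DistribSMul.toAddMonoidHom D.W g) _ _, show D.r ^ m • (w : D.W) = 0 from w.2,
      smul_zero]⟩⟩

theorem coe_smul_tor (m : ℕ) (g : G) (w : D.tor m) :
    ((g • w : D.tor m) : D.W) = g • (w : D.W) := rfl

instance instActTor (m : ℕ) : DistribMulAction G (D.tor m) where
  one_smul w := Subtype.ext (one_smul G (w : D.W))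
  mul_smul g h w := Subtype.ext (mul_smul g h (w : D.W))
  smul_zero g := Subtype.ext (smul_zero g)
  smul_add g a b := Subtype.ext (smul_add g (a : D.W) (b : D.W))

/-- the connected part at a given level -/
def tor0 (m : ℕ) : AddSubgroup (D.tor m) := D.W0.addSubgroupOf (D.tor m)

theorem mem_tor0 {m : ℕ} {w : D.tor m} : w ∈ D.tor0 m ↔ (w : D.W) ∈ D.W0 := Iff.rfl

end Raw

end FLTAgent.EIS

end
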