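import Fermat.Agent.EIS.Trace
import Fermat.Agent.EIS.Algebra
import Fermat.Agent.EIS.Constituents
import Fermat.Agent.EIS.LocalR

/-!
Area EIS: the Eisenstein quotient of the torsion of `J₀(p)` satisfies the hypotheses of the
dévissage and of the local theory at the residual prime.
-/

set_option autoImplicit false
set_option linter.unusedSectionVars false
set_option linter.style.haveILetI false

noncomputable section

open ModularCurve
open FLTAgent.Reduction (Ctx kA frobS)
open FLTAgent.Attach (cyc)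

namespace FLTAgent.EIS

/-- the kernel of the reduction is stable under the Hecke operators -/
def RedStable (p : ℕ) [NeZero p] (A : ValuationSubring Qb) : Prop :=
  ∀ ℓ : Nat.Primes, (ℓ : ℕ) ≠ p → ∀ x : JZero p,
    reductionModL A p x = 0 → reductionModL A p (heckeOperatorBar p ℓ x) = 0

variable {p r : ℕ} [NeZero p] {A : ValuationSubring Qb}

variable (p r) in
/-- reduction on the `r`-power torsion -/
def redR (A : ValuationSubring Qb) : JR p r →+ JZeroC (kA A) p :=
  (reductionModL A p).comp (torR p r).subtype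

/-- the standing hypotheses -/
structure Cond (p r : ℕ) [NeZero p] (A : ValuationSubring Qb) : Prop where
  hp : p.Prime
  hr : r.Prime
  hrp : r ≠ p
  hA : A.LiesOverPrime r
  red : RedStable p A

theorem Cond.ctx (H : Cond p r A) : Ctx A p r :=
  ⟨H.hr, fun h => H.hrp ((Nat.prime_dvd_prime_iff_eq H.hr H.hp).mp h), H.hA⟩

variable (H : Cond p r A)

/-- the residual prime -/
def rPrime : Nat.Primes := ⟨r, H.hr⟩

/-- the raw data -/
@[reducible] def raw : Raw GalQ (JR p r) (JZeroC (kA A) p) (Idx p r) where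
  X := Xop p r
  comm := Xop_comm p r H.hr.pos
  commG := Xop_commG p r
  r := r
  fin := finite_torsion_JR p r H.hr.pos
  red := redR p r A
  redX := fun i z hz => by
    show reductionModL A p ((Xop p r i z : JR p r) : JZero p) = 0
    rw [Xop_apply, AddSubgroupClass.coe_sub, AddSubgroupClass.coe_nsmul, coe_hkR, map_sub, map_nsmul]
    exact sub_eq_zero.mpr ((H.red i.1 i.2.1 _ hz).trans
      ((congrArg (((i.1 : ℕ) + 1) • ·) (hz : reductionModL A p (z : JZero p) = 0)).trans
        (nsmul_zero _)).symm)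
  div := fun m z hz => exists_div_JR p r H.hr.pos m z hz

theorem smul_nsmul' {G X : Type} [Group G] [AddCommGroup X] [DistribMulAction G X] (g : G) (n : ℕ)
    (x : X) : g • n • x = n • g • x :=
  map_nsmul (DistribSMul.toAddMonoidHom X g) n x

/-- exponents agreeing on the roots of unity of order `r ^ k` agree on what `r ^ k` kills -/
theorem nsmul_eq_of_roots (hr : r.Prime) {X : Type} [AddCommGroup X] {x : X} {k : ℕ}
    (hx : r ^ k • x = 0) {a b : ℕ} (h : ∀ ζ : Qb, ζ ^ (r ^ k) = 1 → ζ ^ a = ζ ^ b) :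
    a • x = b • x := by
  haveI : NeZero (r ^ k) := ⟨(pow_pos hr.pos k).ne'⟩
  obtain ⟨ζ, hζ⟩ := HasEnoughRootsOfUnity.exists_primitiveRoot Qb (r ^ k)
  have hu : IsUnit ζ := hζ.isUnit (pow_pos hr.pos k).ne'
  have hmod : a % r ^ k = b % r ^ k := by
    have e := h ζ hζ.pow_eq_one
    refine hζ.pow_inj (Nat.mod_lt _ (pow_pos hr.pos k)) (Nat.mod_lt _ (pow_pos hr.pos k)) ?_
    rwa [← pow_eq_pow_mod a hζ.pow_eq_one, ← pow_eq_pow_mod b hζ.pow_eq_one]
  rw [← Nat.mod_add_div a (r ^ k), ← Nat.mod_add_div b (r ^ k), add_nsmul, add_nsmul, mul_nsmul,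
    mul_nsmul, hx, hmod]
  simp

/-- `T_r` on the quotient -/
def TW : (raw H).W →+ (raw H).W :=
  QuotientAddGroup.map (raw H).K (raw H).K (hkR p r (rPrime H)) fun z hz => by
    obtain ⟨m, hm, h⟩ := hz
    refine ⟨m, by rw [← map_nsmul, hm, map_zero], fun g => ?_⟩
    have hcomm : ∀ a ∈ (raw H).ring, ∀ w : JR p r,
        a (hkR p r (rPrime H) w) = hkR p r (rPrime H) (a w) := by
      intro a ha w
      have hle : (raw H).ring ≤ Subring.centralizer {hkR p r (rPrime H)} := by
        refine Subring.closure_le.mpr ?_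
        rintro _ ⟨i, rfl⟩ y hy
        rw [Set.mem_singleton_iff] at hy
        rw [hy]
        refine AddMonoidHom.ext fun u => ?_
        show hkR p r (rPrime H) (Xop p r i u) = Xop p r i (hkR p r (rPrime H) u)
        rw [Xop_apply, Xop_apply, map_sub, map_nsmul,
          show hkR p r (rPrime H) (hkR p r i.1 u) = hkR p r i.1 (hkR p r (rPrime H) u) from
            DFunLike.congr_fun (hkR_comm p r H.hr.pos _ _) u]
      exact (DFunLike.congr_fun (Subring.mem_centralizer_iff.mp (hle ha) _ rfl) w).symm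
    refine (congrArg (fun y => (raw H).red (g • y)) (hcomm _ ((raw H).pr_mem m) z)).trans ?_
    show reductionModL A p ((g • hkR p r (rPrime H) ((raw H).pr m z) : JR p r) : JZero p) = 0
    rw [coe_smul_JR, coe_hkR, HeckeJ.smul_hecke]
    exact H.red (rPrime H) H.hrp _ (h g)

theorem TW_qmk (z : JR p r) : TW H ((raw H).qmk z) = (raw H).qmk (hkR p r (rPrime H) z) := rfl

theorem ring_comm_Tr {a : AddMonoid.End (JR p r)} (ha : a ∈ (raw H).ring) (w : JR p r) :
    a (hkR p r (rPrime H) w) = hkR p r (rPrime H) (a w) := by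
  induction ha using Subring.closure_induction generalizing w with
  | mem a ha =>
    obtain ⟨i, rfl⟩ := ha
    show Xop p r i (hkR p r (rPrime H) w) = hkR p r (rPrime H) (Xop p r i w)
    rw [Xop_apply, Xop_apply, map_sub, map_nsmul,
      show hkR p r (rPrime H) (hkR p r i.1 w) = hkR p r i.1 (hkR p r (rPrime H) w) from
        DFunLike.congr_fun (hkR_comm p r H.hr.pos _ _) w]
  | zero => exact (map_zero _).symm
  | one => rfl
  | add a b _ _ ha hb =>
    show a (hkR p r (rPrime H) w) + b (hkR p r (rPrime H) w) = hkR p r (rPrime H) (a w + b w)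
    rw [map_add, ha, hb]
  | neg a _ ha =>
    show -(a (hkR p r (rPrime H) w)) = hkR p r (rPrime H) (-(a w))
    rw [map_neg, ha]
  | mul a b _ _ ha hb =>
    show a (b (hkR p r (rPrime H) w)) = hkR p r (rPrime H) (a (b w))
    rw [hb, ha]

theorem TW_smul (g : GalQ) (w : (raw H).W) : TW H (g • w) = g • TW H w := by
  obtain ⟨z, rfl⟩ := (raw H).qmk_surjective w
  rw [Raw.smul_qmk, TW_qmk, TW_qmk, Raw.smul_qmk]
  exact congrArg (raw H).qmk (Subtype.ext (HeckeJ.smul_hecke p g _ _).symm)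

theorem TW_mem {w : (raw H).W} (hw : w ∈ (raw H).W0) : TW H w ∈ (raw H).W0 := by
  obtain ⟨m, z, hz, rfl, h⟩ := hw
  refine ⟨m, hkR p r (rPrime H) z, by rw [← map_nsmul, hz, map_zero], rfl, ?_⟩
  rw [ring_comm_Tr H ((raw H).pr_mem m)]
  exact H.red (rPrime H) H.hrp _ h

/-- every element of the quotient is torsion -/
theorem exists_kill (w : (raw H).W) : ∃ m, r ^ m • w = 0 := by
  obtain ⟨z, rfl⟩ := (raw H).qmk_surjective w
  obtain ⟨m, hm⟩ := z.2
  exact ⟨m, by rw [← map_nsmul, show r ^ m • z = 0 from Subtype.ext hm, map_zero]⟩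

theorem contJR (z : JR p r) : ∃ L : IntermediateField ℚ Qb, FiniteDimensional ℚ L ∧
    ∀ σ : GalQ, (∀ x ∈ L, σ x = x) → σ • z = z := by
  obtain ⟨L, hL, h⟩ := HeckeJ.exists_level p (z : JZero p)
  exact ⟨L, hL, fun σ hσ => Subtype.ext (h σ hσ)⟩

theorem contW : IsContMod (raw H).W := fun w => by
  obtain ⟨z, rfl⟩ := (raw H).qmk_surjective w
  obtain ⟨L, hL, h⟩ := contJR z
  exact ⟨L, hL, fun σ hσ => by rw [Raw.smul_qmk, h σ hσ]⟩

theorem contTor (m : ℕ) : IsContMod ((raw H).tor m) := fun w => by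
  obtain ⟨L, hL, h⟩ := contW H (w : (raw H).W)
  exact ⟨L, hL, fun σ hσ => Subtype.ext (h σ hσ)⟩

theorem inertia_mem {τ : GalQ} (hτ : τ ∈ A.inertiaSubgroupIn ℚ) (w : (raw H).W) :
    τ • w - w ∈ (raw H).W0 := by
  obtain ⟨z, rfl⟩ := (raw H).qmk_surjective w
  obtain ⟨m, hm⟩ := z.2
  have hz : r ^ m • z = 0 := Subtype.ext hm
  rw [Raw.smul_qmk, ← map_sub]
  refine ⟨m, _, by rw [nsmul_sub, ← smul_nsmul', hz, smul_zero, sub_zero], rfl, ?_⟩
  rw [map_sub, ← (raw H).ring_commG ((raw H).pr_mem m)]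
  show reductionModL A p (((τ • (raw H).pr m z - (raw H).pr m z : JR p r)) : JZero p) = 0
  rw [AddSubgroupClass.coe_sub, coe_smul_JR, map_sub,
    Reduction.reductionModL_inertia H.ctx hτ, sub_self]

/-- uniform lifts of a finite level -/
theorem exists_lift_level (m : ℕ) : ∃ M, m ≤ M ∧ ∀ w : (raw H).W, r ^ m • w = 0 →
    ∃ z : JR p r, r ^ M • z = 0 ∧ (raw H).qmk z = w := by
  haveI := (raw H).finite_tor m
  haveI := Fintype.ofFinite ((raw H).tor m)
  choose M z hz hzw using fun w : (raw H).tor m => (raw H).exists_lift (m := m) w.2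
  refine ⟨Finset.univ.sup M + m, Nat.le_add_left _ _, fun w hw => ?_⟩
  exact ⟨z ⟨w, hw⟩, (raw H).pow_kill
    ((Finset.le_sup (Finset.mem_univ _)).trans (Nat.le_add_right _ _)) (hz ⟨w, hw⟩), hzw ⟨w, hw⟩⟩

/-- the formal trace on the quotient -/
theorem exists_traceW (g : GalQ) (m : ℕ) :
    ∃ (i : Idx p r) (q : AddMonoid.End (JR p r)) (hq : q ∈ (raw H).ring) (c : ℕ),
      (∀ ζ : Qb, ζ ^ (r ^ m) = 1 → g ζ = ζ ^ c) ∧
      ∀ w : (raw H).W, r ^ m • w = 0 →
        g • w + c • g⁻¹ • w = (1 + c) • w + (raw H).endW (q * Xop p r i)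
          (mul_mem hq (Subring.subset_closure ⟨i, rfl⟩)) w := by
  obtain ⟨M, hmM, hM⟩ := exists_lift_level H m
  obtain ⟨i, q, c, hq, hc, h⟩ := exists_trace p r H.hr H.hp g M
  refine ⟨i, q, hq, c, fun ζ hζ => hc ζ ?_, fun w hw => ?_⟩
  · rw [← Nat.sub_add_cancel hmM, pow_add, pow_mul', hζ, one_pow]
  · obtain ⟨z, hz, rfl⟩ := hM w hw
    rw [Raw.endW_qmk, Raw.smul_qmk, Raw.smul_qmk, ← map_nsmul, ← map_nsmul, ← map_add, ← map_add,
      h z hz]

/-- the exponent of the cyclotomic character at level `m` -/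
def chiN (r : ℕ) (m : ℕ) (g : GalQ) : ℕ :=
  if h : r ^ m = 0 then 0 else haveI : NeZero (r ^ m) := ⟨h⟩; (cyc (r ^ m) g).val

theorem chiN_spec (hr : r.Prime) (m : ℕ) (g : GalQ) {ζ : Qb} (hζ : ζ ^ (r ^ m) = 1) :
    g ζ = ζ ^ chiN r m g := by
  haveI : NeZero (r ^ m) := ⟨(pow_pos hr.pos m).ne'⟩
  rw [chiN, dif_neg (pow_pos hr.pos m).ne']
  exact Attach.cyc_spec g hζ

theorem nsmul_chiN (hr : r.Prime) {m : ℕ} {g : GalQ} {c : ℕ} {X : Type} [AddCommGroup X] {x : X}
    (hx : r ^ m • x = 0) (hc : ∀ ζ : Qb, ζ ^ (r ^ m) = 1 → g ζ = ζ ^ c) :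
    c • x = chiN r m g • x :=
  nsmul_eq_of_roots hr hx fun ζ hζ => by rw [← hc ζ hζ, chiN_spec hr m g hζ]

/-- the formal traces commute with the action and preserve the connected part -/
theorem trace_props (m : ℕ) (g : GalQ) :
    (∀ (h : GalQ) (w : (raw H).W), r ^ m • w = 0 →
      h • (g • w + chiN r m g • g⁻¹ • w) = g • h • w + chiN r m g • g⁻¹ • h • w) ∧
    ∀ w ∈ (raw H).W0, r ^ m • w = 0 → g • w + chiN r m g • g⁻¹ • w ∈ (raw H).W0 := by
  obtain ⟨i, q, hq, c, hc, h⟩ := exists_traceW H g m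
  have hkill : ∀ (h' : GalQ) (w : (raw H).W), r ^ m • w = 0 → r ^ m • h' • w = 0 := fun h' w hw => by
    rw [← smul_nsmul', hw, smul_zero]
  have heq : ∀ w : (raw H).W, r ^ m • w = 0 → g • w + chiN r m g • g⁻¹ • w =
      (1 + c) • w + (raw H).endW (q * Xop p r i) (mul_mem hq (Subring.subset_closure ⟨i, rfl⟩)) w :=
    fun w hw => by rw [← nsmul_chiN H.hr (hkill g⁻¹ w hw) hc, h w hw]
  refine ⟨fun h' w hw => ?_, fun w hw0 hw => ?_⟩
  · rw [heq w hw, heq _ (hkill h' w hw), smul_add, smul_nsmul', Raw.endW_smul]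
  · rw [heq w hw]
    exact add_mem (nsmul_mem hw0 _) ((raw H).endW_mem_W0 _ _ hw0)

/-- formal traces at level `m` -/
def cay (m : ℕ) : Alg2.Cay GalQ ((raw H).tor m) where
  chi g := (chiN r m g : ℤ)
  chi_mul g h x := by
    rw [natCast_zsmul, natCast_zsmul, natCast_zsmul, ← mul_nsmul']
    refine nsmul_eq_of_roots H.hr (k := m) (show r ^ m • x = 0 from Subtype.ext x.2) fun ζ hζ => ?_
    rw [← chiN_spec H.hr m (g * h) hζ]
    show g (h ζ) = _
    rw [chiN_spec H.hr m h hζ, map_pow, chiN_spec H.hr m g hζ, ← pow_mul]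
  central g h x := by
    rw [natCast_zsmul, natCast_zsmul]
    exact Subtype.ext ((trace_props H m g).1 h x x.2)

theorem cay_chi (m : ℕ) (g : GalQ) : (cay H m).chi g = (chiN r m g : ℤ) := rfl

theorem cay_chi_smul (m : ℕ) (g : GalQ) (x : (raw H).tor m) :
    (cay H m).chi g • x = chiN r m g • x := natCast_zsmul _ _

theorem cay_chi_eq {m : ℕ} {g : GalQ} {a : ℕ} (ha : ∀ ζ : Qb, ζ ^ (r ^ m) = 1 → g ζ = ζ ^ a)
    (x : (raw H).tor m) : (cay H m).chi g • x = a • x := by
  rw [cay_chi_smul]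
  exact (nsmul_chiN H.hr (show r ^ m • x = 0 from Subtype.ext x.2) ha).symm

theorem cay_one (m : ℕ) (x : (raw H).tor m) : (cay H m).chi 1 • x = x := by
  rw [cay_chi_eq H (a := 1) (fun ζ _ => by rw [pow_one]; rfl), one_nsmul]

theorem conn (m : ℕ) : Alg2.Conn (cay H m) ((raw H).tor0 m) where
  trace_mem g y hy := by
    rw [cay_chi_smul]
    exact (trace_props H m g).2 _ hy y.2
  core y hy h := Subtype.ext ((raw H).core hy h)

theorem tor_inertia {m : ℕ} {τ : GalQ} (hτ : τ ∈ A.inertiaSubgroupIn ℚ) (x : (raw H).tor m) :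
    τ • x - x ∈ (raw H).tor0 m := inertia_mem H hτ _

theorem cycloW (k : ℕ) (τ : GalQ) (hτ : τ ∈ A.inertiaSubgroupIn ℚ) (n : ℕ)
    (hn : ∀ ζ : Qb, ζ ^ (r ^ k) = 1 → τ ζ = ζ ^ n) (x : (raw H).W) (hx : x ∈ (raw H).W0)
    (hxk : r ^ k • x = 0) : τ • x = n • x := by
  have h := Alg2.inertia_eq (conn H k) (tor_inertia H hτ) (y := (⟨x, hxk⟩ : (raw H).tor k)) hx
  rw [cay_chi_eq H hn] at h
  exact congrArg Subtype.val h

/-- Frobenius on the connected and on the etale part -/
theorem frob_rel {k : ℕ} {φ : GalQ} (hφ : A.IsFrobeniusAt φ r) (w : (raw H).W) (hw : r ^ k • w = 0) :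
    φ • φ • w - TW H (φ • w) + r • w ∈ (raw H).W0 := by
  obtain ⟨M, z, hz, rfl⟩ := (raw H).exists_lift hw
  rw [Raw.smul_qmk, Raw.smul_qmk, TW_qmk, ← map_nsmul, ← map_sub, ← map_add]
  refine ⟨M, _, ?_, rfl, ?_⟩
  · rw [nsmul_add, nsmul_sub, ← smul_nsmul', ← smul_nsmul', hz, smul_zero, smul_zero, ← map_nsmul,
      ← smul_nsmul', hz, smul_zero, map_zero, ← mul_nsmul', mul_comm, mul_nsmul', hz, nsmul_zero]
    simp
  · have hpr := (raw H).pr_mem M
    rw [map_add, map_sub, map_nsmul, ← (raw H).ring_commG hpr, ← (raw H).ring_commG hpr,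
      ring_comm_Tr H hpr, ← (raw H).ring_commG hpr]
    show reductionModL A p (((φ • φ • (raw H).pr M z - hkR p r (rPrime H) (φ • (raw H).pr M z) +
      r • (raw H).pr M z : JR p r)) : JZero p) = 0
    rw [AddSubgroup.coe_add, AddSubgroupClass.coe_sub, AddSubgroupClass.coe_nsmul, coe_hkR,
      coe_smul_JR, coe_smul_JR, map_add, map_sub, map_nsmul, ← HeckeJ.smul_hecke,
      Reduction.reductionModL_frobenius H.ctx hφ, Reduction.reductionModL_frobenius H.ctx hφ,
      Reduction.reductionModL_frobenius H.ctx hφ]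
    haveI : NeZero r := ⟨H.hr.ne_zero⟩
    exact Reduction.reductionModL_quadratic H.ctx _

theorem decomp_mem_W0 {φ : GalQ} (hφ : A.IsFrobeniusAt φ r) {w : (raw H).W} (hw : w ∈ (raw H).W0) :
    φ • w ∈ (raw H).W0 ∧ φ⁻¹ • w ∈ (raw H).W0 := by
  obtain ⟨m, z, hz, rfl, h⟩ := hw
  have hfr := Reduction.reductionModL_frobenius H.ctx hφ
  constructor
  · refine ⟨m, φ • z, (smul_nsmul' φ _ z).symm.trans (by rw [hz, smul_zero]), rfl, ?_⟩
    rw [← (raw H).ring_commG ((raw H).pr_mem m)]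
    show reductionModL A p ((φ • (raw H).pr m z : JR p r) : JZero p) = 0
    rw [coe_smul_JR, hfr, show reductionModL A p (((raw H).pr m z : JR p r) : JZero p) = 0 from h]
    haveI : NeZero r := ⟨H.hr.ne_zero⟩
    exact map_zero (DistribSMul.toAddMonoidHom (JZeroC (kA A) p) (frobS H.ctx))
  · refine ⟨m, φ⁻¹ • z, (smul_nsmul' φ⁻¹ _ z).symm.trans (by rw [hz, smul_zero]), rfl, ?_⟩
    rw [← (raw H).ring_commG ((raw H).pr_mem m)]
    show reductionModL A p ((φ⁻¹ • (raw H).pr m z : JR p r) : JZero p) = 0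
    have e := hfr (φ⁻¹ • (((raw H).pr m z : JR p r) : JZero p))
    rw [smul_inv_smul, show reductionModL A p (((raw H).pr m z : JR p r) : JZero p) = 0 from h] at e
    rw [coe_smul_JR]
    exact (smul_eq_zero_iff_eq _).mp e.symm

/-- a bound for the fixed points of the square of Frobenius on the special fibre -/
def FixBound (p r : ℕ) [NeZero p] (A : ValuationSubring Qb) (C : Ctx A p r) (a : ℕ) : Prop :=
  ∀ x : JZero p, (∃ k, r ^ k • x = 0) →
    frobS C • frobS C • reductionModL A p x = reductionModL A p x →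
      r ^ a • reductionModL A p x = 0

variable {a : ℕ} (hfix : FixBound p r A H.ctx a)
include hfix

theorem fix_mem {φ : GalQ} (hφ : A.IsFrobeniusAt φ r) {w : (raw H).W}
    (h : φ • φ • w - w ∈ (raw H).W0) : r ^ a • w ∈ (raw H).W0 := by
  obtain ⟨z, rfl⟩ := (raw H).qmk_surjective w
  obtain ⟨M, hM⟩ := z.2
  have hz : r ^ M • z = 0 := Subtype.ext hM
  have hz' : r ^ M • (φ • φ • z - z) = 0 := by
    rw [nsmul_sub, hz, sub_zero, ← mul_smul]
    exact (smul_nsmul' (φ * φ) _ z).symm.trans (by rw [hz, smul_zero])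
  rw [Raw.smul_qmk, Raw.smul_qmk, ← map_sub, (raw H).mem_W0_iff hz'] at h
  have hpr := (raw H).pr_mem M
  rw [map_sub, ← (raw H).ring_commG hpr, ← (raw H).ring_commG hpr] at h
  replace h : reductionModL A p (((φ • φ • (raw H).pr M z - (raw H).pr M z : JR p r)) : JZero p) = 0 := h
  rw [AddSubgroupClass.coe_sub, coe_smul_JR, coe_smul_JR, map_sub,
    Reduction.reductionModL_frobenius H.ctx hφ, Reduction.reductionModL_frobenius H.ctx hφ,
    sub_eq_zero] at h
  rw [← map_nsmul, (raw H).mem_W0_iff (show r ^ M • (r ^ a • z) = 0 by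
    rw [← mul_nsmul', mul_comm, mul_nsmul', hz, nsmul_zero]), map_nsmul]
  show reductionModL A p ((r ^ a • (raw H).pr M z : JR p r) : JZero p) = 0
  rw [AddSubgroupClass.coe_nsmul, map_nsmul]
  exact hfix _ ⟨M, congrArg Subtype.val (by rw [← map_nsmul, hz, map_zero] :
    r ^ M • (raw H).pr M z = 0)⟩ h

/-- the local theory at `r` applies -/
theorem localR : LocalR (raw H).W r A (raw H).W0 (TW H) a where
  hr := H.hr
  hA := H.hA
  cont := contW H
  div w := by
    obtain ⟨m, hm⟩ := exists_kill H w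
    exact (raw H).exists_div H.hr.ne_zero hm
  T_comm := TW_smul H
  T_mem _ hw := TW_mem H hw
  inertia _ hτ w := inertia_mem H hτ w
  cyclo := fun k τ hτ n hn x hx hxk => cycloW H k τ hτ n hn x hx hxk
  frob k := by
    obtain ⟨φ, hφ, hζ⟩ := exists_frobenius_fixing H.hr H.hA k
    have hχ : ∀ x : (raw H).tor k, (cay H k).chi φ • x = x := fun x => by
      rw [cay_chi_eq H (a := 1) (fun ζ h => by rw [pow_one]; exact hζ ζ h), one_nsmul]
    have hmem := fun (y : (raw H).tor k) (hy : y ∈ (raw H).tor0 k) => decomp_mem_W0 H hφ hy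
    refine ⟨φ, hφ.mem_decompositionSubgroup, hζ, fun w hw => frob_rel H hφ w hw, fun x hx hxk => ?_,
      fun x hx hxk hfx => ?_⟩
    · let T : (raw H).tor k →+ (raw H).tor k :=
        ((TW H).comp ((raw H).tor k).subtype).codRestrict ((raw H).tor k) fun y => by
          show r ^ k • TW H (y : (raw H).W) = 0
          rw [← map_nsmul, show r ^ k • (y : (raw H).W) = 0 from y.2, map_zero]
      have h := Alg2.frob_dual (r := (r : ℤ)) (conn H k) (fun y hy => (hmem y hy).1)
        (fun y hy => (hmem y hy).2) hχ T (fun g y => Subtype.ext (TW_smul H g _))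
        (fun y hy => TW_mem H hy)
        (fun y => by rw [natCast_zsmul]; exact frob_rel H hφ _ y.2)
        (y := (⟨x, hxk⟩ : (raw H).tor k)) hx
      rw [natCast_zsmul] at h
      exact congrArg Subtype.val h
    · have h := Alg2.frob_fixed (conn H k) (fun y hy => (hmem y hy).1) (fun y hy => (hmem y hy).2) hχ
        (j := 2) (n := ((r ^ a : ℕ) : ℤ)) (fun y hy => by
          rw [sq, mul_smul] at hy
          rw [natCast_zsmul]
          exact fix_mem H hfix hφ hy)
        (y := (⟨x, hxk⟩ : (raw H).tor k)) hx (by rw [sq, mul_smul]; exact Subtype.ext hfx)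
      rw [natCast_zsmul] at h
      exact congrArg Subtype.val h

omit hfix in
/-- every element is killed by a power of each Eisenstein operator -/
theorem exists_endW_pow (i : Idx p r) (w : (raw H).W) :
    ∃ k, ((raw H).endW (Xop p r i) (Subring.subset_closure ⟨i, rfl⟩))^[k] w = 0 := by
  obtain ⟨z, rfl⟩ := (raw H).qmk_surjective w
  obtain ⟨M, hM⟩ := z.2
  have hz : r ^ M • z = 0 := Subtype.ext hM
  obtain ⟨-, hnil⟩ := proj_mem_nilPart (raw H).X (raw H).r (raw H).fin (raw H).comm hz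
  obtain ⟨k, hk⟩ := hnil i
  refine ⟨k, ?_⟩
  have e : (raw H).qmk z = (raw H).qmk ((raw H).pr M z) := by
    rw [← sub_eq_zero, ← map_sub, Raw.qmk_eq_zero]
    refine ⟨M, by rw [nsmul_sub, ← map_nsmul, hz, map_zero, sub_zero], fun g => ?_⟩
    rw [map_sub, show (raw H).pr M ((raw H).pr M z) = (raw H).pr M z from
      proj_eq_self _ _ _ _ (proj_mem_nilPart _ _ _ _ hz) (by rw [← map_nsmul, hz, map_zero]),
      sub_self, smul_zero, map_zero]
  have hit : ∀ (n : ℕ) (y : JR p r),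
      ((raw H).endW (Xop p r i) (Subring.subset_closure ⟨i, rfl⟩))^[n] ((raw H).qmk y) =
        (raw H).qmk ((Xop p r i ^ n) y) := fun n => by
    induction n with
    | zero => intro y; rfl
    | succ n ih => intro y; rw [Function.iterate_succ_apply, Raw.endW_qmk, ih, pow_succ]; rfl
  rw [e, hit, show (Xop p r i ^ k) ((raw H).pr M z) = 0 from hk, map_zero]

end FLTAgent.EIS

end
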