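import Fermat.Agent.EIS.Constituents

/-!
Area EIS: constituents of a finite module whose formal traces are Eisenstein.
-/

set_option autoImplicit false

noncomputable section

namespace FLTAgent.EIS

/-- existence of a constituent line modulo any stable subgroup -/
theorem exists_line {G : Type} [Group G] {M : Type} [AddCommGroup M] [DistribMulAction G M]
    [Finite M] {r : ℕ} (hr : r.Prime) (hM : ∃ k, ∀ x : M, r ^ k • x = 0) (χ : G →* ZMod r)
    (htr : ∀ g : G, ∃ (c : ℕ) (u : M →+ M), (c : ZMod r) = χ g ∧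
      (∀ x, u x = g • x + c • g⁻¹ • x - (1 + c) • x) ∧
      (∀ (h : G) x, u (h • x) = h • u x) ∧ ∀ x, ∃ n, u^[n] x = 0)
    (N : AddSubgroup M) (hN : ∀ g : G, ∀ x ∈ N, g • x ∈ N) (hNtop : N ≠ ⊤) :
    ∃ x, x ∉ N ∧ r • x ∈ N ∧
      ((∀ g : G, g • x - x ∈ N) ∨ ∀ (g : G) (b : ℕ), (b : ZMod r) = χ g → g • x - b • x ∈ N) := by
  classical
  haveI := Fintype.ofFinite M
  haveI : NeZero r := ⟨hr.ne_zero⟩
  have hsm : ∀ (g : G) (n : ℕ) (x : M), g • n • x = n • g • x := fun g n x =>
    map_nsmul (DistribSMul.toAddMonoidHom M g) n x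
  let 𝒮 : Set (AddSubgroup M) :=
    {S | N < S ∧ (∀ g : G, ∀ x ∈ S, g • x ∈ S) ∧ ∀ x ∈ S, r • x ∈ N}
  have hne : 𝒮.Nonempty := by
    let S : AddSubgroup M := N.comap (nsmulAddMonoidHom r)
    refine ⟨S, lt_of_le_of_ne (fun x hx => nsmul_mem hx r) fun hNS => hNtop ?_, fun g x hx => ?_,
      fun x hx => hx⟩
    · have hall : ∀ (j : ℕ) (x : M), r ^ j • x ∈ N → x ∈ N := by
        intro j
        induction j with
        | zero => intro x hx; rwa [pow_zero, one_nsmul] at hx
        | succ j ih =>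
          intro x hx
          refine ih x ?_
          have : r • r ^ j • x ∈ N := by rw [← mul_nsmul', ← pow_succ']; exact hx
          exact hNS ▸ (show r ^ j • x ∈ S from this)
      obtain ⟨k, hk⟩ := hM
      exact eq_top_iff.mpr fun x _ => hall k x (by rw [hk]; exact zero_mem N)
    · show r • g • x ∈ N
      rw [← hsm]
      exact hN g _ hx
  obtain ⟨S, hS, hmin⟩ := (Set.toFinite 𝒮).exists_minimal hne
  obtain ⟨hNS, hSst, hSr⟩ := hS
  let Q := S ⧸ N.addSubgroupOf S
  let π : S →+ Q := QuotientAddGroup.mk' _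
  letI : SMul G Q :=
    ⟨fun g => QuotientAddGroup.map _ _
      (((DistribSMul.toAddMonoidHom M g).comp S.subtype).codRestrict S fun x => hSst g x x.2)
      fun x hx => hN g _ hx⟩
  have hπ : ∀ (g : G) (x : S), g • π x = π ⟨g • (x : M), hSst g x x.2⟩ := fun g x => rfl
  have hsurj : Function.Surjective π := QuotientAddGroup.mk'_surjective _
  have hπ0 : ∀ x : S, π x = 0 ↔ (x : M) ∈ N := fun x => QuotientAddGroup.eq_zero_iff x
  letI : DistribMulAction G Q :=
    { one_smul := fun q => by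
        obtain ⟨x, rfl⟩ := hsurj q
        rw [hπ]
        exact congrArg π (Subtype.ext (one_smul G (x : M)))
      mul_smul := fun g h q => by
        obtain ⟨x, rfl⟩ := hsurj q
        rw [hπ, hπ, hπ]
        exact congrArg π (Subtype.ext (mul_smul g h (x : M)))
      smul_zero := fun g => map_zero (QuotientAddGroup.map _ _ _ _)
      smul_add := fun g => map_add (QuotientAddGroup.map _ _ _ _) }
  haveI : Finite Q := Quotient.finite _
  let a : G → ℕ := fun g => (χ g).val
  have hQr : ∀ s : Q, r • s = 0 := fun s => by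
    obtain ⟨x, rfl⟩ := hsurj s
    rw [← map_nsmul]
    exact (hπ0 _).mpr (hSr _ x.2)
  have hcast : ∀ (b b' : ℕ) (s : Q), (b : ZMod r) = b' → b • s = b' • s := by
    intro b b' s h
    rw [ZMod.natCast_eq_natCast_iff'] at h
    rw [← Nat.mod_add_div b r, ← Nat.mod_add_div b' r, add_nsmul, add_nsmul, mul_nsmul, mul_nsmul,
      hQr, h]
    simp
  -- the trace form on the quotient
  have hu : ∀ g : G, ∃ u : M →+ M, (∀ (h : G) x, u (h • x) = h • u x) ∧ (∀ x, ∃ n, u^[n] x = 0) ∧
      ∀ x : S, ∃ y : S, (y : M) = u x ∧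
        g • (g • π x - a g • π x) - (g • π x - a g • π x) = g • π y := by
    intro g
    obtain ⟨c, u, hc, huv, huc, hun⟩ := htr g
    refine ⟨u, huc, hun, fun x => ⟨⟨u x, ?_⟩, rfl, ?_⟩⟩
    · rw [huv]
      exact sub_mem (add_mem (hSst g _ x.2) (nsmul_mem (hSst g⁻¹ _ x.2) _)) (nsmul_mem x.2 _)
    · have hy : π ⟨u x, by
          rw [huv]
          exact sub_mem (add_mem (hSst g _ x.2) (nsmul_mem (hSst g⁻¹ _ x.2) _)) (nsmul_mem x.2 _)⟩ =
          g • π x + c • g⁻¹ • π x - (1 + c) • π x := by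
        rw [hπ, hπ, ← map_nsmul, ← map_nsmul, ← map_add, ← map_sub]
        exact congrArg π (Subtype.ext (huv x))
      have hac : ∀ s : Q, a g • s = c • s := fun s =>
        hcast _ _ s (by rw [hc, ZMod.natCast_zmod_val])
      have hq : ∀ (h : G) (n : ℕ) (s : Q), h • n • s = n • h • s := fun h n s =>
        map_nsmul (DistribSMul.toAddMonoidHom Q h) n s
      rw [hy, hac, smul_sub, smul_sub, smul_add, hq, hq, hq, smul_inv_smul, add_nsmul, one_nsmul]
      abel
  choose u huc hun huy using hu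
  have hnil : ∀ g : G, ∃ k : ℕ, ∀ s : Q,
      ((fun y => g • (g • y - a g • y) - (g • y - a g • y))^[k]) s = 0 := by
    intro g
    choose k hk using hun g
    refine ⟨Finset.univ.sup k, fun s => ?_⟩
    have key : ∀ (n : ℕ) (x : S), (u g)^[n] (x : M) = 0 →
        ((fun y => g • (g • y - a g • y) - (g • y - a g • y))^[n]) (π x) = 0 := by
      intro n
      induction n with
      | zero =>
        intro x hx
        show π x = 0
        rw [hπ0, show (x : M) = 0 from hx]
        exact zero_mem N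
      | succ n ih =>
        intro x hx
        obtain ⟨y, hy, hyq⟩ := huy g x
        rw [Function.iterate_succ_apply]
        show ((fun y => g • (g • y - a g • y) - (g • y - a g • y))^[n])
          (g • (g • π x - a g • π x) - (g • π x - a g • π x)) = 0
        rw [hyq, hπ]
        refine ih _ ?_
        show (u g)^[n] (g • (y : M)) = 0
        rw [Function.Commute.iterate_left (f := u g) (g := fun z : M => g • z) (fun z => huc g g z) n,
          hy, ← Function.iterate_succ_apply (u g) n, hx]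
        exact smul_zero g
    obtain ⟨x, rfl⟩ := hsurj s
    refine key _ x ?_
    rw [← Nat.sub_add_cancel (Finset.le_sup (f := k) (Finset.mem_univ (x : M))),
      Function.iterate_add_apply, hk]
    exact Function.iterate_fixed (map_zero (u g)) _
  have hcent : ∀ g h : G, ∀ s : Q,
      h • (g • (g • s - a g • s) - (g • s - a g • s)) =
        g • (g • (h • s) - a g • (h • s)) - (g • (h • s) - a g • (h • s)) ∨
      h • g⁻¹ • (g • (g • s - a g • s) - (g • s - a g • s)) =
        g⁻¹ • (g • (g • (h • s) - a g • (h • s)) - (g • (h • s) - a g • (h • s))) := by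
    intro g h s
    obtain ⟨x, rfl⟩ := hsurj s
    obtain ⟨y, hy, hyq⟩ := huy g x
    obtain ⟨y', hy', hyq'⟩ := huy g ⟨h • (x : M), hSst h x x.2⟩
    refine Or.inr ?_
    rw [hyq, inv_smul_smul, hπ h x, hyq', inv_smul_smul, hπ]
    refine congrArg π (Subtype.ext ?_)
    show h • (y : M) = (y' : M)
    rw [hy, hy', huc]
  have hQne : ∃ s : Q, s ≠ 0 := by
    obtain ⟨x, hxS, hxN⟩ := SetLike.exists_of_lt hNS
    exact ⟨π ⟨x, hxS⟩, fun h => hxN ((hπ0 _).mp h)⟩
  have hsimple : ∀ R : AddSubgroup Q, (∀ g : G, ∀ s ∈ R, g • s ∈ R) → R ≠ ⊥ → R = ⊤ := by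
    intro R hR hRne
    let R' : AddSubgroup M := (R.comap π).map S.subtype
    have hR'S : R' ≤ S := by rintro _ ⟨x, -, rfl⟩; exact x.2
    have hNR : N ≤ R' := fun x hx =>
      ⟨⟨x, hNS.le hx⟩, show π ⟨x, hNS.le hx⟩ ∈ R by rw [(hπ0 _).mpr hx]; exact zero_mem R, rfl⟩
    have hmem : R' ∈ 𝒮 := by
      refine ⟨lt_of_le_of_ne hNR fun hNR' => hRne ?_, ?_, fun x hx => hSr x (hR'S hx)⟩
      · rw [eq_bot_iff]
        intro s hs
        obtain ⟨x, rfl⟩ := hsurj s
        have : (x : M) ∈ N := hNR'.symm ▸ (⟨x, hs, rfl⟩ : (x : M) ∈ R')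
        exact AddSubgroup.mem_bot.mpr ((hπ0 x).mpr this)
      · rintro g _ ⟨x, hx, rfl⟩
        exact ⟨⟨g • (x : M), hSst g x x.2⟩, show π _ ∈ R by rw [← hπ]; exact hR g _ hx, rfl⟩
    rw [eq_top_iff]
    intro s _
    obtain ⟨x, rfl⟩ := hsurj s
    obtain ⟨x', hx', he⟩ := hmin hmem hR'S x.2
    exact (Subtype.ext he : x' = x) ▸ hx'
  obtain ⟨s, hs0, hs⟩ := exists_eigen hr hQne hQr hsimple χ a (fun g => ZMod.natCast_zmod_val _)
    hnil hcent
  obtain ⟨x, rfl⟩ := hsurj s
  refine ⟨x, fun hx => hs0 ((hπ0 x).mpr hx), hSr _ x.2, hs.imp (fun h g => ?_) fun h g b hb => ?_⟩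
  · have h' := h g
    rw [← sub_eq_zero, hπ, ← map_sub, hπ0] at h'
    exact h'
  · have h' := h g
    rw [hcast (a g) b _ (by rw [hb, ZMod.natCast_zmod_val]), ← sub_eq_zero, hπ, ← map_nsmul,
      ← map_sub, hπ0] at h'
    exact h'

end FLTAgent.EIS

end
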