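import Fermat.Agent.EIS.Setup
import Fermat.Agent.EIS.Simple

/-!
Area EIS: the constituents of the Eisenstein quotient and the hypotheses of the dévissage.
-/

set_option autoImplicit false
set_option linter.unusedSectionVars false
set_option linter.style.haveILetI false

noncomputable section

open ModularCurve
open FLTAgent.Attach (cyc)

namespace FLTAgent.EIS

variable {p r : ℕ} [NeZero p] {A : ValuationSubring Qb} (H : Cond p r A) {a : ℕ}

/-- the trace on a finite level is nilpotent and central -/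
theorem exists_trace_tor (m : ℕ) (g : GalQ) :
    ∃ (c : ℕ) (u : (raw H).tor m →+ (raw H).tor m),
      (c : ZMod r) = (haveI : NeZero r := ⟨H.hr.ne_zero⟩; cyc r g) ∧
      (∀ x, u x = g • x + c • g⁻¹ • x - (1 + c) • x) ∧
      (∀ (h : GalQ) x, u (h • x) = h • u x) ∧ ∀ x, ∃ n, u^[n] x = 0 := by
  haveI : NeZero r := ⟨H.hr.ne_zero⟩
  obtain ⟨i, q, hq, c, hc, h⟩ := exists_traceW H g (m + 1)
  let E := (raw H).endW (q * Xop p r i) (mul_mem hq (Subring.subset_closure ⟨i, rfl⟩))
  let u : (raw H).tor m →+ (raw H).tor m :=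
    AddMonoidHom.codRestrict (E.comp ((raw H).tor m).subtype) ((raw H).tor m) fun x => by
      show r ^ m • E (x : (raw H).W) = 0
      rw [← map_nsmul, show r ^ m • (x : (raw H).W) = 0 from x.2, map_zero]
  refine ⟨c, u, ?_, fun x => Subtype.ext ?_, fun h' x => Subtype.ext (Raw.endW_smul (raw H) (q * Xop p r i) (mul_mem hq (Subring.subset_closure ⟨i, rfl⟩)) h' (x : (raw H).W)),
    fun x => ?_⟩
  · refine (Attach.cyc_unique g _ fun z hz => ?_).symm
    rw [hc z (by rw [pow_succ', pow_mul, hz, one_pow]), ZMod.val_natCast, ← pow_eq_pow_mod c hz]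
  · have hx : r ^ (m + 1) • (x : (raw H).W) = 0 := by
      rw [pow_succ', mul_nsmul', show r ^ m • (x : (raw H).W) = 0 from x.2, nsmul_zero]
    show E (x : (raw H).W) =
      g • (x : (raw H).W) + c • g⁻¹ • (x : (raw H).W) - (1 + c) • (x : (raw H).W)
    rw [h _ hx, add_sub_cancel_left]
  · obtain ⟨k, hk⟩ := exists_endW_pow H i (x : (raw H).W)
    let X := (raw H).endW (Xop p r i) (Subring.subset_closure ⟨i, rfl⟩)
    let P := (raw H).endW q hq
    have hXP : ∀ w, X (P w) = P (X w) := fun w => by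
      obtain ⟨z, rfl⟩ := (raw H).qmk_surjective w
      exact congrArg (raw H).qmk (DFunLike.congr_fun
        (closure_comm (raw H).X (raw H).comm (Subring.subset_closure ⟨i, rfl⟩) hq) z)
    have hE : ∀ w, E w = P (X w) := fun w => by
      obtain ⟨z, rfl⟩ := (raw H).qmk_surjective w
      rfl
    have key : ∀ (n : ℕ) (y : (raw H).tor m),
        ((u^[n] y : (raw H).tor m) : (raw H).W) = P^[n] (X^[n] (y : (raw H).W)) := by
      intro n
      induction n with
      | zero => intro y; rfl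
      | succ n ih =>
        intro y
        rw [Function.iterate_succ_apply, ih]
        show P^[n] (X^[n] (E (y : (raw H).W))) = _
        rw [hE, (Function.Commute.iterate_left (f := X) (g := P) hXP n), ← Function.iterate_succ_apply P,
          ← Function.iterate_succ_apply X]
    exact ⟨k, Subtype.ext (by rw [key, hk]; exact Function.iterate_fixed (map_zero P) k)⟩

set_option maxHeartbeats 8000000 in
/-- the constituents are trivial or cyclotomic -/
theorem constituents (m : ℕ) (N : AddSubgroup ((raw H).tor m))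
    (hN : ∀ (σ : GalQ), ∀ x ∈ N, σ • x ∈ N) (hNtop : N ≠ ⊤) :
    ∃ x, x ∉ N ∧ r • x ∈ N ∧
      ((∀ σ : GalQ, σ • x - x ∈ N) ∨
        ∀ (σ : GalQ) (a : ℕ), (∀ ζ : Qb, ζ ^ r = 1 → σ ζ = ζ ^ a) → σ • x - a • x ∈ N) := by
  haveI := (raw H).finite_tor m
  haveI : NeZero r := ⟨H.hr.ne_zero⟩
  refine (exists_line H.hr ⟨m, fun x => Subtype.ext x.2⟩
    ({ toFun := cyc r, map_one' := Attach.cyc_one r, map_mul' := Attach.cyc_mul r } : GalQ →* ZMod r)
    (fun g => exists_trace_tor H m g) N hN hNtop).imp fun x hx => ⟨hx.1, hx.2.1, hx.2.2.imp id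
      fun h σ b hb => h σ b ?_⟩
  refine (Attach.cyc_unique σ _ fun z hz => ?_).symm
  rw [hb z hz, ZMod.val_natCast, ← pow_eq_pow_mod b hz]

theorem unramW {ℓ : ℕ} (hℓ : ℓ.Prime) (hℓp : ℓ ≠ p) (hℓr : ℓ ≠ r) {B : ValuationSubring Qb}
    (hB : B.LiesOverPrime ℓ) {τ : GalQ} (hτ : τ ∈ B.inertiaSubgroupIn ℚ) (w : (raw H).W) :
    τ • w = w := by
  obtain ⟨z, rfl⟩ := (raw H).qmk_surjective w
  obtain ⟨M, hM⟩ := z.2
  rw [Raw.smul_qmk]
  refine congrArg (raw H).qmk (Subtype.ext ?_)
  exact Reduction.inertia_trivial p hℓ (fun h => hℓp ((Nat.prime_dvd_prime_iff_eq hℓ H.hp).mp h)) B hB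
    hτ (fun h => hℓr ((Nat.prime_dvd_prime_iff_eq hℓ H.hr).mp (hℓ.dvd_of_dvd_pow h))) hM

/-- the hypotheses of the dévissage -/
theorem hyp (hfix : FixBound p r A H.ctx a) (m : ℕ) : Hyp ((raw H).tor m) p r A ((raw H).tor0 m) where
  hr := H.hr
  hA := H.hA
  finite := (raw H).finite_tor m
  cont := contTor H m
  killed := ⟨m, fun x => Subtype.ext x.2⟩
  unram ℓ hℓ hℓp hℓr x B hB τ hτ := sub_eq_zero.mpr (Subtype.ext (unramW H hℓ hℓp hℓr hB hτ _))
  constituents N hN hNtop := constituents H m N hN hNtop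
  cyclo k hk τ hτ a ha x hx := by
    refine Subtype.ext (cycloW H k τ hτ a ha _ hx ?_)
    have := congrArg Subtype.val (hk x)
    rwa [AddSubgroupClass.coe_nsmul] at this
  conn x := (localR H hfix).unitAt_bdry ((raw H).tor m).subtype Subtype.val_injective
    (fun _ _ => rfl) (m := m) (show r ^ m • x = 0 from Subtype.ext x.2)

end FLTAgent.EIS

end
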