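import Fermat.Agent.EIS.Defs
import Fermat.Agent.SS2.Inertia
import Fermat.Agent.Attach.Cyclotomic

/-!
Area EIS, parcel G: inertia at `q` of a finite Galois extension whose inertia has `r`-power exponent
(`r ≠ q`) is cyclic, and Frobenius conjugates a generator to its `q`-th power.
-/

set_option autoImplicit false
set_option linter.unusedSectionVars false

noncomputable section

open IsLocalRing

namespace FLTAgent.EIS

variable {B : ValuationSubring Qb}

theorem smul_mem_of_decomp {σ : GalQ} (hσ : σ ∈ B.decompositionSubgroup ℚ) {x : Qb} :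
    σ x ∈ B ↔ x ∈ B := by
  have key : ∀ τ : GalQ, τ ∈ B.decompositionSubgroup ℚ → ∀ y ∈ B, τ y ∈ B := fun τ hτ y hy => by
    exact (((⟨τ, hτ⟩ : B.decompositionSubgroup ℚ) • (⟨y, hy⟩ : B)) : B).2
  refine ⟨fun h => ?_, key σ hσ x⟩
  have := key σ⁻¹ (inv_mem hσ) _ h
  rwa [show σ⁻¹ (σ x) = x from σ.symm_apply_apply x] at this

theorem decomp_of_inertia {σ : GalQ} (hσ : σ ∈ B.inertiaSubgroupIn ℚ) :
    σ ∈ B.decompositionSubgroup ℚ :=
  (Attach.inertia_smul_residue hσ).1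

/-- a decomposition element of finite order on `x` preserves its valuation -/
theorem valuation_apply_eq {σ : GalQ} (hσ : σ ∈ B.decompositionSubgroup ℚ) {x : Qb}
    {n : ℕ} (hn : 0 < n) (hx : (σ ^ n) x = x) : B.valuation (σ x) = B.valuation x := by
  have step : ∀ a b : Qb, B.valuation a ≤ B.valuation b → B.valuation (σ a) ≤ B.valuation (σ b) := by
    intro a b hab
    rcases eq_or_ne b 0 with rfl | hb
    · rw [map_zero, le_zero_iff, map_eq_zero] at hab
      simp [hab]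
    · have hm : a / b ∈ B := (B.valuation_le_one_iff _).mp (by
        rw [map_div₀]
        exact div_le_one_of_le₀ hab zero_le)
      have := (B.valuation_le_one_iff _).mpr ((smul_mem_of_decomp hσ).mpr hm)
      rw [map_div₀, map_div₀] at this
      exact (div_le_one₀ (zero_lt_iff.mpr (by simpa using hb))).mp this
  have hper : ∀ k, B.valuation ((σ ^ k) x) ≤ B.valuation x → B.valuation ((σ ^ (k + 1)) x) ≤
      B.valuation (σ x) := fun k hk => by
    have := step _ _ hk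
    rwa [pow_succ']
  obtain ⟨n, rfl⟩ : ∃ m, n = m + 1 := ⟨n - 1, by omega⟩
  rcases le_total (B.valuation (σ x)) (B.valuation x) with h | h
  · refine le_antisymm h ?_
    have hall : ∀ k, B.valuation ((σ ^ (k + 1)) x) ≤ B.valuation (σ x) := by
      intro k
      induction k with
      | zero => rw [zero_add, pow_one]
      | succ k ih => exact hper (k + 1) (ih.trans h)
    have := hall n
    rwa [hx] at this
  · refine le_antisymm ?_ h
    have hall : ∀ k, B.valuation (σ x) ≤ B.valuation ((σ ^ (k + 1)) x) := by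
      intro k
      induction k with
      | zero => rw [zero_add, pow_one]
      | succ k ih =>
        have := step _ _ (h.trans ih)
        rwa [pow_succ' σ (k + 1)]
    have := hall n
    rwa [hx] at this

theorem exists_pow_fix (L : IntermediateField ℚ Qb) [FiniteDimensional ℚ L]
    (hL : ∀ σ : GalQ, ∀ x ∈ L, σ x ∈ L) (σ : GalQ) :
    ∃ n, 0 < n ∧ ∀ x ∈ L, (σ ^ n) x = x := by
  let res : GalQ → (L →ₐ[ℚ] L) := fun g =>
    (g.toAlgHom.comp L.val).codRestrict L.toSubalgebra fun x => hL g x x.2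
  obtain ⟨i, j, hij, h⟩ := Finite.exists_ne_map_eq_of_infinite fun k : ℕ => res (σ ^ k)
  wlog hlt : i < j generalizing i j
  · exact this j i hij.symm h.symm (by omega)
  refine ⟨j - i, by omega, fun x hx => ?_⟩
  have := congrArg (fun f : L →ₐ[ℚ] L => ((f ⟨x, hx⟩ : L) : Qb)) h
  change (σ ^ i) x = (σ ^ j) x at this
  rw [show j = i + (j - i) by omega, pow_add] at this
  exact ((σ ^ i).injective this).symm

/-- elements of the value group of a finite extension have bounded denominators -/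
theorem exists_zpow_of_finite {q : ℕ} (hq : q.Prime) (hB : B.LiesOverPrime q)
    (L : IntermediateField ℚ Qb) [FiniteDimensional ℚ L] (hL : ∀ σ : GalQ, ∀ x ∈ L, σ x ∈ L) :
    ∃ D : ℕ, 0 < D ∧ ∀ x ∈ L, x ≠ 0 → ∃ i : ℤ, B.valuation x ^ D = B.valuation (q : Qb) ^ i := by
  classical
  let H : Set (L →ₐ[ℚ] L) := Set.range fun g : B.inertiaSubgroupIn ℚ =>
    ((g : GalQ).toAlgHom.comp L.val).codRestrict L.toSubalgebra fun x => hL g x x.2
  haveI : Fintype H := Fintype.ofFinite H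
  refine ⟨Fintype.card H, Fintype.card_pos_iff.mpr ⟨⟨_, ⟨1, rfl⟩⟩⟩, fun x hx hx0 => ?_⟩
  let y : Qb := ∏ h : H, ((h.1 ⟨x, hx⟩ : L) : Qb)
  have hv : ∀ h : H, B.valuation ((h.1 ⟨x, hx⟩ : L) : Qb) = B.valuation x := by
    rintro ⟨_, g, rfl⟩
    obtain ⟨n, hn, hfix⟩ := exists_pow_fix L hL (g : GalQ)
    exact valuation_apply_eq (decomp_of_inertia g.2) hn (hfix x hx)
  have hy : B.valuation y = B.valuation x ^ Fintype.card H := by
    rw [map_prod, Finset.prod_congr rfl fun h _ => hv h, Finset.prod_const, Finset.card_univ]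
  have hy0 : y ≠ 0 := fun h => by
    rw [h, map_zero, eq_comm, pow_eq_zero_iff', map_eq_zero] at hy
    exact hx0 hy.1
  have hfixy : y ∈ SS2.inertiaFixed B := by
    rw [SS2.mem_inertiaFixed]
    intro g hg
    let gL : L →ₐ[ℚ] L := (g.toAlgHom.comp L.val).codRestrict L.toSubalgebra fun z => hL g z z.2
    let mv : H → H := fun h => ⟨gL.comp h.1, by
      obtain ⟨g', hg'⟩ := h.2
      exact ⟨⟨g * g', mul_mem hg g'.2⟩, by rw [← hg']; rfl⟩⟩
    have hinj : Function.Injective mv := fun a b hab => Subtype.ext (AlgHom.ext fun z => by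
      have := congrArg (fun f : H => ((f.1 z : L) : Qb)) hab
      exact Subtype.ext (g.injective this))
    rw [map_prod]
    exact Fintype.prod_bijective mv ⟨hinj, Finite.surjective_of_injective hinj⟩ _ _ fun h => rfl
  obtain ⟨i, hi⟩ := SS2.exists_zpow_valuation_T hq hB hfixy hy0
  exact ⟨i, hy ▸ hi⟩

theorem mem_B_of_valuation_eq_one {x : Qb} (hx : B.valuation x = 1) : x ∈ B :=
  (B.valuation_le_one_iff x).mp hx.le

/-- the residue of `τ z / z`, read through the residue map -/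
def tameChar (B : ValuationSubring Qb) (τ : GalQ) (z : Qb) : ResidueField B :=
  open Classical in if h : τ z / z ∈ B then residue B ⟨τ z / z, h⟩ else 0

theorem tameChar_eq {τ : GalQ} {z u : Qb} (hu : u ∈ B) (h : τ z / z = u) :
    tameChar B τ z = residue B ⟨u, hu⟩ := by
  subst h; rw [tameChar, dif_pos hu]

/-- Cyclic tame inertia with its Frobenius relation. -/
theorem exists_tame_generator {q r k : ℕ} (hq : q.Prime) (hB : B.LiesOverPrime q) (hr : r.Prime)
    (hrq : r ≠ q) (L : IntermediateField ℚ Qb) [FiniteDimensional ℚ L]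
    (hL : ∀ σ : GalQ, ∀ x ∈ L, σ x ∈ L) (hζ : ∀ ζ : Qb, ζ ^ r = 1 → ζ ∈ L)
    (hk : ∀ τ ∈ B.inertiaSubgroupIn ℚ, ∀ x ∈ L, (τ ^ (r ^ k)) x = x) :
    ∃ σ ∈ B.inertiaSubgroupIn ℚ,
      (∀ τ ∈ B.inertiaSubgroupIn ℚ, ∃ n : ℕ, ∀ x ∈ L, τ x = (σ ^ n) x) ∧
      ∀ φ : GalQ, B.IsFrobeniusAt φ q → ∀ x ∈ L, (φ * σ * φ⁻¹) x = (σ ^ q) x := by
  classical
  have hrk : ¬ q ∣ r := fun h => hrq ((Nat.prime_dvd_prime_iff_eq hq hr).mp h).symm
  obtain ⟨D, hD, hval⟩ := exists_zpow_of_finite hq hB L hL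
  choose i hi using hval
  have hqv : B.valuation (q : Qb) < 1 := hB
  have hqv0 : (B.valuation (q : Qb)) ≠ 0 := by simpa using hq.ne_zero
  have hinjz : ∀ a b : ℤ, B.valuation (q : Qb) ^ a = B.valuation (q : Qb) ^ b → a = b :=
    fun a b h => zpow_right_injective₀ (zero_lt_iff.mpr hqv0) hqv.ne h
  have hpow : ∀ a b : B.ValueGroup, a ^ D = b ^ D → a = b := fun a b h =>
    (pow_left_inj₀ zero_le zero_le hD.ne').mp h
  -- a generator of the value group
  let S : AddSubgroup ℤ :=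
    { carrier := {a | ∃ x, ∃ hx : x ∈ L, ∃ hx0 : x ≠ 0, i x hx hx0 = a}
      zero_mem' := ⟨1, one_mem L, one_ne_zero, hinjz _ _ (by rw [← hi, map_one, one_pow, zpow_zero])⟩
      add_mem' := by
        rintro a b ⟨x, hx, hx0, rfl⟩ ⟨y, hy, hy0, rfl⟩
        exact ⟨x * y, mul_mem hx hy, mul_ne_zero hx0 hy0,
          hinjz _ _ (by rw [← hi, map_mul, mul_pow, hi _ hx hx0, hi _ hy hy0, zpow_add₀ hqv0])⟩
      neg_mem' := by
        rintro a ⟨x, hx, hx0, rfl⟩
        exact ⟨x⁻¹, inv_mem hx, inv_ne_zero hx0,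
          hinjz _ _ (by rw [← hi, map_inv₀, inv_pow, hi _ hx hx0, zpow_neg])⟩ }
  obtain ⟨a, ha⟩ := Int.subgroup_cyclic S
  obtain ⟨z, hz, hz0, hza⟩ : a ∈ S := by rw [ha]; exact AddSubgroup.subset_closure rfl
  have hgen : ∀ x ∈ L, x ≠ 0 → ∃ n : ℤ, B.valuation x = B.valuation z ^ n := by
    intro x hx hx0
    have hm : i x hx hx0 ∈ S := ⟨x, hx, hx0, rfl⟩
    rw [ha, AddSubgroup.mem_closure_singleton] at hm
    obtain ⟨n, hn⟩ := hm
    refine ⟨n, hpow _ _ ?_⟩
    rw [hi x hx hx0, ← hn, ← zpow_natCast (B.valuation z ^ n), ← zpow_mul, mul_comm n, zpow_mul,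
      zpow_natCast, hi z hz hz0, hza, ← zpow_mul, smul_eq_mul, mul_comm a]
  -- residues of units are fixed by inertia
  have hres : ∀ τ (hτ : τ ∈ B.inertiaSubgroupIn ℚ), ∀ u (hu : u ∈ B),
      residue B ⟨τ u, (smul_mem_of_decomp (decomp_of_inertia hτ)).mpr hu⟩ = residue B ⟨u, hu⟩ := by
    intro τ hτ u hu
    obtain ⟨hd, h⟩ := Attach.inertia_smul_residue hτ
    have := h (residue B ⟨u, hu⟩)
    rw [← ResidueField.residue_smul] at this
    exact this
  have hvz : ∀ τ ∈ B.decompositionSubgroup ℚ, ∀ x ∈ L, B.valuation (τ x) = B.valuation x := by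
    intro τ hτ x hx
    obtain ⟨n, hn, hfix⟩ := exists_pow_fix L hL τ
    exact valuation_apply_eq hτ hn (hfix x hx)
  have hone : ∀ τ ∈ B.decompositionSubgroup ℚ, ∀ x ∈ L, x ≠ 0 → B.valuation (τ x / x) = 1 := by
    intro τ hτ x hx hx0
    rw [map_div₀, hvz τ hτ x hx, div_self ((map_ne_zero _).mpr hx0)]
  let χ : GalQ → ResidueField B := fun τ => tameChar B τ z
  -- the character of any element of `L` is a power of that of `z`
  have hchar : ∀ τ ∈ B.inertiaSubgroupIn ℚ, ∀ x ∈ L, x ≠ 0 → ∀ n : ℤ,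
      B.valuation x = B.valuation z ^ n → tameChar B τ x = χ τ ^ n := by
    intro τ hτ x hx hx0 n hn
    have hu : B.valuation (x / z ^ n) = 1 := by
      rw [map_div₀, map_zpow₀, hn, div_self (zpow_ne_zero _ ((map_ne_zero _).mpr hz0))]
    have huB := mem_B_of_valuation_eq_one hu
    have hτd := decomp_of_inertia hτ
    have h1 := mem_B_of_valuation_eq_one (hone τ hτd x hx hx0)
    have h2 := mem_B_of_valuation_eq_one (hone τ hτd z hz hz0)
    have h3 := hres τ hτ _ huB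
    have h4 : residue B ⟨x / z ^ n, huB⟩ ≠ 0 := by
      rw [Ne, residue_eq_zero_iff]
      intro hm
      have := (ValuationSubring.valuation_lt_one_iff B _).mp hm
      exact absurd this (by simpa using hu.ge)
    show tameChar B τ x = tameChar B τ z ^ n
    rw [tameChar_eq h1 rfl, tameChar_eq h2 rfl]
    -- split off the power of `z`
    let w : Bˣ := ⟨⟨τ z / z, h2⟩, ⟨z / τ z, mem_B_of_valuation_eq_one (by
        rw [← inv_div, map_inv₀, hone τ hτd z hz hz0, inv_one])⟩,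
      Subtype.ext (by
        show τ z / z * (z / τ z) = 1
        rw [div_mul_div_comm, mul_comm z, div_self (mul_ne_zero (by simpa using hz0) hz0)]),
      Subtype.ext (by
        show z / τ z * (τ z / z) = 1
        rw [div_mul_div_comm, mul_comm (τ z), div_self (mul_ne_zero hz0 (by simpa using hz0))])⟩
    have hw : ((((w ^ n : Bˣ)) : B) : Qb) = (τ z / z) ^ n := by
      have := map_zpow (Units.map (B.subtype : B →* Qb)) w n
      exact (congrArg Units.val this).trans (Units.val_zpow_eq_zpow_val _ _)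
    have hsplit : (⟨τ x / x, h1⟩ : B) * ⟨x / z ^ n, huB⟩ =
        ⟨τ (x / z ^ n), (smul_mem_of_decomp hτd).mpr huB⟩ * ((w ^ n : Bˣ) : B) := Subtype.ext (by
      show τ x / x * (x / z ^ n) = τ (x / z ^ n) * (((w ^ n : Bˣ) : B) : Qb)
      rw [hw, map_div₀, map_zpow₀, div_zpow]
      have hz' : (τ z) ^ n ≠ 0 := zpow_ne_zero _ (by simpa using hz0)
      field_simp)
    have h5 := congrArg (residue B) hsplit
    rw [map_mul, map_mul, h3, mul_comm (residue B ⟨x / z ^ n, huB⟩)] at h5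
    rw [mul_right_cancel₀ h4 h5]
    have := map_zpow (Units.map (residue B : B →* ResidueField B)) w n
    exact (congrArg Units.val this).trans (Units.val_zpow_eq_zpow_val _ _)
  have hmul : ∀ τ ∈ B.inertiaSubgroupIn ℚ, ∀ τ' ∈ B.inertiaSubgroupIn ℚ,
      χ (τ * τ') = χ τ * χ τ' := by
    intro τ hτ τ' hτ'
    have h' := mem_B_of_valuation_eq_one (hone τ' (decomp_of_inertia hτ') z hz hz0)
    have h1 := mem_B_of_valuation_eq_one (hone τ (decomp_of_inertia hτ) z hz hz0)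
    have h2 := mem_B_of_valuation_eq_one (hone _ (decomp_of_inertia (mul_mem hτ hτ')) z hz hz0)
    show tameChar B _ z = tameChar B _ z * tameChar B _ z
    rw [tameChar_eq h2 rfl, tameChar_eq h1 rfl, tameChar_eq h' rfl, ← hres τ hτ _ h', ← map_mul]
    refine congrArg (residue B) (Subtype.ext ?_)
    show τ (τ' z) / z = τ z / z * τ (τ' z / z)
    rw [map_div₀]
    have : τ z ≠ 0 := by simpa using hz0
    field_simp
  have hχ1 : χ 1 = 1 := by
    show tameChar B 1 z = 1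
    rw [tameChar_eq (one_mem B) (show (1 : GalQ) z / z = 1 by simp [hz0])]
    exact map_one (residue B)
  have hχpow : ∀ τ ∈ B.inertiaSubgroupIn ℚ, ∀ n : ℕ, χ (τ ^ n) = χ τ ^ n := by
    intro τ hτ n
    induction n with
    | zero => rw [pow_zero, pow_zero, hχ1]
    | succ n ih => rw [pow_succ, pow_succ, hmul _ (pow_mem hτ n) _ hτ, ih]
  have hker : ∀ τ ∈ B.inertiaSubgroupIn ℚ, χ τ = 1 → ∀ x ∈ L, τ x = x := by
    intro τ hτ hχτ
    by_contra hne
    push_neg at hne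
    have hex : ∃ j, ∀ x ∈ L, (τ ^ (r ^ j)) x = x := ⟨k, hk τ hτ⟩
    obtain ⟨j, hj⟩ : ∃ j, Nat.find hex = j + 1 := by
      refine ⟨Nat.find hex - 1, (Nat.succ_pred_eq_of_pos (Nat.pos_of_ne_zero fun h => ?_)).symm⟩
      obtain ⟨x, hx, hxne⟩ := hne
      have := Nat.find_spec hex x hx
      rw [h, pow_zero, pow_one] at this
      exact hxne this
    have hmin := Nat.find_min hex (show j < Nat.find hex by omega)
    push_neg at hmin
    obtain ⟨x, hx, hxne⟩ := hmin
    set τ' := τ ^ (r ^ j) with hτ'def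
    have hτ' : τ' ∈ B.inertiaSubgroupIn ℚ := pow_mem hτ _
    have hfix : ∀ y ∈ L, (τ' ^ r) y = y := fun y hy => by
      have := Nat.find_spec hex y hy
      rwa [hj, pow_succ, pow_mul] at this
    haveI : NeZero (r : Qb) := ⟨Nat.cast_ne_zero.mpr hr.ne_zero⟩
    obtain ⟨ζ, hζp⟩ := HasEnoughRootsOfUnity.exists_primitiveRoot Qb r
    have hζL : ζ ∈ L := hζ ζ hζp.pow_eq_one
    have hτζ : τ' ζ = ζ := by
      haveI : NeZero r := ⟨hr.ne_zero⟩
      have h1 := Attach.cyc_inertia (n := r) hq hrk hB hτ'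
      have h2 := Attach.cyc_spec (n := r) τ' hζp.pow_eq_one
      haveI : Fact (1 < r) := ⟨hr.one_lt⟩
      rw [h1, ZMod.val_one, pow_one] at h2
      exact h2
    let R : ℕ → Qb := fun l => ∑ s ∈ Finset.range r, (ζ ^ (l * s))⁻¹ * (τ' ^ s) x
    have hRL : ∀ l, R l ∈ L := fun l => sum_mem fun s _ =>
      mul_mem (inv_mem (pow_mem hζL _)) (hL _ x hx)
    have hτR : ∀ l, τ' (R l) = ζ ^ l * R l := by
      intro l
      let F : ℕ → Qb := fun s => (ζ ^ (l * s))⁻¹ * (τ' ^ s) x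
      have hF : τ' (R l) = ζ ^ l * ∑ s ∈ Finset.range r, F (s + 1) := by
        rw [map_sum, Finset.mul_sum]
        refine Finset.sum_congr rfl fun s _ => ?_
        rw [map_mul, map_inv₀, map_pow, hτζ]
        show (ζ ^ (l * s))⁻¹ * τ' ((τ' ^ s) x) = ζ ^ l * ((ζ ^ (l * (s + 1)))⁻¹ * (τ' ^ (s + 1)) x)
        rw [pow_succ' τ' s, mul_add, mul_one, pow_add, mul_inv, ← mul_assoc, ← mul_assoc,
          mul_comm (ζ ^ l), mul_assoc (ζ ^ (l * s))⁻¹, mul_inv_cancel₀ (pow_ne_zero _ (hζp.ne_zero hr.ne_zero)),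
          mul_one]
        rfl
      rw [hF]
      congr 1
      have h1 := Finset.sum_range_succ F r
      rw [Finset.sum_range_succ' F r] at h1
      have hF0 : F r = F 0 := by
        show (ζ ^ (l * r))⁻¹ * (τ' ^ r) x = (ζ ^ (l * 0))⁻¹ * (τ' ^ 0) x
        rw [hfix x hx, mul_comm l, pow_mul, hζp.pow_eq_one, one_pow, mul_zero, pow_zero, pow_zero]
        rfl
      rw [hF0] at h1
      exact add_right_cancel h1
    obtain ⟨l, hl, hl0, hRne⟩ : ∃ l, l < r ∧ l ≠ 0 ∧ R l ≠ 0 := by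
      by_contra hall
      push_neg at hall
      have hsum : ∑ l ∈ Finset.range r, R l = r * x := by
        rw [Finset.sum_comm, Finset.sum_eq_single 0]
        · simp
        · intro s hs hs0
          rw [← Finset.sum_mul]
          have hζs : (ζ ^ s)⁻¹ ≠ 1 := by
            rw [Ne, inv_eq_one]
            exact hζp.pow_ne_one_of_pos_of_lt hs0 (Finset.mem_range.mp hs)
          have hgeo : ∑ l ∈ Finset.range r, (ζ ^ (l * s))⁻¹ = 0 := by
            have hg := geom_sum_eq hζs r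
            rw [inv_pow, ← pow_mul, mul_comm s, pow_mul, hζp.pow_eq_one, one_pow, inv_one,
              sub_self, zero_div] at hg
            rw [← hg]
            exact Finset.sum_congr rfl fun l _ => by rw [inv_pow, ← pow_mul, mul_comm]
          rw [hgeo, zero_mul]
        · intro h; exact absurd (Finset.mem_range.mpr hr.pos) h
      rw [Finset.sum_eq_single_of_mem 0 (Finset.mem_range.mpr hr.pos)
        fun l hl hl0 => hall l (Finset.mem_range.mp hl) hl0] at hsum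
      refine hxne (mul_left_cancel₀ (Nat.cast_ne_zero.mpr hr.ne_zero : (r : Qb) ≠ 0) ?_)
      have h0 := hτR 0
      rw [hsum, pow_zero, one_mul, map_mul, map_natCast] at h0
      exact h0
    obtain ⟨n, hn⟩ := hgen _ (hRL l) hRne
    have h1 := hchar τ' hτ' _ (hRL l) hRne n hn
    rw [show χ τ' = 1 by rw [hτ'def, hχpow τ hτ, hχτ, one_pow], one_zpow] at h1
    have hζlB : ζ ^ l ∈ B := pow_mem (Attach.root_mem hr.pos hζp.pow_eq_one) l
    rw [tameChar_eq hζlB (by rw [hτR, mul_div_assoc, div_self hRne, mul_one])] at h1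
    have h2 := Attach.residue_injective_of_pow hr.pos hq hrk hB
      (z := (⟨ζ ^ l, hζlB⟩ : B)) (w := 1) (by
        show (ζ ^ l) ^ r = 1
        rw [← pow_mul, mul_comm, pow_mul, hζp.pow_eq_one, one_pow])
      (one_pow r) (h1.trans (map_one _).symm)
    exact hζp.pow_ne_one_of_pos_of_lt hl0 hl (congrArg (fun t : B => (t : Qb)) h2)
  -- the image of `χ` is cyclic
  have hrk' : ∀ τ ∈ B.inertiaSubgroupIn ℚ, χ τ ^ (r ^ k) = 1 := fun τ hτ => by
    rw [← hχpow τ hτ]
    show tameChar B _ z = 1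
    rw [tameChar_eq (one_mem B) (show (τ ^ r ^ k) z / z = 1 by rw [hk τ hτ z hz, div_self hz0])]
    exact map_one (residue B)
  have hord : ∀ τ ∈ B.inertiaSubgroupIn ℚ, orderOf (χ τ) ∣ r ^ k :=
    fun τ hτ => orderOf_dvd_of_pow_eq_one (hrk' τ hτ)
  obtain ⟨N, ⟨σ, hσ, hσN⟩, hmax⟩ : ∃ N, (∃ σ ∈ B.inertiaSubgroupIn ℚ, orderOf (χ σ) = N) ∧
      ∀ τ ∈ B.inertiaSubgroupIn ℚ, orderOf (χ τ) ≤ N := by
    have hfin : (orderOf ∘ χ '' (B.inertiaSubgroupIn ℚ : Set GalQ)).Finite :=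
      (Set.finite_Iic (r ^ k)).subset (by
        rintro _ ⟨τ, hτ, rfl⟩
        exact Nat.le_of_dvd (pow_pos hr.pos k) (hord τ hτ))
    obtain ⟨N, hN, hmax⟩ := Set.exists_max_image _ id hfin ⟨_, 1, one_mem _, rfl⟩
    obtain ⟨σ, hσ, hσN⟩ := hN
    exact ⟨N, ⟨σ, hσ, hσN⟩, fun τ hτ => hmax _ ⟨τ, hτ, rfl⟩⟩
  have hNpos : 0 < N := hσN ▸ Nat.pos_of_ne_zero fun h => by
    have := hord σ hσ
    rw [h, zero_dvd_iff] at this
    exact (pow_pos hr.pos k).ne' this
  have hgenσ : ∀ τ ∈ B.inertiaSubgroupIn ℚ, ∃ n : ℕ, χ τ = χ σ ^ n := by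
    intro τ hτ
    haveI : NeZero N := ⟨hNpos.ne'⟩
    have hprim : IsPrimitiveRoot (χ σ) N := hσN ▸ IsPrimitiveRoot.orderOf _
    obtain ⟨a, ha, hae⟩ := (Nat.dvd_prime_pow hr).mp (hord τ hτ)
    obtain ⟨b, hb, hbe⟩ := (Nat.dvd_prime_pow hr).mp (hord σ hσ)
    have hab : orderOf (χ τ) ∣ N := by
      have := hmax τ hτ
      rw [← hσN, hbe, hae] at this ⊢
      exact pow_dvd_pow r ((Nat.pow_le_pow_iff_right hr.one_lt).mp this)
    obtain ⟨n, -, hn⟩ := hprim.eq_pow_of_pow_eq_one (orderOf_dvd_iff_pow_eq_one.mp hab)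
    exact ⟨n, hn.symm⟩
  have hdec : ∀ τ ∈ B.inertiaSubgroupIn ℚ, ∀ n : ℕ, χ τ = χ σ ^ n → ∀ x ∈ L, τ x = (σ ^ n) x := by
    intro τ hτ n hn x hx
    have hσn := pow_mem hσ n
    have h1 : χ ((σ ^ n)⁻¹ * τ) = 1 := by
      have := hmul _ (inv_mem hσn) _ hσn
      rw [inv_mul_cancel, hχ1, hχpow σ hσ] at this
      rw [hmul _ (inv_mem hσn) _ hτ, hn, ← this]
    have h2 := hker _ (mul_mem (inv_mem hσn) hτ) h1 x hx
    calc τ x = (σ ^ n) (((σ ^ n)⁻¹ * τ) x) := ((σ ^ n).apply_symm_apply (τ x)).symm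
      _ = (σ ^ n) x := by rw [h2]
  refine ⟨σ, hσ, fun τ hτ => ?_, fun φ hφ => ?_⟩
  · obtain ⟨n, hn⟩ := hgenσ τ hτ
    exact ⟨n, hdec τ hτ n hn⟩
  · have hd := hφ.mem_decompositionSubgroup
    have hconj : φ * σ * φ⁻¹ ∈ B.inertiaSubgroupIn ℚ := by
      obtain ⟨d, hd', rfl⟩ := hσ
      refine ⟨⟨φ, hd⟩ * d * (⟨φ, hd⟩)⁻¹, ?_, rfl⟩
      exact (MonoidHom.normal_ker _).conj_mem d hd' _
    refine hdec _ hconj q ?_
    have hy : φ⁻¹ z ∈ L := hL _ z hz
    have hy0 : φ⁻¹ z ≠ 0 := by simpa using hz0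
    have hvy : B.valuation (φ⁻¹ z) = B.valuation z ^ (1 : ℤ) := by
      rw [zpow_one]; exact hvz _ (inv_mem hd) z hz
    have hc := hchar σ hσ _ hy hy0 1 hvy
    rw [zpow_one] at hc
    have hu := mem_B_of_valuation_eq_one (hone σ (decomp_of_inertia hσ) _ hy hy0)
    rw [tameChar_eq hu rfl] at hc
    show tameChar B _ z = χ σ ^ q
    rw [← hc]
    have hF := hφ.smul_residue_eq (residue B ⟨σ (φ⁻¹ z) / φ⁻¹ z, hu⟩)
    rw [← ResidueField.residue_smul] at hF
    rw [← hF, tameChar_eq ((smul_mem_of_decomp hd).mpr hu) ?_]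
    · rfl
    · show φ (σ (φ⁻¹ z)) / z = φ (σ (φ⁻¹ z) / φ⁻¹ z)
      rw [map_div₀, show φ (φ⁻¹ z) = z from φ.apply_symm_apply z]

end FLTAgent.EIS

end
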