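import Fermat.Agent.EIS.Quot
import Fermat.Agent.Attach.Interface
import Fermat.Agent.Attach.HeckeAction
import Fermat.Agent.Attach.Cyclotomic
import Fermat.Agent.SS.Push
import Fermat.Agent.Chebotarev.Density
import Fermat.Agent.Flat.API

/-!
Area EIS: the Hecke operators commute on torsion, and on every torsion level each formal trace
`g + χ(g) g⁻¹` lies in the Hecke ring, congruent to `1 + χ(g)` modulo the Eisenstein operators.
-/

set_option autoImplicit false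
set_option linter.unusedSectionVars false
set_option linter.style.haveILetI false

noncomputable section

open ModularCurve

namespace FLTAgent.EIS

open FLTAgent.Attach (HeckeLattice cyc)

variable (p : ℕ) [NeZero p] (r : ℕ)

/-- the `r`-power torsion of `J₀(p)` -/
def torR : AddSubgroup (JZero p) where
  carrier := {z | ∃ m, r ^ m • z = 0}
  zero_mem' := ⟨0, smul_zero _⟩
  add_mem' := fun {a b} ⟨ma, ha⟩ ⟨mb, hb⟩ => ⟨ma + mb, by
    have e1 : r ^ (ma + mb) • a = 0 := by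
      rw [pow_add, mul_nsmul, ha, nsmul_zero]
    have e2 : r ^ (ma + mb) • b = 0 := by
      rw [pow_add, mul_comm, mul_nsmul, hb, nsmul_zero]
    rw [nsmul_add, e1, e2, add_zero]⟩
  neg_mem' := fun {a} ⟨m, ha⟩ => ⟨m, by rw [neg_nsmul, ha, neg_zero]⟩

/-- the `r`-power torsion, as a type -/
abbrev JR : Type := torR p r

theorem map_torR (f : JZero p →+ JZero p) {z : JZero p} (hz : z ∈ torR p r) : f z ∈ torR p r := by
  obtain ⟨m, hm⟩ := hz
  exact ⟨m, by rw [← map_nsmul, hm, map_zero]⟩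

instance instSMulJR : SMul GalQ (JR p r) :=
  ⟨fun g z => ⟨g • (z : JZero p), map_torR p r (DistribSMul.toAddMonoidHom _ g) z.2⟩⟩

theorem coe_smul_JR (g : GalQ) (z : JR p r) : ((g • z : JR p r) : JZero p) = g • (z : JZero p) := rfl

instance instActJR : DistribMulAction GalQ (JR p r) where
  one_smul z := Subtype.ext (one_smul GalQ (z : JZero p))
  mul_smul g h z := Subtype.ext (mul_smul g h (z : JZero p))
  smul_zero g := Subtype.ext (smul_zero g)
  smul_add g a b := Subtype.ext (smul_add g (a : JZero p) (b : JZero p))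

/-- a Hecke operator on the torsion -/
def hkR (ℓ : Nat.Primes) : AddMonoid.End (JR p r) :=
  AddMonoidHom.codRestrict
    ((heckeOperatorBar p ℓ).toAddMonoidHom.comp (torR p r).subtype) (torR p r) fun z =>
    map_torR p r (heckeOperatorBar p ℓ).toAddMonoidHom z.2

theorem coe_hkR (ℓ : Nat.Primes) (z : JR p r) :
    ((hkR p r ℓ z : JR p r) : JZero p) = heckeOperatorBar p ℓ (z : JZero p) := rfl

/-- the indices: primes different from `p` and `r` -/
abbrev Idx : Type := {ℓ : Nat.Primes // (ℓ : ℕ) ≠ p ∧ (ℓ : ℕ) ≠ r}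

/-- the Eisenstein operators -/
def Xop (i : Idx p r) : AddMonoid.End (JR p r) :=
  hkR p r i.1 - (((i.1 : ℕ) + 1 : ℕ) : AddMonoid.End (JR p r))

theorem natCast_end_apply {A : Type} [AddCommGroup A] (n : ℕ) (z : A) :
    (n : AddMonoid.End A) z = n • z := rfl

theorem Xop_apply (i : Idx p r) (z : JR p r) :
    Xop p r i z = hkR p r i.1 z - ((i.1 : ℕ) + 1) • z := rfl

theorem hecke_comm_tors {n : ℕ} (hn : 0 < n) {z : JZero p} (hz : n • z = 0) (ℓ ℓ' : Nat.Primes) :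
    heckeOperatorBar p ℓ (heckeOperatorBar p ℓ' z) =
      heckeOperatorBar p ℓ' (heckeOperatorBar p ℓ z) := by
  obtain ⟨D⟩ := Attach.exists_heckeLattice p
  obtain ⟨v, rfl⟩ := (D.nsmul_eq_zero_iff n hn z).mp hz
  rw [← D.tors_T n hn, ← D.tors_T n hn, ← D.tors_T n hn, ← D.tors_T n hn]
  refine congrArg (D.tors n) ?_
  have hm : ∀ l : Nat.Primes, D.Models (D.T l) (CuspForm.heckeFormsGen p 2 l).1 :=
    fun l x => D.periods_T l x
  have h := D.models_mul (hm ℓ) (hm ℓ')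
  have h' := D.models_mul (hm ℓ') (hm ℓ)
  rw [show (CuspForm.heckeFormsGen p 2 ℓ').1 * (CuspForm.heckeFormsGen p 2 ℓ).1 =
    (CuspForm.heckeFormsGen p 2 ℓ).1 * (CuspForm.heckeFormsGen p 2 ℓ').1 from
      congrArg Subtype.val (mul_comm (CuspForm.heckeFormsGen p 2 ℓ') (CuspForm.heckeFormsGen p 2 ℓ))]
    at h'
  exact LinearMap.congr_fun (D.models_unique h h') v

theorem hkR_comm (hr : 0 < r) (ℓ ℓ' : Nat.Primes) :
    hkR p r ℓ * hkR p r ℓ' = hkR p r ℓ' * hkR p r ℓ :=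
  AddMonoidHom.ext fun z => Subtype.ext (by
    obtain ⟨m, hm⟩ := z.2
    exact hecke_comm_tors p (pow_pos hr m) hm ℓ ℓ')

theorem Xop_comm (hr : 0 < r) (i j : Idx p r) : Xop p r i * Xop p r j = Xop p r j * Xop p r i := by
  refine AddMonoidHom.ext fun z => ?_
  show Xop p r i (Xop p r j z) = Xop p r j (Xop p r i z)
  simp only [Xop_apply, map_sub, map_nsmul]
  rw [show hkR p r i.1 (hkR p r j.1 z) = hkR p r j.1 (hkR p r i.1 z) from
    DFunLike.congr_fun (hkR_comm p r hr i.1 j.1) z, nsmul_sub, nsmul_sub, ← mul_nsmul', ← mul_nsmul',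
    mul_comm ((i.1 : ℕ) + 1)]
  abel

theorem Xop_commG (i : Idx p r) (g : GalQ) (z : JR p r) : g • Xop p r i z = Xop p r i (g • z) := by
  rw [Xop_apply, Xop_apply, smul_sub,
    show g • (((i.1 : ℕ) + 1) • z) = ((i.1 : ℕ) + 1) • g • z from
      map_nsmul (DistribSMul.toAddMonoidHom (JR p r) g) _ z,
    show g • hkR p r i.1 z = hkR p r i.1 (g • z) from Subtype.ext (HeckeJ.smul_hecke p g i.1 _)]

theorem finite_torsion_JR (hr : 0 < r) (m : ℕ) : {z : JR p r | r ^ m • z = 0}.Finite := by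
  refine Set.Finite.of_finite_image (f := fun z : JR p r => (z : JZero p)) ?_
    Subtype.val_injective.injOn
  refine (Flat.finite_torsion (N := p) (r ^ m) (pow_pos hr m)).subset ?_
  rintro _ ⟨z, hz, rfl⟩
  exact congrArg Subtype.val hz

theorem exists_div_JR (hr : 0 < r) (m : ℕ) (z : JR p r) (hz : r ^ m • z = 0) :
    ∃ y, r • y = z := by
  obtain ⟨D⟩ := Attach.exists_heckeLattice p
  obtain ⟨v, hv⟩ := (D.nsmul_eq_zero_iff (r ^ m) (pow_pos hr m) _).mp (congrArg Subtype.val hz :)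
  have hv' : r • D.tors (r ^ m * r) v = (z : JZero p) := by
    rw [D.tors_mul (r ^ m) r (pow_pos hr m) hr, hv]
  refine ⟨⟨D.tors (r ^ m * r) v, m + 1, ?_⟩, Subtype.ext hv'⟩
  rw [pow_succ]
  exact (D.nsmul_eq_zero_iff _ (Nat.mul_pos (pow_pos hr m) hr) _).mpr ⟨v, rfl⟩

/-- one step of the Lucas recursion -/
def luc (T : AddMonoid.End (JR p r)) (ℓ : ℕ) :
    ℕ → AddMonoid.End (JR p r) × AddMonoid.End (JR p r)
  | 0 => (0, 1)
  | k + 1 => ((luc T ℓ k).2,
      T * (luc T ℓ k).2 - (ℓ : AddMonoid.End (JR p r)) * (luc T ℓ k).1 +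
        ((1 + ℓ ^ (k + 1) : ℕ) : AddMonoid.End (JR p r)))

theorem luc_mem (T : AddMonoid.End (JR p r)) (ℓ : ℕ) (S : Subring (AddMonoid.End (JR p r)))
    (hT : T ∈ S) (k : ℕ) : (luc p r T ℓ k).1 ∈ S ∧ (luc p r T ℓ k).2 ∈ S := by
  induction k with
  | zero => exact ⟨zero_mem _, one_mem _⟩
  | succ k ih =>
    exact ⟨ih.2, add_mem (sub_mem (mul_mem hT ih.2) (mul_mem (natCast_mem S ℓ) ih.1)) (natCast_mem S _)⟩

/-- the trace of a power of Frobenius -/
theorem frob_pow_trace (hr : 0 < r) {i : Idx p r} {φ : GalQ} {z : JR p r}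
    (hφ : ∀ k : ℤ, hkR p r i.1 (φ ^ k • z) = φ ^ (k + 1) • z + (i.1 : ℕ) • φ ^ (k - 1) • z)
    (k : ℕ) :
    φ ^ (k : ℤ) • z + (i.1 : ℕ) ^ k • φ ^ (-(k : ℤ)) • z =
      (1 + (i.1 : ℕ) ^ k) • z +
        ((luc p r (hkR p r i.1) (i.1 : ℕ) k).1 * Xop p r i) z := by
  let T := hkR p r i.1
  let l : ℕ := (i.1 : ℕ)
  let L := luc p r T l
  let s : ℕ → JR p r := fun k => φ ^ (k : ℤ) • z + l ^ k • φ ^ (-(k : ℤ)) • z
  suffices ∀ k, s k = (1 + l ^ k) • z + ((L k).1 * Xop p r i) z ∧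
      s (k + 1) = (1 + l ^ (k + 1)) • z + ((L k).2 * Xop p r i) z from (this k).1
  intro k
  induction k with
  | zero =>
    refine ⟨?_, ?_⟩
    · show φ ^ (0 : ℤ) • z + l ^ 0 • φ ^ (-(0 : ℤ)) • z = (1 + l ^ 0) • z + (0 : JR p r)
      rw [neg_zero, zpow_zero, one_smul, pow_zero, one_nsmul, add_zero, add_nsmul, one_nsmul]
    · show φ ^ ((0 + 1 : ℕ) : ℤ) • z + l ^ (0 + 1) • φ ^ (-((0 + 1 : ℕ) : ℤ)) • z =
        (1 + l ^ (0 + 1)) • z + (T z - (l + 1) • z)
      have h := hφ 0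
      rw [zpow_zero, one_smul] at h
      rw [show T z = φ ^ ((0 : ℤ) + 1) • z + l • φ ^ ((0 : ℤ) - 1) • z from h, zero_add, pow_one,
        Nat.cast_one, zero_add, zero_sub, add_comm l 1]
      abel
  | succ k ih =>
    refine ⟨ih.2, ?_⟩
    have hT : T (s (k + 1)) = s (k + 2) + l • s k := by
      show T (φ ^ ((k + 1 : ℕ) : ℤ) • z + l ^ (k + 1) • φ ^ (-((k + 1 : ℕ) : ℤ)) • z) = _
      rw [map_add, map_nsmul, hφ, hφ]
      show _ = φ ^ ((k + 2 : ℕ) : ℤ) • z + l ^ (k + 2) • φ ^ (-((k + 2 : ℕ) : ℤ)) • z +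
        l • (φ ^ (k : ℤ) • z + l ^ k • φ ^ (-(k : ℤ)) • z)
      rw [show ((k + 1 : ℕ) : ℤ) + 1 = ((k + 2 : ℕ) : ℤ) by push_cast; ring,
        show ((k + 1 : ℕ) : ℤ) - 1 = (k : ℤ) by push_cast; ring,
        show -((k + 1 : ℕ) : ℤ) + 1 = -(k : ℤ) by push_cast; ring,
        show -((k + 1 : ℕ) : ℤ) - 1 = -((k + 2 : ℕ) : ℤ) by push_cast; ring,
        nsmul_add, nsmul_add, ← mul_nsmul', ← mul_nsmul', ← pow_succ, ← pow_succ']
      abel
    show s (k + 2) = (1 + l ^ (k + 2)) • z +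
      ((T * (L k).2 - (l : AddMonoid.End (JR p r)) * (L k).1 +
        ((1 + l ^ (k + 1) : ℕ) : AddMonoid.End (JR p r))) * Xop p r i) z
    have e : s (k + 2) = T (s (k + 1)) - l • s k := by rw [hT, add_sub_cancel_right]
    rw [e, ih.2, ih.1]
    show T ((1 + l ^ (k + 1)) • z + (L k).2 (Xop p r i z)) -
        l • ((1 + l ^ k) • z + (L k).1 (Xop p r i z)) =
      (1 + l ^ (k + 2)) • z + (T ((L k).2 (Xop p r i z)) - l • (L k).1 (Xop p r i z) +
        (1 + l ^ (k + 1)) • Xop p r i z)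
    rw [map_add, map_nsmul, show T z = Xop p r i z + (l + 1) • z by rw [Xop_apply]; abel,
      nsmul_add, nsmul_add, ← mul_nsmul', ← mul_nsmul',
      show (1 + l ^ (k + 1)) * (l + 1) = (1 + l ^ (k + 2)) + l * (1 + l ^ k) by ring,
      add_nsmul _ (1 + l ^ (k + 2))]
    abel

/-- every formal trace is an element of the Hecke ring, Eisenstein modulo the operators -/
theorem exists_trace (hr : r.Prime) (hp : p.Prime) (g : GalQ) (M : ℕ) :
    ∃ (i : Idx p r) (q : AddMonoid.End (JR p r)) (c : ℕ),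
      q ∈ Subring.closure (Set.range (Xop p r)) ∧
      (∀ ζ : Qb, ζ ^ (r ^ M) = 1 → g ζ = ζ ^ c) ∧
      ∀ z : JR p r, r ^ M • z = 0 → g • z + c • g⁻¹ • z = (1 + c) • z + (q * Xop p r i) z := by
  classical
  haveI : NeZero (r ^ M) := ⟨(pow_pos hr.pos M).ne'⟩
  haveI := Common.isGalois_qbar
  obtain ⟨D⟩ := Attach.exists_heckeLattice p
  have GI := Attach.galoisInputs p
  obtain ⟨L1, hL1, hL1fix⟩ := D.exists_tors_level GI (pow_pos hr.pos M)
  obtain ⟨L2, hL2, hL2fix⟩ := Attach.exists_cyc_level (r ^ M)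
  haveI := hL1
  haveI := hL2
  obtain ⟨ℓ, B, φ, k, hℓ, hℓS, hB, hφ, hk⟩ :=
    Chebotarev.exists_frobenius_pow (L1 ⊔ L2) g {p, r}
  rw [Finset.mem_insert, Finset.mem_singleton, not_or] at hℓS
  have hℓp : ¬ ℓ ∣ p := fun h => hℓS.1 ((Nat.prime_dvd_prime_iff_eq hℓ hp).mp h)
  have hℓr : ¬ ℓ ∣ r ^ M := fun h =>
    hℓS.2 ((Nat.prime_dvd_prime_iff_eq hℓ hr).mp (hℓ.dvd_of_dvd_pow h))
  let i : Idx p r := ⟨⟨ℓ, hℓ⟩, hℓS⟩
  have hTS : hkR p r i.1 ∈ Subring.closure (Set.range (Xop p r)) := by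
    have : hkR p r i.1 = Xop p r i + (((i.1 : ℕ) + 1 : ℕ) : AddMonoid.End (JR p r)) := by
      rw [Xop, sub_add_cancel]
    rw [this]
    exact add_mem (Subring.subset_closure ⟨i, rfl⟩) (natCast_mem _ _)
  -- the element and `φ ^ k` agree on the torsion and on the roots of unity
  set u : GalQ := g⁻¹ * φ ^ k with hu
  have hufix : ∀ y ∈ L1 ⊔ L2, u y = y := fun y hy => by
    show g⁻¹ ((φ ^ k) y) = y
    rw [hk y hy]
    exact g.symm_apply_apply y
  have hJ : ∀ z : JR p r, r ^ M • z = 0 → u • z = z := fun z hz => by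
    obtain ⟨v, hv⟩ :=
      (D.nsmul_eq_zero_iff (r ^ M) (pow_pos hr.pos M) (z : JZero p)).mp (congrArg Subtype.val hz :)
    refine Subtype.ext ?_
    rw [coe_smul_JR, ← hv, hL1fix u (fun y hy => hufix y (le_sup_left (b := L2) hy)) v]
  refine ⟨i, (luc p r (hkR p r i.1) ℓ k).1, ℓ ^ k, (luc_mem p r _ ℓ _ hTS k).1, ?_, ?_⟩
  · intro ζ hζ
    have h1 := hL2fix u (fun y hy => hufix y (le_sup_right (a := L1) hy))
    have hg : g = φ ^ k * u⁻¹ := by
      rw [hu, mul_inv_rev, inv_inv, mul_inv_cancel_left]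
    have hu1 : ∀ y : Qb, y ^ r ^ M = 1 → u⁻¹ y = y := fun y hy => by
      have h2 := Attach.cyc_spec u hy
      rcases eq_or_ne (r ^ M) 1 with h | h
      · rw [h, pow_one] at hy
        rw [hy, map_one]
      · haveI : Fact (1 < r ^ M) := ⟨by have := pow_pos hr.pos M; omega⟩
        rw [h1, ZMod.val_one, pow_one] at h2
        conv_lhs => rw [← h2]
        exact u.symm_apply_apply y
    have hfr : ∀ (j : ℕ) (y : Qb), y ^ r ^ M = 1 → (φ ^ j) y = y ^ (ℓ ^ j) := fun j => by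
      induction j with
      | zero => intro y _; rw [pow_zero, pow_zero, pow_one]; rfl
      | succ j ih =>
        intro y hy
        rw [pow_succ, pow_succ]
        show (φ ^ j) (φ y) = _
        rw [Attach.cyc_spec φ hy, Attach.cyc_frobenius hℓ hℓr hB hφ, ZMod.val_natCast,
          ← pow_eq_pow_mod ℓ hy, ih _ (by rw [← pow_mul, mul_comm, pow_mul, hy, one_pow]),
          ← pow_mul, mul_comm]
    rw [hg]
    show (φ ^ k) (u⁻¹ ζ) = _
    rw [hu1 ζ hζ, hfr k ζ hζ]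
  · intro z hz
    have htor : ∀ (h : GalQ) (w : JR p r), r ^ M • w = 0 → r ^ M • h • w = 0 := fun h w hw => by
      rw [← show h • (r ^ M • w) = r ^ M • h • w from
        map_nsmul (DistribSMul.toAddMonoidHom (JR p r) h) _ w, hw, smul_zero]
    have h1 : g • z = φ ^ (k : ℤ) • z := by
      conv_lhs => rw [← hJ z hz]
      rw [← mul_smul, hu, mul_inv_cancel_left, zpow_natCast]
    have h2 : g⁻¹ • z = φ ^ (-(k : ℤ)) • z := by
      have hw := htor (φ ^ k)⁻¹ z hz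
      have := hJ _ hw
      rw [hu, mul_smul, smul_inv_smul] at this
      rw [zpow_neg, zpow_natCast, ← this]
    rw [h1, h2]
    refine frob_pow_trace p r hr.pos (i := i) (φ := φ) (z := z) (fun j => Subtype.ext ?_) k
    have hx : r ^ M • (((φ ^ j) • z : JR p r) : JZero p) = 0 :=
      congrArg Subtype.val (htor (φ ^ j) z hz)
    have e := SS.hecke_eq_frobenius GI hℓ hℓp hB hφ (pow_pos hr.pos M) hℓr hx
    rw [coe_hkR, AddSubgroup.coe_add, AddSubgroupClass.coe_nsmul, coe_smul_JR, coe_smul_JR,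
      show (i.1 : Nat.Primes) = ⟨ℓ, hℓ⟩ from rfl]
    rw [coe_smul_JR] at e
    rw [e, ← mul_smul, ← mul_smul, show φ * φ ^ j = φ ^ (j + 1) by group,
      show φ⁻¹ * φ ^ j = φ ^ (j - 1) by group]
    rfl

end FLTAgent.EIS

end
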