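import Fermat.Agent.EIS.UniformAdd
import Fermat.Agent.Good.LevelAPI
import Fermat.Agent.Good.SL2
import Fermat.Agent.ModFun.API
import Fermat.Agent.Torsion.Count

/-!
Area EIS, parcel F: uniformisation of an integral Weierstrass model over `ℂ` by `λ(ℤτ + ℤ)`,
with labels for the `p`-torsion points.
-/

set_option autoImplicit false

noncomputable section

open Filter Complex PeriodPair UpperHalfPlane
open scoped Topology Real MatrixGroups WeierstrassCurve.Affine

namespace FLTAgent.EIS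

open Good (periodPairAt mem_lattice_periodPairAt torsPt torsPt_congr torsPt_notMem
  torsPt_sub_mem_iff Lbl lblAct)

/-- a scaled pair of periods -/
def scaledPair (L : PeriodPair) (c : ℂ) (hc : c ≠ 0) : PeriodPair where
  ω₁ := c * L.ω₁
  ω₂ := c * L.ω₂
  indep := by
    rw [LinearIndependent.pair_iff]
    intro s t h
    refine LinearIndependent.pair_iff.mp L.indep s t ?_
    simp only [Complex.real_smul] at h ⊢
    exact mul_left_cancel₀ hc (by linear_combination h)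

theorem mem_scaledPair {L : PeriodPair} {c : ℂ} (hc : c ≠ 0) {x : ℂ} :
    x ∈ (scaledPair L c hc).lattice ↔ c⁻¹ * x ∈ L.lattice := by
  rw [PeriodPair.mem_lattice, PeriodPair.mem_lattice]
  refine exists_congr fun m => exists_congr fun n => ?_
  simp only [scaledPair]
  constructor <;> intro h
  · rw [← h]; field_simp
  · rw [← mul_inv_cancel_left₀ hc x, ← h]; ring

theorem mul_mem_scaledPair {L : PeriodPair} {c : ℂ} (hc : c ≠ 0) {x : ℂ} :
    c * x ∈ (scaledPair L c hc).lattice ↔ x ∈ L.lattice := by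
  rw [mem_scaledPair, inv_mul_cancel_left₀ hc]

theorem G_of_scale (L L' : PeriodPair) {c : ℂ} (hc : c ≠ 0)
    (h : ∀ x, x ∈ L.lattice ↔ c * x ∈ L'.lattice) (k : ℕ) : L'.G k = (c ^ k)⁻¹ * L.G k := by
  let e : L.lattice ≃ L'.lattice :=
    { toFun := fun x => ⟨c * x, (h x).1 x.2⟩
      invFun := fun y => ⟨c⁻¹ * y, (h _).2 (by rw [mul_inv_cancel_left₀ hc]; exact y.2)⟩
      left_inv := fun x => Subtype.ext (inv_mul_cancel_left₀ hc _)
      right_inv := fun y => Subtype.ext (mul_inv_cancel_left₀ hc _) }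
  rw [PeriodPair.G, PeriodPair.G, ← e.tsum_eq, ← tsum_mul_left]
  refine tsum_congr fun l => ?_
  show ((c * (l : ℂ)) ^ k)⁻¹ = _
  rw [mul_pow, mul_inv]

theorem G_periodPairAt {k : ℕ} (hk : 3 ≤ k) (τ : ℍ) :
    (periodPairAt τ).G k = 2 * riemannZeta k * ModularForm.E hk τ := by
  rw [show ModularForm.E hk τ = (1 / 2 : ℂ) *
    eisensteinSeries (N := 1) 0 k τ from rfl,
    show (2 : ℂ) * riemannZeta k * ((1 / 2) * eisensteinSeries (N := 1) 0 k τ) =
      riemannZeta k * eisensteinSeries (N := 1) 0 k τ by ring,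
    ← tsum_eisSummand_eq_riemannZeta_mul_eisensteinSeries hk τ, PeriodPair.G,
    ← ((finTwoArrowEquiv ℤ).trans (periodPairAt τ).latticeEquivProd.toEquiv.symm).tsum_eq]
  refine tsum_congr fun v => ?_
  show ((((periodPairAt τ).latticeEquivProd.symm (finTwoArrowEquiv ℤ v)) : ℂ) ^ k)⁻¹ = _
  rw [PeriodPair.latticeEquiv_symm_apply]
  simp [EisensteinSeries.eisSummand, periodPairAt]

theorem riemannZeta_six : riemannZeta 6 = π ^ 6 / 945 := by
  have h := riemannZeta_two_mul_nat (k := 3) (by norm_num)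
  rw [ModFun.bernoulli_six, show (2 * 3 : ℕ) = 6 from rfl] at h
  norm_num [Nat.factorial] at h
  rw [h]; ring

theorem g₂_periodPairAt (τ : ℍ) :
    (periodPairAt τ).g₂ = 4 / 3 * (π : ℂ) ^ 4 * ModularForm.E₄ τ := by
  rw [PeriodPair.g₂, G_periodPairAt (by norm_num : 3 ≤ 4)]
  push_cast
  rw [riemannZeta_four]
  ring

theorem g₃_periodPairAt (τ : ℍ) :
    (periodPairAt τ).g₃ = 8 / 27 * (π : ℂ) ^ 6 * ModularForm.E₆ τ := by
  rw [PeriodPair.g₃, G_periodPairAt (by norm_num : 3 ≤ 6)]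
  push_cast
  rw [riemannZeta_six]
  ring

/-- the complex curve of an integral model -/
abbrev curveC (W : WeierstrassCurve ℤ) : WeierstrassCurve ℂ :=
  (W.map (Int.castRingHom ℚ))⁄ℂ

/-- complex points of an integral model -/
abbrev CPt (W : WeierstrassCurve ℤ) : Type := (curveC W).toAffine.Point

theorem curveC_eq (W : WeierstrassCurve ℤ) : curveC W = W.map (Int.castRingHom ℂ) := by
  simp only [curveC, WeierstrassCurve.baseChange, WeierstrassCurve.map_map]
  congr 1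

variable (W : WeierstrassCurve ℤ)

theorem curveC_c₄ : (curveC W).c₄ = W.c₄ := by
  rw [curveC_eq, WeierstrassCurve.map_c₄]; rfl

theorem curveC_c₆ : (curveC W).c₆ = W.c₆ := by
  rw [curveC_eq, WeierstrassCurve.map_c₆]; rfl

theorem curveC_Δ : (curveC W).Δ = W.Δ := by
  rw [curveC_eq, WeierstrassCurve.map_Δ]; rfl

theorem curveC_Δ_ne (hΔ : W.Δ ≠ 0) : (curveC W).Δ ≠ 0 := by
  rw [curveC_Δ]; exact_mod_cast hΔ

/-- a uniformisation `ℂ / λ(ℤτ + ℤ) ≅ W(ℂ)` -/
structure Unif where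
  hΔ : W.Δ ≠ 0
  τ : ℍ
  lam : ℂ
  lam_ne : lam ≠ 0
  g2 : (scaledPair (periodPairAt τ) lam lam_ne).g₂ = (W.c₄ : ℂ) / 12
  g3 : (scaledPair (periodPairAt τ) lam lam_ne).g₃ = (W.c₆ : ℂ) / 216

variable {W}

namespace Unif

variable (U : Unif W)

/-- the period lattice -/
def per : PeriodPair := scaledPair (periodPairAt U.τ) U.lam U.lam_ne

theorem g2C : U.per.g₂ = (curveC W).c₄ / 12 := by rw [curveC_c₄]; exact U.g2

theorem g3C : U.per.g₃ = (curveC W).c₆ / 216 := by rw [curveC_c₆]; exact U.g3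

/-- the uniformisation -/
def phi : ℂ →+ CPt W := phiU (curveC_Δ_ne W U.hΔ) U.g2C U.g3C

/-- `λ² / (2πi)²` -/
def kap : ℂ := U.lam ^ 2 / (2 * π * Complex.I) ^ 2

theorem kap_ne : U.kap ≠ 0 :=
  div_ne_zero (pow_ne_zero 2 U.lam_ne) (pow_ne_zero 2 Complex.two_pi_I_ne_zero)

theorem E4_eq : ModularForm.E₄ U.τ = U.kap ^ 2 * W.c₄ := by
  have h := U.g2
  rw [PeriodPair.g₂, G_of_scale (periodPairAt U.τ) _ U.lam_ne
    (fun x => (mul_mem_scaledPair U.lam_ne).symm), ← mul_left_comm, ← PeriodPair.g₂,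
    g₂_periodPairAt] at h
  have hπ : (π : ℂ) ≠ 0 := by exact_mod_cast Real.pi_ne_zero
  have hl := U.lam_ne
  rw [kap]
  field_simp at h ⊢
  simp only [Complex.I_sq, Complex.I_pow_four]
  linear_combination h / 3

theorem E6_eq : ModularForm.E₆ U.τ = -(U.kap ^ 3 * W.c₆) := by
  have h := U.g3
  rw [PeriodPair.g₃, G_of_scale (periodPairAt U.τ) _ U.lam_ne
    (fun x => (mul_mem_scaledPair U.lam_ne).symm), ← mul_left_comm, ← PeriodPair.g₃,
    g₃_periodPairAt] at h
  have hπ : (π : ℂ) ≠ 0 := by exact_mod_cast Real.pi_ne_zero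
  have hl := U.lam_ne
  rw [kap]
  field_simp at h ⊢
  rw [show Complex.I ^ 6 = -1 by linear_combination (Complex.I ^ 4 - Complex.I ^ 2 + 1) * Complex.I_sq]
  linear_combination -h / 27

theorem jFun_eq : ModFun.jFun U.τ = (W.c₄ : ℂ) ^ 3 / (W.Δ : ℂ) := by
  rw [ModFun.jFun, U.E4_eq]
  have hrel := ModularForm.discriminant_eq_E₄_cube_sub_E₆_sq U.τ
  have hd : ModularForm.discriminant U.τ = U.kap ^ 6 * W.Δ := by
    have e := congrArg (fun z : ℤ => (z : ℂ)) W.c_relation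
    push_cast at e
    rw [hrel, U.E4_eq, U.E6_eq]
    linear_combination (-U.kap ^ 6 / 1728) * e
  rw [hd]
  have := U.kap_ne
  have : (W.Δ : ℂ) ≠ 0 := by exact_mod_cast U.hΔ
  field_simp

/-- the label map onto the `p`-torsion -/
def lbl (p : ℕ) [NeZero p] (v : Lbl p) : CPt W := U.phi (U.lam * torsPt p v U.τ)

variable (p : ℕ) [NeZero p]

theorem phi_lam_eq_iff (x y : ℂ) :
    U.phi (U.lam * x) = U.phi (U.lam * y) ↔ x - y ∈ (periodPairAt U.τ).lattice := by
  rw [← sub_eq_zero, ← map_sub, phi, phiU_eq_zero_iff, ← mul_sub, per, mul_mem_scaledPair]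

theorem lbl_add (v w : Lbl p) : U.lbl p (v + w) = U.lbl p v + U.lbl p w := by
  rw [lbl, lbl, lbl, ← map_add, ← mul_add, eq_comm, phi_lam_eq_iff]
  have h := torsPt_congr p ((v.1.val : ℤ) + w.1.val) ((v.2.val : ℤ) + w.2.val) U.τ
  push_cast at h
  simp only [ZMod.natCast_zmod_val] at h
  convert h using 1
  simp only [torsPt, Prod.fst_add, Prod.snd_add]
  ring

theorem lbl_injective : Function.Injective (U.lbl p) := fun v w h => by
  rw [lbl, lbl, phi_lam_eq_iff, torsPt_sub_mem_iff] at h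
  exact h

/-- the label map as a homomorphism -/
def lblHom : Lbl p →+ CPt W := AddMonoidHom.mk' (U.lbl p) (U.lbl_add p)

theorem lbl_zero : U.lbl p 0 = 0 := map_zero (U.lblHom p)

theorem lbl_ne_zero {v : Lbl p} (hv : v ≠ 0) : U.lbl p v ≠ 0 := fun h =>
  hv (U.lbl_injective p (h.trans (U.lbl_zero p).symm))

theorem lbl_zsmul (n : ℤ) (v : Lbl p) : U.lbl p (n • v) = n • U.lbl p v :=
  map_zsmul (U.lblHom p) n v

theorem nsmul_lbl (v : Lbl p) : p • U.lbl p v = 0 := by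
  have : p • v = 0 := by simp [Prod.ext_iff, nsmul_eq_mul]
  rw [← map_zero (U.lblHom p), ← this, map_nsmul]
  rfl

theorem exists_lbl {P : CPt W} (hP : p • P = 0) : ∃ v : Lbl p, U.lbl p v = P := by
  classical
  haveI : (curveC W).IsElliptic := ⟨(curveC_Δ_ne W U.hΔ).isUnit⟩
  let f : Lbl p → Submodule.torsionBy ℤ (CPt W) (p : ℤ) := fun v =>
    ⟨U.lbl p v, by rw [Submodule.mem_torsionBy_iff, natCast_zsmul]; exact U.nsmul_lbl p v⟩
  have hf : Function.Injective f := fun v w h => U.lbl_injective p (congrArg Subtype.val h)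
  have hc := Torsion.natCard_torsionBy (curveC W) p (NeZero.ne p)
  haveI := Torsion.finite_torsionBy (curveC W) p (NeZero.ne p)
  have hb := (Nat.bijective_iff_injective_and_card f).mpr ⟨hf, by
    rw [hc, Nat.card_prod, Nat.card_zmod, sq]⟩
  obtain ⟨v, hv⟩ := hb.2 ⟨P, by rw [Submodule.mem_torsionBy_iff, natCast_zsmul]; exact hP⟩
  exact ⟨v, congrArg Subtype.val hv⟩

/-- the abscissa of a labelled point -/
def xlbl (v : Lbl p) : ℂ :=
  ℘[U.per] (U.lam * torsPt p v U.τ) - (curveC W).b₂ / 12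

theorem exists_lbl_eq {v : Lbl p} (hv : v ≠ 0) :
    ∃ y h, U.lbl p v = .some (U.xlbl p v) y h := by
  have hz : U.lam * torsPt p v U.τ ∉ U.per.lattice := by
    rw [per, mul_mem_scaledPair]; exact torsPt_notMem p hv U.τ
  exact ⟨_, _, phiU_of_not_mem (curveC_Δ_ne W U.hΔ) U.g2C U.g3C hz⟩

theorem xlbl_sub_xlbl (v w : Lbl p) :
    Good.pDiff p v w U.τ = U.kap * (U.xlbl p v - U.xlbl p w) := by
  have e : ∀ x, ℘[U.per] (U.lam * x) = (U.lam ^ 2)⁻¹ * ℘[periodPairAt U.τ] x := fun x =>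
    Good.weierstrassP_scale _ _ U.lam_ne (fun y => (mul_mem_scaledPair U.lam_ne).symm) x
  have hl := U.lam_ne
  rw [Good.pDiff, xlbl, xlbl, e, e, kap]
  field_simp
  ring

/-- moving the base point by `SL(2, ℤ)` -/
theorem exists_move (γ : SL(2, ℤ)) :
    ∃ U' : Unif W, U'.τ = γ • U.τ ∧ ∀ v : Lbl p, U'.lbl p v = U.lbl p (lblAct p v γ) := by
  set a := γ.1 0 0
  set b := γ.1 0 1
  set c := γ.1 1 0
  set d := γ.1 1 1
  have hdet : (a : ℂ) * d - b * c = 1 := by
    have := γ.2; rw [Matrix.det_fin_two] at this; exact_mod_cast this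
  set D : ℂ := (c : ℂ) * (U.τ : ℂ) + d with hD
  have hD0 : D ≠ 0 := by
    intro h0
    have hi := congrArg Complex.im h0
    simp [hD] at hi
    rcases hi with hi | hi
    · have hd : (d : ℂ) = 0 := by rw [hD, hi] at h0; simpa using h0
      rw [hi, hd] at hdet; simp at hdet
    · exact U.τ.im_ne_zero hi
  have hcoe : ((γ • U.τ : ℍ) : ℂ) = ((a : ℂ) * (U.τ : ℂ) + b) / D := by
    rw [UpperHalfPlane.coe_specialLinearGroup_apply]
    simp [hD, a, b, c, d]
  have hmem : ∀ x, x ∈ (periodPairAt (γ • U.τ)).lattice ↔ D * x ∈ (periodPairAt U.τ).lattice := by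
    intro x
    rw [mem_lattice_periodPairAt, mem_lattice_periodPairAt]
    constructor
    · rintro ⟨m, n, rfl⟩
      refine ⟨m * a + n * c, m * b + n * d, ?_⟩
      rw [hcoe]; push_cast; field_simp; ring
    · rintro ⟨m, n, h⟩
      refine ⟨m * d - n * c, n * a - m * b, ?_⟩
      apply mul_left_cancel₀ hD0
      rw [← h, hcoe]; push_cast; field_simp
      rw [hD]
      linear_combination ((m : ℂ) * (U.τ : ℂ) + n) * hdet
  have hl : U.lam * D ≠ 0 := mul_ne_zero U.lam_ne hD0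
  have hsame : (scaledPair (periodPairAt (γ • U.τ)) (U.lam * D) hl).lattice = U.per.lattice := by
    ext x
    rw [mem_scaledPair, hmem, per, mem_scaledPair, mul_inv, mul_comm U.lam⁻¹ D⁻¹, mul_assoc,
      mul_inv_cancel_left₀ hD0]
  have hG : ∀ k, (scaledPair (periodPairAt (γ • U.τ)) (U.lam * D) hl).G k = U.per.G k := by
    intro k
    rw [G_of_scale U.per _ one_ne_zero (fun x => by rw [one_mul, hsame]) k]
    simp
  let U' : Unif W :=
    { hΔ := U.hΔ
      τ := γ • U.τ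
      lam := U.lam * D
      lam_ne := hl
      g2 := by rw [PeriodPair.g₂, hG]; exact U.g2
      g3 := by rw [PeriodPair.g₃, hG]; exact U.g3 }
  refine ⟨U', rfl, fun v => ?_⟩
  have hpt : U'.phi = U.phi := by
    ext z
    by_cases hz : z ∈ U.per.lattice
    · show U'.phi z = U.phi z
      exact ((phiU_eq_zero_iff _ U'.g2C U'.g3C).mpr (hsame ▸ hz)).trans
        ((phiU_eq_zero_iff _ U.g2C U.g3C).mpr hz).symm
    · have hz' : z ∉ U'.per.lattice := by
        show z ∉ (scaledPair (periodPairAt (γ • U.τ)) (U.lam * D) hl).lattice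
        rwa [hsame]
      show phiU _ U'.g2C U'.g3C z = phiU _ U.g2C U.g3C z
      rw [phiU_of_not_mem _ U.g2C U.g3C hz, phiU_of_not_mem _ U'.g2C U'.g3C hz']
      have eP : ℘[U'.per] z = ℘[U.per] z := by
        have := Good.weierstrassP_scale U.per U'.per one_ne_zero
          (fun x => by rw [one_mul]; exact (SetLike.ext_iff.mp hsame x).symm) z
        simpa using this
      have eP' : ℘'[U'.per] z = ℘'[U.per] z := by
        have e : ℘[U'.per] = ℘[U.per] := funext fun t => by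
          have := Good.weierstrassP_scale U.per U'.per one_ne_zero
            (fun x => by rw [one_mul]; exact (SetLike.ext_iff.mp hsame x).symm) t
          simpa using this
        rw [← PeriodPair.deriv_weierstrassP, e, PeriodPair.deriv_weierstrassP]
      simp only [WeierstrassCurve.Affine.Point.some.injEq, xU, yU, eP, eP', and_self]
  show U'.phi _ = U.phi _
  rw [hpt, show U'.lam = U.lam * D from rfl, mul_assoc, U.phi_lam_eq_iff]
  show D * torsPt p v (γ • U.τ) - _ ∈ _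
  have he : D * torsPt p v (γ • U.τ) =
      ((((v.1.val : ℤ) * a + (v.2.val : ℤ) * c : ℤ) : ℂ) * (U.τ : ℂ) +
        (((v.1.val : ℤ) * b + (v.2.val : ℤ) * d : ℤ) : ℂ)) / p := by
    simp only [torsPt, hcoe]; push_cast
    field_simp [Good.M_ne p]
    rw [hD]; ring
  have hl' : lblAct p v γ = ((((v.1.val : ℤ) * a + (v.2.val : ℤ) * c : ℤ) : ZMod p),
      (((v.1.val : ℤ) * b + (v.2.val : ℤ) * d : ℤ) : ZMod p)) := by
    simp [lblAct, a, b, c, d]
  rw [he, hl']
  exact torsPt_congr p _ _ U.τ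

end Unif

theorem exists_unif (W : WeierstrassCurve ℤ) (hΔ : W.Δ ≠ 0) (h4 : W.c₄ ≠ 0) (h6 : W.c₆ ≠ 0) :
    Nonempty (Unif W) := by
  have h4' : (W.c₄ : ℂ) ≠ 0 := by exact_mod_cast h4
  have h6' : (W.c₆ : ℂ) ≠ 0 := by exact_mod_cast h6
  have hΔ' : (W.Δ : ℂ) ≠ 0 := by exact_mod_cast hΔ
  obtain ⟨τ, hτ⟩ := ModFun.jFun_surjective ((W.c₄ : ℂ) ^ 3 / (W.Δ : ℂ))
  have hD := ModularForm.discriminant_ne_zero τ
  rw [ModFun.jFun, div_eq_div_iff hD hΔ'] at hτ
  have hrel := ModularForm.discriminant_eq_E₄_cube_sub_E₆_sq τ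
  have e := congrArg (fun z : ℤ => (z : ℂ)) W.c_relation
  push_cast at e
  have hE4 : ModularForm.E₄ τ ≠ 0 := by
    intro h0
    rw [h0, zero_pow (by norm_num), zero_mul, eq_comm, mul_eq_zero] at hτ
    rcases hτ with h | h
    exacts [h4' (pow_eq_zero_iff (n := 3) (by norm_num) |>.mp h), hD h]
  have hE46 : (W.c₆ : ℂ) ^ 2 * ModularForm.E₄ τ ^ 3 = (W.c₄ : ℂ) ^ 3 * ModularForm.E₆ τ ^ 2 := by
    linear_combination (-1728 * (W.c₄ : ℂ) ^ 3) * hrel + (ModularForm.E₄ τ ^ 3) * e -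
      (1728 : ℂ) * hτ
  have hE6 : ModularForm.E₆ τ ≠ 0 := by
    intro h0
    rw [h0] at hE46
    simp [hE4, h6'] at hE46
  set r := (W.c₄ : ℂ) / ModularForm.E₄ τ with hr
  set s := (W.c₆ : ℂ) / ModularForm.E₆ τ with hs
  have hr0 : r ≠ 0 := div_ne_zero h4' hE4
  have hs0 : s ≠ 0 := div_ne_zero h6' hE6
  obtain ⟨t, ht⟩ := IsAlgClosed.exists_pow_nat_eq (s / r) (show 0 < 2 by norm_num)
  have ht0 : t ≠ 0 := fun h => by
    rw [h, zero_pow (by norm_num)] at ht; exact div_ne_zero hs0 hr0 ht.symm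
  have hrs : r ^ 3 = s ^ 2 := by
    rw [hr, hs]; field_simp; linear_combination -hE46
  have e4 : t ^ 4 = r := by
    rw [show t ^ 4 = (t ^ 2) ^ 2 by ring, ht]; field_simp; linear_combination -hrs
  have e6 : t ^ 6 = s := by
    rw [show t ^ 6 = (t ^ 2) ^ 3 by ring, ht]; field_simp; linear_combination -hrs
  have hπ : (π : ℂ) ≠ 0 := by exact_mod_cast Real.pi_ne_zero
  have hl : (2 * π : ℂ) / t ≠ 0 := div_ne_zero (mul_ne_zero two_ne_zero hπ) ht0
  refine ⟨⟨hΔ, τ, (2 * π : ℂ) / t, hl, ?_, ?_⟩⟩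
  · rw [PeriodPair.g₂, G_of_scale (periodPairAt τ) _ hl (fun x => (mul_mem_scaledPair hl).symm),
      ← mul_left_comm, ← PeriodPair.g₂, g₂_periodPairAt, div_pow, inv_div, e4, hr]
    field_simp
    ring
  · rw [PeriodPair.g₃, G_of_scale (periodPairAt τ) _ hl (fun x => (mul_mem_scaledPair hl).symm),
      ← mul_left_comm, ← PeriodPair.g₃, g₃_periodPairAt, div_pow, inv_div, e6, hs]
    field_simp
    ring

theorem exists_lblAct_eq {p : ℕ} [Fact p.Prime] {v : Lbl p} (hv : v ≠ 0) :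
    ∃ γ : SL(2, ℤ), lblAct p (0, 1) γ = v := by
  have hT : ∀ (t : ℤ) (u : Lbl p), lblAct p u (ModularGroup.T ^ t) = (u.1, u.1 * (t : ZMod p) + u.2) :=
    fun t u => by simp [lblAct, ModularGroup.coe_T_zpow]
  have hU : ∀ (t : ℤ) (u : Lbl p), lblAct p u (Good.lowU t) = (u.1 + u.2 * (t : ZMod p), u.2) :=
    fun t u => by simp [lblAct, Good.lowU]
  by_cases h1 : v.1 = 0
  · have h2 : v.2 ≠ 0 := fun h => hv (Prod.ext h1 h)
    refine ⟨Good.lowU 1 * ModularGroup.T ^ ((v.2 - 1).val : ℤ) * Good.lowU ((-v.2⁻¹).val : ℤ), ?_⟩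
    rw [← Good.lblAct_mul', ← Good.lblAct_mul', hU, hT, hU]
    simp only [Int.cast_one, mul_one, zero_add, one_mul, Int.cast_natCast, ZMod.natCast_zmod_val]
    rw [show v.2 - 1 + 1 = v.2 by ring, mul_neg, mul_inv_cancel₀ h2, add_neg_cancel]
    exact Prod.ext h1.symm rfl
  · refine ⟨Good.lowU (v.1.val : ℤ) * ModularGroup.T ^ ((v.1⁻¹ * (v.2 - 1)).val : ℤ), ?_⟩
    rw [← Good.lblAct_mul', hU, hT]
    simp only [Int.cast_natCast, ZMod.natCast_zmod_val, zero_add, one_mul]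
    rw [mul_inv_cancel_left₀ h1, sub_add_cancel]

/-- a uniformisation in which a given point of prime order has label `(0, 1)` -/
theorem exists_unif_point {p : ℕ} [Fact p.Prime] (W : WeierstrassCurve ℤ) (hΔ : W.Δ ≠ 0)
    (h4 : W.c₄ ≠ 0) (h6 : W.c₆ ≠ 0) {P : CPt W} (hP : p • P = 0) (hP0 : P ≠ 0) :
    ∃ U : Unif W, U.lbl p (0, 1) = P := by
  obtain ⟨U⟩ := exists_unif W hΔ h4 h6
  obtain ⟨v, hv⟩ := U.exists_lbl p hP
  obtain ⟨γ, hγ⟩ := exists_lblAct_eq (v := v) (fun h => hP0 (by rw [← hv, h, U.lbl_zero]))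
  obtain ⟨U', -, h'⟩ := U.exists_move p γ
  exact ⟨U', by rw [h', hγ, hv]⟩

end FLTAgent.EIS
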