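import Fermat.Agent.EIS.UnitSeries

/-!
Area EIS, parcel H: the modular unit `Δ(pτ)/Δ(τ)` on the upper half plane, its conjugates and the
polynomial they satisfy over `ℚ̄[j]`.
-/

set_option autoImplicit false

noncomputable section

open UpperHalfPlane CongruenceSubgroup ModularCurve Filter
open scoped MatrixGroups Manifold Topology Real ModularForm

namespace FLTAgent.EIS

open ModFun (qp qx lx M1 Good Mod1 scale aff gN dil jFun jM jdM Cosets conjF esum)

local notation "Δf" => ModularForm.discriminant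

variable (p : ℕ) [NeZero p]

/-- `Δ(pτ)/Δ(τ)` -/
def uFn : ℍ → ℂ := fun τ => Δf (scale p τ) / Δf τ

theorem uFn_ne_zero (τ : ℍ) : uFn p τ ≠ 0 :=
  div_ne_zero (ModularForm.discriminant_ne_zero _) (ModularForm.discriminant_ne_zero _)

theorem mdiff_uFn : MDiff (uFn p) :=
  (ModFun.mdiff_dil ModFun.isMF_delta.holo p).div ModFun.isMF_delta.holo
    ModularForm.discriminant_ne_zero

theorem uFn_smul (γ : SL(2, ℤ)) (τ : ℍ) :
    uFn p (γ • τ) = (gN p ∣[(12 : ℤ)] γ) τ / Δf τ := by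
  have hd : denom (γ : GL (Fin 2) ℝ) τ ≠ 0 := denom_ne_zero _ τ
  rw [uFn, ModFun.apply_smul_of_levelOne ModFun.isMF_delta γ τ, ModularForm.SL_slash_apply,
    show Δf (scale p (γ • τ)) = gN p (γ • τ) from rfl, zpow_neg]
  have := ModularForm.discriminant_ne_zero τ
  field_simp

theorem uFn_inv {γ : SL(2, ℤ)} (hγ : γ ∈ Gamma0 p) (τ : ℍ) : uFn p (γ • τ) = uFn p τ := by
  rw [uFn_smul, (ModFun.isMF_gN p).inv γ hγ]
  rfl

theorem exists_uFn_eq (γ : SL(2, ℤ)) :
    ∃ (A : ℕ) (B : ℤ) (D : ℕ) (_ : NeZero A) (_ : NeZero D), A * D = p ∧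
      ∀ τ, uFn p (γ • τ) = (D : ℂ) ^ (-12 : ℤ) * Δf (aff A B D τ) / Δf τ := by
  obtain ⟨A, B, D, hA, hD, hAD, -, h⟩ := ModFun.dil_slash_cases ModFun.isMF_delta p γ
  exact ⟨A, B, D, hA, hD, hAD, fun τ => by rw [uFn_smul, gN, h]⟩

/-- `p¹² Δ(pτ)/Δ(τ)` -/
def vFn : ℍ → ℂ := fun τ => (p : ℂ) ^ 12 * uFn p τ

theorem vFn_ne_zero (τ : ℍ) : vFn p τ ≠ 0 :=
  mul_ne_zero (pow_ne_zero _ (Nat.cast_ne_zero.mpr (NeZero.ne p))) (uFn_ne_zero p τ)

/-- the conjugates -/
def vConj (q : Cosets p) : ℍ → ℂ := conjF 0 (vFn p) q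

theorem vConj_apply (q : Cosets p) (τ : ℍ) : vConj p q τ = vFn p (q.out⁻¹ • τ) := by
  rw [vConj, conjF, ModFun.slash_zero_eq]

theorem vFn_inv : ∀ γ ∈ Gamma0 p, vFn p ∣[(0 : ℤ)] γ = vFn p := fun γ hγ => by
  rw [ModFun.slash_zero_eq]
  funext τ
  simp only [vFn, uFn_inv p hγ]

theorem vConj_q₁ : vConj p (ModFun.q₁ p) = vFn p := ModFun.conjF_q₁ (vFn_inv p)

theorem mdiff_vConj (q : Cosets p) : MDiff (vConj p q) :=
  ModFun.mdiff_slash (mdifferentiable_const.mul (mdiff_uFn p)) 0 _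

theorem vConj_bdd (q : Cosets p) : IsBoundedAtImInfty (vConj p q * qp) := by
  obtain ⟨A, B, D, hA, hD, -, h⟩ := exists_uFn_eq p q.out⁻¹
  have h1 : IsBoundedAtImInfty (fun τ => Δf (aff A B D τ)) :=
    ModFun.isMF_delta.good.bdd.comp_tendsto (ModFun.tendsto_aff A B D)
  have h2 : IsBoundedAtImInfty (fun τ => ((ModFun.etaFn τ) ^ 24)⁻¹) := by
    have := (ModFun.tendsto_etaFn.pow 24).inv₀ (by norm_num)
    exact this.isBigO_one ℝ
  have h3 := ((Good.const ((p : ℂ) ^ 12 * (D : ℂ) ^ (-12 : ℤ))).bdd.mul h1).mul h2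
  refine h3.congr_left fun τ => ?_
  simp only [Pi.mul_apply]
  rw [vConj_apply, vFn, h, ModFun.discriminant_eq]
  simp only [Pi.mul_apply, Pi.pow_apply]
  have := ModFun.qp_ne_zero τ
  have he : ModFun.etaFn τ ≠ 0 := fun h0 => ModularForm.discriminant_ne_zero τ (by
    rw [ModFun.discriminant_eq]; simp [h0])
  field_simp

theorem esum_vConj_inv (m : ℕ) (γ : SL(2, ℤ)) (τ : ℍ) :
    esum (vConj p) (Finset.univ : Finset (Cosets p)) m (γ • τ) =
      esum (vConj p) (Finset.univ : Finset (Cosets p)) m τ := by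
  have h := ModFun.esum_slash (vConj p) (ModFun.cperm p γ) 0 γ (ModFun.conjF_slash (vFn_inv p) γ)
    (Finset.univ : Finset (Cosets p)) m
  rw [mul_zero, Finset.map_univ_equiv, ModFun.slash_zero_eq] at h
  exact congrFun h τ

theorem esum_vConj_bdd (m : ℕ) :
    IsBoundedAtImInfty (esum (vConj p) (Finset.univ : Finset (Cosets p)) m * qp ^ m) := by
  rw [esum, Finset.sum_mul]
  refine ModFun.bdd_sum _ fun S hS => ?_
  rw [← (Finset.mem_powersetCard.mp hS).2, ← Finset.prod_const, ← Finset.prod_mul_distrib]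
  exact ModFun.bdd_prod S fun q _ => vConj_bdd p q

theorem exists_esum_poly (m : ℕ) : ∃ P : Polynomial ℂ,
    ∀ τ, esum (vConj p) (Finset.univ : Finset (Cosets p)) m τ = P.eval (jFun τ) := by
  obtain ⟨P, -, hP⟩ := ModFun.exists_poly_jFun (ModFun.esum_mdiff _ _ _ (mdiff_vConj p))
    (esum_vConj_inv p m) (esum_vConj_bdd p m)
  exact ⟨P, hP⟩

/-! ### `q`-series at `pτ` -/

/-- `exp (2πi B / D)` -/
def zetaBD (B : ℤ) (D : ℕ) : ℂ := Complex.exp (2 * π * Complex.I * ((B : ℂ) / D))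

theorem zetaBD_pow (B : ℤ) (D : ℕ) [NeZero D] : zetaBD B D ^ D = 1 := by
  have hD : (D : ℂ) ≠ 0 := Nat.cast_ne_zero.mpr (NeZero.ne D)
  rw [zetaBD, ← Complex.exp_nat_mul, Complex.exp_eq_one_iff]
  exact ⟨B, by field_simp⟩

theorem norm_zetaBD (B : ℤ) (D : ℕ) [NeZero D] : ‖zetaBD B D‖ = 1 :=
  Complex.norm_eq_one_of_pow_eq_one (zetaBD_pow B D) (NeZero.ne D)

theorem isIntegral_zetaBD (B : ℤ) (D : ℕ) [NeZero D] : IsIntegral ℤ (zetaBD B D) :=
  IsIntegral.of_pow (Nat.pos_of_ne_zero (NeZero.ne D)) (by rw [zetaBD_pow]; exact isIntegral_one)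

theorem qp_aff_scale {A D : ℕ} [NeZero A] [NeZero D] (hAD : A * D = p) (B : ℤ) (τ : ℍ) :
    qp (aff A B D (scale p τ)) = zetaBD B D * qp τ ^ (A ^ 2) := by
  have hD : (D : ℂ) ≠ 0 := Nat.cast_ne_zero.mpr (NeZero.ne D)
  simp only [qp, Function.Periodic.qParam, ModFun.coe_aff, ModFun.coe_scale, zetaBD]
  rw [← Complex.exp_nat_mul, ← Complex.exp_add]
  congr 1
  rw [← hAD]
  push_cast
  field_simp
  ring

theorem delta_scale_eq (τ : ℍ) : Δf (scale p τ) = qp τ ^ p * etaPow p 1 τ := by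
  rw [ModFun.discriminant_eq]
  simp only [Pi.mul_apply, Pi.pow_apply, ModFun.qp_scale, etaPow, ModFun.etaFn, one_mul]

theorem delta_aff_scale_eq {A D : ℕ} [NeZero A] [NeZero D] (hAD : A * D = p) (B : ℤ) (τ : ℍ) :
    Δf (aff A B D (scale p τ)) =
      zetaBD B D * qp τ ^ (A ^ 2) * etaPow (A ^ 2) (zetaBD B D) τ := by
  rw [ModFun.discriminant_eq]
  simp only [Pi.mul_apply, Pi.pow_apply, ModFun.etaFn, etaPow, qp_aff_scale p hAD]

/-- the conjugates at `pτ`: periodic, integral `q`-series of pole order `< p`, dividing `p¹²` -/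
theorem exists_series (q : Cosets p) : ∃ h : Mod1 (fun τ => vConj p q (scale p τ)),
    IntSer ((p - 1 : ℕ) : ℤ) (lx ⟨_, h⟩) ∧ ∃ (l : ℤ) (y : LaurentSeries ℂ), IntSer l y ∧
      lx ⟨_, h⟩ * y = algebraMap ℂ (LaurentSeries ℂ) ((p : ℂ) ^ 12) := by
  obtain ⟨A, B, D, hA, hD, hAD, hu⟩ := exists_uFn_eq p q.out⁻¹
  set ζ := zetaBD B D with hζdef
  have hp0 : p ≠ 0 := NeZero.ne p
  have hA2 : A ^ 2 ≠ 0 := pow_ne_zero _ (NeZero.ne A)
  have hζ := norm_zetaBD B D
  have hζi := isIntegral_zetaBD B D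
  set g : ℍ → ℂ := fun τ => vConj p q (scale p τ) with hg
  set den : ℍ → ℂ := qp ^ p * etaPow p 1 with hden
  set num : ℍ → ℂ := ((A : ℂ) ^ 12 * ζ) • (qp ^ (A ^ 2) * etaPow (A ^ 2) ζ) with hnum
  have gden : Good den := (ModFun.good_qp.pow p).mul (good_etaPow hp0 norm_one)
  have gnum : Good num := ((ModFun.good_qp.pow _).mul (good_etaPow hA2 hζ)).smul _
  have hden0 : ∀ τ, den τ ≠ 0 := fun τ => by
    rw [hden]
    simp only [Pi.mul_apply, Pi.pow_apply]
    rw [← delta_scale_eq]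
    exact ModularForm.discriminant_ne_zero _
  have hgd : ∀ τ, g τ * den τ = num τ := fun τ => by
    have e := hu (scale p τ)
    simp only [hg, hden, hnum, Pi.mul_apply, Pi.pow_apply, Pi.smul_apply, smul_eq_mul]
    rw [vConj_apply, vFn, e, delta_aff_scale_eq p hAD, ← hζdef, delta_scale_eq]
    have h1 : qp τ ^ p * etaPow p 1 τ ≠ 0 := by
      rw [← delta_scale_eq]; exact ModularForm.discriminant_ne_zero _
    have hpAD : (p : ℂ) = A * D := by rw [← hAD]; push_cast; ring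
    have hD0 : (D : ℂ) ≠ 0 := Nat.cast_ne_zero.mpr (NeZero.ne D)
    have h2 : qp τ ^ p ≠ 0 := pow_ne_zero _ (ModFun.qp_ne_zero τ)
    have h3 : etaPow p 1 τ ≠ 0 := right_ne_zero_of_mul h1
    rw [zpow_neg]
    field_simp
    rw [hpAD]
    ring
  have hgeq : g = num / den := funext fun τ => by
    rw [Pi.div_apply, eq_div_iff (hden0 τ)]; exact hgd τ
  have hM : Mod1 g := by
    refine ⟨?_, ?_, p, ?_⟩
    · rw [hgeq]
      exact gnum.per.div gden.per
    · rw [hgeq]
      exact gnum.holo.div gden.holo hden0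
    · have h1 : Tendsto (etaPow p 1) atImInfty (𝓝 1) := by
        have := (good_etaPow hp0 norm_one).tendsto_coeff_zero
        rwa [qx_etaPow hp0 norm_one, PowerSeries.coeff_mk, if_pos (dvd_zero p), Nat.zero_div,
          PowerSeries.coeff_zero_eq_constantCoeff, constantCoeff_dedekindEtaUnit, Int.cast_one,
          pow_zero, mul_one] at this
      have h2 : IsBoundedAtImInfty (fun τ => (etaPow p 1 τ)⁻¹) :=
        (h1.inv₀ one_ne_zero).isBigO_one ℝ
      refine (gnum.bdd.mul h2).congr_left fun τ => ?_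
      simp only [Pi.mul_apply, Pi.pow_apply]
      rw [← hgd τ, hden]
      simp only [Pi.mul_apply, Pi.pow_apply]
      have : etaPow p 1 τ ≠ 0 := right_ne_zero_of_mul (hden0 τ)
      field_simp
  refine ⟨hM, ?_⟩
  obtain ⟨UA, hUA⟩ := exists_unit_etaPow hA2 hζ hζi
  obtain ⟨UP, hUP⟩ := exists_unit_etaPow hp0 (norm_one (α := ℂ)) isIntegral_one
  set a : SC := (A : SC) ^ 12 * ⟨ζ, hζi⟩ with ha
  set b : SC := (D : SC) ^ 12 * (⟨ζ, hζi⟩ : SC) ^ (D - 1) with hb
  have hab : a * b = (p : SC) ^ 12 := by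
    have h1 : (⟨ζ, hζi⟩ : SC) ^ D = 1 := Subtype.ext (by
      rw [SubmonoidClass.coe_pow]; exact zetaBD_pow B D)
    rw [ha, hb, show ((A : SC) ^ 12 * ⟨ζ, hζi⟩) * ((D : SC) ^ 12 * (⟨ζ, hζi⟩ : SC) ^ (D - 1)) =
      (A * D : SC) ^ 12 * ((⟨ζ, hζi⟩ : SC) ^ (D - 1) * ⟨ζ, hζi⟩) by ring, ← pow_succ,
      Nat.sub_add_cancel (Nat.pos_of_ne_zero (NeZero.ne D)), h1, mul_one, ← hAD, Nat.cast_mul]
  have hX : ∀ k : ℕ, HahnSeries.ofPowerSeries ℤ ℂ (PowerSeries.X ^ k) =
      HahnSeries.single (k : ℤ) 1 := fun k => HahnSeries.ofPowerSeries_X_pow k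
  have eden : lx ⟨den, gden.mod1⟩ = HahnSeries.single (p : ℤ) 1 *
      HahnSeries.ofPowerSeries ℤ ℂ ((UP : PowerSeries SC).map inSC) := by
    rw [ModFun.lx_good gden, hden, Good.qx_mul (ModFun.good_qp.pow p) (good_etaPow hp0 norm_one),
      Good.qx_qp_pow, hUP, map_mul, hX]
  have enum : lx ⟨num, gnum.mod1⟩ = HahnSeries.single ((A ^ 2 : ℕ) : ℤ) 1 *
      HahnSeries.ofPowerSeries ℤ ℂ ((PowerSeries.C a * (UA : PowerSeries SC)).map inSC) := by
    rw [ModFun.lx_good gnum, hnum,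
      Good.qx_smul _ ((ModFun.good_qp.pow _).mul (good_etaPow hA2 hζ)),
      Good.qx_mul (ModFun.good_qp.pow _) (good_etaPow hA2 hζ), Good.qx_qp_pow, hUA,
      PowerSeries.smul_eq_C_mul, mul_left_comm, map_mul, hX, map_mul (PowerSeries.map inSC),
      PowerSeries.map_C,
      show inSC a = (A : ℂ) ^ 12 * ζ by simp [ha]]
  have key : lx ⟨g, hM⟩ * lx ⟨den, gden.mod1⟩ = lx ⟨num, gnum.mod1⟩ := by
    rw [← map_mul]
    exact congrArg lx (Subtype.ext (funext hgd))
  have elx : lx ⟨g, hM⟩ = HahnSeries.single (-((p : ℤ) - (A ^ 2 : ℕ))) 1 *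
      HahnSeries.ofPowerSeries ℤ ℂ
        ((PowerSeries.C a * (UA : PowerSeries SC) * (↑UP⁻¹ : PowerSeries SC)).map inSC) := by
    have hne : lx ⟨den, gden.mod1⟩ ≠ 0 := fun h0 => hden0 UpperHalfPlane.I
      (congrFun (congrArg Subtype.val ((map_eq_zero_iff _ ModFun.lx_injective).mp h0))
        UpperHalfPlane.I)
    apply mul_right_cancel₀ hne
    rw [key, enum, eden, mul_mul_mul_comm, single_mul_single_one, ← map_mul, ← map_mul,
      mul_assoc (PowerSeries.C a * (UA : PowerSeries SC)), Units.inv_mul, mul_one]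
    congr 2
    rw [neg_sub, sub_add_cancel]
  refine ⟨IntSer.mono ⟨_, elx⟩ ?_, -((p : ℤ) - (A ^ 2 : ℕ)),
    HahnSeries.single (-(-((p : ℤ) - (A ^ 2 : ℕ)))) 1 * HahnSeries.ofPowerSeries ℤ ℂ
      ((PowerSeries.C b * (↑UA⁻¹ : PowerSeries SC) * (UP : PowerSeries SC)).map inSC),
    ⟨_, rfl⟩, ?_⟩
  · have : 1 ≤ A ^ 2 := Nat.one_le_iff_ne_zero.mpr hA2
    omega
  · rw [elx, mul_mul_mul_comm, single_mul_single_one, ← map_mul, ← map_mul,
      show PowerSeries.C a * (UA : PowerSeries SC) * (↑UP⁻¹ : PowerSeries SC) *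
        (PowerSeries.C b * (↑UA⁻¹ : PowerSeries SC) * (UP : PowerSeries SC)) =
        (PowerSeries.C a * PowerSeries.C b) * ((UA : PowerSeries SC) * (↑UA⁻¹ : PowerSeries SC)) *
          ((UP : PowerSeries SC) * (↑UP⁻¹ : PowerSeries SC)) by ring,
      Units.mul_inv, Units.mul_inv, mul_one, mul_one, ← map_mul PowerSeries.C, hab,
      PowerSeries.map_C, HahnSeries.ofPowerSeries_C, algebraMap_laurentSeries_eq_single,
      show -((p : ℤ) - (A ^ 2 : ℕ)) + -(-((p : ℤ) - (A ^ 2 : ℕ))) = 0 from add_neg_cancel _,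
      show inSC ((p : SC) ^ 12) = (p : ℂ) ^ 12 by simp,
      show HahnSeries.single (0 : ℤ) (1 : ℂ) = 1 from rfl, one_mul]
    rfl

/-- the conjugates at `pτ` -/
def vM (q : Cosets p) : M1 := ⟨fun τ => vConj p q (scale p τ), (exists_series p q).1⟩

theorem intSer_esum (m : ℕ) {P : Polynomial ℂ}
    (hP : ∀ τ, esum (vConj p) (Finset.univ : Finset (Cosets p)) m τ = P.eval (jFun τ)) :
    (∀ i, IsIntegral ℤ (P.coeff i)) ∧ p * P.natDegree ≤ m * (p - 1) := by
  have e : Polynomial.aeval (jdM p) P =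
      ∑ S ∈ (Finset.univ : Finset (Cosets p)).powersetCard m, ∏ q ∈ S, vM p q := by
    refine Subtype.ext (funext fun τ => ?_)
    simp only [AddSubmonoidClass.coe_finsetSum, SubmonoidClass.coe_finsetProd, Finset.sum_apply,
      Finset.prod_apply]
    have h2 := hP (scale p τ)
    simp only [esum, Finset.sum_apply, Finset.prod_apply] at h2
    refine Eq.trans ?_ h2.symm
    rw [← ModFun.evalM_apply, ← Polynomial.aeval_algHom_apply, ModFun.evalM_apply,
      Polynomial.coe_aeval_eq_eval, ModFun.jdM_apply]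
    rfl
  refine poly_of_intSer p (k := m * (p - 1)) _ P rfl ?_
  rw [← ModFun.lx_jdM, Polynomial.aeval_algHom_apply, e, map_sum]
  refine IntSer.sum _ fun S hS => ?_
  rw [map_prod]
  have h := IntSer.prod S (f := fun q => lx (vM p q)) fun q _ => (exists_series p q).2.1
  rw [(Finset.mem_powersetCard.mp hS).2] at h
  exact_mod_cast h

theorem esum_top (τ : ℍ) : esum (vConj p) (Finset.univ : Finset (Cosets p)) (ModFun.idx p) τ =
    ∏ q : Cosets p, vConj p q τ := by
  rw [esum, ModFun.idx, ← Finset.card_univ, Finset.powersetCard_self, Finset.sum_singleton,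
    Finset.prod_apply]

theorem exists_norm_const {P : Polynomial ℂ}
    (hP : ∀ τ, esum (vConj p) (Finset.univ : Finset (Cosets p)) (ModFun.idx p) τ = P.eval (jFun τ)) :
    P = Polynomial.C (P.coeff 0) ∧
      ∃ b : ℂ, IsIntegral ℤ b ∧ P.coeff 0 * b = (p : ℂ) ^ (12 * ModFun.idx p) := by
  have hne : ∀ τ, P.eval (jFun τ) ≠ 0 := fun τ => by
    rw [← hP, esum_top]
    exact Finset.prod_ne_zero_iff.mpr fun q _ => by rw [vConj_apply]; exact vFn_ne_zero p _
  have hC : P = Polynomial.C (P.coeff 0) := by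
    refine Polynomial.eq_C_of_natDegree_eq_zero ?_
    by_contra h
    obtain ⟨a, ha⟩ := IsAlgClosed.exists_root P
      (fun hd => h (Polynomial.natDegree_eq_of_degree_eq_some hd))
    obtain ⟨τ, rfl⟩ := ModFun.jFun_surjective a
    exact hne τ ha
  refine ⟨hC, ?_⟩
  choose hM _ l y hy hxy using exists_series p
  have e : ∏ q : Cosets p, vM p q = algebraMap ℂ M1 (P.coeff 0) := by
    refine Subtype.ext (funext fun τ => ?_)
    have h2 := hP (scale p τ)
    rw [esum_top, hC, Polynomial.eval_C] at h2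
    simp only [SubmonoidClass.coe_finsetProd, Finset.prod_apply]
    exact h2.trans rfl
  have h1 : algebraMap ℂ (LaurentSeries ℂ) (P.coeff 0) * ∏ q : Cosets p, y q =
      algebraMap ℂ (LaurentSeries ℂ) ((p : ℂ) ^ (12 * ModFun.idx p)) := by
    rw [← lx.commutes, ← e, map_prod, ← Finset.prod_mul_distrib]
    refine (Finset.prod_congr rfl fun q _ => hxy q).trans ?_
    rw [Finset.prod_const, Finset.card_univ, ← map_pow, ← pow_mul]
    rfl
  have hint : IsIntegral ℤ ((∏ q : Cosets p, y q).coeff 0) := by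
    have : ∀ S : Finset (Cosets p), ∃ L : ℤ, IntSer L (∏ q ∈ S, y q) := by
      intro S
      classical
      induction S using Finset.induction_on with
      | empty => exact ⟨0, by simpa using IntSer.one⟩
      | insert a s ha ih =>
        obtain ⟨L, hL⟩ := ih
        exact ⟨_, by rw [Finset.prod_insert ha]; exact (hy a).mul hL⟩
    obtain ⟨L, hL⟩ := this Finset.univ
    exact hL.coeff_isIntegral 0
  refine ⟨_, hint, ?_⟩
  have h2 := congrArg (fun z : LaurentSeries ℂ => z.coeff 0) h1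
  simpa [ModFun.algebraMap_mul_coeff, algebraMap_laurentSeries_eq_single] using h2

theorem exists_lift_poly {P : Polynomial ℂ} (h : ∀ i, IsIntegral ℤ (P.coeff i)) :
    ∃ Q : Polynomial (AlgebraicClosure ℚ), Q.map ModFun.embC = P ∧ ∀ i, IsIntegral ℤ (Q.coeff i) := by
  choose a ha hai using fun i => exists_embC_eq (h i)
  refine ⟨∑ i ∈ Finset.range (P.natDegree + 1), Polynomial.monomial i (a i), ?_, fun i => ?_⟩
  · rw [Polynomial.map_sum]
    refine Eq.trans (Finset.sum_congr rfl fun i _ => ?_) P.as_sum_range.symm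
    rw [Polynomial.map_monomial, ha]
  · rw [Polynomial.finsetSum_coeff]
    refine IsIntegral.sum _ fun k _ => ?_
    rw [Polynomial.coeff_monomial]
    split_ifs
    exacts [hai k, isIntegral_zero]

/-- the characteristic polynomial of `p¹² Δ(pτ)/Δ(τ)` over the `j`-line -/
theorem exists_uPoly : ∃ P : ℕ → Polynomial (AlgebraicClosure ℚ), P 0 = 1 ∧
    (∀ m i, IsIntegral ℤ ((P m).coeff i)) ∧
    (∀ m, p * (P m).natDegree ≤ m * (p - 1)) ∧
    (∃ C b : AlgebraicClosure ℚ, P (ModFun.idx p) = Polynomial.C C ∧ IsIntegral ℤ C ∧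
      IsIntegral ℤ b ∧ C * b = (p : AlgebraicClosure ℚ) ^ (12 * ModFun.idx p)) ∧
    ∀ (τ : ℍ) (x : ℂ), ∏ q : Cosets p, (x - vConj p q τ) =
      ∑ m ∈ Finset.range (ModFun.idx p + 1),
        ((P m).map ModFun.embC).eval (jFun τ) * x ^ (ModFun.idx p - m) := by
  choose E hE using exists_esum_poly p
  have hI := fun m => intSer_esum p m (hE m)
  choose Q hQ hQi using fun m => exists_lift_poly (hI m).1
  obtain ⟨hC, b, hb, hCb⟩ := exists_norm_const p (hE _)
  obtain ⟨b', rfl, hb'⟩ := exists_embC_eq hb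
  have hdeg : ∀ m, (Q m).natDegree = (E m).natDegree := fun m => by
    rw [← hQ m, Polynomial.natDegree_map]
  have hidx : ModFun.idx p ≠ 0 := (ModFun.idx_pos p).ne'
  refine ⟨fun m => if m = 0 then 1 else Polynomial.C ((-1) ^ m) * Q m, by simp, fun m i => ?_,
    fun m => ?_, ⟨(-1) ^ ModFun.idx p * (Q (ModFun.idx p)).coeff 0,
      (-1) ^ ModFun.idx p * b', ?_, (isIntegral_one.neg.pow _).mul (hQi _ _),
      (isIntegral_one.neg.pow _).mul hb', ?_⟩, fun τ x => ?_⟩
  · dsimp only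
    split_ifs
    · rw [Polynomial.coeff_one]; split_ifs <;> simp [isIntegral_one, isIntegral_zero]
    · rw [Polynomial.coeff_C_mul]; exact (isIntegral_one.neg.pow m).mul (hQi m i)
  · dsimp only
    split_ifs
    · simp
    · refine le_trans (Nat.mul_le_mul_left p (Polynomial.natDegree_C_mul_le _ _)) ?_
      rw [hdeg]; exact (hI m).2
  · dsimp only
    rw [if_neg hidx, map_mul Polynomial.C]
    congr 1
    refine Polynomial.eq_C_of_natDegree_eq_zero ?_
    rw [hdeg, hC, Polynomial.natDegree_C]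
  · rw [mul_mul_mul_comm, ← mul_pow, neg_one_mul, neg_neg, one_pow, one_mul]
    apply ModFun.embC.injective
    rw [map_mul, map_pow, map_natCast, ← hCb, ← Polynomial.coeff_map, hQ]
  · have e := congrFun (ModFun.prod_sub_eq (vConj p) (fun _ => x)
      (Finset.univ : Finset (Cosets p))) τ
    simp only [Finset.prod_apply, Pi.sub_apply, Finset.sum_apply, Pi.smul_apply, Pi.mul_apply,
      Pi.pow_apply, smul_eq_mul, Finset.card_univ] at e
    rw [e]
    refine Finset.sum_congr rfl fun m _ => ?_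
    by_cases hm : m = 0
    · subst hm; simp [esum, ModFun.idx]
    · simp only []
      rw [if_neg hm, Polynomial.map_mul, Polynomial.map_C, hQ, map_pow, map_neg, map_one,
        Polynomial.eval_mul, Polynomial.eval_C, ← hE]
      show _ = _ * x ^ (Fintype.card (Cosets p) - m)
      ring

end FLTAgent.EIS

end
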