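import Fermat.Agent.ModFun.API
import Fermat.Prelude.Def_ModularCurve_X0ModL

/-!
Area EIS, parcel H: `q`-series with algebraic integer coefficients and bounded pole order.
-/

set_option autoImplicit false

noncomputable section

open UpperHalfPlane Filter ModularCurve
open scoped Manifold Topology Real

namespace FLTAgent.EIS

open ModFun (qp qx lx M1 Good)

/-- the algebraic integers in `ℂ` -/
abbrev SC : Subalgebra ℤ ℂ := integralClosure ℤ ℂ

/-- the inclusion -/
abbrev inSC : SC →+* ℂ := SC.val.toRingHom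

/-- algebraic integer coefficients and pole order at most `k` -/
def IntSer (k : ℤ) (x : LaurentSeries ℂ) : Prop :=
  ∃ F : PowerSeries SC, x = HahnSeries.single (-k) 1 * HahnSeries.ofPowerSeries ℤ ℂ (F.map inSC)

theorem single_mul_single_one (a b : ℤ) :
    HahnSeries.single a (1 : ℂ) * HahnSeries.single b 1 = HahnSeries.single (a + b) 1 := by
  rw [HahnSeries.single_mul_single, one_mul]

namespace IntSer

variable {k l : ℤ} {x y : LaurentSeries ℂ}

theorem mul (hx : IntSer k x) (hy : IntSer l y) : IntSer (k + l) (x * y) := by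
  obtain ⟨F, rfl⟩ := hx
  obtain ⟨G, rfl⟩ := hy
  refine ⟨F * G, ?_⟩
  rw [mul_mul_mul_comm, single_mul_single_one, map_mul, map_mul, neg_add]

theorem mono (hx : IntSer k x) (h : k ≤ l) : IntSer l x := by
  obtain ⟨F, rfl⟩ := hx
  obtain ⟨n, hn⟩ := Int.eq_ofNat_of_zero_le (sub_nonneg.mpr h)
  refine ⟨PowerSeries.X ^ n * F, ?_⟩
  rw [map_mul, map_mul, ← mul_assoc, map_pow, PowerSeries.map_X, HahnSeries.ofPowerSeries_X_pow,
    single_mul_single_one, show -l + (n : ℤ) = -k by omega]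

theorem const {c : ℂ} (hc : IsIntegral ℤ c) : IntSer 0 (algebraMap ℂ (LaurentSeries ℂ) c) := by
  refine ⟨PowerSeries.C ⟨c, hc⟩, ?_⟩
  rw [neg_zero, PowerSeries.map_C, HahnSeries.ofPowerSeries_C, algebraMap_laurentSeries_eq_single,
    show inSC ⟨c, hc⟩ = c from rfl, show HahnSeries.single (0 : ℤ) (1 : ℂ) = 1 from rfl, one_mul]
  rfl

theorem one : IntSer 0 (1 : LaurentSeries ℂ) := by
  simpa using IntSer.const (isIntegral_one : IsIntegral ℤ (1 : ℂ))

theorem add (hx : IntSer k x) (hy : IntSer k y) : IntSer k (x + y) := by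
  obtain ⟨F, rfl⟩ := hx
  obtain ⟨G, rfl⟩ := hy
  exact ⟨F + G, by rw [map_add, map_add, mul_add]⟩

theorem neg (hx : IntSer k x) : IntSer k (-x) := by
  obtain ⟨F, rfl⟩ := hx
  refine ⟨-F, ?_⟩
  rw [map_neg, map_neg]
  ring

theorem sub (hx : IntSer k x) (hy : IntSer k y) : IntSer k (x - y) := by
  rw [sub_eq_add_neg]; exact hx.add hy.neg

theorem zero : IntSer k (0 : LaurentSeries ℂ) := ⟨0, by simp⟩

theorem sum {ι : Type*} (s : Finset ι) {f : ι → LaurentSeries ℂ} (h : ∀ i ∈ s, IntSer k (f i)) :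
    IntSer k (∑ i ∈ s, f i) :=
  Finset.sum_induction f (IntSer k) (fun _ _ => IntSer.add) IntSer.zero h

theorem prod {ι : Type*} (s : Finset ι) {f : ι → LaurentSeries ℂ} (h : ∀ i ∈ s, IntSer k (f i)) :
    IntSer ((s.card : ℤ) * k) (∏ i ∈ s, f i) := by
  classical
  induction s using Finset.induction_on with
  | empty => simpa using IntSer.one
  | insert a s ha ih =>
    rw [Finset.prod_insert ha, Finset.card_insert_of_notMem ha]
    have := (h a (Finset.mem_insert_self a s)).mul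
      (ih fun i hi => h i (Finset.mem_insert_of_mem hi))
    rwa [show ((s.card + 1 : ℕ) : ℤ) * k = k + (s.card : ℤ) * k by push_cast; ring]

theorem pow (hx : IntSer k x) (n : ℕ) : IntSer ((n : ℤ) * k) (x ^ n) := by
  simpa using IntSer.prod (Finset.range n) (f := fun _ => x) fun _ _ => hx

theorem coeff_isIntegral (hx : IntSer k x) (n : ℤ) : IsIntegral ℤ (x.coeff n) := by
  obtain ⟨F, rfl⟩ := hx
  rw [HahnSeries.coeff_single_mul, one_mul]
  rcases lt_or_ge (n - -k) 0 with h | h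
  · rw [ofPowerSeries_coeff_of_neg _ h]; exact isIntegral_zero
  · obtain ⟨m, hm⟩ := Int.eq_ofNat_of_zero_le h
    rw [hm, HahnSeries.ofPowerSeries_apply_coeff, PowerSeries.coeff_map]
    exact (F.coeff m).2

theorem coeff_eq_zero (hx : IntSer k x) {n : ℤ} (hn : n < -k) : x.coeff n = 0 := by
  obtain ⟨F, rfl⟩ := hx
  rw [HahnSeries.coeff_single_mul, one_mul, ofPowerSeries_coeff_of_neg _ (by omega)]

end IntSer

/-! ### polynomials in `j(pτ)` -/

theorem jqModC_eq_coeffEmbC : jqModC ℂ = coeffEmb ℂ jq := by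
  rw [← jqModC_rat, coeffEmb, coeffMap_jqModC]

theorem coeff_aeval_jq (P : Polynomial ℂ) :
    (Polynomial.aeval (coeffEmb ℂ jq) P).coeff (-(P.natDegree : ℤ)) = P.leadingCoeff := by
  rw [← jqModC_eq_coeffEmbC, Polynomial.aeval_def, Polynomial.eval₂_eq_sum_range,
    HahnSeries.coeff_sum, Finset.sum_eq_single P.natDegree]
  · rw [algebraMap_laurentSeries_eq_single, HahnSeries.coeff_single_zero_mul,
      coeff_jqModC_pow_self, mul_one]
    rfl
  · intro i hi hne
    rw [Finset.mem_range] at hi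
    rw [algebraMap_laurentSeries_eq_single, HahnSeries.coeff_single_zero_mul,
      coeff_jqModC_pow_of_lt ℂ (by omega), mul_zero]
  · simp

theorem aeval_qExpand (p : ℕ) [NeZero p] (P : Polynomial ℂ) :
    Polynomial.aeval (coeffEmb ℂ (qExpand ℚ p jq)) P =
      qExpand ℂ p (Polynomial.aeval (coeffEmb ℂ jq) P) := by
  rw [show coeffEmb ℂ (qExpand ℚ p jq) = qExpand ℂ p (coeffEmb ℂ jq) from
    ModFun.coeffMap_qExpand _ p _]
  exact Polynomial.aeval_algHom_apply (qExpandAlgHomC ℂ p) (coeffEmb ℂ jq) P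

theorem intSer_jqN (p : ℕ) [NeZero p] : IntSer (p : ℤ) (coeffEmb ℂ (qExpand ℚ p jq)) := by
  refine ⟨(PowerSeries.mk fun m => if p ∣ m then jNum.coeff (m / p) else 0).map
    (Int.castRingHom SC), ?_⟩
  rw [show coeffEmb ℂ (qExpand ℚ p jq) = qExpand ℂ p (coeffEmb ℂ jq) from
    ModFun.coeffMap_qExpand _ p _, ← jqModC_eq_coeffEmbC, jqModC, map_mul, qExpand_single,
    ModFun.qExpand_ofPowerSeries, mul_neg_one]
  congr 2
  ext m
  simp only [PowerSeries.coeff_map, PowerSeries.coeff_mk]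
  split_ifs <;> simp

/-- a polynomial with integral, boundedly polar value at `j(pτ)` has integral coefficients and
bounded degree -/
theorem poly_of_intSer (p : ℕ) [NeZero p] {k : ℕ} : ∀ (d : ℕ) (P : Polynomial ℂ), P.natDegree = d →
    IntSer (k : ℤ) (Polynomial.aeval (coeffEmb ℂ (qExpand ℚ p jq)) P) →
    (∀ i, IsIntegral ℤ (P.coeff i)) ∧ p * P.natDegree ≤ k := by
  intro d
  induction d using Nat.strong_induction_on with
  | _ d ih =>
    intro P hPd h
    have hlead : (Polynomial.aeval (coeffEmb ℂ (qExpand ℚ p jq)) P).coeff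
        ((p : ℤ) * -(P.natDegree : ℤ)) = P.leadingCoeff := by
      rw [aeval_qExpand, qExpand_coeff_mul, coeff_aeval_jq]
    have hlc : IsIntegral ℤ P.leadingCoeff := hlead ▸ h.coeff_isIntegral _
    have hdeg : p * P.natDegree ≤ k := by
      rcases eq_or_ne P 0 with rfl | hP
      · simp
      by_contra hc
      refine Polynomial.leadingCoeff_ne_zero.mpr hP ?_
      rw [← hlead]
      refine h.coeff_eq_zero ?_
      have : (k : ℤ) < (p : ℤ) * (P.natDegree : ℤ) := by exact_mod_cast not_le.mp hc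
      linarith
    refine ⟨?_, hdeg⟩
    rcases eq_or_ne d 0 with rfl | hd
    · intro i
      rcases eq_or_ne i 0 with rfl | hi
      · rwa [Polynomial.leadingCoeff, hPd] at hlc
      · rw [Polynomial.coeff_eq_zero_of_natDegree_lt (by omega)]; exact isIntegral_zero
    have he : IntSer (k : ℤ) (Polynomial.aeval (coeffEmb ℂ (qExpand ℚ p jq)) P.eraseLead) := by
      rw [← Polynomial.self_sub_C_mul_X_pow, map_sub, map_mul, map_pow, Polynomial.aeval_C,
        Polynomial.aeval_X]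
      refine h.sub (((IntSer.const hlc).mul ((intSer_jqN p).pow P.natDegree)).mono ?_)
      rw [zero_add, mul_comm]
      exact_mod_cast hdeg
    obtain ⟨hI, -⟩ := ih P.eraseLead.natDegree
      (by have := P.eraseLead_natDegree_le; omega) _ rfl he
    intro i
    by_cases hi : i = P.natDegree
    · subst hi; exact hlc
    · rw [← Polynomial.eraseLead_coeff_of_ne i hi]; exact hI i

/-! ### `∏ (1 - qⁿ)^24` at `ζ qᵏ` -/

/-- `∏ (1 - ζⁿ q^(nk))^24` -/
def etaPow (k : ℕ) (ζ : ℂ) : ℍ → ℂ := fun τ => ModFun.etaP (ζ * qp τ ^ k) ^ 24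

theorem norm_twist_lt {k : ℕ} (hk : k ≠ 0) {ζ : ℂ} (hζ : ‖ζ‖ = 1) (τ : ℍ) :
    ‖ζ * qp τ ^ k‖ < 1 := by
  rw [norm_mul, hζ, one_mul, norm_pow]
  exact pow_lt_one₀ (norm_nonneg _) (ModFun.norm_qp_lt_one τ) hk

theorem good_etaPow {k : ℕ} (hk : k ≠ 0) {ζ : ℂ} (hζ : ‖ζ‖ = 1) : Good (etaPow k ζ) where
  per := by
    intro z
    simp only [Function.comp_apply, etaPow]
    have := ModFun.good_qp.per z
    simp only [Function.comp_apply] at this
    rw [this]
  holo := by
    have h := (mdifferentiable_const (c := ζ)).mul (ModFun.mdiff_qp.pow k)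
    rw [UpperHalfPlane.mdifferentiable_iff] at h ⊢
    exact ((ModFun.differentiableOn_etaP.pow 24).comp h fun z _ => by
      simpa using norm_twist_lt hk hζ (ofComplex z)).congr fun z _ => rfl
  bdd := by
    have hc : ContinuousAt (fun q => ModFun.etaP q ^ 24) 0 :=
      ((ModFun.differentiableOn_etaP.pow 24).differentiableAt
        (Metric.ball_mem_nhds 0 one_pos)).continuousAt
    have h0 : Tendsto (fun τ : ℍ => ζ * qp τ ^ k) atImInfty (𝓝 0) := by
      have hq : Tendsto qp atImInfty (𝓝 0) := qParam_tendsto_atImInfty one_pos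
      simpa [hk] using (hq.pow k).const_mul ζ
    exact (hc.tendsto.comp h0).isBigO_one ℝ

theorem hasSum_etaP24 (w : ℂ) (hw : ‖w‖ < 1) :
    HasSum (fun n : ℕ => ((dedekindEtaUnit.coeff n : ℤ) : ℂ) • w ^ n) (ModFun.etaP w ^ 24) := by
  have h := fun z (hz : z ∈ Metric.ball (0 : ℂ) 1) =>
    Complex.hasSum_taylorSeries_on_ball (ModFun.differentiableOn_etaP.pow 24) hz
  set c : ℕ → ℂ := fun n =>
    (n.factorial : ℂ)⁻¹ * iteratedDeriv n (fun q => ModFun.etaP q ^ 24) 0 with hc
  have hs : ∀ z : ℂ, ‖z‖ < 1 → HasSum (fun n => c n • z ^ n) (ModFun.etaP z ^ 24) := fun z hz =>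
    HasSum.congr_fun (h z (by simpa using hz)) fun n => by
      simp only [hc, sub_zero, smul_eq_mul]
      rw [show (fun q => ModFun.etaP q ^ 24) = ModFun.etaP ^ 24 from rfl]
      ring
  have he := ModFun.coeff_unique (ModFun.good_etaFn.pow 24) (c := c) fun τ =>
    hs (qp τ) (ModFun.norm_qp_lt_one τ)
  have hU : ∀ n, c n = ((dedekindEtaUnit.coeff n : ℤ) : ℂ) := fun n => by
    rw [← he n, Good.qx_pow ModFun.good_etaFn, ModFun.qx_etaFn, ← map_pow, PowerSeries.coeff_map]
    rfl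
  exact HasSum.congr_fun (hs w hw) fun n => by rw [hU]

theorem qx_etaPow {k : ℕ} (hk : k ≠ 0) {ζ : ℂ} (hζ : ‖ζ‖ = 1) :
    qx (etaPow k ζ) = PowerSeries.mk fun m =>
      if k ∣ m then ((dedekindEtaUnit.coeff (m / k) : ℤ) : ℂ) * ζ ^ (m / k) else 0 := by
  refine PowerSeries.ext fun m => ?_
  rw [PowerSeries.coeff_mk]
  refine ModFun.coeff_unique (good_etaPow hk hζ) (c := fun m =>
    if k ∣ m then ((dedekindEtaUnit.coeff (m / k) : ℤ) : ℂ) * ζ ^ (m / k) else 0) (fun τ => ?_) m
  have h := hasSum_etaP24 _ (norm_twist_lt hk hζ τ)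
  rw [← Function.Injective.hasSum_iff (g := fun m : ℕ => k * m)
    (fun x y hxy => Nat.eq_of_mul_eq_mul_left (Nat.pos_of_ne_zero hk) hxy) (fun x hx => by
      have : ¬ k ∣ x := fun ⟨y, hy⟩ => hx ⟨y, hy.symm⟩
      simp [this])]
  refine HasSum.congr_fun h fun n => ?_
  show (if k ∣ k * n then ((dedekindEtaUnit.coeff (k * n / k) : ℤ) : ℂ) * ζ ^ (k * n / k) else 0) •
    qp τ ^ (k * n) = _
  rw [if_pos (dvd_mul_right k n), Nat.mul_div_cancel_left _ (Nat.pos_of_ne_zero hk), smul_eq_mul,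
    smul_eq_mul, mul_pow, pow_mul, mul_assoc]

theorem exists_unit_etaPow {k : ℕ} (hk : k ≠ 0) {ζ : ℂ} (hζ : ‖ζ‖ = 1) (hζi : IsIntegral ℤ ζ) :
    ∃ U : (PowerSeries SC)ˣ, qx (etaPow k ζ) = (U : PowerSeries SC).map inSC := by
  set F : PowerSeries SC := PowerSeries.mk fun m =>
    if k ∣ m then ((dedekindEtaUnit.coeff (m / k) : ℤ) : SC) * (⟨ζ, hζi⟩ : SC) ^ (m / k) else 0
  have hu : IsUnit F := by
    refine PowerSeries.isUnit_iff_constantCoeff.mpr ?_
    rw [← PowerSeries.coeff_zero_eq_constantCoeff, PowerSeries.coeff_mk]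
    simp [PowerSeries.coeff_zero_eq_constantCoeff, constantCoeff_dedekindEtaUnit]
  refine ⟨hu.unit, ?_⟩
  rw [IsUnit.unit_spec, qx_etaPow hk hζ]
  ext m
  rw [PowerSeries.coeff_map, PowerSeries.coeff_mk, PowerSeries.coeff_mk]
  split_ifs <;> simp

/-- algebraic integers of `ℂ` come from `ℚ̄` -/
theorem exists_embC_eq {z : ℂ} (hz : IsIntegral ℤ z) :
    ∃ a : AlgebraicClosure ℚ, ModFun.embC a = z ∧ IsIntegral ℤ a := by
  haveI := AlgebraicClosure.isAlgebraic ℚ
  set P : Polynomial (AlgebraicClosure ℚ) :=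
    (minpoly ℤ z).map (algebraMap ℤ (AlgebraicClosure ℚ)) with hP
  have hm : P.Monic := (minpoly.monic hz).map _
  have hsplit : P = (P.roots.map fun a => Polynomial.X - Polynomial.C a).prod :=
    (IsAlgClosed.splits P).eq_prod_roots_of_monic hm
  have h0 : (P.map ModFun.embC).eval z = 0 := by
    rw [hP, Polynomial.map_map, Polynomial.eval_map, show ModFun.embC.comp (algebraMap ℤ _) =
      algebraMap ℤ ℂ from RingHom.ext_int _ _]
    exact minpoly.aeval ℤ z
  rw [hsplit, Polynomial.map_multiset_prod, Polynomial.eval_multiset_prod,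
    Multiset.prod_eq_zero_iff, Multiset.map_map, Multiset.map_map, Multiset.mem_map] at h0
  obtain ⟨a, -, ha⟩ := h0
  simp only [Function.comp_apply, Polynomial.map_sub, Polynomial.map_X, Polynomial.map_C,
    Polynomial.eval_sub, Polynomial.eval_X, Polynomial.eval_C, sub_eq_zero] at ha
  refine ⟨a, ha.symm, minpoly ℤ z, minpoly.monic hz, ModFun.embC.injective ?_⟩
  rw [map_zero, Polynomial.hom_eval₂, ← ha,
    show ModFun.embC.comp (algebraMap ℤ (AlgebraicClosure ℚ)) = algebraMap ℤ ℂ from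
      RingHom.ext_int _ _]
  exact minpoly.aeval ℤ z

end FLTAgent.EIS

end
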